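import Mathlib.RingTheory.Valuation.RamificationGroup
import Mathlib.RingTheory.Valuation.LocalSubring
import Mathlib.NumberTheory.NumberField.Basic
import Mathlib.FieldTheory.IsAlgClosed.AlgebraicClosure
import Mathlib.RingTheory.DedekindDomain.Dvr
import Mathlib.RingTheory.Valuation.ValuationRing
import Fermat.Prelude.Def_FLTPrelim_Ramification

/-!
# Inertia subgroups of places of `ℚ̄` through algebraic integers

An automorphism of `ℚ̄` lies in the inertia subgroup of a valuation subring `A` of `ℚ̄` lying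
over a rational prime as soon as it is congruent to the identity modulo the maximal ideal of `A`
on algebraic integers.
-/

set_option autoImplicit false

noncomputable section

open scoped Pointwise

namespace FermatLib.EC

local notation "ℚbar" => AlgebraicClosure ℚ

local instance isAlgebraicQbarInertia : Algebra.IsAlgebraic ℚ ℚbar :=
  AlgebraicClosure.isAlgebraic ℚ

/-- A rational prime is a nonunit of a valuation subring lying over it, an algebraic integer is
in every valuation subring. -/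
theorem integral_mem_valuationSubring {L : Type*} [Field L] (A : ValuationSubring L) {b : L}
    (hb : IsIntegral ℤ b) : b ∈ A := by
  have h : IsIntegral A b := hb.tower_top
  obtain ⟨y, hy⟩ := IsIntegrallyClosed.isIntegral_iff.mp h
  exact hy ▸ y.2

/-- Every element of `A` is a quotient of algebraic integers with denominator a unit in `A`. -/
theorem exists_integral_fraction (A : ValuationSubring ℚbar) {q : ℕ} (hq : q.Prime)
    (hA : A.LiesOverPrime q) {x : ℚbar} (hx : x ∈ A) :
    ∃ n s : ℚbar, IsIntegral ℤ n ∧ IsIntegral ℤ s ∧ s ∉ A.nonunits ∧ x * s = n := by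
  let F : IntermediateField ℚ ℚbar := IntermediateField.adjoin ℚ {x}
  have : FiniteDimensional ℚ F :=
    IntermediateField.adjoin.finiteDimensional (Algebra.IsAlgebraic.isAlgebraic x).isIntegral
  have : NumberField F := ⟨⟩
  let O := NumberField.RingOfIntegers F
  have hint : ∀ a : O, IsIntegral ℤ ((a : F) : ℚbar) := fun a =>
    (NumberField.RingOfIntegers.isIntegral_coe a).map
      ((algebraMap F ℚbar).toIntAlgHom)
  let φ : O →+* A := (((algebraMap F ℚbar).comp (algebraMap O F)).codRestrict A.toSubring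
    fun a => integral_mem_valuationSubring A (hint a))
  let P : Ideal O := (IsLocalRing.maximalIdeal A).comap φ
  have hP : ∀ a : O, a ∈ P ↔ ((a : F) : ℚbar) ∈ A.nonunits := fun a =>
    ValuationSubring.coe_mem_nonunits_iff.symm
  have hP0 : P ≠ ⊥ := by
    intro h
    have : (q : O) ∈ P := (hP _).mpr (by simpa [ValuationSubring.LiesOverPrime] using hA)
    rw [h, Ideal.mem_bot, Nat.cast_eq_zero] at this
    exact hq.ne_zero this
  have hPp : P.IsPrime := Ideal.IsPrime.comap φ
  have : IsDiscreteValuationRing (Localization.AtPrime P) :=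
    IsLocalization.AtPrime.isDiscreteValuationRing_of_dedekind_domain O hP0 _
  obtain ⟨a, b, hb, hab⟩ := IsFractionRing.div_surjective O
    (⟨x, IntermediateField.mem_adjoin_simple_self ℚ x⟩ : F)
  have hb0 : ((b : F) : ℚbar) ≠ 0 := by
    simpa using nonZeroDivisors.ne_zero hb
  have hab' : ((a : F) : ℚbar) = x * ((b : F) : ℚbar) := by
    have h := congrArg (fun z : F => (z : ℚbar)) hab
    simp only [IntermediateField.coe_div] at h
    exact (div_eq_iff hb0).mp h
  obtain ⟨c, hc⟩ := ValuationRing.cond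
    (algebraMap O (Localization.AtPrime P) a) (algebraMap O (Localization.AtPrime P) b)
  obtain ⟨⟨n, s, hs⟩, hns⟩ := IsLocalization.surj P.primeCompl c
  have hsA : ((s : F) : ℚbar) ∉ A.nonunits := fun h => hs ((hP s).mpr h)
  have key : ∀ u v : O, algebraMap O (Localization.AtPrime P) u * c =
      algebraMap O _ v → ((u : F) : ℚbar) * ((n : F) : ℚbar) =
      ((v : F) : ℚbar) * ((s : F) : ℚbar) := by
    intro u v h
    have h2 : u * n = v * s := by
      apply IsLocalization.injective (Localization.AtPrime P) P.primeCompl_le_nonZeroDivisors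
      rw [map_mul, map_mul, ← hns, ← h, mul_assoc]
    simpa using congrArg (fun z : O => ((z : F) : ℚbar)) h2
  rcases hc with hc | hc
  · have h := key a b hc
    rw [hab'] at h
    have h' : x * ((n : F) : ℚbar) = ((s : F) : ℚbar) := by
      apply mul_left_cancel₀ hb0
      linear_combination h
    refine ⟨_, _, hint s, hint n, fun hn => hsA ?_, h'⟩
    rw [← h']
    exact ValuationSubring.coe_mem_nonunits_iff.mpr
      (Ideal.mul_mem_left (IsLocalRing.maximalIdeal A) ⟨x, hx⟩
        (ValuationSubring.coe_mem_nonunits_iff.mp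
          (show ((⟨_, integral_mem_valuationSubring A (hint n)⟩ : A) : ℚbar) ∈ A.nonunits from hn)))
  · have h := key b a hc
    rw [hab'] at h
    refine ⟨_, _, hint n, hint s, hsA, ?_⟩
    apply mul_left_cancel₀ hb0
    linear_combination -h

/-- Membership in `inertiaSubgroupIn` gives congruence to the identity. -/
theorem sub_mem_nonunits_of_mem_inertiaSubgroupIn {L : Type*} [Field L] {K : Type*} [Field K]
    [Algebra K L] (A : ValuationSubring L) {σ : L ≃ₐ[K] L} (hσ : σ ∈ A.inertiaSubgroupIn K)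
    {x : L} (hx : x ∈ A) : σ x - x ∈ A.nonunits := by
  obtain ⟨τ, hτ, rfl⟩ := hσ
  have h1 : MulSemiringAction.toRingAut (A.decompositionSubgroup K) (IsLocalRing.ResidueField A) τ
      = 1 := hτ
  have h2 := RingEquiv.congr_fun h1 (IsLocalRing.residue A ⟨x, hx⟩)
  change τ • IsLocalRing.residue A ⟨x, hx⟩ = IsLocalRing.residue A ⟨x, hx⟩ at h2
  rw [← IsLocalRing.ResidueField.residue_smul, ← sub_eq_zero, ← map_sub,
    IsLocalRing.residue_eq_zero_iff] at h2
  exact ValuationSubring.coe_mem_nonunits_iff.mpr h2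

theorem not_mem_nonunits_congr {L : Type*} [Field L] (A : ValuationSubring L) {a b : L}
    (ha : a ∈ A) (hb : b ∈ A) (h : a - b ∈ A.nonunits) (hbu : b ∉ A.nonunits) :
    a ∉ A.nonunits := by
  intro hau
  apply hbu
  have h1 : (⟨a, ha⟩ : A) ∈ IsLocalRing.maximalIdeal A :=
    ValuationSubring.coe_mem_nonunits_iff.mp hau
  have h2 : (⟨a, ha⟩ : A) - ⟨b, hb⟩ ∈ IsLocalRing.maximalIdeal A :=
    ValuationSubring.coe_mem_nonunits_iff.mp h
  have := Ideal.sub_mem _ h1 h2
  rw [sub_sub_cancel] at this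
  exact ValuationSubring.coe_mem_nonunits_iff.mpr this

/-- Criterion for inertia: congruence to the identity on algebraic integers. -/
theorem mem_inertiaSubgroupIn_of_forall_isIntegral (A : ValuationSubring ℚbar) {q : ℕ}
    (hq : q.Prime) (hA : A.LiesOverPrime q) {σ : ℚbar ≃ₐ[ℚ] ℚbar}
    (h : ∀ b : ℚbar, IsIntegral ℤ b → σ b - b ∈ A.nonunits) :
    σ ∈ A.inertiaSubgroupIn ℚ := by
  have hmap : ∀ (τ : ℚbar ≃ₐ[ℚ] ℚbar) {b : ℚbar}, IsIntegral ℤ b → IsIntegral ℤ (τ b) :=
    fun τ b hb => hb.map (τ : ℚbar →+* ℚbar).toIntAlgHom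
  have key : ∀ (τ : ℚbar ≃ₐ[ℚ] ℚbar),
      (∀ b : ℚbar, IsIntegral ℤ b → τ b - b ∈ A.nonunits) →
      ∀ x : ℚbar, x ∈ A → τ x ∈ A ∧ τ x - x ∈ A.nonunits := by
    intro τ hτ x hx
    obtain ⟨n, s, hn, hs, hsu, hxs⟩ := exists_integral_fraction A hq hA hx
    have hsA : s ∈ A := integral_mem_valuationSubring A hs
    have hτsA : τ s ∈ A := integral_mem_valuationSubring A (hmap τ hs)
    have hτnA : τ n ∈ A := integral_mem_valuationSubring A (hmap τ hn)
    have hτsu : τ s ∉ A.nonunits := not_mem_nonunits_congr A hτsA hsA (hτ s hs) hsu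
    have hu : IsUnit (⟨τ s, hτsA⟩ : A) := by
      by_contra hnu
      exact hτsu (ValuationSubring.coe_mem_nonunits_iff.mpr
        ((IsLocalRing.mem_maximalIdeal _).mpr hnu))
    obtain ⟨w, hw⟩ := hu.exists_left_inv
    have hw' : (w : ℚbar) * τ s = 1 := congrArg (Subtype.val) hw
    have hxs' : τ x * τ s = τ n := by rw [← map_mul, hxs]
    have hτx : τ x = (w : ℚbar) * τ n := by
      linear_combination (w : ℚbar) * hxs' - τ x * hw'
    refine ⟨hτx ▸ mul_mem w.2 hτnA, ?_⟩
    have h1 : (⟨_, integral_mem_valuationSubring A hn⟩ : A) ∈ (⊤ : Ideal A) := trivial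
    have e : τ x - x = (w : ℚbar) * ((τ n - n) - x * (τ s - s)) := by
      linear_combination hτx - (w : ℚbar) * hxs + x * hw'
    rw [e]
    have hmn : (⟨τ n, hτnA⟩ : A) - ⟨n, integral_mem_valuationSubring A hn⟩ ∈
        IsLocalRing.maximalIdeal A := ValuationSubring.coe_mem_nonunits_iff.mp (hτ n hn)
    have hms : (⟨τ s, hτsA⟩ : A) - ⟨s, hsA⟩ ∈ IsLocalRing.maximalIdeal A :=
      ValuationSubring.coe_mem_nonunits_iff.mp (hτ s hs)
    exact ValuationSubring.coe_mem_nonunits_iff.mpr
      (Ideal.mul_mem_left _ w (Ideal.sub_mem _ hmn (Ideal.mul_mem_left _ ⟨x, hx⟩ hms)))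
  have hinv : ∀ b : ℚbar, IsIntegral ℤ b → σ⁻¹ b - b ∈ A.nonunits := by
    intro b hb
    have hc : IsIntegral ℤ (σ⁻¹ b) := hmap σ⁻¹ hb
    have h1 := h _ hc
    rw [show σ (σ⁻¹ b) = b from σ.apply_symm_apply b] at h1
    have h2 : (⟨b, integral_mem_valuationSubring A hb⟩ : A) -
        ⟨σ⁻¹ b, integral_mem_valuationSubring A hc⟩ ∈ IsLocalRing.maximalIdeal A :=
      ValuationSubring.coe_mem_nonunits_iff.mp h1
    have := ValuationSubring.coe_mem_nonunits_iff.mpr (Ideal.neg_mem_iff _ |>.mpr h2)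
    simpa using this
  have hstab : σ • A = A := by
    ext x
    rw [ValuationSubring.mem_pointwise_smul_iff_inv_smul_mem, AlgEquiv.smul_def]
    refine ⟨fun hx => ?_, fun hx => (key σ⁻¹ hinv x hx).1⟩
    have := (key σ h _ hx).1
    rwa [show σ (σ⁻¹ x) = x from σ.apply_symm_apply x] at this
  refine ⟨⟨σ, hstab⟩, ?_, rfl⟩
  refine RingEquiv.ext fun r => ?_
  obtain ⟨⟨x, hx⟩, rfl⟩ := IsLocalRing.residue_surjective r
  change (⟨σ, hstab⟩ : A.decompositionSubgroup ℚ) • IsLocalRing.residue A ⟨x, hx⟩ =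
    IsLocalRing.residue A ⟨x, hx⟩
  rw [← IsLocalRing.ResidueField.residue_smul, ← sub_eq_zero, ← map_sub,
    IsLocalRing.residue_eq_zero_iff]
  exact ValuationSubring.coe_mem_nonunits_iff.mp (key σ h x hx).2

/-- Conjugation carries inertia subgroups to inertia subgroups. -/
theorem exists_inertia_conj (A : ValuationSubring ℚbar) {q : ℕ} (hq : q.Prime)
    (hA : A.LiesOverPrime q) (g : ℚbar ≃ₐ[ℚ] ℚbar) {σ : ℚbar ≃ₐ[ℚ] ℚbar}
    (hσ : σ ∈ A.inertiaSubgroupIn ℚ) :
    ∃ A' : ValuationSubring ℚbar, A'.LiesOverPrime q ∧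
      g * σ * g⁻¹ ∈ A'.inertiaSubgroupIn ℚ := by
  let A' : ValuationSubring ℚbar := A.comap (g.symm : ℚbar →+* ℚbar)
  have hnu : ∀ z : ℚbar, g.symm z ∈ A.nonunits → z ∈ A'.nonunits := by
    intro z hz
    rw [ValuationSubring.mem_nonunits_iff_exists_mem_maximalIdeal] at hz ⊢
    obtain ⟨hzA, hzm⟩ := hz
    refine ⟨hzA, fun hu => hzm ?_⟩
    obtain ⟨w, hw⟩ := IsUnit.exists_left_inv hu
    refine IsUnit.of_mul_eq_one_right (⟨g.symm (w : ℚbar), w.2⟩ : A) (Subtype.ext ?_)
    show g.symm (w : ℚbar) * g.symm z = 1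
    rw [← map_mul, show (w : ℚbar) * z = 1 from congrArg Subtype.val hw, map_one]
  have hA' : A'.LiesOverPrime q := hnu _ (by rw [map_natCast]; exact hA)
  refine ⟨A', hA', mem_inertiaSubgroupIn_of_forall_isIntegral A' hq hA' fun b hb => hnu _ ?_⟩
  have hb' : g.symm b ∈ A :=
    integral_mem_valuationSubring A (hb.map (g.symm : ℚbar →+* ℚbar).toIntAlgHom)
  have h := sub_mem_nonunits_of_mem_inertiaSubgroupIn A hσ hb'
  rw [map_sub]
  have e : g.symm ((g * σ * g⁻¹) b) = σ (g.symm b) := by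
    simp [AlgEquiv.mul_apply, AlgEquiv.aut_inv]
  rwa [e]

end FermatLib.EC
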