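import Fermat.Agent.EC.Frey05Transfer

/-!
# The Frey representation is unramified away from `2` and `p`
-/

set_option autoImplicit false

open WeierstrassCurve WeierstrassCurve.Affine

namespace FermatLib.EC.Frey05

local notation "L" => AlgebraicClosure ℚ

/-- The curve `Y² = X (X - D/4) (X - U/4)` over `ℚ`. -/
def stdCurve (D U : ℤ) : Affine ℚ where
  a₁ := 0
  a₂ := -((D : ℚ) / 4 + (U : ℚ) / 4)
  a₃ := 0
  a₄ := (D : ℚ) / 4 * ((U : ℚ) / 4)
  a₆ := 0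

/-- Inertia at an odd `q ≠ p` fixes the `p`-torsion of the Frey curve, given shift data. -/
theorem frey_fixed (P : FreyPackage) {q : ℕ} (hq : q.Prime) (hq2 : q ≠ 2) (hqp : q ≠ P.p)
    (A : ValuationSubring (AlgebraicClosure ℚ)) (hA : A.LiesOverPrime q)
    {σ : AlgebraicClosure ℚ ≃ₐ[ℚ] AlgebraicClosure ℚ} (hσ : σ ∈ A.inertiaSubgroupIn ℚ)
    (D U R δ : ℤ)
    (e₂ : -(D + U) = P.b ^ P.p - P.a ^ P.p + 3 * R)
    (e₄ : D * U = -(P.a ^ P.p * P.b ^ P.p) + 2 * R * (P.b ^ P.p - P.a ^ P.p) + 3 * R ^ 2)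
    (e₆ : R ^ 3 + (P.b ^ P.p - P.a ^ P.p) * R ^ 2 - P.a ^ P.p * P.b ^ P.p * R = 0)
    (hD : D ≠ 0) (hU : U ≠ 0) (hDU : D ≠ U)
    (hcase : (¬ (q : ℤ) ∣ D ∧ ¬ (q : ℤ) ∣ U ∧ ¬ (q : ℤ) ∣ U - D) ∨
      (¬ (q : ℤ) ∣ U ∧ (q : ℤ) ∣ D ∧ D = δ ^ P.p))
    (T : Submodule.torsionBy ℤ (P.freyCurve⁄(AlgebraicClosure ℚ)).Point P.p) :
    σ • T = T := by
  have hS : IsShift (P.freyCurve⁄L) ((stdCurve D U)⁄L) ((D : L) / 4) ((U : L) / 4)
      ((R : L) / 4) := by
    have f₂ : -((D : L) + U) = (P.b : L) ^ P.p - (P.a : L) ^ P.p + 3 * R := by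
      have := congrArg (Int.cast : ℤ → L) e₂
      push_cast at this
      exact this
    have f₄ : (D : L) * U = -((P.a : L) ^ P.p * (P.b : L) ^ P.p) +
        2 * R * ((P.b : L) ^ P.p - (P.a : L) ^ P.p) + 3 * (R : L) ^ 2 := by
      have := congrArg (Int.cast : ℤ → L) e₄
      push_cast at this
      exact this
    have f₆ : (R : L) ^ 3 + ((P.b : L) ^ P.p - (P.a : L) ^ P.p) * (R : L) ^ 2
        - (P.a : L) ^ P.p * (P.b : L) ^ P.p * R = 0 := by
      have := congrArg (Int.cast : ℤ → L) e₆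
      push_cast at this
      exact this
    refine ⟨⟨?_, ?_, ?_, ?_, ?_⟩, ?_, ?_, ?_, ?_, ?_, two_ne_zero, ?_, ?_, ?_⟩
    all_goals
      try simp only [WeierstrassCurve.baseChange, WeierstrassCurve.map, stdCurve,
        FreyPackage.freyCurve, map_neg, map_add, map_sub, map_mul, map_div₀, map_pow, map_zero,
        map_one, map_intCast, map_ofNat]
    · linear_combination f₂ / 4
    · linear_combination f₄ / 16
    · linear_combination f₆ / 64
    · exact div_ne_zero (Int.cast_ne_zero.2 hD) (by norm_num)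
    · exact div_ne_zero (Int.cast_ne_zero.2 hU) (by norm_num)
    · intro h
      exact hDU (Int.cast_injective (α := L) ((div_left_inj' (by norm_num)).1 h))
  set φ : ((stdCurve D U)⁄L).Point →+ ((stdCurve D U)⁄L).Point :=
    Point.map (W' := stdCurve D U) σ.toAlgHom
  set v := A.valuation
  have hint : ∀ {n : ℤ}, ¬ (q : ℤ) ∣ n → v (n : L) = 1 :=
    fun {n} hn => valuation_intCast_eq_one A hq hA hn
  have hq_odd : ¬ (q : ℤ) ∣ 2 := fun h => hq2 <| by
    have : q ∣ 2 := by exact_mod_cast h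
    exact (Nat.prime_dvd_prime_iff_eq hq Nat.prime_two).1 this
  have h2 : v (2 : L) = 1 := by simpa using hint hq_odd
  have h4 : v (4 : L) = 1 := by
    rw [show (4 : L) = 2 * 2 by norm_num, map_mul, h2, one_mul]
  have hp2 : P.p ≠ 2 := by have := P.hp5; omega
  have hvp : v (P.p : L) = 1 := by
    have : ¬ (q : ℤ) ∣ (P.p : ℤ) := fun h =>
      hqp ((Nat.prime_dvd_prime_iff_eq hq P.pp).1 (by exact_mod_cast h))
    simpa using hint this
  have hσ' : ∀ x : L, v x ≤ 1 → v ((σ : L →+* L) x - x) < 1 :=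
    valuation_sub_lt_one_of_mem_inertia A hσ
  have hσint : ∀ n : ℤ, (σ : L →+* L) ((n : L) / 4) = (n : L) / 4 := fun n => by
    rw [map_div₀, map_intCast, map_ofNat]
  have hφ : ∀ (X Y : L) (h : ((stdCurve D U)⁄L).Nonsingular X Y),
      ∃ h', φ (Point.some X Y h) = Point.some ((σ : L →+* L) X) ((σ : L →+* L) Y) h' :=
    fun X Y h => ⟨_, Point.map_some (W' := stdCurve D U) σ.toAlgHom h⟩
  have hcomm : ∀ Q : (P.freyCurve⁄L).Point, hS.hom (σ • Q) = φ (hS.hom Q) := by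
    rintro (_ | ⟨x, y, h⟩)
    · rfl
    · change Point.some _ _ _ = Point.some _ _ _
      simp only [Point.some.injEq]
      constructor <;> simp [map_ofNat, map_intCast, map_div₀]
  refine Subtype.ext (hS.hom_injective ((hcomm (T : (P.freyCurve⁄L).Point)).trans ?_))
  have hpT : P.p • hS.hom (T : (P.freyCurve⁄L).Point) = 0 := by
    rw [← map_nsmul, ← natCast_zsmul, (Submodule.mem_torsionBy_iff _ _).1 T.2, map_zero]
  rcases hcase with ⟨h1, h2', h3⟩ | ⟨h1, h2', h3⟩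
  · refine fixed_of_good hS.std ?_ ?_ ?_ h2 P.pp hp2 hvp (hσint U) hσ' hφ hpT
    · rw [map_div₀, hint h1, h4, div_one]
    · rw [map_div₀, hint h2', h4, div_one]
    · rw [← sub_div, map_div₀, ← Int.cast_sub, hint h3, h4, div_one]
  · refine fixed_of_mult (δ := (δ : L))
      ⟨hS.std, h2, ?_, ?_, hS.d0⟩ ?_ (map_intCast (σ : L →+* L) δ) P.pp hp2 hvp
      (hσint D) (hσint U) hσ' hφ hpT
    · rw [map_div₀, h4, div_one]; exact valuation_intCast_lt_one A hA h2'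
    · rw [map_div₀, hint h1, h4, div_one]
    · rw [map_div₀, h4, div_one, h3, Int.cast_pow, map_pow]

theorem frey_unramified (P : FreyPackage) {q : ℕ} (hq : q.Prime) (hq2 : q ≠ 2) (hqp : q ≠ P.p) :
    P.GaloisRepUnramifiedAt q := by
  intro A hA σ hσ T
  have hqI : Prime (q : ℤ) := Nat.prime_iff_prime_int.1 hq
  have hF := P.hFLT
  have hp0 := P.hp0
  have hAne : P.a ^ P.p ≠ 0 := pow_ne_zero _ P.ha0
  have hBne : P.b ^ P.p ≠ 0 := pow_ne_zero _ P.hb0
  have hCne : P.c ^ P.p ≠ 0 := pow_ne_zero _ P.hc0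
  have hco : ∀ {x y : ℤ}, gcd x y = 1 → (q : ℤ) ∣ x → ¬ (q : ℤ) ∣ y := fun hxy hx hy =>
    hqI.not_isUnit (isUnit_of_dvd_one (hxy ▸ dvd_gcd hx hy))
  have hpow : ∀ {x : ℤ}, (q : ℤ) ∣ x ^ P.p ↔ (q : ℤ) ∣ x := fun {x} =>
    ⟨hqI.dvd_of_dvd_pow, fun h => dvd_pow h hp0⟩
  by_cases hb : (q : ℤ) ∣ P.b
  · refine frey_fixed P hq hq2 hqp A hA hσ (-P.b ^ P.p) (P.a ^ P.p) 0 (-P.b)
      (by ring) (by ring) (by ring) (neg_ne_zero.2 hBne) hAne
      (fun h => hCne (by linear_combination -h - hF)) (Or.inr ⟨?_, ?_, ?_⟩) T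
    · rw [hpow]; exact fun h => hco P.hgcdab h hb
    · rw [dvd_neg, hpow]; exact hb
    · rw [P.hp_odd.neg_pow]
  by_cases hc : (q : ℤ) ∣ P.c
  · refine frey_fixed P hq hq2 hqp A hA hσ (-P.c ^ P.p) (-P.a ^ P.p) (P.a ^ P.p) (-P.c)
      (by linear_combination -hF) (by linear_combination (-P.a ^ P.p) * hF) (by ring)
      (neg_ne_zero.2 hCne) (neg_ne_zero.2 hAne)
      (fun h => hBne (by linear_combination hF - h)) (Or.inr ⟨?_, ?_, ?_⟩) T
    · rw [dvd_neg, hpow]; exact fun h => hco P.hgcdac h hc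
    · rw [dvd_neg, hpow]; exact hc
    · rw [P.hp_odd.neg_pow]
  refine frey_fixed P hq hq2 hqp A hA hσ (P.a ^ P.p) (-P.b ^ P.p) 0 P.a
    (by ring) (by ring) (by ring) hAne (neg_ne_zero.2 hBne)
    (fun h => hCne (by linear_combination h - hF)) ?_ T
  by_cases ha : (q : ℤ) ∣ P.a
  · refine Or.inr ⟨?_, dvd_pow ha hp0, rfl⟩
    rw [dvd_neg, hpow]; exact hb
  · refine Or.inl ⟨by rwa [hpow], by rw [dvd_neg, hpow]; exact hb, ?_⟩
    rw [show -P.b ^ P.p - P.a ^ P.p = -P.c ^ P.p by linear_combination -hF, dvd_neg, hpow]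
    exact hc

end FermatLib.EC.Frey05
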