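import Fermat.Agent.EC.InertiaIntegers
import Mathlib.RingTheory.Invariant.Profinite
import Mathlib.FieldTheory.Galois.Infinite
import Mathlib.FieldTheory.Galois.Profinite
import Mathlib.NumberTheory.NumberField.ExistsRamified

/-!
# No nontrivial subgroup of finite level contains all inertia (Minkowski)

A subgroup of `Gal(ℚ̄/ℚ)` containing the fixing subgroup of a number field and the inertia
subgroups of all finite places is the whole group.
-/

set_option autoImplicit false

noncomputable section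

open scoped Pointwise

namespace FermatLib.EC

local notation "ℚbar" => AlgebraicClosure ℚ

local instance isAlgebraicQbarMinkowski : Algebra.IsAlgebraic ℚ ℚbar :=
  AlgebraicClosure.isAlgebraic ℚ

local instance isGaloisQbarMinkowski : IsGalois ℚ ℚbar :=
  have : IsAlgClosure ℚ ℚbar := ⟨inferInstance, inferInstance⟩
  have : Normal ℚ ℚbar := IsAlgClosure.normal ℚ ℚbar
  { }

/-- An inertia element of a finite Galois subextension of `ℚ̄` lifts to an inertia element of
a prescribed valuation subring of `ℚ̄` lying over it. -/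
theorem exists_inertia_lift_at (K : IntermediateField ℚ ℚbar) [FiniteDimensional ℚ K]
    [IsGalois ℚ K] {q : ℕ} (hq : q.Prime) (A : ValuationSubring ℚbar) (hA : A.LiesOverPrime q)
    (P : Ideal (NumberField.RingOfIntegers K)) [P.IsPrime]
    (hP' : ∀ a ∈ P, ((a : K) : ℚbar) ∈ A.nonunits) (τ : K ≃ₐ[ℚ] K)
    (hτ : ∀ (a : NumberField.RingOfIntegers K) (a' : NumberField.RingOfIntegers K),
      (a' : K) = τ (a : K) → a' - a ∈ P) :
    ∃ σ ∈ A.inertiaSubgroupIn ℚ, ∀ x : K, σ x = τ x := by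
  have : NumberField K := ⟨⟩
  let O := NumberField.RingOfIntegers K
  let ι : O →+* ℚbar := (algebraMap K ℚbar).comp (algebraMap O K)
  have hι : Function.Injective ι :=
    (algebraMap K ℚbar).injective.comp (IsFractionRing.injective O K)
  have hιint : ∀ a : O, IsIntegral ℤ (ι a) := fun a =>
    (NumberField.RingOfIntegers.isIntegral_coe a).map ((algebraMap K ℚbar).toIntAlgHom)
  -- algebraic integers and their maximal ideal under `A`
  let B := integralClosure ℤ ℚbar
  let j : B →+* A := (B.val.toRingHom).codRestrict A.toSubring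
    fun b => integral_mem_valuationSubring A b.2
  let Q : Ideal B := (IsLocalRing.maximalIdeal A).comap j
  have hQp : Q.IsPrime := Ideal.IsPrime.comap j
  have hQ : ∀ b : B, b ∈ Q ↔ (b : ℚbar) ∈ A.nonunits := fun b =>
    ValuationSubring.coe_mem_nonunits_iff.symm
  let ιB : O →+* B := ι.codRestrict B.toSubring hιint
  have hPQ : ∀ a ∈ P, ιB a ∈ Q := fun a ha => (hQ _).mpr (hP' a ha)
  -- the Galois group over `K` and its fixed ring
  let G' : Subgroup (ℚbar ≃ₐ[ℚ] ℚbar) := K.fixingSubgroup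
  let A0 := FixedPoints.subring B G'
  have : CompactSpace G' :=
    isCompact_iff_compactSpace.mp (InfiniteGalois.fixingSubgroup_isClosed K).isCompact
  let : TopologicalSpace B := ⊥
  have : DiscreteTopology B := ⟨rfl⟩
  have : ContinuousSMul G' B := by
    rw [continuousSMul_iff_stabilizer_isOpen]
    intro b
    have heq : (MulAction.stabilizer G' b : Set G') =
        Subtype.val ⁻¹' (MulAction.stabilizer (ℚbar ≃ₐ[ℚ] ℚbar) (b : ℚbar) : Set _) := by
      ext g
      simp only [SetLike.mem_coe, Set.mem_preimage, MulAction.mem_stabilizer_iff]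
      exact ⟨fun h => congrArg Subtype.val h, fun h => Subtype.ext h⟩
    rw [heq]
    exact (stabilizer_isOpen_of_isIntegral (b : ℚbar)).preimage continuous_subtype_val
  have : SMulCommClass G' A0 B := ⟨fun g a b => by
    change g • ((a : B) * b) = (a : B) * g • b
    rw [smul_mul', a.2 g]⟩
  have : Algebra.IsInvariant A0 B G' := ⟨fun b hb => ⟨⟨b, hb⟩, rfl⟩⟩
  -- fixed integers come from `K`
  have hA0 : ∀ a : A0, ∃ a₀ : O, ιB a₀ = (a : B) := by
    intro a
    have hK : ((a : B) : ℚbar) ∈ K := by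
      rw [← InfiniteGalois.fixedField_fixingSubgroup K, IntermediateField.mem_fixedField_iff]
      intro f hf
      exact congrArg Subtype.val (a.2 ⟨f, hf⟩)
    have hint : IsIntegral ℤ (⟨_, hK⟩ : K) :=
      (isIntegral_algHom_iff ((algebraMap K ℚbar).toIntAlgHom)
        (algebraMap K ℚbar).injective).mp (a : B).2
    exact ⟨⟨_, hint⟩, Subtype.ext rfl⟩
  obtain ⟨σ₀, hσ₀⟩ := AlgEquiv.restrictNormalHom_surjective (F := ℚ) (K₁ := K) ℚbar τ
  have hσK : ∀ x : K, σ₀ x = τ x := fun x => by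
    rw [← hσ₀]; exact (AlgEquiv.restrictNormal_commutes σ₀ K x).symm
  have hσA0 : ∀ a : A0, σ₀ • (a : B) - (a : B) ∈ Q := by
    intro a
    obtain ⟨a₀, ha₀⟩ := hA0 a
    have hint : IsIntegral ℤ (τ (a₀ : K)) :=
      (NumberField.RingOfIntegers.isIntegral_coe a₀).map (τ : K →+* K).toIntAlgHom
    have h := hPQ _ (hτ a₀ ⟨_, hint⟩ rfl)
    have e1 : σ₀ • (a : B) = ιB ⟨_, hint⟩ := Subtype.ext (by
      rw [← ha₀]
      exact hσK (a₀ : K))
    rw [e1, ← ha₀, ← map_sub]
    exact h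
  -- align the two primes
  have hσQp : (σ₀ • Q).IsPrime := hQp.smul σ₀
  have hunder : (σ₀ • Q).under A0 = Q.under A0 := by
    ext a
    change (a : B) ∈ σ₀ • Q ↔ (a : B) ∈ Q
    rw [Ideal.mem_pointwise_smul_iff_inv_smul_mem]
    obtain ⟨a₀, ha₀⟩ := hA0 a
    have hint : IsIntegral ℤ (τ⁻¹ (a₀ : K)) :=
      (NumberField.RingOfIntegers.isIntegral_coe a₀).map (τ⁻¹ : K ≃ₐ[ℚ] K).toRingEquiv.toRingHom.toIntAlgHom
    have h := hPQ _ (hτ ⟨_, hint⟩ a₀ (τ.apply_symm_apply _).symm)
    have e1 : σ₀⁻¹ • (a : B) = ιB ⟨_, hint⟩ := Subtype.ext (by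
      rw [← ha₀]
      change σ₀.symm ((a₀ : K) : ℚbar) = ((τ⁻¹ (a₀ : K) : K) : ℚbar)
      apply σ₀.injective
      rw [AlgEquiv.apply_symm_apply, hσK, show τ (τ⁻¹ (a₀ : K)) = a₀ from τ.apply_symm_apply _])
    rw [map_sub, ha₀, ← e1] at h
    constructor
    · intro h1
      have := Q.add_mem h h1
      rwa [sub_add_cancel] at this
    · intro h1
      have := Q.sub_mem h1 h
      rwa [sub_sub_cancel] at this
  obtain ⟨g, hg⟩ :=
    Algebra.IsInvariant.exists_smul_of_under_eq_of_profinite (A := A0) (G := G') _ _ hunder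
  let σ₁ : ℚbar ≃ₐ[ℚ] ℚbar := g.1 * σ₀
  have hσ₁Q : σ₁ • Q = Q := by
    rw [mul_smul]; exact hg.symm
  have hσ₁A0 : ∀ a : A0, σ₁ • (a : B) - (a : B) ∈ Q := by
    intro a
    obtain ⟨a₀, ha₀⟩ := hA0 a
    have hfix : σ₁ • (a : B) = σ₀ • (a : B) := by
      rw [mul_smul, ← ha₀]
      refine Subtype.ext ?_
      change g.1 (σ₀ ((a₀ : K) : ℚbar)) = σ₀ ((a₀ : K) : ℚbar)
      rw [hσK]
      exact (IntermediateField.mem_fixingSubgroup_iff K g.1).mp g.2 _ (τ (a₀ : K)).2
    rw [hfix]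
    exact hσA0 a
  -- the automorphism of the residue ring induced by `σ₁`
  let f0 : (B ⧸ Q) ≃+* (B ⧸ Q) :=
    Ideal.quotientEquiv Q Q (MulSemiringAction.toRingEquiv (ℚbar ≃ₐ[ℚ] ℚbar) B σ₁) hσ₁Q.symm
  have hf0 : ∀ b : B, f0 (Ideal.Quotient.mk Q b) = Ideal.Quotient.mk Q (σ₁ • b) := fun b => rfl
  let f : (B ⧸ Q) ≃ₐ[A0 ⧸ Q.under A0] (B ⧸ Q) :=
    AlgEquiv.ofRingEquiv (f := f0) fun r => by
      obtain ⟨a, rfl⟩ := Ideal.Quotient.mk_surjective r
      change f0 (Ideal.Quotient.mk Q (a : B)) = Ideal.Quotient.mk Q (a : B)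
      rw [hf0, Ideal.Quotient.eq]
      exact hσ₁A0 a
  have : Q.LiesOver (Q.under A0) := ⟨rfl⟩
  obtain ⟨g', hg'⟩ :=
    Ideal.Quotient.stabilizerHom_surjective_of_profinite (G := G') (Q.under A0) Q f
  have hg'b : ∀ b : B, g'.1.1 • b - σ₁ • b ∈ Q := by
    intro b
    rw [← Ideal.Quotient.eq]
    exact AlgEquiv.congr_fun hg' (Ideal.Quotient.mk Q b)
  refine ⟨g'.1.1⁻¹ * σ₁, mem_inertiaSubgroupIn_of_forall_isIntegral A hq hA fun b hb => ?_, ?_⟩
  · refine (hQ ((g'.1.1⁻¹ * σ₁) • (⟨b, hb⟩ : B) - ⟨b, hb⟩)).mp ?_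
    have h : g'.1.1⁻¹ • (σ₁ • (⟨b, hb⟩ : B) - g'.1.1 • ⟨b, hb⟩) ∈ g'.1.1⁻¹ • Q :=
      Ideal.smul_mem_pointwise_smul _ _ _ (by
        rw [← neg_sub]; exact Q.neg_mem (hg'b ⟨b, hb⟩))
    have hQ' : g'.1.1⁻¹ • Q = Q := by
      rw [inv_smul_eq_iff]
      exact g'.2.symm
    rw [hQ', smul_sub, inv_smul_smul, smul_smul] at h
    exact h
  · intro x
    have hfix : ∀ z ∈ K, g'.1.1⁻¹ z = z := fun z hz =>
      (IntermediateField.mem_fixingSubgroup_iff K _).mp (K.fixingSubgroup.inv_mem g'.1.2) z hz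
    rw [AlgEquiv.mul_apply, AlgEquiv.mul_apply, hσK,
      (IntermediateField.mem_fixingSubgroup_iff K g.1).mp g.2 _ (τ x).2]
    exact hfix _ (τ x).2

/-- An inertia element of a finite Galois subextension of `ℚ̄` lifts to an inertia element of
a valuation subring of `ℚ̄` lying over the same rational prime. -/
theorem exists_inertia_lift (K : IntermediateField ℚ ℚbar) [FiniteDimensional ℚ K] [IsGalois ℚ K]
    {q : ℕ} (hq : q.Prime) (P : Ideal (NumberField.RingOfIntegers K)) [P.IsPrime]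
    (hqP : (q : NumberField.RingOfIntegers K) ∈ P) (τ : K ≃ₐ[ℚ] K)
    (hτ : ∀ (a : NumberField.RingOfIntegers K) (a' : NumberField.RingOfIntegers K),
      (a' : K) = τ (a : K) → a' - a ∈ P) :
    ∃ A : ValuationSubring ℚbar, A.LiesOverPrime q ∧ ∃ σ ∈ A.inertiaSubgroupIn ℚ,
      ∀ x : K, σ x = τ x := by
  have : NumberField K := ⟨⟩
  let O := NumberField.RingOfIntegers K
  let ι : O →+* ℚbar := (algebraMap K ℚbar).comp (algebraMap O K)
  have hι : Function.Injective ι :=
    (algebraMap K ℚbar).injective.comp (IsFractionRing.injective O K)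
  let e : O ≃+* ι.range :=
    RingEquiv.ofBijective ι.rangeRestrict
      ⟨fun a b h => hι (congrArg (fun z : ι.range => (z : ℚbar)) h), ι.rangeRestrict_surjective⟩
  have hIne : P.map (e : O →+* ι.range) ≠ ⊤ := by
    intro h
    have h2 := congrArg (Ideal.comap (e : O →+* ι.range)) h
    rw [Ideal.comap_top, Ideal.comap_map_of_bijective (e : O →+* ι.range) e.bijective] at h2
    exact Ideal.IsPrime.ne_top ‹_› h2
  obtain ⟨A, hιA, hPA⟩ := Ideal.image_subset_nonunits_valuationSubring _ hIne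
  have hP' : ∀ a ∈ P, ι a ∈ A.nonunits := fun a ha =>
    hPA ⟨(e : O →+* ι.range) a, Ideal.mem_map_of_mem _ ha, rfl⟩
  have hA : A.LiesOverPrime q := by
    have := hP' _ hqP
    rwa [map_natCast] at this
  exact ⟨A, hA, exists_inertia_lift_at K hq A hA P hP' τ hτ⟩

/-- **Minkowski.** A subgroup of `Gal(ℚ̄/ℚ)` which contains the fixing subgroup of a number
field and all inertia subgroups at finite places is the whole group. -/
theorem eq_top_of_forall_inertia_le (H : Subgroup (ℚbar ≃ₐ[ℚ] ℚbar))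
    (F : IntermediateField ℚ ℚbar) [FiniteDimensional ℚ F] (hF : F.fixingSubgroup ≤ H)
    (hH : ∀ q : ℕ, q.Prime → ∀ A : ValuationSubring ℚbar, A.LiesOverPrime q →
      A.inertiaSubgroupIn ℚ ≤ H) :
    H = ⊤ := by
  let H' : Subgroup (ℚbar ≃ₐ[ℚ] ℚbar) := H.normalCore
  let F' : IntermediateField ℚ ℚbar := IntermediateField.normalClosure ℚ F ℚbar
  have : FiniteDimensional ℚ F' := normalClosure.is_finiteDimensional ℚ F ℚbar
  have : IsGalois ℚ F' := IsGalois.normalClosure ℚ F ℚbar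
  have : F'.fixingSubgroup.Normal := (InfiniteGalois.normal_iff_isGalois F').mpr inferInstance
  have hF' : F'.fixingSubgroup ≤ H' :=
    Subgroup.normal_le_normalCore.mpr
      ((F.fixingSubgroup_le (IntermediateField.le_normalClosure F)).trans hF)
  have hH' : ∀ q : ℕ, q.Prime → ∀ A : ValuationSubring ℚbar, A.LiesOverPrime q →
      A.inertiaSubgroupIn ℚ ≤ H' := by
    intro q hq A hA σ hσ g
    obtain ⟨A', hA', h⟩ := exists_inertia_conj A hq hA g hσ
    exact hH q hq A' hA' h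
  have hopen : IsOpen (H' : Set (ℚbar ≃ₐ[ℚ] ℚbar)) :=
    Subgroup.isOpen_mono hF' (IntermediateField.fixingSubgroup_isOpen F')
  have hclosed : IsClosed (H' : Set (ℚbar ≃ₐ[ℚ] ℚbar)) :=
    Subgroup.isClosed_of_isOpen H' hopen
  let K : IntermediateField ℚ ℚbar := IntermediateField.fixedField H'
  have hK : K.fixingSubgroup = H' := InfiniteGalois.fixingSubgroup_fixedField ⟨H', hclosed⟩
  have : IsGalois ℚ K :=
    (InfiniteGalois.normal_iff_isGalois K).mp (by rw [hK]; exact Subgroup.normalCore_normal H)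
  have : FiniteDimensional ℚ K :=
    (InfiniteGalois.isOpen_iff_finite K).mp (by rw [hK]; exact hopen)
  have : NumberField K := ⟨⟩
  have hrank : Module.finrank ℚ K = 1 := by
    by_contra hne
    let O := NumberField.RingOfIntegers K
    obtain ⟨P, hPmax, hP⟩ := NumberField.exists_not_isUnramifiedAt_int (𝒪 := O) hne
    have hP0 : P.under ℤ ≠ ⊥ := fun h =>
      Ideal.IsMaximal.ne_bot_of_isIntegral_int P (Ideal.eq_bot_of_comap_eq_bot h)
    obtain ⟨n, hn : _ = Ideal.span _⟩ := IsPrincipalIdealRing.principal (P.under ℤ)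
    have hn0 : n ≠ 0 := by rintro rfl; exact hP0 (by rw [hn]; simp)
    have hnp : Prime n := by rw [← Ideal.span_singleton_prime hn0, ← hn]; infer_instance
    have hq : n.natAbs.Prime := Int.prime_iff_natAbs_prime.mp hnp
    have hnP : (n : O) ∈ P := by
      have : n ∈ P.under ℤ := hn ▸ Ideal.mem_span_singleton_self n
      simpa [Ideal.mem_comap, Ideal.under_def] using this
    have hqP : (n.natAbs : O) ∈ P := by
      rcases Int.natAbs_eq n with h | h <;> rw [h] at hnP
      · simpa using hnP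
      · rw [Int.cast_neg, Ideal.neg_mem_iff] at hnP
        simpa using hnP
    have : (P.under ℤ).IsMaximal := Ideal.IsPrime.isMaximal inferInstance hP0
    let : MulSemiringAction Gal(K/ℚ) O := IsIntegralClosure.MulSemiringAction ℤ ℚ K O
    have : IsGaloisGroup Gal(K/ℚ) ℤ O := IsGaloisGroup.of_isFractionRing Gal(K/ℚ) ℤ O ℚ K
    have : Finite (ℤ ⧸ P.under ℤ) := Ideal.finiteQuotientOfFreeOfNeBot _ hP0
    have hcard := Ideal.card_inertia_eq_ramificationIdxIn (G := Gal(K/ℚ)) (P.under ℤ) P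
    rw [Ideal.ramificationIdxIn_eq_ramificationIdx (P.under ℤ) P Gal(K/ℚ)] at hcard
    have hne1 : P.inertia Gal(K/ℚ) ≠ ⊥ := by
      intro h
      rw [h, Subgroup.card_bot] at hcard
      exact hP (Ideal.ramificationIdx_eq_one_iff.mp hcard.symm)
    obtain ⟨τ, hτ, hτ1⟩ := (Subgroup.bot_or_exists_ne_one _).resolve_left hne1
    obtain ⟨A, hA, σ, hσ, hσK⟩ := exists_inertia_lift K hq P hqP τ (fun a a' h => by
      have hsm : a' = τ • a := NumberField.RingOfIntegers.ext (by
        rw [h]; exact (algebraMap_galRestrict_apply (A := ℤ) (K := ℚ) (L := K) (B := O) τ a).symm)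
      rw [hsm]
      exact hτ a)
    apply hτ1
    ext x
    rw [← hσK x]
    exact (IntermediateField.mem_fixingSubgroup_iff K σ).mp
      (hK ▸ hH' _ hq A hA hσ) _ x.2
  rw [eq_top_iff]
  have : K.fixingSubgroup = ⊤ := by
    rw [IntermediateField.finrank_eq_one_iff.mp hrank, IntermediateField.fixingSubgroup_bot]
  calc ⊤ = H' := by rw [← this, hK]
    _ ≤ H := Subgroup.normalCore_le H

/-- A homomorphism from `Gal(ℚ̄/ℚ)` factoring through a number field and trivial on all inertia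
subgroups is trivial. -/
theorem monoidHom_eq_one_of_forall_inertia {M : Type*} [Group M]
    (ψ : (ℚbar ≃ₐ[ℚ] ℚbar) →* M) (F : IntermediateField ℚ ℚbar) [FiniteDimensional ℚ F]
    (hF : ∀ σ ∈ F.fixingSubgroup, ψ σ = 1)
    (hψ : ∀ q : ℕ, q.Prime → ∀ A : ValuationSubring ℚbar, A.LiesOverPrime q →
      ∀ σ ∈ A.inertiaSubgroupIn ℚ, ψ σ = 1) :
    ψ = 1 :=
  MonoidHom.ker_eq_top_iff.mp (eq_top_of_forall_inertia_le ψ.ker F hF hψ)

end FermatLib.EC
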