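import Fermat.Agent.EC.MultiplicationFormula
import Fermat.Prelude.Def_FLTPrelim_GaloisRep
import Fermat.Prelude.Def_EllipticCurve_FrobeniusTrace
import Fermat.Prelude.Def_GaloisRep_Residual
import Mathlib.FieldTheory.IntermediateField.Adjoin.Basic

/-!
# Torsion points of elliptic curves

`#E[n] = n ^ 2`, divisibility, finiteness and the finite level of the Galois action.
Multiplication by `n` via division polynomials is in
`Fermat.Agent.EC.MultiplicationFormula`.
-/

open Polynomial WeierstrassCurve WeierstrassCurve.Affine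
open scoped WeierstrassCurve.Affine

namespace FermatLib.EC

section Card

variable {F : Type*} [Field F] [DecidableEq F] (W : WeierstrassCurve.Affine F) [W.IsElliptic]

theorem finite_setOf_zsmul_eq_zero {n : ℤ} (hn : n ≠ 0) :
    {P : W.Point | n • P = 0}.Finite := by
  have hS : (insert (![1, 0] : Fin 2 → F)
      ((fun r => ![r, 1]) '' {r | (W.ΨSq n).IsRoot r})).Finite :=
    ((finite_setOfPred_isRoot (ΨSq_ne_zero_of_isElliptic W hn)).image _).insert _
  refine (Set.Finite.biUnion hS fun v _ => ?_ : (⋃ v ∈ _, {P : W.Point | P.xRep = v}).Finite).subset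
    fun P hP => ?_
  · by_cases hv : ∃ Q : W.Point, Q.xRep = v
    · obtain ⟨Q, rfl⟩ := hv
      refine ({Q, -Q} : Set W.Point).toFinite.subset fun P hP => ?_
      rcases Point.eq_or_eq_neg_of_xRep_eq_xRep hP with h | h <;> simp [h]
    · refine Set.finite_empty.subset fun P hP => hv ⟨P, hP⟩
  · simp only [Set.mem_iUnion, exists_prop, Set.mem_ofPred_eq, exists_eq_right']
    match P with
    | 0 => simp
    | .some x y h =>
      exact Set.mem_insert_of_mem _
        ⟨x, (zsmul_some_eq_zero_iff h n).mp hP, (Point.xRep_some h).symm⟩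

theorem finite_torsionBy {n : ℕ} (hn : n ≠ 0) :
    Finite (Submodule.torsionBy ℤ W.Point (n : ℤ)) :=
  Set.Finite.to_subtype <| (finite_setOf_zsmul_eq_zero W (n := (n : ℤ)) (by lia)).subset
    fun _ hP => (Submodule.mem_torsionBy_iff _ _).mp hP

lemma natDegree_Φ_sub_C_mul_ΨSq (W : WeierstrassCurve F) {n : ℤ} (hn : n ≠ 0) (a : F) :
    (W.Φ n - C a * W.ΨSq n).natDegree = n.natAbs ^ 2 := by
  rw [natDegree_sub_eq_left_of_natDegree_lt, natDegree_Φ]
  calc (C a * W.ΨSq n).natDegree ≤ (W.ΨSq n).natDegree := natDegree_C_mul_le _ _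
    _ ≤ n.natAbs ^ 2 - 1 := W.natDegree_ΨSq_le n
    _ < (W.Φ n).natDegree := by
      rw [natDegree_Φ]
      have : 0 < n.natAbs ^ 2 := pow_pos (Int.natAbs_pos.mpr hn) 2
      lia

/-- A root of `Φₙ - a ΨSqₙ` is the `x`-coordinate of a point `P` with `x(nP) = a`. -/
lemma exists_zsmul_eq_of_isRoot [IsAlgClosed F] {n : ℤ} {a b r : F} (hQ : W.Nonsingular a b)
    (hr : (W.Φ n - C a * W.ΨSq n).IsRoot r) :
    ∃ y h, n • Point.some r y h = Point.some a b hQ := by
  obtain ⟨y, hy⟩ := exists_nonsingular_of_isAlgClosed W r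
  have hr' : (W.Φ n).eval r = a * (W.ΨSq n).eval r := by
    simpa [sub_eq_zero] using hr
  have hne : (W.ΨSq n).eval r ≠ 0 := fun h0 =>
    eval_Φ_ne_zero_of_eval_ΨSq_eq_zero hy h0 <| by rw [hr', h0, mul_zero]
  obtain ⟨y', h', e⟩ := exists_zsmul_some_eq hy hne
  rcases (Point.X_eq_iff (h₁ := h') (h₂ := hQ)).mp
      (by rw [hr', mul_div_cancel_right₀ _ hne]) with he | he
  · exact ⟨y, hy, e.trans he⟩
  · refine ⟨_, (nonsingular_neg ..).mpr hy, ?_⟩
    rw [← Point.neg_some hy, zsmul_neg, e, he, neg_neg]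

/-- The `x`-coordinate of a preimage of `(a, b)` is a root of `Φₙ - a ΨSqₙ`. -/
lemma exists_isRoot_of_zsmul_eq {n : ℤ} {a b : F} (hQ : W.Nonsingular a b) {P : W.Point}
    (hP : n • P = Point.some a b hQ) :
    ∃ x y h, P = Point.some x y h ∧ (W.Φ n - C a * W.ΨSq n).IsRoot x := by
  match P with
  | 0 => exact absurd (hP.symm.trans (smul_zero n)) (Point.some_ne_zero hQ)
  | .some x y h =>
    refine ⟨x, y, h, rfl, ?_⟩
    have hne : (W.ΨSq n).eval x ≠ 0 := fun h0 =>
      Point.some_ne_zero hQ (hP.symm.trans ((zsmul_some_eq_zero_iff h n).mpr h0))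
    obtain ⟨y', h', e⟩ := exists_zsmul_some_eq h hne
    have ha := (Point.some.inj (e.symm.trans hP)).1
    rw [div_eq_iff hne] at ha
    simp [ha]

theorem surjective_zsmul [IsAlgClosed F] {n : ℤ} (hn : n ≠ 0) :
    Function.Surjective (fun P : W.Point => n • P) := by
  intro Q
  match Q with
  | 0 => exact ⟨0, smul_zero n⟩
  | .some a b hQ =>
    obtain ⟨r, hr⟩ := IsAlgClosed.exists_root (W.Φ n - C a * W.ΨSq n) fun h0 => by
      have h1 := natDegree_Φ_sub_C_mul_ΨSq W hn a
      rw [natDegree_eq_of_degree_eq_some h0] at h1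
      exact pow_ne_zero 2 (Int.natAbs_ne_zero.mpr hn) h1.symm
    obtain ⟨y, h, e⟩ := exists_zsmul_eq_of_isRoot W hQ hr
    exact ⟨_, e⟩

lemma wronskian_Φ_ΨSq_ne_zero (W : WeierstrassCurve F) {n : ℕ} (hn : (n : F) ≠ 0) :
    derivative (W.Φ n) * W.ΨSq n - W.Φ n * derivative (W.ΨSq n) ≠ 0 := by
  obtain ⟨d, hd⟩ : ∃ d, n ^ 2 = d + 1 :=
    Nat.exists_eq_succ_of_ne_zero (pow_ne_zero 2 fun h0 => hn (by simp [h0]))
  have hΦ : (W.Φ n).natDegree ≤ d + 1 := hd ▸ by simpa using W.natDegree_Φ_le n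
  have hΨ : (W.ΨSq n).natDegree ≤ d := by
    have := W.natDegree_ΨSq_le n
    simp only [Int.natAbs_natCast, hd] at this
    lia
  have cΦ : (W.Φ n).coeff (d + 1) = 1 := hd ▸ by simpa using W.coeff_Φ n
  have cΨ : (W.ΨSq n).coeff d = ((d + 1 : ℕ) : F) := by
    have := W.coeff_ΨSq n
    simp only [Int.natAbs_natCast, hd, Nat.add_sub_cancel] at this
    rw [this, Int.cast_natCast, ← Nat.cast_pow, hd]
  have hX : ∀ {p : F[X]} {m : ℕ}, p.natDegree ≤ m →
      (X * derivative p).natDegree ≤ m ∧ (X * derivative p).coeff m = m * p.coeff m := by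
    intro p m hp
    constructor
    · rcases Nat.eq_zero_or_pos p.natDegree with h0 | h0
      · simp [derivative_of_natDegree_zero h0]
      · exact natDegree_mul_le.trans <| (Nat.add_le_add natDegree_X_le
          (natDegree_derivative_le p)).trans (by lia)
    · rcases m with _ | m
      · simp
      · rw [coeff_X_mul, coeff_derivative]
        push_cast
        ring
  intro h0
  have h1 : (X * derivative (W.Φ n) * W.ΨSq n - W.Φ n * (X * derivative (W.ΨSq n))).coeff
      (d + 1 + d) = 0 := by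
    rw [show X * derivative (W.Φ n) * W.ΨSq n - W.Φ n * (X * derivative (W.ΨSq n)) =
      X * (derivative (W.Φ n) * W.ΨSq n - W.Φ n * derivative (W.ΨSq n)) by ring, h0, mul_zero,
      coeff_zero]
  rw [coeff_sub, coeff_mul_add_eq_of_natDegree_le (hX hΦ).1 hΨ,
    coeff_mul_add_eq_of_natDegree_le hΦ (hX hΨ).1, (hX hΦ).2, (hX hΨ).2, cΦ, cΨ] at h1
  refine pow_ne_zero 2 hn ?_
  rw [← Nat.cast_pow, hd]
  linear_combination (norm := (push_cast; ring)) h1

theorem natCard_torsionBy [IsAlgClosed F] {n : ℕ} (hn : (n : F) ≠ 0) :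
    Nat.card (Submodule.torsionBy ℤ W.Point (n : ℤ)) = n ^ 2 := by
  have hn0 : (n : ℤ) ≠ 0 := by
    have : n ≠ 0 := fun h => hn (by simp [h])
    lia
  -- a value `a` such that `Φₙ - a ΨSqₙ` has `n ^ 2` simple roots and `(a, b)` is not `2`-torsion
  have hbad : ((fun r => (W.Φ n).eval r / (W.ΨSq n).eval r) ''
      {r | (derivative (W.Φ n) * W.ΨSq n - W.Φ n * derivative (W.ΨSq n)).IsRoot r} ∪
      {a | W.Ψ₂Sq.IsRoot a}).Finite := by
    refine ((finite_setOfPred_isRoot (wronskian_Φ_ΨSq_ne_zero W hn)).image _).union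
      (finite_setOfPred_isRoot ?_)
    simpa using ΨSq_ne_zero_of_isElliptic W (n := 2) two_ne_zero
  obtain ⟨a, ha⟩ := hbad.infinite_compl.nonempty
  simp only [Set.mem_compl_iff, Set.mem_union, Set.mem_image, Set.mem_ofPred_eq, not_or,
    not_exists, not_and] at ha
  obtain ⟨b, hQ⟩ := exists_nonsingular_of_isAlgClosed W a
  have hb : b ≠ W.negY a b := fun hb => ha.2 <| by
    rw [IsRoot.def, ← sq_sub_negY_eq_eval hQ.left, ← hb, sub_self, zero_pow two_ne_zero]
  set f := W.Φ n - C a * W.ΨSq n with hf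
  have hfd : f.natDegree = n ^ 2 := by
    rw [hf, natDegree_Φ_sub_C_mul_ΨSq W hn0 a, Int.natAbs_natCast]
  have hf0 : f ≠ 0 := ne_zero_of_natDegree_gt (n := 0) <| by
    rw [hfd]
    have : n ≠ 0 := by lia
    positivity
  have hsimple : f.roots.Nodup := by
    classical
    rw [Multiset.nodup_iff_count_le_one]
    intro r
    rw [count_roots]
    by_contra hlt
    obtain ⟨h1, h2⟩ := (one_lt_rootMultiplicity_iff_isRoot hf0).mp (not_le.mp hlt)
    obtain ⟨y, hy⟩ := exists_nonsingular_of_isAlgClosed W r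
    simp only [hf, IsRoot.def, derivative_sub, derivative_C_mul, eval_sub, eval_mul, eval_C,
      sub_eq_zero] at h1 h2
    have hne : (W.ΨSq n).eval r ≠ 0 := fun h0 =>
      eval_Φ_ne_zero_of_eval_ΨSq_eq_zero hy h0 <| by rw [h1, h0, mul_zero]
    refine ha.1 r ?_ (by rw [h1, mul_div_cancel_right₀ _ hne])
    simp only [IsRoot.def, eval_sub, eval_mul, h1, h2]
    ring
  classical
  have hroots : f.roots.toFinset.card = n ^ 2 := by
    rw [Multiset.toFinset_card_of_nodup hsimple, IsAlgClosed.card_roots_eq_natDegree, hfd]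
  set Q := Point.some a b hQ with hQdef
  have hinj : ∀ P P' : W.Point, (n : ℤ) • P = Q → (n : ℤ) • P' = Q → P.xRep = P'.xRep → P = P' := by
    intro P P' hP hP' hx
    rcases Point.eq_or_eq_neg_of_xRep_eq_xRep hx with h | h
    · exact h
    · rw [h, zsmul_neg, hP', hQdef, Point.neg_some, Point.some.injEq] at hP
      exact absurd hP.2.symm hb
  have hT : Nat.card {P : W.Point // (n : ℤ) • P = Q} = n ^ 2 := by
    rw [← hroots, ← Nat.card_eq_finsetCard]
    have hmem : ∀ r : f.roots.toFinset, f.IsRoot r.1 := fun r =>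
      isRoot_of_mem_roots (Multiset.mem_toFinset.mp r.2)
    choose y h e using fun r => exists_zsmul_eq_of_isRoot W hQ (hmem r)
    refine (Nat.card_congr (Equiv.ofBijective
      (fun r => (⟨Point.some r.1 (y r) (h r), e r⟩ : {P : W.Point // (n : ℤ) • P = Q}))
      ⟨fun r r' hrr' => ?_, fun P => ?_⟩)).symm
    · exact Subtype.ext (Point.some.inj (Subtype.ext_iff.mp hrr')).1
    · obtain ⟨x, y', h', hP, hx⟩ := exists_isRoot_of_zsmul_eq W hQ P.2
      refine ⟨⟨x, Multiset.mem_toFinset.mpr ((mem_roots hf0).mpr hx)⟩,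
        Subtype.ext (hinj _ _ (e _) P.2 ?_)⟩
      rw [hP, Point.xRep_some, Point.xRep_some]
  obtain ⟨P₀, hP₀⟩ := surjective_zsmul W hn0 Q
  simp only at hP₀
  rw [← hT]
  refine Nat.card_congr ((Equiv.addRight P₀).subtypeEquiv fun P => ?_)
  rw [Submodule.mem_torsionBy_iff, Equiv.coe_addRight, zsmul_add, hP₀]
  constructor
  · intro h
    rw [h, zero_add]
  · intro h
    exact add_eq_right.mp h

end Card

section BaseChange

instance instIsEllipticBaseChange {R A : Type*} [CommRing R] [CommRing A] [Algebra R A]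
    (W : WeierstrassCurve R) [W.IsElliptic] : (W⁄A).IsElliptic :=
  inferInstanceAs (W.map (algebraMap R A)).IsElliptic

variable {R K : Type*} [CommRing R] [Field K] [DecidableEq K] [Algebra R K]
  (W : WeierstrassCurve R) [W.IsElliptic]

theorem natCard_torsionBy_baseChange [IsAlgClosed K] {n : ℕ} (hn : (n : K) ≠ 0) :
    Nat.card (Submodule.torsionBy ℤ (W⁄K).Point (n : ℤ)) = n ^ 2 :=
  natCard_torsionBy (W⁄K).toAffine hn

theorem finrank_torsionBy_baseChange [IsAlgClosed K] {p : ℕ} [Fact p.Prime] (hp : (p : K) ≠ 0) :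
    Module.finrank (ZMod p) (Submodule.torsionBy ℤ (W⁄K).Point (p : ℤ)) = 2 := by
  haveI : Finite (Submodule.torsionBy ℤ (W⁄K).Point (p : ℤ)) :=
    finite_torsionBy (W⁄K).toAffine (Fact.out : p.Prime).ne_zero
  have h := Module.natCard_eq_pow_finrank (K := ZMod p)
    (V := Submodule.torsionBy ℤ (W⁄K).Point (p : ℤ))
  rw [natCard_torsionBy_baseChange W hp, Nat.card_zmod] at h
  exact (Nat.pow_right_injective (Fact.out : p.Prime).two_le h).symm

end BaseChange

section GaloisFinite

/-- There is a finite extension over which every `n`-torsion point is rational. -/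
theorem exists_finiteDimensional_algEquiv_smul_eq {k K : Type*} [Field k] [Field K]
    [DecidableEq K] [Algebra k K] [Algebra.IsIntegral k K] (W : WeierstrassCurve k) [W.IsElliptic]
    {n : ℤ} (hn : n ≠ 0) :
    ∃ L : IntermediateField k K, FiniteDimensional k L ∧
      ∀ σ : K ≃ₐ[k] K, (∀ x ∈ L, σ x = x) →
        ∀ P : (W⁄K).Point, n • P = 0 → σ • P = P := by
  haveI : Finite {P : (W⁄K).Point | n • P = 0} :=
    (finite_setOf_zsmul_eq_zero (W⁄K).toAffine hn).to_subtype
  let coords : (W⁄K).Point → Set K := fun P => match P with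
    | 0 => ∅
    | .some x y _ => {x, y}
  let S : Set K := ⋃ P : {P : (W⁄K).Point | n • P = 0}, coords P
  haveI : Finite S := (Set.finite_iUnion fun P => by
    rcases P with ⟨_ | ⟨x, y, h⟩, hP⟩
    · exact Set.finite_empty
    · exact Set.toFinite ({x, y} : Set K)).to_subtype
  refine ⟨IntermediateField.adjoin k S,
    IntermediateField.finiteDimensional_adjoin fun x _ => Algebra.IsIntegral.isIntegral x,
    fun σ hσ P hP => ?_⟩
  match P with
  | 0 => rfl
  | .some x y h =>
    have hx : σ x = x := hσ x <| IntermediateField.subset_adjoin _ _ <|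
      Set.mem_iUnion.mpr ⟨⟨_, hP⟩, Set.mem_insert x {y}⟩
    have hy : σ y = y := hσ y <| IntermediateField.subset_adjoin _ _ <|
      Set.mem_iUnion.mpr ⟨⟨_, hP⟩, Set.mem_insert_of_mem x (Set.mem_singleton y)⟩
    rw [Point.algEquiv_smul_def, Point.map_some, Point.some.injEq]
    exact ⟨hx, hy⟩

/-- There is a finite extension over which every `n`-torsion point is rational. -/
theorem exists_finiteDimensional_smul_eq (W : WeierstrassCurve ℚ) [W.IsElliptic] {n : ℕ}
    (hn : n ≠ 0) :
    ∃ L : IntermediateField ℚ (AlgebraicClosure ℚ), FiniteDimensional ℚ L ∧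
      ∀ σ : AlgebraicClosure ℚ ≃ₐ[ℚ] AlgebraicClosure ℚ, (∀ x ∈ L, σ x = x) →
        ∀ P : (W⁄(AlgebraicClosure ℚ)).Point, (n : ℤ) • P = 0 → σ • P = P :=
  haveI : Algebra.IsIntegral ℚ (AlgebraicClosure ℚ) :=
    @Algebra.IsAlgebraic.isIntegral _ _ _ _ _ (AlgebraicClosure.isAlgebraic ℚ)
  exists_finiteDimensional_algEquiv_smul_eq W (by lia)

/-- The Galois action on `n`-torsion of an elliptic curve over `ℚ` factors through a finite level. -/
theorem galoisFactorsThroughFiniteLevel_torsion (W : WeierstrassCurve ℚ) [W.IsElliptic] {n : ℕ}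
    (hn : n ≠ 0) :
    GaloisFactorsThroughFiniteLevel
      (WeierstrassCurve.Affine.Point.galoisRepModuleEnd (K := AlgebraicClosure ℚ) ℚ W n) := by
  obtain ⟨L, hL, h⟩ := exists_finiteDimensional_smul_eq W hn
  refine ⟨L, hL, fun σ hσ => LinearMap.ext fun P => Subtype.ext ?_⟩
  exact h σ hσ P.1 ((Submodule.mem_torsionBy_iff _ _).mp P.2)

end GaloisFinite

end FermatLib.EC
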