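import Mathlib.AlgebraicGeometry.EllipticCurve.Affine.Point
import Mathlib.AlgebraicGeometry.EllipticCurve.VariableChange
import Mathlib.Tactic

/-!
# The group isomorphism induced by an admissible change of variables
-/

set_option autoImplicit false
set_option linter.unusedSectionVars false

noncomputable section

namespace FermatLib.EC

open WeierstrassCurve

variable {F : Type*} [Field F] (V : WeierstrassCurve F) (C : WeierstrassCurve.VariableChange F)

/-- The abscissa on `V` of the point with abscissa `x` on `C • V`. -/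
def vcX (x : F) : F := C.u ^ 2 * x + C.r

/-- The ordinate on `V` of the point with coordinates `(x, y)` on `C • V`. -/
def vcY (x y : F) : F := C.u ^ 3 * y + C.u ^ 2 * C.s * x + C.t

lemma vc_equation_iff (x y : F) :
    V.toAffine.Equation (vcX C x) (vcY C x y) ↔ (C • V).toAffine.Equation x y := by
  have hu : (C.u : F) ≠ 0 := C.u.ne_zero
  rw [Affine.equation_iff', Affine.equation_iff']
  simp only [variableChange_def, vcX, vcY, Units.val_inv_eq_inv_val]
  constructor <;> intro h
  · field_simp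
    linear_combination h
  · field_simp at h
    linear_combination h

lemma vc_polynomialY (x y : F) :
    V.toAffine.polynomialY.evalEval (vcX C x) (vcY C x y) =
      C.u ^ 3 * (C • V).toAffine.polynomialY.evalEval x y := by
  have hu : (C.u : F) ≠ 0 := C.u.ne_zero
  rw [Affine.evalEval_polynomialY, Affine.evalEval_polynomialY]
  simp only [variableChange_def, vcX, vcY, Units.val_inv_eq_inv_val]
  field_simp
  ring

lemma vc_polynomialX (x y : F) :
    V.toAffine.polynomialX.evalEval (vcX C x) (vcY C x y) =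
      C.u ^ 4 * (C • V).toAffine.polynomialX.evalEval x y -
        C.s * C.u ^ 3 * (C • V).toAffine.polynomialY.evalEval x y := by
  have hu : (C.u : F) ≠ 0 := C.u.ne_zero
  rw [Affine.evalEval_polynomialX, Affine.evalEval_polynomialX, Affine.evalEval_polynomialY]
  simp only [variableChange_def, vcX, vcY, Units.val_inv_eq_inv_val]
  field_simp
  ring

lemma vc_nonsingular_iff (x y : F) :
    V.toAffine.Nonsingular (vcX C x) (vcY C x y) ↔ (C • V).toAffine.Nonsingular x y := by
  have hu : (C.u : F) ≠ 0 := C.u.ne_zero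
  unfold Affine.Nonsingular
  rw [vc_equation_iff, vc_polynomialX, vc_polynomialY]
  refine and_congr_right fun _ => ?_
  by_cases hY : (C • V).toAffine.polynomialY.evalEval x y = 0
  · simp [hY, hu]
  · simp [hY, hu]

lemma vc_negY (x y : F) :
    V.toAffine.negY (vcX C x) (vcY C x y) = vcY C x ((C • V).toAffine.negY x y) := by
  have hu : (C.u : F) ≠ 0 := C.u.ne_zero
  simp only [Affine.negY, variableChange_def, vcX, vcY, Units.val_inv_eq_inv_val]
  field_simp
  ring

lemma vcX_inj {x x' : F} : vcX C x = vcX C x' ↔ x = x' := by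
  simp [vcX, C.u.ne_zero]

lemma vcY_inj {x y y' : F} : vcY C x y = vcY C x y' ↔ y = y' := by
  simp [vcY, C.u.ne_zero]

variable [DecidableEq F]

lemma vc_slope {x₁ x₂ y₁ y₂ : F} (h₁ : (C • V).toAffine.Equation x₁ y₁)
    (h₂ : (C • V).toAffine.Equation x₂ y₂) (hxy : ¬(x₁ = x₂ ∧ y₁ = (C • V).toAffine.negY x₂ y₂)) :
    V.toAffine.slope (vcX C x₁) (vcX C x₂) (vcY C x₁ y₁) (vcY C x₂ y₂) =
      C.u * (C • V).toAffine.slope x₁ x₂ y₁ y₂ + C.s := by
  have hu : (C.u : F) ≠ 0 := C.u.ne_zero
  by_cases hx : x₁ = x₂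
  · subst hx
    have hy : y₁ ≠ (C • V).toAffine.negY x₁ y₂ := fun h => hxy ⟨rfl, h⟩
    have hy' : vcY C x₁ y₁ ≠ V.toAffine.negY (vcX C x₁) (vcY C x₁ y₂) := by
      rw [vc_negY, Ne, vcY_inj]; exact hy
    rw [Affine.slope_of_Y_ne_eq_evalEval rfl hy', Affine.slope_of_Y_ne_eq_evalEval rfl hy,
      vc_polynomialX, vc_polynomialY]
    obtain rfl := Affine.Y_eq_of_Y_ne h₁ h₂ rfl hy
    have hY : (C • V).toAffine.polynomialY.evalEval x₁ y₁ ≠ 0 := by
      rw [Affine.evalEval_polynomialY]
      intro h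
      refine hy ?_
      simp only [Affine.negY]
      linear_combination h
    field_simp
    ring
  · rw [Affine.slope_of_X_ne hx, Affine.slope_of_X_ne (fun h => hx ((vcX_inj C).mp h))]
    have := sub_ne_zero.mpr hx
    have hd : vcX C x₁ - vcX C x₂ = C.u ^ 2 * (x₁ - x₂) := by simp only [vcX]; ring
    rw [hd]
    simp only [vcY]
    field_simp
    ring

lemma vc_addX (x₁ x₂ ℓ : F) :
    V.toAffine.addX (vcX C x₁) (vcX C x₂) (C.u * ℓ + C.s) =
      vcX C ((C • V).toAffine.addX x₁ x₂ ℓ) := by
  have hu : (C.u : F) ≠ 0 := C.u.ne_zero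
  simp only [Affine.addX, variableChange_def, vcX, Units.val_inv_eq_inv_val]
  field_simp
  ring

lemma vc_addY (x₁ x₂ y₁ ℓ : F) :
    V.toAffine.addY (vcX C x₁) (vcX C x₂) (vcY C x₁ y₁) (C.u * ℓ + C.s) =
      vcY C ((C • V).toAffine.addX x₁ x₂ ℓ) ((C • V).toAffine.addY x₁ x₂ y₁ ℓ) := by
  unfold Affine.addY
  rw [vc_addX, ← vc_negY]
  congr 1
  unfold Affine.negAddY
  rw [vc_addX]
  simp only [vcX, vcY]
  ring

/-- The map of points underlying `vcHom`. -/
def vcFun : (C • V).toAffine.Point → V.toAffine.Point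
  | .zero => 0
  | .some x y h => .some (vcX C x) (vcY C x y) ((vc_nonsingular_iff V C x y).mpr h)

lemma vcFun_add (P Q : (C • V).toAffine.Point) : vcFun V C (P + Q) = vcFun V C P + vcFun V C Q := by
  rcases P with _ | ⟨x₁, y₁, h₁⟩
  · show vcFun V C (0 + Q) = 0 + vcFun V C Q
    rw [zero_add, zero_add]
  rcases Q with _ | ⟨x₂, y₂, h₂⟩
  · show vcFun V C (_ + 0) = _ + 0
    rw [add_zero, add_zero]
  by_cases hxy : x₁ = x₂ ∧ y₁ = (C • V).toAffine.negY x₂ y₂
  · rw [Affine.Point.add_of_Y_eq hxy.1 hxy.2]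
    show 0 = Affine.Point.some _ _ _ + Affine.Point.some _ _ _
    rw [Affine.Point.add_of_Y_eq (by rw [hxy.1]) (by rw [vc_negY, hxy.1, hxy.2])]
  · have hxy' : ¬(vcX C x₁ = vcX C x₂ ∧
        vcY C x₁ y₁ = V.toAffine.negY (vcX C x₂) (vcY C x₂ y₂)) := by
      rw [vcX_inj, vc_negY]
      rintro ⟨h, h'⟩
      subst h
      exact hxy ⟨rfl, (vcY_inj C).mp h'⟩
    rw [Affine.Point.add_some hxy]
    show Affine.Point.some _ _ _ = Affine.Point.some _ _ _ + Affine.Point.some _ _ _
    rw [Affine.Point.add_some hxy', Affine.Point.some.injEq, vc_slope V C h₁.1 h₂.1 hxy]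
    exact ⟨(vc_addX V C _ _ _).symm, (vc_addY V C _ _ _ _).symm⟩

/-- The isomorphism of point groups induced by a change of variables. -/
def vcEquiv : (C • V).toAffine.Point ≃+ V.toAffine.Point where
  toFun := vcFun V C
  invFun P := match P with
    | .zero => 0
    | .some x y h => .some ((x - C.r) / C.u ^ 2)
        ((y - C.t - C.s * (x - C.r)) / C.u ^ 3) (by
          have hu : (C.u : F) ≠ 0 := C.u.ne_zero
          refine (vc_nonsingular_iff V C _ _).mp ?_
          convert h using 1 <;> simp only [vcX, vcY] <;> field_simp <;> ring)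
  left_inv P := by
    have hu : (C.u : F) ≠ 0 := C.u.ne_zero
    rcases P with _ | ⟨x, y, h⟩
    · rfl
    · simp only [vcFun, Affine.Point.some.injEq, vcX, vcY]
      constructor <;> field_simp <;> ring
  right_inv P := by
    have hu : (C.u : F) ≠ 0 := C.u.ne_zero
    rcases P with _ | ⟨x, y, h⟩
    · rfl
    · simp only [vcFun, Affine.Point.some.injEq, vcX, vcY]
      constructor <;> field_simp <;> ring
  map_add' := vcFun_add V C

@[simp] lemma vcEquiv_some {x y : F} (h : (C • V).toAffine.Nonsingular x y) :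
    vcEquiv V C (.some x y h) = .some (vcX C x) (vcY C x y) ((vc_nonsingular_iff V C x y).mpr h) :=
  rfl

end FermatLib.EC
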