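import Fermat.Agent.EC.RedAdd

/-!
# Integral models, nonsingularity of the reduction, good reduction
-/

set_option autoImplicit false
set_option linter.unusedSectionVars false

noncomputable section

namespace FermatLib.EC

open WeierstrassCurve

variable {L : Type*} [Field L] {A : ValuationSubring L} {V : WeierstrassCurve L}

/-- The model over the valuation ring. -/
def IntegralAt.model (hV : IntegralAt A V) : WeierstrassCurve A :=
  ⟨⟨V.a₁, hV.a₁⟩, ⟨V.a₂, hV.a₂⟩, ⟨V.a₃, hV.a₃⟩, ⟨V.a₄, hV.a₄⟩, ⟨V.a₆, hV.a₆⟩⟩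

lemma IntegralAt.map_model_subtype (hV : IntegralAt A V) :
    hV.model.map (algebraMap A L) = V := rfl

lemma IntegralAt.map_model_residue (hV : IntegralAt A V) :
    hV.model.map (IsLocalRing.residue A) = redCurve A V := by
  ext <;> simp [IntegralAt.model, redCurve, res_of_mem, hV.a₁, hV.a₂, hV.a₃, hV.a₄, hV.a₆]

/-- A curve with integer coefficients is integral everywhere. -/
lemma integralAt_of_int {a₁ a₂ a₃ a₄ a₆ : ℤ} (h₁ : V.a₁ = a₁) (h₂ : V.a₂ = a₂) (h₃ : V.a₃ = a₃)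
    (h₄ : V.a₄ = a₄) (h₆ : V.a₆ = a₆) : IntegralAt A V :=
  ⟨h₁ ▸ intCast_mem_place a₁, h₂ ▸ intCast_mem_place a₂, h₃ ▸ intCast_mem_place a₃,
    h₄ ▸ intCast_mem_place a₄, h₆ ▸ intCast_mem_place a₆⟩

namespace IntegralAt

variable (hV : IntegralAt A V)
include hV

lemma Δ_mem : V.Δ ∈ A := by
  have h : V.Δ = (hV.model.Δ : L) := by
    conv_lhs => rw [← hV.map_model_subtype, map_Δ]
    rfl
  exact h ▸ hV.model.Δ.2

lemma c₄_mem : V.c₄ ∈ A := by
  have h : V.c₄ = (hV.model.c₄ : L) := by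
    conv_lhs => rw [← hV.map_model_subtype, map_c₄]
    rfl
  exact h ▸ hV.model.c₄.2

lemma b₂_mem : V.b₂ ∈ A := by
  have h : V.b₂ = (hV.model.b₂ : L) := by
    conv_lhs => rw [← hV.map_model_subtype, map_b₂]
    rfl
  exact h ▸ hV.model.b₂.2

lemma res_Δ : (redCurve A V).Δ = res A V.Δ := by
  rw [← hV.map_model_residue, map_Δ, ← res_coe]
  conv_rhs => rw [← hV.map_model_subtype, map_Δ]
  rfl

lemma res_c₄ : (redCurve A V).c₄ = res A V.c₄ := by
  rw [← hV.map_model_residue, map_c₄, ← res_coe]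
  conv_rhs => rw [← hV.map_model_subtype, map_c₄]
  rfl

lemma mem_polynomialX {x y : L} (hx : x ∈ A) (hy : y ∈ A) :
    V.a₁ * y - (3 * x ^ 2 + 2 * V.a₂ * x + V.a₄) ∈ A :=
  sub_mem (mul_mem hV.a₁ hy) (add_mem (add_mem (mul_mem (ofNat_mem_place 3) (pow_mem hx 2))
    (mul_mem (mul_mem (ofNat_mem_place 2) hV.a₂) hx)) hV.a₄)

lemma mem_polynomialY {x y : L} (hx : x ∈ A) (hy : y ∈ A) : 2 * y + V.a₁ * x + V.a₃ ∈ A :=
  add_mem (add_mem (mul_mem (ofNat_mem_place 2) hy) (mul_mem hV.a₁ hx)) hV.a₃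

/-- An integral point reduces to a nonsingular point iff one of the partials is a unit. -/
lemma nonsingular_red_iff {x y : L} (h : V.toAffine.Equation x y) (hx : x ∈ A) :
    (redCurve A V).toAffine.Nonsingular (res A x) (res A y) ↔
      A.valuation (V.a₁ * y - (3 * x ^ 2 + 2 * V.a₂ * x + V.a₄)) = 1 ∨
        A.valuation (2 * y + V.a₁ * x + V.a₃) = 1 := by
  have hy := hV.mem_y h hx
  rw [Affine.nonsingular_iff', and_iff_right (hV.equation_red h hx),
    ← res_ne_zero_iff (hV.mem_polynomialX hx hy), ← res_ne_zero_iff (hV.mem_polynomialY hx hy),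
    res_sub (mul_mem hV.a₁ hy) (add_mem (add_mem (mul_mem (ofNat_mem_place 3) (pow_mem hx 2))
      (mul_mem (mul_mem (ofNat_mem_place 2) hV.a₂) hx)) hV.a₄),
    res_add (add_mem (mul_mem (ofNat_mem_place 3) (pow_mem hx 2))
      (mul_mem (mul_mem (ofNat_mem_place 2) hV.a₂) hx)) hV.a₄,
    res_add (mul_mem (ofNat_mem_place 3) (pow_mem hx 2))
      (mul_mem (mul_mem (ofNat_mem_place 2) hV.a₂) hx),
    res_mul (ofNat_mem_place 3) (pow_mem hx 2), res_mul (mul_mem (ofNat_mem_place 2) hV.a₂) hx,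
    res_mul (ofNat_mem_place 2) hV.a₂, res_mul hV.a₁ hy, res_pow hx,
    res_add (add_mem (mul_mem (ofNat_mem_place 2) hy) (mul_mem hV.a₁ hx)) hV.a₃,
    res_add (mul_mem (ofNat_mem_place 2) hy) (mul_mem hV.a₁ hx),
    res_mul (ofNat_mem_place 2) hy, res_mul hV.a₁ hx, res_ofNat, res_ofNat]
  rfl

/-- With good reduction every point has nonsingular reduction. -/
lemma inE0_of_res_Δ_ne_zero (hΔ : res A V.Δ ≠ 0) (P : V.toAffine.Point) : InE0 A P := by
  rcases P with _ | ⟨x, y, h⟩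
  · trivial
  · by_cases hx : x ∈ A
    · refine Or.inr ⟨hx, hV.mem_y h.1 hx, ?_⟩
      rw [← Affine.equation_iff_nonsingular_of_Δ_ne_zero (by rwa [← hV.res_Δ] at hΔ)]
      exact hV.equation_red h.1 hx
    · exact Or.inl hx

end IntegralAt

end FermatLib.EC
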