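import Mathlib.AlgebraicGeometry.EllipticCurve.Affine.Point
import Mathlib.Tactic

/-!
# The group of nonsingular points of a singular Weierstrass cubic

For the cubic `(y - αx)(y - βx) = x³` the function `(y - αx)/(y - βx)` gives an injective
homomorphism to the multiplicative group if `α ≠ β`, and `x/(y - αx)` one to the additive group
if `α = β`.
-/

set_option autoImplicit false
set_option linter.unusedSectionVars false

noncomputable section

namespace FermatLib.EC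

open WeierstrassCurve

variable {k : Type*} [Field k]

/-- Vieta relations for the three intersection points of a non-vertical line and the cubic. -/
lemma line_vieta [DecidableEq k] (W : WeierstrassCurve k) {x₁ x₂ y₁ y₂ : k}
    (h₁ : W.toAffine.Equation x₁ y₁) (h₂ : W.toAffine.Equation x₂ y₂)
    (hxy : ¬(x₁ = x₂ ∧ y₁ = W.toAffine.negY x₂ y₂)) :
    let ℓ := W.toAffine.slope x₁ x₂ y₁ y₂
    let x₃ := W.toAffine.addX x₁ x₂ ℓ
    let c := y₁ - ℓ * x₁
    x₁ + x₂ + x₃ = ℓ ^ 2 + W.a₁ * ℓ - W.a₂ ∧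
      x₁ * x₂ + x₁ * x₃ + x₂ * x₃ = W.a₄ - 2 * c * ℓ - W.a₁ * c - W.a₃ * ℓ ∧
      x₁ * x₂ * x₃ = c ^ 2 + W.a₃ * c - W.a₆ ∧
      y₂ = ℓ * x₂ + c ∧ W.toAffine.negAddY x₁ x₂ y₁ ℓ = ℓ * x₃ + c := by
  intro ℓ x₃ c
  have h := Affine.addPolynomial_slope h₁ h₂ hxy
  rw [Affine.addPolynomial_eq, neg_inj, Cubic.prod_X_sub_C_eq, Cubic.toPoly_injective,
    Cubic.ext_iff] at h
  obtain ⟨-, hb, hc, hd⟩ := h
  simp only at hb hc hd
  change _ = x₁ * x₂ + x₁ * x₃ + x₂ * x₃ at hc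
  change _ = -(x₁ * x₂ * x₃) at hd
  refine ⟨?_, ?_, ?_, ?_, ?_⟩
  · show x₁ + x₂ + (ℓ ^ 2 + W.a₁ * ℓ - W.a₂ - x₁ - x₂) = _
    ring
  · linear_combination -hc
  · linear_combination hd
  · by_cases hx : x₁ = x₂
    · rw [← Affine.Y_eq_of_Y_ne h₁ h₂ hx fun h => hxy ⟨hx, h⟩, ← hx]
      show y₁ = ℓ * x₁ + (y₁ - ℓ * x₁)
      ring
    · have : ℓ * (x₁ - x₂) = y₁ - y₂ := by
        show W.toAffine.slope x₁ x₂ y₁ y₂ * _ = _
        rw [Affine.slope_of_X_ne hx, div_mul_cancel₀ _ (sub_ne_zero.mpr hx)]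
      show y₂ = ℓ * x₂ + (y₁ - ℓ * x₁)
      linear_combination this
  · show ℓ * (x₃ - x₁) + y₁ = ℓ * x₃ + (y₁ - ℓ * x₁)
    ring

/-- A cubic with its singular point at the origin and tangent slopes `α`, `β` there. -/
structure IsTangentModel (W : WeierstrassCurve k) (α β : k) : Prop where
  a₁ : W.a₁ = -(α + β)
  a₂ : W.a₂ = -(α * β)
  a₃ : W.a₃ = 0
  a₄ : W.a₄ = 0
  a₆ : W.a₆ = 0

namespace IsTangentModel

variable {W : WeierstrassCurve k} {α β : k} (hW : IsTangentModel W α β)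
include hW

lemma symm : IsTangentModel W β α :=
  ⟨by rw [hW.a₁, add_comm], by rw [hW.a₂, mul_comm], hW.a₃, hW.a₄, hW.a₆⟩

lemma mul_eq {x y : k} (h : W.toAffine.Equation x y) : (y - α * x) * (y - β * x) = x ^ 3 := by
  rw [Affine.equation_iff, hW.a₁, hW.a₂, hW.a₃, hW.a₄, hW.a₆] at h
  linear_combination h

lemma x_ne_zero {x y : k} (h : W.toAffine.Nonsingular x y) : x ≠ 0 := by
  rintro rfl
  have h0 := hW.mul_eq h.1
  have hy : y = 0 := by
    have : y * y = 0 := by linear_combination h0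
    exact mul_self_eq_zero.mp this
  subst hy
  rw [Affine.nonsingular_zero] at h
  simp [hW.a₃, hW.a₄] at h

lemma sub_ne_zero {x y : k} (h : W.toAffine.Nonsingular x y) : y - α * x ≠ 0 := fun h0 =>
  hW.x_ne_zero h (pow_eq_zero_iff three_ne_zero |>.mp (by rw [← hW.mul_eq h.1, h0, zero_mul]))

lemma negY_sub (x y : k) : W.toAffine.negY x y - α * x = -(y - β * x) := by
  simp only [Affine.negY, hW.a₁, hW.a₃]; ring

variable [DecidableEq k]

/-- Along a line not through the node, the products of the two tangent forms agree. -/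
lemma line_products {x₁ x₂ y₁ y₂ : k} (h₁ : W.toAffine.Nonsingular x₁ y₁)
    (h₂ : W.toAffine.Nonsingular x₂ y₂) (hxy : ¬(x₁ = x₂ ∧ y₁ = W.toAffine.negY x₂ y₂)) :
    let ℓ := W.toAffine.slope x₁ x₂ y₁ y₂
    let x₃ := W.toAffine.addX x₁ x₂ ℓ
    let y₃ := W.toAffine.negAddY x₁ x₂ y₁ ℓ
    let c := y₁ - ℓ * x₁
    c ≠ 0 ∧ (y₁ - α * x₁) * (y₂ - α * x₂) * (y₃ - α * x₃) = c ^ 3 ∧
      (α = β → x₁ * ((y₂ - α * x₂) * (y₃ - α * x₃)) + x₂ * ((y₁ - α * x₁) * (y₃ - α * x₃))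
        + x₃ * ((y₁ - α * x₁) * (y₂ - α * x₂)) = 0) := by
  intro ℓ x₃ y₃ c
  obtain ⟨e1, e2, e3, hy₂, hy₃⟩ := line_vieta W h₁.1 h₂.1 hxy
  change x₁ + x₂ + x₃ = ℓ ^ 2 + _ * ℓ - _ at e1
  change x₁ * x₂ + x₁ * x₃ + x₂ * x₃ = _ - 2 * c * ℓ - _ * c - _ * ℓ at e2
  change x₁ * x₂ * x₃ = c ^ 2 + _ * c - _ at e3
  change y₂ = ℓ * x₂ + c at hy₂
  change y₃ = ℓ * x₃ + c at hy₃
  rw [hW.a₁, hW.a₂] at e1
  rw [hW.a₁, hW.a₃, hW.a₄] at e2
  rw [hW.a₃, hW.a₆] at e3
  have hy₁ : y₁ = ℓ * x₁ + c := by ring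
  refine ⟨fun hc => ?_, ?_, fun hαβ => ?_⟩
  · have hz : x₁ * x₂ * x₃ = 0 := by rw [e3, hc]; ring
    rcases mul_eq_zero.mp hz with hz | hz
    · rcases mul_eq_zero.mp hz with hz | hz
      · exact hW.x_ne_zero h₁ hz
      · exact hW.x_ne_zero h₂ hz
    · have h3 := Affine.nonsingular_negAdd h₁ h₂ hxy
      exact hW.x_ne_zero (x := x₃) (y := y₃) h3 hz
  · rw [hy₁, hy₂, hy₃]
    linear_combination (ℓ - α) ^ 3 * e3 + (ℓ - α) ^ 2 * c * e2 + (ℓ - α) * c ^ 2 * e1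
  · subst hαβ
    rw [hy₁, hy₂, hy₃]
    linear_combination 3 * (ℓ - α) ^ 2 * e3 + 2 * (ℓ - α) * c * e2 + c ^ 2 * e1

end IsTangentModel

/-- The multiplicative coordinate on the nodal cubic. -/
def nodeVal (α β : k) {W : WeierstrassCurve k} : W.toAffine.Point → k
  | .zero => 1
  | .some x y _ => (y - α * x) / (y - β * x)

/-- The additive coordinate on the cuspidal cubic. -/
def cuspVal (α : k) {W : WeierstrassCurve k} : W.toAffine.Point → k
  | .zero => 0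
  | .some x y _ => x / (y - α * x)

namespace IsTangentModel

variable [DecidableEq k] {W : WeierstrassCurve k} {α β : k} (hW : IsTangentModel W α β)
include hW

lemma nodeVal_ne_zero (P : W.toAffine.Point) : nodeVal α β P ≠ 0 := by
  rcases P with _ | ⟨x, y, h⟩
  · exact one_ne_zero
  · exact div_ne_zero (hW.sub_ne_zero h) (hW.symm.sub_ne_zero h)

lemma nodeVal_add (P Q : W.toAffine.Point) :
    nodeVal α β (P + Q) = nodeVal α β P * nodeVal α β Q := by
  rcases P with _ | ⟨x₁, y₁, h₁⟩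
  · show nodeVal α β (0 + Q) = 1 * _
    rw [zero_add, one_mul]
  rcases Q with _ | ⟨x₂, y₂, h₂⟩
  · show nodeVal α β (_ + 0) = _ * 1
    rw [add_zero, mul_one]
  have hU₁ := hW.sub_ne_zero h₁
  have hV₁ := hW.symm.sub_ne_zero h₁
  have hU₂ := hW.sub_ne_zero h₂
  have hV₂ := hW.symm.sub_ne_zero h₂
  by_cases hxy : x₁ = x₂ ∧ y₁ = W.toAffine.negY x₂ y₂
  · rw [Affine.Point.add_of_Y_eq hxy.1 hxy.2]
    obtain ⟨rfl, rfl⟩ := hxy
    show (1 : k) = (_ - α * x₁) / (_ - β * x₁) * ((y₂ - α * x₁) / (y₂ - β * x₁))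
    rw [hW.negY_sub, hW.symm.negY_sub, neg_div_neg_eq, div_mul_div_comm, mul_comm (y₂ - β * x₁),
      div_self (mul_ne_zero hU₂ hV₂)]
  · rw [Affine.Point.add_some hxy]
    show (W.toAffine.negY _ _ - α * _) / (W.toAffine.negY _ _ - β * _) = _ / _ * (_ / _)
    rw [hW.negY_sub, hW.symm.negY_sub]
    obtain ⟨hc, hU, -⟩ := hW.line_products h₁ h₂ hxy
    obtain ⟨-, hV, -⟩ := hW.symm.line_products h₁ h₂ hxy
    have h3 := Affine.nonsingular_negAdd h₁ h₂ hxy
    have hU₃ := hW.sub_ne_zero h3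
    have hV₃ := hW.symm.sub_ne_zero h3
    rw [neg_div_neg_eq, div_mul_div_comm, div_eq_div_iff hU₃ (mul_ne_zero hV₁ hV₂)]
    linear_combination hV - hU

lemma nodeVal_eq_one_iff (hαβ : α ≠ β) (P : W.toAffine.Point) : nodeVal α β P = 1 ↔ P = 0 := by
  refine ⟨fun h => ?_, fun h => h ▸ rfl⟩
  rcases P with _ | ⟨x, y, hP⟩
  · rfl
  · change (y - α * x) / (y - β * x) = 1 at h
    rw [div_eq_one_iff_eq (hW.symm.sub_ne_zero hP)] at h
    have : (β - α) * x = 0 := by linear_combination h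
    exact absurd this (mul_ne_zero (_root_.sub_ne_zero.mpr hαβ.symm) (hW.x_ne_zero hP))

/-- The group of nonsingular points of a nodal cubic maps to the multiplicative group. -/
def nodeHom : W.toAffine.Point →+ Additive kˣ where
  toFun P := Additive.ofMul (Units.mk0 _ (hW.nodeVal_ne_zero P))
  map_zero' := by
    apply Additive.toMul.injective
    ext; rfl
  map_add' P Q := by
    apply Additive.toMul.injective
    ext
    exact hW.nodeVal_add P Q

lemma nodeHom_apply (P : W.toAffine.Point) :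
    ((Additive.toMul (hW.nodeHom P) : kˣ) : k) = nodeVal α β P := rfl

lemma nodeHom_injective (hαβ : α ≠ β) : Function.Injective hW.nodeHom :=
  (injective_iff_map_eq_zero _).mpr fun P h => (hW.nodeVal_eq_one_iff hαβ P).mp <| by
    rw [← hW.nodeHom_apply, h]; rfl

lemma cuspVal_add (hαβ : α = β) (P Q : W.toAffine.Point) :
    cuspVal α (P + Q) = cuspVal α P + cuspVal α Q := by
  rcases P with _ | ⟨x₁, y₁, h₁⟩
  · show cuspVal α (0 + Q) = 0 + _
    rw [zero_add, zero_add]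
  rcases Q with _ | ⟨x₂, y₂, h₂⟩
  · show cuspVal α (_ + 0) = _ + 0
    rw [add_zero, add_zero]
  subst hαβ
  have hU₁ := hW.sub_ne_zero h₁
  have hU₂ := hW.sub_ne_zero h₂
  by_cases hxy : x₁ = x₂ ∧ y₁ = W.toAffine.negY x₂ y₂
  · rw [Affine.Point.add_of_Y_eq hxy.1 hxy.2]
    obtain ⟨rfl, rfl⟩ := hxy
    show (0 : k) = x₁ / (_ - α * x₁) + x₁ / (y₂ - α * x₁)
    rw [hW.negY_sub, div_neg, neg_add_cancel]
  · rw [Affine.Point.add_some hxy]
    show _ / (W.toAffine.negY _ _ - α * _) = _ / _ + _ / _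
    rw [hW.negY_sub, div_neg]
    obtain ⟨hc, -, hS⟩ := hW.line_products h₁ h₂ hxy
    have hU₃ := hW.sub_ne_zero (Affine.nonsingular_negAdd h₁ h₂ hxy)
    have hS' := hS rfl
    rw [div_add_div _ _ hU₁ hU₂, neg_div', div_eq_div_iff hU₃ (mul_ne_zero hU₁ hU₂)]
    linear_combination -hS'

/-- The group of nonsingular points of a cuspidal cubic maps to the additive group. -/
def cuspHom (hαβ : α = β) : W.toAffine.Point →+ k where
  toFun P := cuspVal α P
  map_zero' := rfl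
  map_add' := hW.cuspVal_add hαβ

end IsTangentModel

end FermatLib.EC
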