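import Fermat.Agent.EC.RedAdd
import Fermat.Agent.EC.RedVarChange
import Fermat.Agent.EC.RedSingular

/-!
# Torsion prime to the residue characteristic injects under reduction
-/

set_option autoImplicit false
set_option linter.unusedSectionVars false

noncomputable section

namespace FermatLib.EC

open WeierstrassCurve

variable {L : Type*} [Field L] [DecidableEq L] {A : ValuationSubring L} {V : WeierstrassCurve L}

/-- A nonzero point reducing to infinity is not killed by an integer invertible at the place. -/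
theorem inE1_eq_zero_of_nsmul_eq_zero (hV : IntegralAt A V) {n : ℕ} (hn : res A (n : L) ≠ 0)
    {P : V.toAffine.Point} (hP : InE1 A P) (hnP : n • P = 0) : P = 0 := by
  classical
  rcases P with _ | ⟨x, y, h⟩
  · rfl
  exfalso
  have hx : x ∉ A := hP
  obtain ⟨hη, hη0, hν, hν1⟩ := hV.inE1_aux h.1 hx
  obtain ⟨hr, hr0⟩ := inv_of_not_mem hx
  have hx0 : x ≠ 0 := fun h' => hx (h' ▸ A.zero_mem)
  have hy0 : y ≠ 0 := fun h' => by simp [h'] at hν1
  have hν0 : res A (y ^ 2 * x⁻¹ ^ 3) ≠ 0 := by rw [hν1]; exact one_ne_zero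
  -- the scaling parameter `u = x / y`
  set u := x / y with hu
  have hu2e : u ^ 2 = x⁻¹ / (y ^ 2 * x⁻¹ ^ 3) := by rw [hu]; field_simp
  have hu2m : u ^ 2 ∈ A := hu2e ▸ div_mem_of_res_ne_zero hr hν0
  have huA : u ∈ A := mem_of_quadratic (x := u) (b := 0) (c := u ^ 2) (by ring) A.zero_mem hu2m
  have hu0 : res A u = 0 := by
    have : res A u ^ 2 = 0 := by rw [← res_pow huA, hu2e, res_div hr hν0, hr0, zero_div]
    exact (pow_eq_zero_iff two_ne_zero).mp this
  have hune : u ≠ 0 := div_ne_zero hx0 hy0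
  let C : WeierstrassCurve.VariableChange L := ⟨(Units.mk0 u hune)⁻¹, 0, 0, 0⟩
  have hCu : ((C.u⁻¹ : Lˣ) : L) = u := by simp [C]
  have hCu' : (C.u : L) = u⁻¹ := by simp [C]
  have ha₁ : (C • V).a₁ = u * V.a₁ := by rw [variableChange_a₁, hCu]; simp [C]
  have ha₂ : (C • V).a₂ = u ^ 2 * V.a₂ := by rw [variableChange_a₂, hCu]; simp [C]
  have ha₃ : (C • V).a₃ = u ^ 3 * V.a₃ := by rw [variableChange_a₃, hCu]; simp [C]
  have ha₄ : (C • V).a₄ = u ^ 4 * V.a₄ := by rw [variableChange_a₄, hCu]; simp [C]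
  have ha₆ : (C • V).a₆ = u ^ 6 * V.a₆ := by rw [variableChange_a₆, hCu]; simp [C]
  have hV' : IntegralAt A (C • V) :=
    ⟨ha₁ ▸ mul_mem huA hV.a₁, ha₂ ▸ mul_mem (pow_mem huA 2) hV.a₂,
      ha₃ ▸ mul_mem (pow_mem huA 3) hV.a₃, ha₄ ▸ mul_mem (pow_mem huA 4) hV.a₄,
      ha₆ ▸ mul_mem (pow_mem huA 6) hV.a₆⟩
  have hred : IsTangentModel (redCurve A (C • V)) 0 0 := by
    refine ⟨?_, ?_, ?_, ?_, ?_⟩ <;> simp only [redCurve]
    · rw [ha₁, res_mul huA hV.a₁, hu0]; simp
    · rw [ha₂, res_mul (pow_mem huA 2) hV.a₂, res_pow huA, hu0]; simp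
    · rw [ha₃, res_mul (pow_mem huA 3) hV.a₃, res_pow huA, hu0]; simp
    · rw [ha₄, res_mul (pow_mem huA 4) hV.a₄, res_pow huA, hu0]; simp
    · rw [ha₆, res_mul (pow_mem huA 6) hV.a₆, res_pow huA, hu0]; simp
  obtain ⟨P', hP'⟩ := (vcEquiv V C).surjective (.some x y h)
  have hnP' : n • P' = 0 := by
    apply (vcEquiv V C).injective
    rw [map_nsmul, hP', map_zero, hnP]
  rcases P' with _ | ⟨x', y', h'⟩
  · exact Affine.Point.some_ne_zero h ((map_zero (vcEquiv V C)).symm.trans hP').symm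
  rw [vcEquiv_some, Affine.Point.some.injEq] at hP'
  obtain ⟨hX, hY⟩ := hP'
  simp only [vcX, vcY, hCu'] at hX hY
  have hx' : x' = 1 / (y ^ 2 * x⁻¹ ^ 3) := by
    have : x' = u ^ 2 * x := by rw [← hX]; simp only [C]; field_simp; ring
    rw [this, hu]; field_simp
  have hy' : y' = 1 / (y ^ 2 * x⁻¹ ^ 3) := by
    have : y' = u ^ 3 * y := by rw [← hY]; simp only [C]; field_simp; ring
    rw [this, hu]; field_simp
  have hx'A : x' ∈ A := hx' ▸ div_mem_of_res_ne_zero A.one_mem hν0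
  have hy'A : y' ∈ A := hy' ▸ div_mem_of_res_ne_zero A.one_mem hν0
  have hxr : res A x' = 1 := by rw [hx', res_div A.one_mem hν0, hν1, res_one, div_one]
  have hyr : res A y' = 1 := by rw [hy', res_div A.one_mem hν0, hν1, res_one, div_one]
  have hns : (redCurve A (C • V)).toAffine.Nonsingular (res A x') (res A y') := by
    refine (Affine.nonsingular_iff' _ _).mpr ⟨hV'.equation_red h'.1 hx'A, ?_⟩
    rw [hxr, hyr, hred.a₁, hred.a₂, hred.a₃, hred.a₄]
    by_contra hc
    rw [not_or, not_not, not_not] at hc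
    obtain ⟨h3, h2⟩ := hc
    have : (1 : IsLocalRing.ResidueField A) = 0 := by linear_combination (-1 : _) * h3 - h2
    exact one_ne_zero this
  have hmem : InE0 A (Affine.Point.some x' y' h') := Or.inr ⟨hx'A, hy'A, hns⟩
  let Pm : E0 hV' := ⟨Affine.Point.some x' y' h', hmem⟩
  have hPm : n • Pm = 0 := Subtype.ext hnP'
  have := congrArg ((hred.cuspHom rfl).comp (redHom hV')) hPm
  rw [map_nsmul, map_zero, AddMonoidHom.comp_apply, redHom_apply] at this
  rw [show redPt A (Pm.1) = Affine.Point.some _ _ hns from redPt_some hx'A hns] at this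
  change n • (res A x' / (res A y' - 0 * res A x')) = 0 at this
  rw [hxr, hyr, zero_mul, sub_zero, div_one, nsmul_one, ← res_natCast (A := A) n] at this
  exact hn this

/-- Torsion prime to the residue characteristic with nonsingular reduction injects. -/
theorem eq_of_redPt_eq (hV : IntegralAt A V) {n : ℕ} (hn : res A (n : L) ≠ 0)
    {P Q : V.toAffine.Point} (hP : InE0 A P) (hQ : InE0 A Q) (hnP : n • P = 0) (hnQ : n • Q = 0)
    (h : redPt A P = redPt A Q) : P = Q := by
  classical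
  rw [← sub_eq_zero]
  have hsub : InE0 A (P - Q) := (E0 hV).sub_mem hP hQ
  refine inE1_eq_zero_of_nsmul_eq_zero hV hn ((redPt_eq_zero_iff hsub).mp ?_)
    (by rw [smul_sub, hnP, hnQ, sub_zero])
  rw [sub_eq_add_neg, (inE0_add_and_redPt_add hV hP (hV.inE0_neg hQ)).2, hV.redPt_neg hQ, h,
    add_neg_cancel]

end FermatLib.EC
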