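import Fermat.Prelude.Def_FLTPrelim_Ramification
import Fermat.Agent.EC.RedModel
import Fermat.Agent.EC.RedTorsion

/-!
# Reduction and the decomposition and inertia groups
-/

set_option autoImplicit false
set_option linter.unusedSectionVars false

noncomputable section

namespace FermatLib.EC

open WeierstrassCurve WeierstrassCurve.Affine.Point
open scoped WeierstrassCurve.Affine Pointwise

section

variable {L : Type*} [Field L] (A : ValuationSubring L)

/-- The automorphism fixes the place and acts trivially on its residue field. -/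
def FixesResidues (σ : L → L) : Prop := ∀ x ∈ A, σ x ∈ A ∧ res A (σ x) = res A x

variable {A}

/-- An automorphism in the inertia subgroup fixes the residues. -/
lemma fixesResidues_of_mem_inertia {S : Type*} [Field S] [Algebra S L] {σ : L ≃ₐ[S] L}
    (hσ : σ ∈ A.inertiaSubgroupIn S) : FixesResidues A σ := by
  obtain ⟨τ, hτ, rfl⟩ := Subgroup.mem_map.mp hσ
  intro x hx
  have hmem : (τ : L ≃ₐ[S] L) x ∈ A := (τ • (⟨x, hx⟩ : A)).2
  refine ⟨hmem, ?_⟩
  show res A ((τ : L ≃ₐ[S] L) x) = res A x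
  have h1 := RingEquiv.congr_fun (MonoidHom.mem_ker.mp hτ) (IsLocalRing.residue A ⟨x, hx⟩)
  rw [res_of_mem hx, res_of_mem hmem]
  exact h1

variable {S : Type*} [CommSemiring S] [Algebra S L] {σ : L ≃ₐ[S] L}

lemma FixesResidues.mem_iff (hσ : FixesResidues A σ) {x : L} : σ x ∈ A ↔ x ∈ A := by
  refine ⟨fun h => ?_, fun h => (hσ x h).1⟩
  by_contra hx
  obtain ⟨hi, hi0⟩ := inv_of_not_mem hx
  obtain ⟨h1, h2⟩ := hσ _ hi
  have hx0 : x ≠ 0 := fun h' => hx (h' ▸ A.zero_mem)
  have : res A (σ x⁻¹) * res A (σ x) = 1 := by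
    rw [← res_mul h1 h, ← map_mul, inv_mul_cancel₀ hx0, map_one, res_one]
  rw [h2, hi0, zero_mul] at this
  exact zero_ne_one this

end

variable {R : Type*} [CommRing R] {S : Type*} [CommRing S] {L : Type*} [Field L] [DecidableEq L]
  [Algebra R S] [Algebra R L] [Algebra S L] [IsScalarTower R S L] {W : WeierstrassCurve.Affine R}
  {A : ValuationSubring L} {σ : L ≃ₐ[S] L}

lemma algEquiv_smul_some {x y : L} (h : (W⁄L).Nonsingular x y) :
    ∃ h', σ • (Affine.Point.some x y h : (W⁄L).Point) = .some (σ x) (σ y) h' :=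
  ⟨_, rfl⟩

/-- The decomposition group preserves the points with nonsingular reduction. -/
theorem inE0_smul_iff (hV : IntegralAt A (W⁄L)) (hσ : ∀ x, σ x ∈ A ↔ x ∈ A) {P : (W⁄L).Point} :
    InE0 A (σ • P) ↔ InE0 A P := by
  rcases P with _ | ⟨x, y, h⟩
  · exact Iff.rfl
  obtain ⟨h', e⟩ := algEquiv_smul_some (σ := σ) h
  rw [e, inE0_some, inE0_some, hσ x]
  refine or_congr Iff.rfl (and_congr_right fun hx => ?_)
  rw [hσ y]
  refine and_congr_right fun _ => ?_
  have hone : ∀ z : L, A.valuation z = 1 ↔ z ≠ 0 ∧ z ∈ A ∧ z⁻¹ ∈ A := fun z => by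
    rw [mem_iff_valuation, mem_iff_valuation, map_inv₀]
    refine ⟨fun hz => ⟨fun h0 => by simp [h0] at hz, hz.le, by simp [hz]⟩, ?_⟩
    rintro ⟨h0, h1, h2⟩
    exact le_antisymm h1 ((inv_le_one₀ (zero_lt_iff.mpr (by simp [h0]))).mp h2)
  have hval : ∀ z, A.valuation (σ z) = 1 ↔ A.valuation z = 1 := fun z => by
    rw [hone, hone, ← map_inv₀, hσ, hσ, map_ne_zero]
  rw [hV.nonsingular_red_iff h'.1 ((hσ x).mpr hx), hV.nonsingular_red_iff h.1 hx,
    ← hval ((W⁄L).a₁ * y - _), ← hval (2 * y + _ + _)]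
  have ha : ∀ r : R, σ (algebraMap R L r) = algebraMap R L r := fun r => by
    rw [IsScalarTower.algebraMap_apply R S L, σ.commutes]
  simp [map_ofNat, ha]

/-- Inertia does not change the reduction of a point. -/
theorem redPt_smul (hV : IntegralAt A (W⁄L)) (hσ : FixesResidues A σ) {P : (W⁄L).Point}
    (hP : InE0 A P) : InE0 A (σ • P) ∧ redPt A (σ • P) = redPt A P := by
  refine ⟨(inE0_smul_iff hV fun x => hσ.mem_iff).mpr hP, ?_⟩
  rcases P with _ | ⟨x, y, h⟩
  · rfl
  obtain ⟨h', e⟩ := algEquiv_smul_some (σ := σ) h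
  rw [e]
  rcases hP with hx | ⟨hx, hy, hns⟩
  · rw [redPt_of_inE1 (P := Affine.Point.some x y h) hx,
      redPt_of_inE1 (P := Affine.Point.some (σ x) (σ y) h') fun hh => hx (hσ.mem_iff.mp hh)]
  · have hns' : (redCurve A (W⁄L)).toAffine.Nonsingular (res A (σ x)) (res A (σ y)) := by
      rw [(hσ x hx).2, (hσ y hy).2]; exact hns
    rw [redPt_some hx hns, redPt_some (hσ x hx).1 hns', Affine.Point.some.injEq]
    exact ⟨(hσ x hx).2, (hσ y hy).2⟩

/-- Inertia fixes torsion prime to the residue characteristic with nonsingular reduction. -/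
theorem smul_eq_self_of_inE0 (hV : IntegralAt A (W⁄L)) (hσ : FixesResidues A σ) {n : ℕ}
    (hn : res A (n : L) ≠ 0) {P : (W⁄L).Point} (hP : InE0 A P) (hnP : n • P = 0) : σ • P = P := by
  obtain ⟨h0, hr⟩ := redPt_smul hV hσ hP
  refine eq_of_redPt_eq hV hn h0 hP ?_ hnP hr
  show n • (DistribSMul.toAddMonoidHom (W⁄L).Point σ P) = 0
  rw [← map_nsmul, hnP, _root_.map_zero]

/-- Good reduction: inertia fixes all torsion prime to the residue characteristic. -/
theorem smul_eq_self_of_good (hV : IntegralAt A (W⁄L)) (hΔ : res A (W⁄L).Δ ≠ 0)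
    (hσ : FixesResidues A σ) {n : ℕ} (hn : res A (n : L) ≠ 0) {P : (W⁄L).Point}
    (hnP : n • P = 0) : σ • P = P :=
  smul_eq_self_of_inE0 hV hσ hn (hV.inE0_of_res_Δ_ne_zero hΔ P) hnP

end FermatLib.EC
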