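import Fermat.Prelude.Def_EllipticCurve_ZeroComponentAt
import Fermat.Agent.EC.RedGalois

/-!
# Integer curves over `AlgebraicClosure ℚ`
-/

set_option autoImplicit false
set_option linter.unusedSectionVars false

noncomputable section

namespace FermatLib.EC

open WeierstrassCurve
open scoped WeierstrassCurve.Affine

variable (W : WeierstrassCurve ℤ) (A : ValuationSubring (AlgebraicClosure ℚ))

lemma intBaseChange_a (n : ℤ) :
    algebraMap ℚ (AlgebraicClosure ℚ) (Int.castRingHom ℚ n) = n := by simp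

/-- An integer curve over `ℚ̄` is integral at every place. -/
lemma integralAt_intCurve :
    IntegralAt A ((W.map (Int.castRingHom ℚ))⁄(AlgebraicClosure ℚ)) := by
  refine integralAt_of_int (a₁ := W.a₁) (a₂ := W.a₂) (a₃ := W.a₃) (a₄ := W.a₄) (a₆ := W.a₆)
    ?_ ?_ ?_ ?_ ?_ <;> exact intBaseChange_a _

lemma redCurve_intCurve :
    redCurve A ((W.map (Int.castRingHom ℚ))⁄(AlgebraicClosure ℚ)) =
      W.map (Int.castRingHom (IsLocalRing.ResidueField A)) := by
  ext <;> simp [redCurve, Affine.baseChange, WeierstrassCurve.baseChange]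

/-- The prelude predicate agrees with `InE0`. -/
lemma inZeroComponentAt_iff (P : ((W.map (Int.castRingHom ℚ))⁄(AlgebraicClosure ℚ)).Point) :
    W.InZeroComponentAt A P ↔ InE0 A P := by
  rcases P with _ | ⟨x, y, h⟩
  · exact iff_of_true (Or.inl rfl) trivial
  rw [inE0_some, redCurve_intCurve]
  constructor
  · rintro (h0 | ⟨x', y', h', e, hc⟩)
    · exact absurd h0 (Affine.Point.some_ne_zero h)
    · obtain ⟨rfl, rfl⟩ := Affine.Point.some.inj e
      refine hc.imp_right ?_
      rintro ⟨hx, hy, hns⟩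
      exact ⟨hx, hy, by rwa [res_of_mem hx, res_of_mem hy]⟩
  · intro hc
    refine Or.inr ⟨x, y, h, rfl, hc.imp_right ?_⟩
    rintro ⟨hx, hy, hns⟩
    exact ⟨hx, hy, by rwa [res_of_mem hx, res_of_mem hy] at hns⟩

/-- The residue of the natural number `n` is nonzero unless the residue characteristic divides
`n`. -/
lemma res_natCast_ne_zero {q n : ℕ} (hq : q.Prime) (hA : A.LiesOverPrime q) (hn : ¬q ∣ n) :
    res A (n : AlgebraicClosure ℚ) ≠ 0 := by
  obtain ⟨-, hq0⟩ := mem_nonunits_iff_res.mp hA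
  intro h0
  rw [res_natCast] at h0 hq0
  have hco : q.Coprime n := hq.coprime_iff_not_dvd.mpr hn
  have key : ((1 : ℤ) : IsLocalRing.ResidueField A) = 0 := by
    have hb := Nat.gcd_eq_gcd_ab q n
    rw [hco] at hb
    rw [Nat.cast_one] at hb
    rw [hb]
    push_cast
    rw [hq0, h0]
    ring
  rw [Int.cast_one] at key
  exact one_ne_zero key

/-- An integer has nonzero residue iff it is prime to the residue characteristic. -/
lemma res_intCast_ne_zero_iff {q : ℕ} (hq : q.Prime) (hA : A.LiesOverPrime q) (n : ℤ) :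
    res A (n : AlgebraicClosure ℚ) ≠ 0 ↔ ¬(q : ℤ) ∣ n := by
  obtain ⟨-, hq0⟩ := mem_nonunits_iff_res.mp hA
  rw [res_natCast] at hq0
  constructor
  · rintro h ⟨m, rfl⟩
    apply h
    rw [res_intCast]
    push_cast
    rw [hq0, zero_mul]
  · intro h h0
    have hn : res A (n.natAbs : AlgebraicClosure ℚ) ≠ 0 :=
      res_natCast_ne_zero A hq hA fun hd => h (Int.natCast_dvd.mpr hd)
    apply hn
    rw [res_intCast] at h0
    rw [res_natCast]
    rcases Int.natAbs_eq n with e | e <;> rw [e] at h0 <;> simpa using h0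

lemma res_Δ_intCurve :
    ((W.map (Int.castRingHom ℚ))⁄(AlgebraicClosure ℚ)).Δ = (W.Δ : AlgebraicClosure ℚ) := by
  simp [Affine.baseChange, WeierstrassCurve.baseChange]

lemma res_c₄_intCurve :
    ((W.map (Int.castRingHom ℚ))⁄(AlgebraicClosure ℚ)).c₄ = (W.c₄ : AlgebraicClosure ℚ) := by
  simp [Affine.baseChange, WeierstrassCurve.baseChange]

end FermatLib.EC
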