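import Fermat.Prelude.Def_EllipticCurve_FrobeniusTrace
import Fermat.Prelude.Def_GaloisRep_Residual
import Fermat.Agent.EC.Torsion
import Fermat.Agent.EC.RedBridge
import Fermat.Agent.EC.Frob.Relation
import Mathlib.Algebra.Algebra.ZMod
import Mathlib.LinearAlgebra.Matrix.Charpoly.Coeff
import Mathlib.LinearAlgebra.Charpoly.ToMatrix

/-!
# The Frobenius relation on torsion points

At a good prime `l` not dividing `n`, a Frobenius `σ` satisfies `σ² - a_l σ + l = 0` on `E[n]`,
with `a_l = apOfModel`.
-/

set_option autoImplicit false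

noncomputable section

namespace FermatLib.EC

open WeierstrassCurve WeierstrassCurve.Affine.Point
open scoped WeierstrassCurve.Affine Pointwise

lemma phi_one_eq {k L : Type*} [Field k] [Fintype k] [Field L] [DecidableEq L] [Algebra k L]
    (W : WeierstrassCurve k) :
    Weil.phi W.toAffine L 1 =
      Affine.Point.map (W' := W.toAffine) (FiniteField.frobeniusAlgHom k L) := by
  rw [Weil.phi, show Weil.frobJ k L 1 = FiniteField.frobeniusAlgHom k L from
    AlgHom.ext fun x => by simp [Weil.frobJ_apply]]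

/-- The fixed points of Frobenius are the rational points. -/
lemma natCard_phiFix_one {k L : Type*} [Field k] [Fintype k] [Field L] [DecidableEq L]
    [IsAlgClosed L] [Algebra k L] (W : WeierstrassCurve k) :
    Nat.card (Weil.phiFix W.toAffine L 1) = W.card := by
  classical
  let f : k →ₐ[k] L := Algebra.ofId k L
  have hfix : ∀ c : L, c ^ Fintype.card k = c → ∃ a, f a = c := by
    intro c hc
    have hcard : (Finset.univ.image (algebraMap k L)).card = Fintype.card k := by
      rw [Finset.card_image_of_injective _ (algebraMap k L).injective, Finset.card_univ]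
    have hroots := Weil.card_fixed_elements (k := k) (L := L) one_ne_zero
    rw [pow_one] at hroots
    have hmem : ∀ c : L, c ^ Fintype.card k = c →
        c ∈ (Polynomial.X ^ Fintype.card k - Polynomial.X : Polynomial L).roots.toFinset := by
      intro c hc
      rw [Multiset.mem_toFinset, Polynomial.mem_roots', Polynomial.IsRoot.def, Polynomial.eval_sub,
        Polynomial.eval_pow, Polynomial.eval_X, hc, sub_self]
      refine ⟨fun h0 => ?_, rfl⟩
      have h1 : (Polynomial.X ^ Fintype.card k - Polynomial.X : Polynomial L).natDegree = 0 := by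
        rw [h0]; simp
      rw [FiniteField.X_pow_card_sub_X_natDegree_eq L Fintype.one_lt_card] at h1
      exact Fintype.card_ne_zero h1
    have hsub := Finset.eq_of_subset_of_card_le (s := Finset.univ.image (algebraMap k L))
      (t := (Polynomial.X ^ Fintype.card k - Polynomial.X : Polynomial L).roots.toFinset)
      (fun x hx => by
        obtain ⟨a, -, rfl⟩ := Finset.mem_image.mp hx
        exact hmem _ (by rw [← map_pow, FiniteField.pow_card]))
      (by rw [hroots, hcard])
    have := hmem c hc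
    rw [← hsub, Finset.mem_image] at this
    obtain ⟨a, -, ha⟩ := this
    exact ⟨a, ha⟩
  have hW : (W⁄k : WeierstrassCurve k) = W := W.map_id
  rw [show W.card = Nat.card (W⁄k).Point by rw [WeierstrassCurve.card, hW]]
  refine (Nat.card_congr (Equiv.ofBijective (fun P : (W⁄k).Point =>
    (⟨Affine.Point.map (W' := W.toAffine) f P, ?_⟩ : Weil.phiFix W.toAffine L 1)) ⟨?_, ?_⟩)).symm
  · rw [Weil.mem_phiFix]
    rcases P with _ | ⟨x, y, h⟩
    · simp [← Affine.Point.zero_def]
    · simp only [Weil.phi, Affine.Point.map_some, Weil.frobJ_apply,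
        pow_one, ← map_pow, FiniteField.pow_card]
  · exact fun P Q h => Affine.Point.map_injective (W' := W.toAffine) f (congrArg Subtype.val h)
  · rintro ⟨P, hP⟩
    rw [Weil.mem_phiFix] at hP
    rcases P with _ | ⟨x, y, h⟩
    · exact ⟨0, Subtype.ext (by simp [← Affine.Point.zero_def])⟩
    · rw [Weil.phi, Affine.Point.map_some, Affine.Point.some.injEq, Weil.frobJ_apply,
        Weil.frobJ_apply, pow_one] at hP
      obtain ⟨a, rfl⟩ := hfix x hP.1
      obtain ⟨b, rfl⟩ := hfix y hP.2
      exact ⟨.some a b ((W.toAffine.baseChange_nonsingular f.injective a b).mp h), Subtype.ext rfl⟩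

lemma phiTrace_eq {k L : Type*} [Field k] [Fintype k] [Field L] [DecidableEq L]
    [IsAlgClosed L] [Algebra k L] (W : WeierstrassCurve k) :
    Weil.phiTrace W.toAffine L = W.traceOfFrobenius := by
  rw [Weil.phiTrace, natCard_phiFix_one, WeierstrassCurve.traceOfFrobenius, Nat.card_eq_fintype_card]

/-- The characteristic equation of Frobenius over a finite field. -/
theorem finiteField_frobenius_relation {k L : Type*} [Field k] [Fintype k] [Field L]
    [DecidableEq L] [IsAlgClosed L] [Algebra k L] (W : WeierstrassCurve k) [W.IsElliptic]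
    (P : (W⁄L).Point) :
    Affine.Point.map (W' := W.toAffine) (FiniteField.frobeniusAlgHom k L)
        (Affine.Point.map (W' := W.toAffine) (FiniteField.frobeniusAlgHom k L) P)
      - W.traceOfFrobenius • Affine.Point.map (W' := W.toAffine) (FiniteField.frobeniusAlgHom k L) P
      + (Fintype.card k : ℤ) • P = 0 := by
  have : (W.toAffine⁄L).IsElliptic := inferInstanceAs (W.map (algebraMap k L)).IsElliptic
  have h := Weil.phi_relation (W := W.toAffine) P
  rwa [phiTrace_eq, phi_one_eq] at h

/-- The Hasse bound. -/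
theorem sq_traceOfFrobenius_le {k : Type*} [Field k] [Fintype k] (W : WeierstrassCurve k)
    [W.IsElliptic] : W.traceOfFrobenius ^ 2 ≤ 4 * (Fintype.card k : ℤ) := by
  classical
  have : (W.toAffine⁄(AlgebraicClosure k)).IsElliptic :=
    inferInstanceAs (W.map (algebraMap k (AlgebraicClosure k))).IsElliptic
  rw [← phiTrace_eq (L := AlgebraicClosure k) W]
  exact Weil.sq_phiTrace_le W.toAffine (AlgebraicClosure k)

variable {W : WeierstrassCurve ℤ} {l n : ℕ} {A : ValuationSubring (AlgebraicClosure ℚ)}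
  {σ : AlgebraicClosure ℚ ≃ₐ[ℚ] AlgebraicClosure ℚ}

lemma reductionMod_isElliptic {W : WeierstrassCurve ℤ} {l : ℕ} (hl : l.Prime)
    (hgood : W.IsGoodPrimeFor l) : (W.reductionMod l).IsElliptic := by
  have := Fact.mk hl
  refine ⟨isUnit_iff_ne_zero.mpr ?_⟩
  rw [reductionMod, map_Δ, eq_intCast, Ne, ZMod.intCast_zmod_eq_zero_iff_dvd]
  exact hgood

/-- The Hasse bound at a good prime of an integral model. -/
theorem sq_apOfModel_le (hl : l.Prime) (hgood : W.IsGoodPrimeFor l) :
    W.apOfModel l ^ 2 ≤ 4 * (l : ℤ) := by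
  have := Fact.mk hl
  have := reductionMod_isElliptic hl hgood
  have h := sq_traceOfFrobenius_le (W.reductionMod l)
  rwa [ZMod.card] at h

/-- The transport of points along an equality of curves. -/
def frobPointCongr {K : Type*} [Field K] [DecidableEq K] {V V' : WeierstrassCurve K} (h : V = V') :
    V.toAffine.Point ≃+ V'.toAffine.Point :=
  h ▸ AddEquiv.refl _

lemma frobPointCongr_some {K : Type*} [Field K] [DecidableEq K] {V V' : WeierstrassCurve K}
    (h : V = V') {x y : K} (hxy : V.toAffine.Nonsingular x y) :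
    frobPointCongr h (.some x y hxy) = .some x y (h ▸ hxy) := by
  subst h; rfl

/-- `σ² - a_l σ + l = 0` on `E[n](ℚ̄)`. -/
theorem frobenius_relation (hl : l.Prime) (hgood : W.IsGoodPrimeFor l) (hA : A.LiesOverPrime l)
    (hσ : A.IsFrobeniusAt σ l) (hn : ¬ l ∣ n)
    (P : ((W.map (Int.castRingHom ℚ))⁄(AlgebraicClosure ℚ)).Point) (hP : n • P = 0) :
    σ • σ • P - W.apOfModel l • σ • P + (l : ℤ) • P = 0 := by
  classical
  have := Fact.mk hl
  have := reductionMod_isElliptic hl hgood
  have hV : IntegralAt A ((W.map (Int.castRingHom ℚ))⁄(AlgebraicClosure ℚ)) := integralAt_intCurve W A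
  have hl0 : ((l : ℕ) : IsLocalRing.ResidueField A) = 0 := by
    rw [← res_natCast]; exact (mem_nonunits_iff_res.mp hA).2
  have : CharP (IsLocalRing.ResidueField A) l :=
    (CharP.charP_iff_prime_eq_zero hl).mpr hl0
  set L := AlgebraicClosure (IsLocalRing.ResidueField A) with hLdef
  have : CharP L l :=
    charP_of_injective_algebraMap (algebraMap (IsLocalRing.ResidueField A) L).injective l
  let _ := ZMod.algebra L l
  let ι := algebraMap (IsLocalRing.ResidueField A) L
  have c1 : (redCurve A ((W.map (Int.castRingHom ℚ))⁄(AlgebraicClosure ℚ)) : WeierstrassCurve _) =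
      (redCurve A ((W.map (Int.castRingHom ℚ))⁄(AlgebraicClosure ℚ)))⁄(IsLocalRing.ResidueField A) := (redCurve A ((W.map (Int.castRingHom ℚ))⁄(AlgebraicClosure ℚ))).map_id.symm
  have c2 : ((redCurve A ((W.map (Int.castRingHom ℚ))⁄(AlgebraicClosure ℚ)))⁄L : WeierstrassCurve L) = (W.reductionMod l)⁄L := by
    change (redCurve A ((W.map (Int.castRingHom ℚ))⁄(AlgebraicClosure ℚ))).map ι = ((W.map (Int.castRingHom (ZMod l))).map (algebraMap (ZMod l) L))
    rw [redCurve_intCurve, WeierstrassCurve.map_map, WeierstrassCurve.map_map]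
    exact congrArg W.map (RingHom.ext_int _ _)
  let F : E0 hV →+ ((W.reductionMod l)⁄L).Point :=
    (frobPointCongr c2).toAddMonoidHom.comp
      ((Affine.Point.map (W' := (redCurve A ((W.map (Int.castRingHom ℚ))⁄(AlgebraicClosure ℚ))).toAffine)
          (Algebra.ofId (IsLocalRing.ResidueField A) L)).comp
        ((frobPointCongr c1).toAddMonoidHom.comp (redHom hV)))
  have hall : ∀ Q : ((W.map (Int.castRingHom ℚ))⁄(AlgebraicClosure ℚ)).Point, InE0 A Q := hV.inE0_of_res_Δ_ne_zero <| by
    rw [res_Δ_intCurve]; exact (res_intCast_ne_zero_iff A hl hA _).mpr hgood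
  have hker : ∀ Q : E0 hV, F Q = 0 → InE1 A Q.1 := fun Q hQ => by
    refine (redPt_eq_zero_iff Q.2).mp ?_
    apply (frobPointCongr c1).injective
    apply Affine.Point.map_injective (W' := (redCurve A ((W.map (Int.castRingHom ℚ))⁄(AlgebraicClosure ℚ))).toAffine)
      (Algebra.ofId (IsLocalRing.ResidueField A) L)
    apply (frobPointCongr c2).injective
    rw [_root_.map_zero, _root_.map_zero, _root_.map_zero]
    exact hQ
  -- the reduction of `σ` is Frobenius
  have hmem : ∀ x, σ x ∈ A ↔ x ∈ A := fun x => by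
    have hs : σ • A = A := hσ.mem_decompositionSubgroup
    conv_lhs => rw [← hs]
    exact ValuationSubring.smul_mem_pointwise_smul_iff
  have hres : ∀ x ∈ A, res A (σ x) = res A x ^ l := fun x hx => by
    have h1 := hσ.smul_residue_eq (IsLocalRing.residue A ⟨x, hx⟩)
    rw [res_of_mem hx, res_of_mem ((hmem x).mpr hx)]
    exact h1
  have hF : ∀ Q : E0 hV, F ⟨σ • Q.1, hall _⟩ =
      Affine.Point.map (W' := (W.reductionMod l).toAffine)
        (FiniteField.frobeniusAlgHom (ZMod l) L) (F Q) := by
    rintro ⟨Q, hQ⟩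
    rcases Q with _ | ⟨x, y, h⟩
    · have e : (⟨σ • (0 : ((W.map (Int.castRingHom ℚ))⁄(AlgebraicClosure ℚ)).Point), hall (σ • (0 : ((W.map (Int.castRingHom ℚ))⁄(AlgebraicClosure ℚ)).Point))⟩ : E0 hV) = 0 := Subtype.ext (smul_zero σ)
      exact ((congrArg F e).trans (_root_.map_zero F)).trans
        ((_root_.map_zero (Affine.Point.map _)).symm.trans (congrArg _ (_root_.map_zero F).symm))
    obtain ⟨h', e⟩ := algEquiv_smul_some (σ := σ) h
    rcases hQ with hx | ⟨hx, hy, hns⟩
    · have e1 : F ⟨Affine.Point.some x y h, Or.inl hx⟩ = 0 := by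
        simp only [F, AddMonoidHom.comp_apply, redHom_apply]
        rw [redPt_of_inE1 (P := Affine.Point.some x y h) hx]
        simp
      have e2 : F ⟨σ • Affine.Point.some x y h, hall (σ • Affine.Point.some x y h)⟩ = 0 := by
        simp only [F, AddMonoidHom.comp_apply, redHom_apply]
        rw [show redPt A (σ • Affine.Point.some x y h) = 0 from e ▸
          redPt_of_inE1 (P := Affine.Point.some (σ x) (σ y) h') fun hh => hx ((hmem x).mp hh)]
        simp
      rw [e2, e1, _root_.map_zero]
    · have hns' : (redCurve A ((W.map (Int.castRingHom ℚ))⁄(AlgebraicClosure ℚ))).toAffine.Nonsingular (res A (σ x)) (res A (σ y)) := by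
        rcases hall (Affine.Point.some (σ x) (σ y) h') with h1 | ⟨-, -, h1⟩
        · exact absurd ((hmem x).mpr hx) h1
        · exact h1
      simp only [F, AddMonoidHom.comp_apply, redHom_apply]
      rw [show redPt A (σ • Affine.Point.some x y h) = _ from
          e ▸ redPt_some (h := h') ((hmem x).mpr hx) hns', redPt_some hx hns]
      simp only [AddEquiv.coe_toAddMonoidHom, frobPointCongr_some, Affine.Point.map_some,
        FiniteField.coe_frobeniusAlgHom, ZMod.card, hres x hx, hres y hy,
        map_pow]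
  have hPn : n • (σ • σ • P - W.apOfModel l • σ • P + (l : ℤ) • P) = 0 := by
    have hs : ∀ Q : ((W.map (Int.castRingHom ℚ))⁄(AlgebraicClosure ℚ)).Point, n • Q = 0 → n • (σ • Q) = 0 := fun Q hQ => by
      change n • DistribSMul.toAddMonoidHom _ σ Q = 0
      rw [← map_nsmul, hQ, _root_.map_zero]
    let T : AddSubgroup ((W.map (Int.castRingHom ℚ))⁄(AlgebraicClosure ℚ)).Point := (nsmulAddMonoidHom n).ker
    exact T.add_mem (T.sub_mem (hs _ (hs _ hP)) (T.zsmul_mem (hs _ hP) _)) (T.zsmul_mem hP _)
  refine inE1_eq_zero_of_nsmul_eq_zero hV (res_natCast_ne_zero A hl hA hn) ?_ hPn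
  refine hker ⟨_, hall _⟩ ?_
  have e : (⟨_, hall (σ • σ • P - W.apOfModel l • σ • P + (l : ℤ) • P)⟩ : E0 hV) =
      ⟨σ • σ • P, hall _⟩ - W.apOfModel l • ⟨σ • P, hall _⟩ + (l : ℤ) • ⟨P, hall _⟩ := rfl
  rw [e, map_add, map_sub, map_zsmul, map_zsmul, hF ⟨σ • P, hall _⟩, hF ⟨P, hall _⟩]
  have h := finiteField_frobenius_relation (W.reductionMod l) (F ⟨P, hall _⟩)
  rwa [ZMod.card] at h

/-- `σ² - a_l σ + l = 0` in `End E[n]`. -/
theorem galoisRepModuleEnd_frobenius_relation (hl : l.Prime) (hgood : W.IsGoodPrimeFor l)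
    (hA : A.LiesOverPrime l) (hσ : A.IsFrobeniusAt σ l) (hn : ¬ l ∣ n) :
    galoisRepModuleEnd (K := AlgebraicClosure ℚ) ℚ (W.map (Int.castRingHom ℚ)) n σ *
        galoisRepModuleEnd (K := AlgebraicClosure ℚ) ℚ (W.map (Int.castRingHom ℚ)) n σ
      - ((W.apOfModel l : ℤ) : ZMod n) •
        galoisRepModuleEnd (K := AlgebraicClosure ℚ) ℚ (W.map (Int.castRingHom ℚ)) n σ
      + (l : ZMod n) • 1 = 0 := by
  refine LinearMap.ext fun P => Subtype.ext ?_
  simp only [LinearMap.add_apply, LinearMap.sub_apply, Module.End.mul_apply,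
    LinearMap.smul_apply, Module.End.one_apply, galoisRepModuleEnd_apply, LinearMap.zero_apply,
    Int.cast_smul_eq_zsmul]
  have hl' : (l : ZMod n) • P = (l : ℤ) • P := by
    rw [← Int.cast_smul_eq_zsmul (ZMod n), Int.cast_natCast]
  rw [hl']
  exact frobenius_relation hl hgood hA hσ hn P.1 (by
    rw [← natCast_zsmul]; exact (Submodule.mem_torsionBy_iff _ _).mp P.2)

/-- The trace of Frobenius on `E[p]` is `a_l`, given that its determinant is `l`. -/
theorem galoisTrace_frobenius_of_det (hl : l.Prime) (hgood : W.IsGoodPrimeFor l)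
    (hA : A.LiesOverPrime l) (hσ : A.IsFrobeniusAt σ l) {p : ℕ} [Fact p.Prime] (hp : l ≠ p)
    (hdet : LinearMap.det
      (galoisRepModuleEnd (K := AlgebraicClosure ℚ) ℚ (W.map (Int.castRingHom ℚ)) p σ) =
        (l : ZMod p)) :
    galoisTrace (K := AlgebraicClosure ℚ) ℚ (W.map (Int.castRingHom ℚ)) p σ =
      ((W.apOfModel l : ℤ) : ZMod p) := by
  have : (W.map (Int.castRingHom ℚ)).IsElliptic := by
    refine ⟨isUnit_iff_ne_zero.mpr ?_⟩
    rw [map_Δ, eq_intCast, Int.cast_ne_zero]
    intro h0
    exact hgood (h0 ▸ dvd_zero _)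
  have hp' : ¬ l ∣ p := fun h => hp ((Nat.prime_dvd_prime_iff_eq hl Fact.out).mp h)
  have hrank := finrank_torsionBy_baseChange (K := AlgebraicClosure ℚ) (p := p)
    (W.map (Int.castRingHom ℚ)) (Nat.cast_ne_zero.mpr (Fact.out : p.Prime).ne_zero)
  have : Module.Finite (ZMod p) (Submodule.torsionBy ℤ
      ((W.map (Int.castRingHom ℚ))⁄(AlgebraicClosure ℚ)).Point (p : ℤ)) :=
    Module.finite_of_finrank_eq_succ hrank
  have hrel := galoisRepModuleEnd_frobenius_relation hl hgood hA hσ hp'
  set f := galoisRepModuleEnd (K := AlgebraicClosure ℚ) ℚ (W.map (Int.castRingHom ℚ)) p σ with hf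
  rw [galoisTrace_def]
  have hCH := LinearMap.aeval_self_charpoly f
  let b := Module.finBasisOfFinrankEq _ _ hrank
  rw [← LinearMap.charpoly_toMatrix f b, Matrix.charpoly_fin_two,
    ← LinearMap.trace_eq_matrix_trace _ b, LinearMap.det_toMatrix, hdet] at hCH
  simp only [map_sub, map_add, map_mul, Polynomial.aeval_X, Polynomial.aeval_C,
    Algebra.algebraMap_eq_smul_one, smul_mul_assoc, one_mul, pow_two] at hCH
  set t := LinearMap.trace (ZMod p) _ f
  have h0 : (((W.apOfModel l : ℤ) : ZMod p) - t) • f = 0 := by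
    have e := congrArg₂ (· - ·) hCH hrel
    simp only [sub_zero] at e
    rw [sub_smul, ← e]; abel
  obtain ⟨x, hx⟩ := (Module.finrank_pos_iff_exists_ne_zero (R := ZMod p)).mp
    (hrank.symm ▸ two_pos : 0 < Module.finrank (ZMod p) (Submodule.torsionBy ℤ
      ((W.map (Int.castRingHom ℚ))⁄(AlgebraicClosure ℚ)).Point (p : ℤ)))
  have h1 := LinearMap.congr_fun h0 x
  rw [LinearMap.smul_apply, LinearMap.zero_apply, smul_eq_zero, sub_eq_zero] at h1
  exact (h1.resolve_right fun h2 => hx ((smul_eq_zero_iff_eq σ).mp h2)).symm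

end FermatLib.EC
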