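import Mathlib.AlgebraicGeometry.EllipticCurve.Affine.AddSubMap
import Mathlib.Tactic.FieldSimp
import Mathlib.Tactic.LinearCombination

/-!
# The addition-and-subtraction map computes `(x(P + Q), x(P - Q))`
-/

open WeierstrassCurve WeierstrassCurve.Affine

namespace FermatLib.EC

/-- Evaluation of `WeierstrassCurve.addSubMap` at a triple. -/
def addSubVec {R : Type*} [CommRing R] (W : WeierstrassCurve R) (v : Fin 3 → R) : Fin 3 → R :=
  ![v 0 ^ 2 - W.b₄ * v 0 * v 2 - W.b₆ * v 1 * v 2 - W.b₈ * v 2 ^ 2,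
    2 * v 1 * v 0 + W.b₂ * v 0 * v 2 + W.b₄ * v 1 * v 2 + W.b₆ * v 2 ^ 2,
    v 1 ^ 2 - 4 * v 0 * v 2]

/-- The symmetric product of two vectors of length `2`. -/
def symVec {R : Type*} [CommRing R] (v w : Fin 2 → R) : Fin 3 → R :=
  ![v 0 * w 0, v 0 * w 1 + v 1 * w 0, v 1 * w 1]

lemma addSubVec_eq_eval {R : Type*} [CommRing R] (W : WeierstrassCurve R) (v : Fin 3 → R) :
    addSubVec W v = fun i => (addSubMap W i).eval v := by
  funext i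
  fin_cases i <;> simp [addSubVec, addSubMap]

lemma addSubVec_ne_zero {R : Type*} [CommRing R] [IsReduced R] (W : WeierstrassCurve R)
    [W.IsElliptic] {v : Fin 3 → R} (hv : v ≠ 0) : addSubVec W v ≠ 0 :=
  addSubVec_eq_eval W v ▸ W.addSubMap_ne_zero hv

lemma sym2x_eq_symVec {R : Type*} [CommRing R] {W : WeierstrassCurve.Affine R} (P Q : W.Point) :
    P.sym2x Q = symVec P.xRep Q.xRep := rfl

lemma addSubVec_smul {R : Type*} [CommRing R] (W : WeierstrassCurve R) (c : R) (v : Fin 3 → R) :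
    addSubVec W (c • v) = c ^ 2 • addSubVec W v := by
  funext i
  fin_cases i <;> simp [addSubVec] <;> ring

variable {F : Type*} [Field F] [DecidableEq F] {W : WeierstrassCurve.Affine F}

/-- `x(P + Q) + x(P - Q)`, cleared of denominators. -/
lemma addX_add_addX_negY {x₁ x₂ y₁ y₂ : F} (h₁ : W.Equation x₁ y₁) (h₂ : W.Equation x₂ y₂)
    (hx : x₁ ≠ x₂) :
    (W.addX x₁ x₂ (W.slope x₁ x₂ y₁ y₂) + W.addX x₁ x₂ (W.slope x₁ x₂ y₁ (W.negY x₂ y₂))) *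
        (x₁ - x₂) ^ 2 =
      2 * (x₁ + x₂) * (x₁ * x₂) + W.b₂ * (x₁ * x₂) + W.b₄ * (x₁ + x₂) + W.b₆ := by
  rw [equation_iff] at h₁ h₂
  have hd : x₁ - x₂ ≠ 0 := sub_ne_zero.mpr hx
  simp only [slope_of_X_ne hx, addX, negY, b₂, b₄, b₆]
  field_simp
  linear_combination 2 * h₁ + 2 * h₂

/-- `x(P + Q) * x(P - Q)`, cleared of denominators. -/
lemma addX_mul_addX_negY {x₁ x₂ y₁ y₂ : F} (h₁ : W.Equation x₁ y₁) (h₂ : W.Equation x₂ y₂)
    (hx : x₁ ≠ x₂) :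
    (W.addX x₁ x₂ (W.slope x₁ x₂ y₁ y₂) * W.addX x₁ x₂ (W.slope x₁ x₂ y₁ (W.negY x₂ y₂))) *
        (x₁ - x₂) ^ 2 =
      (x₁ * x₂) ^ 2 - W.b₄ * (x₁ * x₂) - W.b₆ * (x₁ + x₂) - W.b₈ := by
  rw [equation_iff] at h₁ h₂
  have hd : x₁ - x₂ ≠ 0 := sub_ne_zero.mpr hx
  have hd2 : (x₁ - x₂) ^ 2 ≠ 0 := pow_ne_zero 2 hd
  apply mul_right_cancel₀ hd2
  simp only [slope_of_X_ne hx, addX, negY, b₄, b₆, b₈]
  field_simp
  linear_combination
    (W.a₆ - 2*y₂*W.a₃ - 2*y₂^2 + y₁*W.a₃ + y₁^2 - x₂*W.a₁*W.a₃ - 2*x₂*y₂*W.a₁ - 2*x₂^2*W.a₂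
      - x₂^2*W.a₁^2 - 2*x₂^3 + x₁*W.a₄ + x₁*W.a₁*W.a₃ + x₁*y₁*W.a₁ + 4*x₁*x₂*W.a₂
      + x₁*x₂*W.a₁^2 + 2*x₁*x₂^2 - x₁^2*W.a₂ + 2*x₁^2*x₂ - x₁^3) * h₁ +
    (-W.a₆ + y₂*W.a₃ + y₂^2 + x₂*W.a₄ + x₂*W.a₁*W.a₃ + x₂*y₂*W.a₁ - x₂^2*W.a₂ - x₂^3
      - 2*x₁*W.a₄ - x₁*W.a₁*W.a₃ + 4*x₁*x₂*W.a₂ + x₁*x₂*W.a₁^2 + 2*x₁*x₂^2 - 4*x₁^2*W.a₂
      - x₁^2*W.a₁^2 + 2*x₁^2*x₂ - 4*x₁^3) * h₂

/-- The duplication formula for `x`. -/
lemma addX_self_mul_sq {x y : F} (h : W.Equation x y) (hy : y ≠ W.negY x y) :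
    W.addX x x (W.slope x x y y) * (y - W.negY x y) ^ 2 =
      x ^ 4 - W.b₄ * x ^ 2 - 2 * W.b₆ * x - W.b₈ := by
  rw [equation_iff] at h
  rw [slope_of_Y_ne rfl hy]
  have hd : y - W.negY x y ≠ 0 := sub_ne_zero.mpr hy
  have hL := div_mul_cancel₀ (3 * x ^ 2 + 2 * W.a₂ * x + W.a₄ - W.a₁ * y) hd
  simp only [addX, negY, b₄, b₆, b₈] at hL ⊢
  generalize (3 * x ^ 2 + 2 * W.a₂ * x + W.a₄ - W.a₁ * y) /
    (y - (-y - W.a₁ * x - W.a₃)) = L at hL ⊢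
  linear_combination (L * (y - (-y - W.a₁ * x - W.a₃)) +
      (3 * x ^ 2 + 2 * W.a₂ * x + W.a₄ - W.a₁ * y) + W.a₁ * (y - (-y - W.a₁ * x - W.a₃))) * hL +
    (-8 * x - W.a₁ ^ 2 - 4 * W.a₂) * h

omit [DecidableEq F] in
lemma sq_sub_negY {x y : F} (h : W.Equation x y) :
    (y - W.negY x y) ^ 2 = 4 * x ^ 3 + W.b₂ * x ^ 2 + 2 * W.b₄ * x + W.b₆ := by
  rw [equation_iff] at h
  simp only [negY, b₂, b₄, b₆]
  linear_combination 4 * h

omit [DecidableEq F] in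
lemma addSubVec_symVec_self (x : F) :
    addSubVec W (symVec ![x, 1] ![x, 1]) =
      ![x ^ 4 - W.b₄ * x ^ 2 - 2 * W.b₆ * x - W.b₈,
        4 * x ^ 3 + W.b₂ * x ^ 2 + 2 * W.b₄ * x + W.b₆, 0] := by
  funext i
  fin_cases i <;> simp [addSubVec, symVec] <;> ring

lemma addSubVec_sym2x_self [W.IsElliptic] {x y : F} (h : W.Nonsingular x y) :
    ∃ c : F, c ≠ 0 ∧ addSubVec W ((Point.some x y h).sym2x (Point.some x y h)) =
      c • (Point.some x y h + Point.some x y h).sym2x 0 := by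
  rw [sym2x_eq_symVec, Point.xRep_some, addSubVec_symVec_self]
  by_cases hy : y = W.negY x y
  · rw [Point.add_self_of_Y_eq hy, Point.sym2x_zero_zero]
    have h0 : 4 * x ^ 3 + W.b₂ * x ^ 2 + 2 * W.b₄ * x + W.b₆ = 0 := by
      rw [← sq_sub_negY h.left, sub_eq_zero.mpr hy, zero_pow two_ne_zero]
    have hne : addSubVec W (symVec ![x, (1 : F)] ![x, 1]) ≠ 0 :=
      addSubVec_ne_zero W fun hc => by simpa [symVec] using congrFun hc 2
    rw [addSubVec_symVec_self, h0] at hne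
    refine ⟨x ^ 4 - W.b₄ * x ^ 2 - 2 * W.b₆ * x - W.b₈, fun hc => hne ?_, ?_⟩
    · funext i
      fin_cases i <;> simp [hc]
    · funext i
      fin_cases i <;> simp [h0]
  · rw [Point.add_self_of_Y_ne hy, Point.sym2x_some_zero]
    refine ⟨(y - W.negY x y) ^ 2, pow_ne_zero 2 (sub_ne_zero.mpr hy), ?_⟩
    rw [← addX_self_mul_sq h.left hy, ← sq_sub_negY h.left]
    funext i
    fin_cases i <;> simp [mul_comm]

/-- The addition-and-subtraction map really computes `(x(P + Q), x(P - Q))`. -/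
theorem addSubVec_sym2x [W.IsElliptic] (P Q : W.Point) :
    ∃ c : F, c ≠ 0 ∧ addSubVec W (P.sym2x Q) = c • (P + Q).sym2x (P - Q) := by
  match P, Q with
  | 0, 0 =>
    refine ⟨1, one_ne_zero, ?_⟩
    simp [addSubVec]
  | 0, .some x y h =>
    refine ⟨1, one_ne_zero, ?_⟩
    rw [zero_add, zero_sub, Point.sym2x_neg_right, one_smul, Point.sym2x_zero_some,
      Point.sym2x_some_some]
    funext i
    fin_cases i <;> simp [addSubVec] <;> ring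
  | .some x y h, 0 =>
    refine ⟨1, one_ne_zero, ?_⟩
    rw [add_zero, sub_zero, one_smul, Point.sym2x_some_zero, Point.sym2x_some_some]
    funext i
    fin_cases i <;> simp [addSubVec] <;> ring
  | .some x₁ y₁ h₁, .some x₂ y₂ h₂ =>
    by_cases hx : x₁ = x₂
    · obtain ⟨c, hc, heq⟩ := addSubVec_sym2x_self h₁
      refine ⟨c, hc, ?_⟩
      rcases Point.X_eq_iff.mp hx with hPQ | hPQ
      · rw [← hPQ, sub_self, heq]
      · rw [show Point.some x₂ y₂ h₂ = -Point.some x₁ y₁ h₁ by rw [hPQ, neg_neg],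
          Point.sym2x_neg_right, add_neg_cancel, sub_neg_eq_add, heq, Point.sym2x_comm]
    · refine ⟨(x₁ - x₂) ^ 2, pow_ne_zero 2 (sub_ne_zero.mpr hx), ?_⟩
      rw [sub_eq_add_neg (Point.some x₁ y₁ h₁), Point.neg_some, Point.add_of_X_ne hx, Point.add_of_X_ne hx,
        Point.sym2x_some_some, Point.sym2x_some_some]
      funext i
      fin_cases i
      · simpa [addSubVec, mul_comm] using (addX_mul_addX_negY h₁.left h₂.left hx).symm
      · simpa [addSubVec, mul_comm] using (addX_add_addX_negY h₁.left h₂.left hx).symm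
      · simp [addSubVec]
        ring

end FermatLib.EC
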