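import Mathlib

/-!
A bound on products of non-integral roots of an integral polynomial.
-/

set_option autoImplicit false

namespace FermatLib.AtP

open Polynomial

universe u w

variable {L : Type u} [Field L] {Γ : Type w} [LinearOrderedCommGroupWithZero Γ]
  {v : Valuation L Γ}

/-- The leading coefficient times any set of non-integral roots of an integral polynomial is
integral. -/
theorem leadingCoeff_mul_prod_roots (S : Finset L) :
    ∀ f : L[X], (∀ i, v (f.coeff i) ≤ 1) → (∀ r ∈ S, f.eval r = 0 ∧ 1 < v r) →
      v (f.leadingCoeff * ∏ r ∈ S, r) ≤ 1 := by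
  classical
  induction S using Finset.induction with
  | empty => intro f hf _; rw [Finset.prod_empty, mul_one]; exact hf _
  | insert r S hr ih =>
    intro f hf hS
    obtain ⟨hr0, hr1⟩ := hS r (Finset.mem_insert_self r S)
    obtain ⟨g, rfl⟩ := dvd_iff_isRoot.2 (hr0 : f.IsRoot r)
    have hrne : r ≠ 0 := v.ne_zero_iff.1 (zero_lt_one.trans hr1).ne'
    have hinv : v r⁻¹ ≤ 1 := by rw [map_inv₀]; exact inv_le_one_of_one_le₀ hr1.le
    have hcoeff : ∀ i, v ((C r * g).coeff i) ≤ 1 := by
      intro i
      induction i with
      | zero =>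
        have := hf 0
        rw [mul_coeff_zero] at this
        simpa using this
      | succ i ihi =>
        rw [coeff_C_mul] at ihi ⊢
        have e : r * g.coeff (i + 1) =
            r⁻¹ * (r * g.coeff i) - ((X - C r) * g).coeff (i + 1) := by
          rw [inv_mul_cancel_left₀ hrne, sub_mul, coeff_sub, coeff_X_mul, coeff_C_mul]
          ring
        rw [e]
        refine (v.map_sub_le ?_ (hf _))
        rw [map_mul v r⁻¹]
        exact mul_le_one' hinv ihi
    have h := ih (C r * g) hcoeff fun s hs => by
      obtain ⟨hs0, hs1⟩ := hS s (Finset.mem_insert_of_mem hs)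
      refine ⟨?_, hs1⟩
      have hne : s - r ≠ 0 := sub_ne_zero.2 fun e => hr (e ▸ hs)
      rw [eval_mul, eval_sub, eval_X, eval_C, mul_eq_zero] at hs0
      rw [eval_mul, hs0.resolve_left hne, mul_zero]
    rw [leadingCoeff_mul, leadingCoeff_C] at h
    rw [leadingCoeff_mul, leadingCoeff_X_sub_C, one_mul, Finset.prod_insert hr,
      ← mul_assoc, mul_comm g.leadingCoeff r]
    exact h

end FermatLib.AtP
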