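import Fermat.Agent.EC.AtPLine
import Fermat.Agent.EC.AtPRoots
import Fermat.Agent.EC.Torsion
import Fermat.Agent.EC.InertiaIntegers
import Fermat.Prelude.Def_FLTPrelim_Modularity

/-!
Local structure of the p-torsion at a semistable place over p: on a Galois stable line either
inertia acts trivially, or it acts trivially on the quotient.
-/

set_option autoImplicit false

noncomputable section

namespace FermatLib.AtP

open WeierstrassCurve WeierstrassCurve.Affine WeierstrassCurve.Affine.Point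
open scoped WeierstrassCurve.Affine Pointwise

local notation "ℚbar" => AlgebraicClosure ℚ
/-- Points over `ℚ̄` of an integral Weierstrass model. -/
abbrev Pts (W : WeierstrassCurve ℤ) : Type :=
  ((W.map (Int.castRingHom ℚ))⁄(AlgebraicClosure ℚ)).Point

/-- Torsion points over `ℚ̄` of an integral Weierstrass model. -/
abbrev Tors (W : WeierstrassCurve ℤ) (p : ℕ) : Submodule ℤ (Pts W) :=
  Submodule.torsionBy ℤ ((W.map (Int.castRingHom ℚ))⁄(AlgebraicClosure ℚ)).Point (p : ℕ)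

local instance isAlgebraicQbarAtP : Algebra.IsAlgebraic ℚ ℚbar :=
  AlgebraicClosure.isAlgebraic ℚ

local instance isGaloisQbarAtP : IsGalois ℚ ℚbar :=
  have : IsAlgClosure ℚ ℚbar := ⟨inferInstance, inferInstance⟩
  have : Normal ℚ ℚbar := IsAlgClosure.normal ℚ ℚbar
  { }

variable (W : WeierstrassCurve ℤ) {A : ValuationSubring ℚbar}

lemma baseChange_eq_map :
    ((W.map (Int.castRingHom ℚ))⁄ℚbar : WeierstrassCurve ℚbar) = W.map (Int.castRingHom ℚbar) := by
  change (W.map (Int.castRingHom ℚ)).map (algebraMap ℚ ℚbar) = _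
  rw [WeierstrassCurve.map_map]
  congr 1

lemma valuation_intCast_le_one (n : ℤ) : A.valuation (n : ℚbar) ≤ 1 :=
  (A.valuation_le_one_iff _).2 (intCast_mem A n)

lemma valuation_intCast_lt_one {p : ℕ} (hA : A.LiesOverPrime p) {n : ℤ} (h : (p : ℤ) ∣ n) :
    A.valuation (n : ℚbar) < 1 := by
  obtain ⟨m, rfl⟩ := h
  rw [Int.cast_mul, Int.cast_natCast]
  exact v_mul_lt_one_left ((A.mem_nonunits_iff).1 hA) (valuation_intCast_le_one m)

lemma valuation_intCast_eq_one {p : ℕ} (hp : p.Prime) (hA : A.LiesOverPrime p) {n : ℤ}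
    (h : ¬ (p : ℤ) ∣ n) : A.valuation (n : ℚbar) = 1 := by
  refine le_antisymm (valuation_intCast_le_one n) (not_lt.1 fun hlt => ?_)
  obtain ⟨a, b, hab⟩ := (Nat.prime_iff_prime_int.1 hp).coprime_iff_not_dvd.2 h
  have : A.valuation ((a * p + b * n : ℤ) : ℚbar) < 1 := by
    push_cast
    exact A.valuation.map_add_lt
      (v_mul_lt_one_right (valuation_intCast_le_one a) ((A.mem_nonunits_iff).1 hA))
      (v_mul_lt_one_right (valuation_intCast_le_one b) hlt)
  rw [hab, Int.cast_one, map_one] at this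
  exact this.false

/-- A decomposition element preserves the valuation. -/
lemma valuation_apply_of_mem_decomposition {σ : ℚbar ≃ₐ[ℚ] ℚbar}
    (hσ : σ ∈ A.decompositionSubgroup ℚ) (z : ℚbar) : A.valuation (σ z) = A.valuation z := by
  have hmem : ∀ x, σ x ∈ A ↔ x ∈ A := fun x => by
    conv_lhs => rw [← (MulAction.mem_stabilizer_iff.1 hσ : σ • A = A)]
    exact ValuationSubring.smul_mem_pointwise_smul_iff
  have hle : ∀ a b : ℚbar, b ≠ 0 →
      (A.valuation (σ a) ≤ A.valuation (σ b) ↔ A.valuation a ≤ A.valuation b) := fun a b hb => by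
    have hb' : σ b ≠ 0 := (map_ne_zero σ).2 hb
    rw [← div_le_one₀ (zero_lt_iff.2 (A.valuation.ne_zero_iff.2 hb')),
      ← div_le_one₀ (zero_lt_iff.2 (A.valuation.ne_zero_iff.2 hb)), ← map_div₀, ← map_div₀,
      A.valuation_le_one_iff, hmem, ← map_div₀, A.valuation_le_one_iff]
  by_cases hz : z = 0
  · simp [hz]
  obtain ⟨n, hn, hfix⟩ : ∃ n : ℕ, 0 < n ∧ σ^[n] z = z := by
    have hint : IsIntegral ℚ z :=
      (AlgebraicClosure.isAlgebraic ℚ).isAlgebraic z |>.isIntegral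
    have hmem' : ∀ m : ℕ, σ^[m] z ∈ (minpoly ℚ z).rootSet ℚbar := fun m => by
      induction m with
      | zero => exact Polynomial.mem_rootSet.2 ⟨minpoly.ne_zero hint, minpoly.aeval ℚ z⟩
      | succ m ih =>
        rw [Function.iterate_succ_apply', Polynomial.mem_rootSet]
        refine ⟨minpoly.ne_zero hint, ?_⟩
        rw [Polynomial.aeval_algEquiv, AlgHom.comp_apply, (Polynomial.mem_rootSet.1 ih).2]
        exact map_zero σ.toAlgHom
    obtain ⟨a, -, b, -, hab, e⟩ := Set.infinite_univ.exists_ne_map_eq_of_mapsTo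
      (fun m _ => hmem' m) (Set.Finite.subset (Polynomial.rootSet_finite _ _) subset_rfl)
    wlog hlt : a < b generalizing a b
    · exact this b a hab.symm e.symm (hab.lt_or_gt.resolve_left hlt)
    refine ⟨b - a, Nat.sub_pos_of_lt hlt, (σ.injective.iterate a) ?_⟩
    rw [← Function.iterate_add_apply, Nat.add_sub_cancel' hlt.le]
    exact e.symm
  have hne : ∀ m : ℕ, σ^[m] z ≠ 0 := fun m => by
    induction m with
    | zero => exact hz
    | succ m ih => rw [Function.iterate_succ_apply']; exact (map_ne_zero σ).2 ih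
  rcases lt_trichotomy (A.valuation (σ z)) (A.valuation z) with h | h | h
  · have step : ∀ m, A.valuation (σ^[m + 1] z) < A.valuation (σ^[m] z) := fun m => by
      induction m with
      | zero => exact h
      | succ m ih =>
        rw [Function.iterate_succ_apply' σ (m + 1), Function.iterate_succ_apply' σ m]
        rw [Function.iterate_succ_apply' σ m] at ih
        exact lt_iff_not_ge.2 fun hc => (not_le.2 ih)
          ((hle _ _ ((map_ne_zero σ).2 (hne m))).1 hc)
    have := strictAnti_nat_of_succ_lt (f := fun m => A.valuation (σ^[m] z)) step hn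
    simp only [Function.iterate_zero_apply] at this
    rw [hfix] at this
    exact absurd this (lt_irrefl _)
  · exact h
  · have step : ∀ m, A.valuation (σ^[m] z) < A.valuation (σ^[m + 1] z) := fun m => by
      induction m with
      | zero => exact h
      | succ m ih =>
        rw [Function.iterate_succ_apply' σ (m + 1), Function.iterate_succ_apply' σ m]
        rw [Function.iterate_succ_apply' σ m] at ih
        exact lt_iff_not_ge.2 fun hc => (not_le.2 ih) ((hle _ _ (hne m)).1 hc)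
    have := strictMono_nat_of_lt_succ (f := fun m => A.valuation (σ^[m] z)) step hn
    simp only [Function.iterate_zero_apply] at this
    rw [hfix] at this
    exact absurd this (lt_irrefl _)

lemma isInertial_of_mem {σ : ℚbar ≃ₐ[ℚ] ℚbar} (hσ : σ ∈ A.inertiaSubgroupIn ℚ) :
    IsInertial A.valuation (σ : ℚbar →+* ℚbar) := by
  have hd : σ ∈ A.decompositionSubgroup ℚ := by
    obtain ⟨τ, -, rfl⟩ := hσ
    exact τ.2
  refine ⟨valuation_apply_of_mem_decomposition hd, fun z hz => ?_⟩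
  exact (A.mem_nonunits_iff).1 (EC.sub_mem_nonunits_of_mem_inertiaSubgroupIn A hσ
    ((A.valuation_le_one_iff z).1 hz))

/-- A rational number of non-integral valuation times `p` is not small. -/
lemma one_le_valuation_mul_ratCast {p : ℕ} (hp : p.Prime) (hA : A.LiesOverPrime p) {q : ℚ}
    (h : 1 < A.valuation (q : ℚbar)) : 1 ≤ A.valuation ((p : ℚbar) * (q : ℚbar)) := by
  rw [Rat.cast_def, map_div₀] at h
  rw [Rat.cast_def]
  have hden : (p : ℤ) ∣ (q.den : ℤ) := by
    by_contra hd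
    have := valuation_intCast_eq_one hp hA hd
    rw [Int.cast_natCast] at this
    rw [this, div_one] at h
    exact not_le.2 h (valuation_intCast_le_one q.num)
  have hnum : ¬ (p : ℤ) ∣ q.num := fun hn => hp.not_dvd_one (q.reduced ▸
    Nat.dvd_gcd (Int.natCast_dvd.1 hn) (Int.natCast_dvd_natCast.1 hden))
  obtain ⟨d, hd⟩ := Int.natCast_dvd_natCast.1 hden
  have hd0 : (d : ℚbar) ≠ 0 := by
    intro e
    rw [Nat.cast_eq_zero] at e
    rw [e, mul_zero] at hd
    exact q.den_nz hd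
  rw [hd, Nat.cast_mul, mul_div_assoc']
  rw [mul_div_mul_left _ _ (Nat.cast_ne_zero.2 hp.ne_zero : (p : ℚbar) ≠ 0), map_div₀,
    valuation_intCast_eq_one hp hA hnum]
  exact one_le_div₀ (zero_lt_iff.2 (A.valuation.ne_zero_iff.2 hd0)) |>.2 (v_natCast_le_one d)

/-- `x`-coordinate, with junk value at the origin. -/
def xCoord {E : WeierstrassCurve ℚbar} : E.toAffine.Point → ℚbar
  | .zero => 0
  | .some x _ _ => x

lemma galois_smul_some (σ : ℚbar ≃ₐ[ℚ] ℚbar) {x y : ℚbar}
    (h : ((W.map (Int.castRingHom ℚ))⁄ℚbar).toAffine.Nonsingular x y) :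
    ∃ h', σ • (Point.some x y h : Pts W) = Point.some (σ x) (σ y) h' :=
  ⟨_, rfl⟩

lemma xCoord_smul (σ : ℚbar ≃ₐ[ℚ] ℚbar) (P : Pts W) : xCoord (σ • P) = σ (xCoord P) := by
  match P with
  | .zero => exact (map_zero σ).symm
  | .some x y h => rfl

lemma xCoord_isRoot [(W.map (Int.castRingHom ℚ)).IsElliptic] {p : ℕ} (hp : Odd p) {P : Pts W} (hP : p • P = 0) (h0 : P ≠ 0) :
    (((W.map (Int.castRingHom ℚ))⁄ℚbar).preΨ' p).eval (xCoord P) = 0 := by
  match P with
  | .zero => exact absurd rfl h0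
  | .some x y h =>
    have h1 := (EC.zsmul_some_eq_zero_iff h (p : ℤ)).1 (by rw [natCast_zsmul]; exact hP)
    rw [ΨSq_ofNat, if_neg (Nat.not_even_iff_odd.2 hp), mul_one, Polynomial.eval_pow] at h1
    exact pow_eq_zero_iff two_ne_zero |>.1 h1

section Line

variable {p : ℕ} [hp : Fact p.Prime]

/-- A Galois stable line in the kernel of reduction is the whole `p`-torsion of that kernel. -/
theorem mem_of_isKerPt [(W.map (Int.castRingHom ℚ)).IsElliptic] (hp2 : Odd p) (hA : A.LiesOverPrime p) (N : AddSubgroup (Pts W))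
    [Finite N] (hN : N ≠ ⊥) (htor : ∀ P ∈ N, p • P = 0)
    (hstab : ∀ σ : ℚbar ≃ₐ[ℚ] ℚbar, ∀ P ∈ N, σ • P ∈ N)
    (hker : ∀ P ∈ N, IsKerPt A.valuation P)
    {Q : Pts W} (hQ : p • Q = 0) (hQk : IsKerPt A.valuation Q) : Q ∈ N := by
  by_contra hQN
  have hQ0 : Q ≠ 0 := fun e => hQN (e ▸ N.zero_mem)
  have big : ∀ P : Pts W, P ≠ 0 → IsKerPt A.valuation P → 1 < A.valuation (xCoord P) := by
    intro P h0 hk
    match P with
    | .zero => exact absurd rfl h0
    | .some x y h => exact hk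
  have hfin : Set.Finite (xCoord '' {P : Pts W | P ∈ N ∧ P ≠ 0}) :=
    ((Set.toFinite (N : Set (Pts W))).subset fun P hP => hP.1).image _
  obtain ⟨S, hS⟩ : ∃ S : Finset ℚbar, S = hfin.toFinset := ⟨_, rfl⟩
  have memS : ∀ r, r ∈ S ↔ ∃ P ∈ N, P ≠ 0 ∧ xCoord P = r := fun r => by
    rw [hS, Set.Finite.mem_toFinset]
    constructor
    · rintro ⟨P, ⟨h1, h2⟩, e⟩; exact ⟨P, h1, h2, e⟩
    · rintro ⟨P, h1, h2, e⟩; exact ⟨P, ⟨h1, h2⟩, e⟩
  have hQS : xCoord Q ∉ S := by
    rw [memS]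
    rintro ⟨P, hPN, hP0, e⟩
    match P, Q with
    | .zero, _ => exact hP0 rfl
    | .some x y h, .zero => exact hQ0 rfl
    | .some x y h, .some x' y' h' =>
      rcases Point.X_eq_iff (h₁ := h) (h₂ := h') |>.1 e with e' | e'
      · exact hQN (e' ▸ hPN)
      · exact hQN (neg_neg (Point.some x' y' h') ▸ e' ▸ N.neg_mem hPN)
  have hfix : ∀ σ : ℚbar ≃ₐ[ℚ] ℚbar, σ (∏ r ∈ S, r) = ∏ r ∈ S, r := fun σ => by
    rw [map_prod]
    refine Finset.prod_bij (fun r _ => σ r) (fun r hr => ?_) (fun a _ b _ e => σ.injective e)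
      (fun r hr => ?_) (fun r _ => rfl)
    · obtain ⟨P, hPN, hP0, rfl⟩ := (memS r).1 hr
      exact (memS _).2 ⟨σ • P, hstab σ P hPN, (smul_ne_zero_iff_ne σ).2 hP0, xCoord_smul W σ P⟩
    · obtain ⟨P, hPN, hP0, rfl⟩ := (memS r).1 hr
      exact ⟨xCoord (σ⁻¹ • P), (memS _).2 ⟨σ⁻¹ • P, hstab σ⁻¹ P hPN,
        (smul_ne_zero_iff_ne σ⁻¹).2 hP0, rfl⟩, by rw [← xCoord_smul, smul_inv_smul]⟩
  obtain ⟨q, hq⟩ : ∃ q : ℚ, algebraMap ℚ ℚbar q = ∏ r ∈ S, r :=
    (InfiniteGalois.mem_range_algebraMap_iff_fixed _).2 hfix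
  rw [eq_ratCast] at hq
  have hgt : 1 < A.valuation (∏ r ∈ S, r) := by
    obtain ⟨P, hPN, hP0⟩ := N.bot_or_exists_ne_zero.resolve_left hN
    rw [map_prod]
    refine (big P hP0 (hker P hPN)).trans_le (Finset.single_le_prod' (fun r hr => ?_)
      ((memS _).2 ⟨P, hPN, hP0, rfl⟩))
    obtain ⟨R, hRN, hR0, rfl⟩ := (memS r).1 hr
    exact (big R hR0 (hker R hRN)).le
  have hpq : 1 ≤ A.valuation ((p : ℚbar) * ∏ r ∈ S, r) :=
    hq ▸ one_le_valuation_mul_ratCast hp.out hA (hq.symm ▸ hgt)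
  have hcoe : ∀ i, A.valuation ((((W.map (Int.castRingHom ℚ))⁄ℚbar).preΨ' p).coeff i) ≤ 1 :=
    fun i => by
      rw [baseChange_eq_map, map_preΨ', Polynomial.coeff_map]
      exact valuation_intCast_le_one _
  have hle := leadingCoeff_mul_prod_roots (insert (xCoord Q) S) _ hcoe fun r hr => by
    rcases Finset.mem_insert.1 hr with rfl | hr
    · exact ⟨xCoord_isRoot W hp2 hQ hQ0, big Q hQ0 hQk⟩
    · obtain ⟨R, hRN, hR0, rfl⟩ := (memS r).1 hr
      exact ⟨xCoord_isRoot W hp2 (htor R hRN) hR0, big R hR0 (hker R hRN)⟩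
  rw [leadingCoeff_preΨ' _ (Nat.cast_ne_zero.2 hp.out.ne_zero : (p : ℚbar) ≠ 0),
    if_neg (Nat.not_even_iff_odd.2 hp2), Finset.prod_insert hQS, mul_left_comm, map_mul] at hle
  exact not_lt.2 hle ((big Q hQ0 hQk).trans_le (le_mul_of_one_le_right' hpq))

/-- Local structure at a semistable place over `p`, for a Galois stable subgroup of order `p`
given by a generator. -/
theorem inertia_dichotomy_span [(W.map (Int.castRingHom ℚ)).IsElliptic]
    (hss : ¬ (p : ℤ) ∣ W.Δ ∨ ¬ (p : ℤ) ∣ W.c₄)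
    (hA : A.LiesOverPrime p) (z : Tors W p)
    (hstab : IsGaloisStable ℚ (Submodule.span (ZMod p) {z})) :
    (∀ σ ∈ A.inertiaSubgroupIn ℚ, σ • z = z) ∨
      (∀ σ ∈ A.inertiaSubgroupIn ℚ, ∀ y : Tors W p,
        σ • y - y ∈ Submodule.span (ZMod p) {z}) := by
  obtain ⟨N', hN'⟩ : ∃ N', N' = Submodule.span (ZMod p) {z} := ⟨_, rfl⟩
  rw [← hN'] at hstab ⊢
  by_cases hz : z = 0
  · exact Or.inl fun σ _ => by rw [hz, smul_zero]
  have hzN' : z ∈ N' := hN' ▸ Submodule.mem_span_singleton_self z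
  by_cases hp2 : p = 2
  · subst hp2
    refine Or.inl fun σ _ => ?_
    have h := hstab σ z hzN'
    rw [hN', Submodule.mem_span_singleton] at h
    obtain ⟨c, hc⟩ := h
    have hc01 : c = 0 ∨ c = 1 := by
      fin_cases c
      · exact Or.inl rfl
      · exact Or.inr rfl
    rcases hc01 with rfl | rfl
    · rw [zero_smul] at hc
      exact absurd hc.symm ((smul_ne_zero_iff_ne σ).2 hz)
    · rw [one_smul] at hc
      exact hc.symm
  have hodd : Odd p := hp.out.odd_of_ne_two hp2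
  obtain ⟨N, hN⟩ : ∃ N : AddSubgroup (Pts W), N = N'.toAddSubgroup.map
      (Tors W p).toAddSubgroup.subtype := ⟨_, rfl⟩
  have memN : ∀ P, P ∈ N ↔ ∃ y ∈ N', (y : Pts W) = P := fun P => by
    rw [hN]; rfl
  have hval : ∀ y : Tors W p, p • (y : Pts W) = 0 := fun y => by
    rw [← natCast_zsmul]; exact (Submodule.mem_torsionBy_iff _ _).1 y.2
  have hgen : ∀ P ∈ N, P ≠ 0 → ∀ Q ∈ N, ∃ k : ℤ, Q = k • P := by
    intro P hP hP0 Q hQ
    obtain ⟨a, ha, rfl⟩ := (memN P).1 hP
    obtain ⟨b, hb, rfl⟩ := (memN Q).1 hQ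
    rw [hN', Submodule.mem_span_singleton] at ha hb
    obtain ⟨c, rfl⟩ := ha
    obtain ⟨d, rfl⟩ := hb
    have hc : c ≠ 0 := fun e => hP0 (by rw [e, zero_smul]; rfl)
    obtain ⟨k, hk⟩ := ZMod.intCast_surjective (d * c⁻¹)
    refine ⟨k, ?_⟩
    have : d • z = k • (c • z) := by
      rw [← Int.cast_smul_eq_zsmul (ZMod p) k (c • z), smul_smul, hk,
        inv_mul_cancel_right₀ hc]
    rw [this]
    rfl
  have : Finite N := by
    have : Finite N' := by
      rw [hN']
      exact Finite.of_surjective (fun c : ZMod p =>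
        (⟨c • z, Submodule.smul_mem _ c (Submodule.mem_span_singleton_self z)⟩ :
          Submodule.span (ZMod p) {z}))
        fun w => by
          obtain ⟨c, hc⟩ := Submodule.mem_span_singleton.1 w.2
          exact ⟨c, Subtype.ext hc⟩
    have : (N : Set (Pts W)).Finite :=
      ((Set.toFinite (N' : Set (Tors W p))).image Subtype.val).subset fun P hP => by
        obtain ⟨y, hy, e⟩ := (memN P).1 hP
        exact ⟨y, hy, e⟩
    exact this.to_subtype
  have hstabN : ∀ σ : ℚbar ≃ₐ[ℚ] ℚbar, ∀ P ∈ N, σ • P ∈ N := fun σ P hP => by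
    obtain ⟨y, hy, rfl⟩ := (memN P).1 hP
    exact (memN _).2 ⟨σ • y, hstab σ y hy, rfl⟩
  have htorN : ∀ P ∈ N, p • P = 0 := fun P hP => by
    obtain ⟨y, -, rfl⟩ := (memN P).1 hP
    exact hval y
  have hE : IntegralCoeffs A.valuation ((W.map (Int.castRingHom ℚ))⁄ℚbar) := by
    rw [baseChange_eq_map]
    exact ⟨valuation_intCast_le_one _, valuation_intCast_le_one _, valuation_intCast_le_one _,
      valuation_intCast_le_one _, valuation_intCast_le_one _⟩
  have hcur : A.valuation ((W.map (Int.castRingHom ℚ))⁄ℚbar).Δ = 1 ∨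
      A.valuation ((W.map (Int.castRingHom ℚ))⁄ℚbar).c₄ = 1 := by
    rw [baseChange_eq_map, map_Δ, map_c₄]
    exact hss.imp (valuation_intCast_eq_one hp.out hA) (valuation_intCast_eq_one hp.out hA)
  have h2 : A.valuation (2 : ℚbar) = 1 := by
    have : ¬ (p : ℤ) ∣ 2 := fun h =>
      hp2 ((Nat.prime_dvd_prime_iff_eq hp.out Nat.prime_two).1 (Int.natCast_dvd.1 h))
    simpa using valuation_intCast_eq_one hp.out hA this
  have hpv : A.valuation (p : ℚbar) < 1 := (A.mem_nonunits_iff).1 hA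
  have hfix : ∀ σ : ℚbar ≃ₐ[ℚ] ℚbar, (((W.map (Int.castRingHom ℚ))⁄ℚbar)).map
      (σ : ℚbar →+* ℚbar) = (W.map (Int.castRingHom ℚ))⁄ℚbar := fun σ =>
    WeierstrassCurve.map_baseChange (W.map (Int.castRingHom ℚ)) σ.toAlgHom
  by_cases hk : ∀ P ∈ N, IsKerPt A.valuation P → P = 0
  · refine Or.inl fun σ hσ => Subtype.ext ?_
    exact apply_eq_self_of_line hE h2 hcur (isInertial_of_mem hσ) (hfix σ)
      (f := DistribSMul.toAddMonoidHom (Pts W) σ) (fun x y h => galois_smul_some W σ h)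
      (hstabN σ) hgen hk ((memN _).2 ⟨z, hzN', rfl⟩)
  push Not at hk
  obtain ⟨P, hPN, hPk, hP0⟩ := hk
  have hNker : ∀ Q ∈ N, IsKerPt A.valuation Q := fun Q hQ => by
    obtain ⟨k, rfl⟩ := hgen P hPN hP0 Q hQ
    exact (kerSubgroup hE).zsmul_mem hPk k
  have hNbot : N ≠ ⊥ := fun e => hP0 (AddSubgroup.mem_bot.1 (e ▸ hPN))
  refine Or.inr fun σ hσ y => ?_
  have hmem : σ • (y : Pts W) - (y : Pts W) ∈ N :=
    apply_sub_mem_of_line hE h2 hcur hp.out hpv (isInertial_of_mem hσ) (hfix σ)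
      (f := DistribSMul.toAddMonoidHom (Pts W) σ) (fun x y h => galois_smul_some W σ h)
      (hstabN σ) hNker (fun Q hQ hQk => mem_of_isKerPt W hodd hA N hNbot htorN hstabN hNker hQ hQk)
      (hval y)
  obtain ⟨w, hw, e⟩ := (memN _).1 hmem
  exact (Subtype.ext e : w = σ • y - y) ▸ hw

/-- Local structure of `E[p]` at a semistable place over `p`: a Galois stable line (a proper
nonzero submodule) either is fixed by inertia or has quotient fixed by inertia. -/
theorem inertia_dichotomy (hΔ : W.Δ ≠ 0) (hss : ¬ (p : ℤ) ∣ W.Δ ∨ ¬ (p : ℤ) ∣ W.c₄)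
    (hA : A.LiesOverPrime p) (N : Submodule (ZMod p) (Tors W p))
    (hstab : IsGaloisStable ℚ N) (hbot : N ≠ ⊥) (htop : N ≠ ⊤) :
    (∀ σ ∈ A.inertiaSubgroupIn ℚ, ∀ x ∈ N, σ • x = x) ∨
      (∀ σ ∈ A.inertiaSubgroupIn ℚ, ∀ x : Tors W p, σ • x - x ∈ N) := by
  have : (W.map (Int.castRingHom ℚ)).IsElliptic := ⟨by
    rw [map_Δ, isUnit_iff_ne_zero]
    exact (map_ne_zero_iff _ Int.cast_injective).2 hΔ⟩
  have h2 : Module.finrank (ZMod p) (Tors W p) = 2 :=
    EC.finrank_torsionBy_baseChange (K := ℚbar) (W.map (Int.castRingHom ℚ)) (p := p)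
      (Nat.cast_ne_zero.2 hp.out.ne_zero)
  have : FiniteDimensional (ZMod p) (Tors W p) :=
    Module.finite_of_finrank_eq_succ h2
  have h1 : Module.finrank (ZMod p) N = 1 := by
    have hlt : Module.finrank (ZMod p) N < 2 := h2 ▸ Submodule.finrank_lt htop
    have hne : Module.finrank (ZMod p) N ≠ 0 := fun e => hbot (Submodule.finrank_eq_zero.1 e)
    omega
  obtain ⟨z, hzN, hz⟩ := N.exists_mem_ne_zero_of_ne_bot hbot
  have hspan : Submodule.span (ZMod p) {z} = N :=
    Submodule.eq_of_le_of_finrank_eq (Submodule.span_le.2 (Set.singleton_subset_iff.2 hzN))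
      (by rw [finrank_span_singleton hz, h1])
  rcases inertia_dichotomy_span W hss hA z (hspan ▸ hstab) with h | h
  · refine Or.inl fun σ hσ x hx => ?_
    rw [← hspan, Submodule.mem_span_singleton] at hx
    obtain ⟨c, rfl⟩ := hx
    rw [smul_comm, h σ hσ]
  · exact Or.inr fun σ hσ x => hspan ▸ h σ hσ x

/-- The form of `inertia_dichotomy` for semistable models. -/
theorem inertia_dichotomy_of_isSemistableModel (hΔ : W.Δ ≠ 0) (hW : W.IsSemistableModel)
    (hA : A.LiesOverPrime p) (N : Submodule (ZMod p) (Tors W p))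
    (hstab : IsGaloisStable ℚ N) (hbot : N ≠ ⊥) (htop : N ≠ ⊤) :
    (∀ σ ∈ A.inertiaSubgroupIn ℚ, ∀ x ∈ N, σ • x = x) ∨
      (∀ σ ∈ A.inertiaSubgroupIn ℚ, ∀ x : Tors W p, σ • x - x ∈ N) :=
  inertia_dichotomy W hΔ ((em ((p : ℤ) ∣ W.Δ)).elim (fun h => Or.inr (hW p hp.out h)) Or.inl)
    hA N hstab hbot htop

end Line

end FermatLib.AtP

end
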