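import Fermat.Agent.EC.AtPPoints

/-!
The division polynomials of a curve with multiplicative reduction at the two kinds of roots of
the `2`-division polynomial.
-/

set_option autoImplicit false

namespace FermatLib.AtP

open Polynomial WeierstrassCurve

universe u w

variable {L : Type u} [Field L] {Γ : Type w} [LinearOrderedCommGroupWithZero Γ]
  {v : Valuation L Γ} {E : WeierstrassCurve L}

lemma sixteen_mul_eval_Ψ₃ (x : L) :
    16 * E.Ψ₃.eval x = 2 * E.Ψ₂Sq.eval x * (24 * x + 2 * E.b₂) -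
      (12 * x ^ 2 + 2 * E.b₂ * x + 2 * E.b₄) ^ 2 := by
  simp only [Ψ₃, Ψ₂Sq, eval_add, eval_mul, eval_pow, eval_C, eval_X, eval_ofNat]
  linear_combination 4 * E.b_relation

/-- At a root of `Ψ₂Sq` the odd division polynomials are governed by `Ψ₃`. -/
lemma v_eval_preΨ'_odd {x : L} (hx : E.Ψ₂Sq.eval x = 0) : ∀ n : ℕ,
    (v (E.Ψ₃.eval x) = 1 → v ((E.preΨ' (2 * n + 1)).eval x) = 1) ∧
      (v (E.Ψ₃.eval x) < 1 → v ((E.preΨ' (2 * n + 1)).eval x) ≤ 1 ∧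
        (1 ≤ n → v ((E.preΨ' (2 * n + 1)).eval x) < 1)) := by
  intro n
  induction n using Nat.strong_induction_on with
  | _ n ih =>
    match n, ih with
    | 0, _ => simp
    | 1, _ => exact ⟨fun h => by simpa using h, fun h => ⟨by simpa using h.le, fun _ => by
        simpa using h⟩⟩
    | m + 2, ih =>
      rcases Nat.even_or_odd m with hm | hm
      · obtain ⟨k, rfl⟩ := hm
        obtain ⟨u₁, s₁⟩ := ih k (by omega)
        obtain ⟨u₂, s₂⟩ := ih (k + 1) (by omega)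
        have e : (E.preΨ' (2 * (k + k + 2) + 1)).eval x =
            -((E.preΨ' (2 * k + 1)).eval x * (E.preΨ' (2 * (k + 1) + 1)).eval x ^ 3) := by
          rw [preΨ'_odd, if_pos ⟨k, rfl⟩, if_pos ⟨k, rfl⟩]
          simp [hx, show k + k + 1 = 2 * k + 1 by omega,
            show k + k + 3 = 2 * (k + 1) + 1 by omega]
        refine ⟨fun h => by rw [e, v.map_neg, map_mul, map_pow, u₁ h, u₂ h, one_pow, one_mul],
          fun h => ?_⟩
        have hlt : v ((E.preΨ' (2 * (k + k + 2) + 1)).eval x) < 1 := by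
          rw [e, v.map_neg]
          exact v_mul_lt_one_right (s₁ h).1 (by
            rw [map_pow]; exact pow_lt_one' ((s₂ h).2 (by omega)) three_ne_zero)
        exact ⟨hlt.le, fun _ => hlt⟩
      · obtain ⟨k, rfl⟩ := hm
        obtain ⟨u₁, s₁⟩ := ih (k + 2) (by omega)
        obtain ⟨u₂, s₂⟩ := ih (k + 1) (by omega)
        have hodd : ¬ Even (2 * k + 1) := Nat.not_even_iff_odd.2 ⟨k, rfl⟩
        have e : (E.preΨ' (2 * (2 * k + 1 + 2) + 1)).eval x =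
            (E.preΨ' (2 * (k + 2) + 1)).eval x * (E.preΨ' (2 * (k + 1) + 1)).eval x ^ 3 := by
          rw [preΨ'_odd, if_neg hodd, if_neg hodd]
          simp [hx, show 2 * k + 1 + 4 = 2 * (k + 2) + 1 by omega,
            show 2 * k + 1 + 2 = 2 * (k + 1) + 1 by omega]
        refine ⟨fun h => by rw [e, map_mul, map_pow, u₁ h, u₂ h, one_pow, one_mul], fun h => ?_⟩
        have hlt : v ((E.preΨ' (2 * (2 * k + 1 + 2) + 1)).eval x) < 1 := by
          rw [e]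
          exact v_mul_lt_one_left ((s₁ h).2 (by omega)) (v_pow_le_one (s₂ h).1 3)
        exact ⟨hlt.le, fun _ => hlt⟩

/-- At a multiplicative place of odd residue characteristic, `Ψ₂Sq` has a root at the node and a
root away from it. -/
lemma exists_two_torsion_roots [IsAlgClosed L] (hE : IntegralCoeffs v E) (h2 : v (2 : L) = 1)
    (hΔ : v E.Δ < 1) (hc₄ : v E.c₄ = 1) :
    ∃ r t : L, v r ≤ 1 ∧ E.Ψ₂Sq.eval r = 0 ∧
      v (12 * r ^ 2 + 2 * E.b₂ * r + 2 * E.b₄) < 1 ∧ v t ≤ 1 ∧ E.Ψ₂Sq.eval t = 0 ∧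
      v (E.Ψ₃.eval r) < 1 ∧ v (E.Ψ₃.eval t) = 1 := by
  have h20 : (2 : L) ≠ 0 := v.ne_zero_iff.1 (by rw [h2]; exact one_ne_zero)
  have h4 : v (4 : L) = 1 := by rw [show (4 : L) = 2 * 2 by norm_num, map_mul, h2, mul_one]
  have h40 : (4 : L) ≠ 0 := v.ne_zero_iff.1 (by rw [h4]; exact one_ne_zero)
  have h16 : v (16 : L) = 1 := by rw [show (16 : L) = 4 * 4 by norm_num, map_mul, h4, mul_one]
  have hb₂ : v E.b₂ ≤ 1 :=
    v_add_le_one (v_pow_le_one hE.h₁ 2) (v_mul_le_one (v_ofNat_le_one 4) hE.h₂)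
  have hb₄ : v E.b₄ ≤ 1 :=
    v_add_le_one (v_mul_le_one (v_ofNat_le_one 2) hE.h₄) (v_mul_le_one hE.h₁ hE.h₃)
  have hb₆ : v E.b₆ ≤ 1 :=
    v_add_le_one (v_pow_le_one hE.h₃ 2) (v_mul_le_one (v_ofNat_le_one 4) hE.h₆)
  obtain ⟨a, ha_def⟩ : ∃ a, a = E.b₂ / 4 := ⟨_, rfl⟩
  obtain ⟨b, hb_def⟩ : ∃ b, b = E.b₄ / 2 := ⟨_, rfl⟩
  obtain ⟨c, hc_def⟩ : ∃ c, c = E.b₆ / 4 := ⟨_, rfl⟩
  have ha : v a ≤ 1 := by rw [ha_def, map_div₀, h4, div_one]; exact hb₂
  have hb : v b ≤ 1 := by rw [hb_def, map_div₀, h2, div_one]; exact hb₄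
  have hc : v c ≤ 1 := by rw [hc_def, map_div₀, h4, div_one]; exact hb₆
  have heval : ∀ x, E.Ψ₂Sq.eval x = 4 * (x ^ 3 + a * x ^ 2 + b * x + c) := fun x => by
    rw [ha_def, hb_def, hc_def]; simp [Ψ₂Sq]; field_simp; ring
  obtain ⟨r₁, hr₁⟩ := IsAlgClosed.exists_root
    (X ^ 3 + C a * X ^ 2 + C b * X + C c : L[X])
    (ne_of_eq_of_ne (b := (3 : WithBot ℕ)) (by compute_degree!) (by decide))
  simp only [IsRoot.def, eval_add, eval_mul, eval_pow, eval_X, eval_C] at hr₁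
  obtain ⟨r₂, hr₂⟩ := IsAlgClosed.exists_root
    (X ^ 2 + C (a + r₁) * X + C (b + r₁ * (a + r₁)) : L[X])
    (ne_of_eq_of_ne (b := (2 : WithBot ℕ)) (by compute_degree!) (by decide))
  simp only [IsRoot.def, eval_add, eval_mul, eval_pow, eval_X, eval_C] at hr₂
  obtain ⟨r₃, hr₃⟩ : ∃ r₃, r₃ = -(a + r₁) - r₂ := ⟨_, rfl⟩
  have hfac : ∀ x, x ^ 3 + a * x ^ 2 + b * x + c = (x - r₁) * (x - r₂) * (x - r₃) := fun x => by
    rw [hr₃]; linear_combination hr₁ + (x - r₁) * hr₂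
  have hint : ∀ x, (x - r₁) * (x - r₂) * (x - r₃) = 0 → v x ≤ 1 := fun x hx => by
    by_contra hx1
    push Not at hx1
    rw [← hfac] at hx
    have e : x ^ 3 = -(a * x ^ 2 + b * x + c) := by linear_combination hx
    have hx2 : v x ^ 2 < v x ^ 3 := pow_lt_pow_right₀ hx1 (by norm_num)
    refine (lt_of_le_of_lt ?_ hx2).ne (map_pow v x 3)
    rw [e, v.map_neg]
    have hx12 : v x ≤ v x ^ 2 := le_self_pow hx1.le two_ne_zero
    refine v.map_add_le (v.map_add_le ?_ ?_) ((hc.trans hx1.le).trans hx12)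
    · rw [map_mul, map_pow]; exact mul_le_of_le_one_left' ha
    · rw [map_mul]; exact (mul_le_of_le_one_left' hb).trans hx12
  have h1 : v r₁ ≤ 1 := hint _ (by ring)
  have h2' : v r₂ ≤ 1 := hint _ (by ring)
  have h3 : v r₃ ≤ 1 := hint _ (by ring)
  have hsum : a = -(r₁ + r₂ + r₃) := by rw [hr₃]; ring
  have hσ₂ : b = r₁ * r₂ + r₁ * r₃ + r₂ * r₃ := by rw [hr₃]; linear_combination hr₂
  have hσ₃ : c = -(r₁ * r₂ * r₃) := by rw [hr₃]; linear_combination hr₁ - r₁ * hr₂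
  have eb₂ : E.b₂ = 4 * a := by rw [ha_def]; field_simp
  have eb₄ : E.b₄ = 2 * b := by rw [hb_def]; field_simp
  have eb₆ : E.b₆ = 4 * c := by rw [hc_def]; field_simp
  have hdiscr : E.Δ = 16 * ((r₁ - r₂) * (r₁ - r₃) * (r₂ - r₃)) ^ 2 := by
    have hbr := E.b_relation
    have : 4 * E.Δ = 4 * (16 * ((r₁ - r₂) * (r₁ - r₃) * (r₂ - r₃)) ^ 2) := by
      rw [Δ]
      rw [eb₂, eb₄, eb₆, hsum, hσ₂, hσ₃] at *
      linear_combination -(4 * -(r₁ + r₂ + r₃)) ^ 2 * hbr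
    exact mul_left_cancel₀ h40 this
  have hcc : E.c₄ = 16 * ((r₁ - r₂) ^ 2 + (r₁ - r₃) * (r₂ - r₃)) := by
    rw [c₄, eb₂, eb₄, hsum, hσ₂]; ring
  have hsmall : v ((r₁ - r₂) * (r₁ - r₃) * (r₂ - r₃)) < 1 := by
    rw [hdiscr, map_mul, h16, one_mul, map_pow] at hΔ
    exact (pow_lt_one_iff_of_nonneg zero_le two_ne_zero).1 hΔ
  rw [hcc, map_mul, h16, one_mul] at hc₄
  have hd : ∀ x, 12 * x ^ 2 + 2 * E.b₂ * x + 2 * E.b₄ =
      4 * ((x - r₂) * (x - r₃) + (x - r₁) * (x - r₃) + (x - r₁) * (x - r₂)) := fun x => by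
    rw [eb₂, eb₄, hsum, hσ₂]; ring
  have hΨ₃ : ∀ x, E.Ψ₂Sq.eval x = 0 → v (E.Ψ₃.eval x) =
      v (12 * x ^ 2 + 2 * E.b₂ * x + 2 * E.b₄) ^ 2 := fun x hx => by
    have e := congrArg v (sixteen_mul_eval_Ψ₃ (E := E) x)
    rwa [hx, mul_zero, zero_mul, zero_sub, v.map_neg, map_mul, h16, one_mul, map_pow] at e
  have finish : ∀ r s t, v r ≤ 1 → v s ≤ 1 → v t ≤ 1 →
      (∀ x, (x - r₁) * (x - r₂) * (x - r₃) = (x - r) * (x - s) * (x - t)) →
      (∀ x, (x - r₂) * (x - r₃) + (x - r₁) * (x - r₃) + (x - r₁) * (x - r₂) =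
        (x - s) * (x - t) + (x - r) * (x - t) + (x - r) * (x - s)) →
      v (r - s) < 1 → v ((r - s) ^ 2 + (r - t) * (s - t)) = 1 →
      ∃ r t : L, v r ≤ 1 ∧ E.Ψ₂Sq.eval r = 0 ∧
        v (12 * r ^ 2 + 2 * E.b₂ * r + 2 * E.b₄) < 1 ∧ v t ≤ 1 ∧ E.Ψ₂Sq.eval t = 0 ∧
        v (E.Ψ₃.eval r) < 1 ∧ v (E.Ψ₃.eval t) = 1 := by
    intro r s t hr hs ht hp hq hrs hcs
    have hroot : ∀ x, (x - r) * (x - s) * (x - t) = 0 → E.Ψ₂Sq.eval x = 0 := fun x hx => by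
      rw [heval, hfac, hp, hx, mul_zero]
    have er : 12 * r ^ 2 + 2 * E.b₂ * r + 2 * E.b₄ = 4 * ((r - s) * (r - t)) := by
      rw [hd, hq]; ring
    have hr' : v (12 * r ^ 2 + 2 * E.b₂ * r + 2 * E.b₄) < 1 := by
      rw [er, map_mul, h4, one_mul]
      exact v_mul_lt_one_left hrs (v_sub_le_one hr ht)
    have hunit : v ((r - t) * (s - t)) = 1 := by
      rw [show (r - t) * (s - t) = ((r - s) ^ 2 + (r - t) * (s - t)) - (r - s) ^ 2 by ring,
        v.map_sub_eq_of_lt_left, hcs]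
      rw [hcs, pow_two]
      exact v_mul_lt_one_left hrs hrs.le
    refine ⟨r, t, hr, hroot r (by ring), hr', ht, hroot t (by ring), ?_, ?_⟩
    · rw [hΨ₃ r (hroot r (by ring))]; exact pow_lt_one' hr' two_ne_zero
    · rw [hΨ₃ t (hroot t (by ring)), hd, hq,
        show (t - s) * (t - t) + (t - r) * (t - t) + (t - r) * (t - s) = (r - t) * (s - t) by ring,
        map_mul v 4, h4, hunit, one_mul, one_pow]
  by_cases h12 : v (r₁ - r₂) < 1
  · exact finish r₁ r₂ r₃ h1 h2' h3 (fun _ => rfl) (fun _ => rfl) h12 hc₄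
  by_cases h13 : v (r₁ - r₃) < 1
  · exact finish r₁ r₃ r₂ h1 h3 h2' (fun _ => by ring) (fun _ => by ring) h13
      (by rw [← hc₄]; congr 1; ring)
  by_cases h23 : v (r₂ - r₃) < 1
  · exact finish r₂ r₃ r₁ h2' h3 h1 (fun _ => by ring) (fun _ => by ring) h23
      (by rw [← hc₄]; congr 1; ring)
  push Not at h12 h13 h23
  refine absurd hsmall (not_lt.2 ?_)
  rw [map_mul, map_mul]
  exact one_le_mul (one_le_mul h12 h13) h23

end FermatLib.AtP
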