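import Fermat.Agent.EC.AtPSupersingular

/-!
Consequences of supersingular reduction: inertia fixes no point and no line of `E[p]`; at `2`
it acts through a cyclic group of order three.
-/

set_option autoImplicit false

noncomputable section

namespace FermatLib.AtP

open WeierstrassCurve WeierstrassCurve.Affine Polynomial
open scoped WeierstrassCurve.Affine

local notation "ℚbar" => AlgebraicClosure ℚ
local notation "Γℚ" => (AlgebraicClosure ℚ ≃ₐ[ℚ] AlgebraicClosure ℚ)

variable (W : WeierstrassCurve ℤ) {A : ValuationSubring ℚbar} {p : ℕ}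

/-- `W` over `ℚ̄`. -/
local notation "Wbar" => ((W.map (Int.castRingHom ℚ))⁄(AlgebraicClosure ℚ))

variable [(W.map (Int.castRingHom ℚ)).IsElliptic] [hpf : Fact p.Prime]

lemma natCard_tors : Nat.card (Tors W p) = p ^ 2 :=
  EC.natCard_torsionBy_baseChange (K := ℚbar) (W.map (Int.castRingHom ℚ))
    (Nat.cast_ne_zero.2 hpf.out.ne_zero)

omit [(W.map (Int.castRingHom ℚ)).IsElliptic] hpf in
lemma mem_tors_iff {P : Pts W} : P ∈ Tors W p ↔ p • P = 0 := by
  rw [Submodule.mem_torsionBy_iff, natCast_zsmul]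

lemma exists_torsion_ne_zero : ∃ P : Pts W, p • P = 0 ∧ P ≠ 0 := by
  have hc := natCard_tors W (p := p)
  have : Finite (Tors W p) := Nat.finite_of_card_ne_zero (hc ▸ pow_ne_zero 2 hpf.out.ne_zero)
  have : Nontrivial (Tors W p) := Finite.one_lt_card_iff_nontrivial.1
    (hc ▸ Nat.one_lt_pow two_ne_zero hpf.out.one_lt)
  obtain ⟨P, hP⟩ := exists_ne (0 : Tors W p)
  exact ⟨P, (mem_tors_iff W).1 P.2, fun h => hP (Subtype.ext h)⟩

/-- An element permuting the nonzero torsion points transitively up to sign fixes none of them. -/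
theorem eq_zero_of_transitive {τ : Γℚ}
    (htr : ∀ P Q : Pts W, p • P = 0 → p • Q = 0 → P ≠ 0 → Q ≠ 0 →
      ∃ k : ℕ, (τ ^ k) • P = Q ∨ (τ ^ k) • P = -Q) {P : Pts W} (hP : p • P = 0)
    (hfix : τ • P = P) : P = 0 := by
  by_contra h0
  have hpow : ∀ k : ℕ, (τ ^ k) • P = P := fun k => by
    induction k with
    | zero => exact one_smul _ P
    | succ k ih => rw [pow_succ, mul_smul, hfix, ih]
  have hsub : (Tors W p : Set (Pts W)) ⊆ {0, P, -P} := fun Q hQ => by
    by_cases hQ0 : Q = 0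
    · exact Or.inl hQ0
    obtain ⟨k, hk⟩ := htr P Q hP ((mem_tors_iff W).1 hQ) h0 hQ0
    rw [hpow] at hk
    rcases hk with rfl | hk
    · exact Or.inr (Or.inl rfl)
    · exact Or.inr (Or.inr (show Q = -P by rw [hk]; exact (neg_neg Q).symm))
  have h3 := Set.ncard_le_ncard hsub ((Set.finite_singleton _).insert _ |>.insert _)
  rw [← Nat.card_coe_set_eq, show Nat.card ↥(Tors W p : Set (Pts W)) = p ^ 2 from natCard_tors W]
    at h3
  have h3' : ({0, P, -P} : Set (Pts W)).ncard ≤ 3 :=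
    (Set.ncard_insert_le _ _).trans (Nat.succ_le_succ ((Set.ncard_insert_le _ _).trans
      (Nat.succ_le_succ (Set.ncard_singleton _).le)))
  have := Nat.pow_le_pow_left hpf.out.two_le 2
  omega

/-- A supersingular inertia generator fixes no nonzero torsion point. -/
theorem TameLevelTwoAt.exists_fixes_only_zero (h : TameLevelTwoAt W A p) :
    ∃ τ ∈ A.inertiaSubgroupIn ℚ, ∀ P : Pts W, p • P = 0 → τ • P = P → P = 0 :=
  let ⟨τ, hτ, htr, _⟩ := h
  ⟨τ, hτ, fun _ hP hfix => eq_zero_of_transitive W htr hP hfix⟩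

omit hpf in
/-- At `2` the image of inertia on `E[2]` in the supersingular case has exponent three, and some
element has exact order three. -/
theorem TameLevelTwoAt.order_three [Fact (Nat.Prime 2)] (h : TameLevelTwoAt W A 2) :
    (∀ σ ∈ A.inertiaSubgroupIn ℚ, ∀ P : Pts W, 2 • P = 0 → σ • σ • σ • P = P) ∧
      ∃ τ ∈ A.inertiaSubgroupIn ℚ, ∀ P : Pts W, 2 • P = 0 → τ • P = P → P = 0 := by
  refine ⟨?_, h.exists_fixes_only_zero W⟩
  obtain ⟨τ, hτ, htr, hall⟩ := h
  have hneg : ∀ P : Pts W, 2 • P = 0 → -P = P := fun P hP =>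
    neg_eq_of_add_eq_zero_left (by rw [← two_nsmul]; exact hP)
  have htor : ∀ (σ : Γℚ) (P : Pts W), 2 • P = 0 → 2 • (σ • P) = 0 := fun σ P hP => by
    rw [← galois_nsmul, hP, galois_zero]
  have hcube : ∀ P : Pts W, 2 • P = 0 → τ • τ • τ • P = P := by
    intro P hP
    by_cases h0 : P = 0
    · rw [h0, galois_zero, galois_zero, galois_zero]
    obtain ⟨Q, hQ⟩ : ∃ Q, Q = τ • P := ⟨_, rfl⟩
    obtain ⟨R, hR⟩ : ∃ R, R = τ • Q := ⟨_, rfl⟩
    rw [← hQ, ← hR]
    have hQt : 2 • Q = 0 := hQ ▸ htor τ P hP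
    have hRt : 2 • R = 0 := hR ▸ htor τ Q hQt
    have hQ0 : Q ≠ 0 := hQ ▸ galois_ne_zero W τ h0
    have hR0 : R ≠ 0 := hR ▸ galois_ne_zero W τ hQ0
    have hQP : Q ≠ P := fun e => h0 (eq_zero_of_transitive W htr hP (hQ ▸ e))
    have hRQ : R ≠ Q := fun e => hQ0 (eq_zero_of_transitive W htr hQt (hR ▸ e))
    have hZt : 2 • (P + Q) = 0 := by rw [nsmul_add, hP, hQt, add_zero]
    have hZ0 : P + Q ≠ 0 := fun e => hQP ((neg_eq_of_add_eq_zero_right e).symm.trans (hneg P hP))
    have hsub : ({0, P, Q, P + Q} : Set (Pts W)) ⊆ (Tors W 2 : Set (Pts W)) := by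
      rintro X (rfl | rfl | rfl | rfl)
      · exact zero_mem (Tors W 2)
      all_goals exact (mem_tors_iff W).2 (by assumption)
    have hcardT : Nat.card ↥(Tors W 2 : Set (Pts W)) = 2 ^ 2 := natCard_tors W
    have hfinT : (Tors W 2 : Set (Pts W)).Finite := by
      have : Finite ↥(Tors W 2 : Set (Pts W)) := Nat.finite_of_card_ne_zero (by rw [hcardT]; norm_num)
      exact Set.toFinite _
    have heq : ({0, P, Q, P + Q} : Set (Pts W)) = (Tors W 2 : Set (Pts W)) := by
      refine Set.eq_of_subset_of_ncard_le hsub ?_ hfinT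
      rw [← Nat.card_coe_set_eq (Tors W 2 : Set (Pts W)), hcardT,
        Set.ncard_insert_of_notMem (by simp [Ne.symm h0, Ne.symm hQ0, Ne.symm hZ0]),
        Set.ncard_insert_of_notMem (by simp [Ne.symm hQP, hQ0]),
        Set.ncard_pair (by simpa using h0)]
      norm_num
    have hRmem : R ∈ ({0, P, Q, P + Q} : Set (Pts W)) := heq ▸ (mem_tors_iff W).2 hRt
    rcases hRmem with e | e | e | e
    · exact absurd e hR0
    · refine absurd (eq_zero_of_transitive W htr hZt ?_) hZ0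
      rw [galois_add, ← hQ, ← hR, e, add_comm]
    · exact absurd e hRQ
    · rw [e, galois_add, ← hQ, ← hR, e, add_left_comm, ← two_nsmul, hQt, add_zero]
  intro σ hσ P hP
  obtain ⟨k, hk⟩ := hall σ hσ
  have hk' : ∀ X : Pts W, 2 • X = 0 → σ • X = (τ ^ k) • X := fun X hX => by
    rcases hk with hk | hk
    · exact hk X hX
    · rw [hk X hX, hneg _ (htor _ X hX)]
  rw [hk' P hP, hk' _ (htor _ P hP), hk' _ (htor _ _ (htor _ P hP)), ← mul_smul, ← mul_smul,
    ← pow_add, ← pow_add, show k + k + k = 3 * k by ring, pow_mul]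
  have hτ3 : ∀ m : ℕ, ((τ ^ 3) ^ m) • P = P := fun m => by
    induction m with
    | zero => rw [pow_zero]; exact one_smul _ P
    | succ m ih =>
      rw [pow_succ', mul_smul, ih, show τ ^ 3 = τ * τ * τ by rw [pow_succ, pow_two], mul_smul,
        mul_smul, hcube P hP]
  exact hτ3 k

/-- At `2` good reduction with `a₁` even is supersingular. -/
theorem not_kernelProper_two_of_even [Fact (Nat.Prime 2)] (hA : A.LiesOverPrime 2)
    (hgood : ¬ (2 : ℤ) ∣ W.Δ) (ha₁ : (2 : ℤ) ∣ W.a₁) : ¬ KernelProper W A 2 := by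
  rintro ⟨P, hP, hk⟩
  match P with
  | .zero => exact hk trivial
  | .some x y h =>
    have hx : A.valuation x ≤ 1 := not_lt.1 hk
    have he := (EC.nsmul_some_eq_zero_iff h 2).1 hP
    rw [show ((2 : ℕ) : ℤ) = 2 from rfl, ΨSq_two] at he
    simp [Ψ₂Sq] at he
    have hE : IntegralCoeffs A.valuation (Wbar) := integralCoeffs_bar W
    have h2 : A.valuation (2 : ℚbar) < 1 := by simpa using (A.mem_nonunits_iff).1 hA
    obtain ⟨c, hc⟩ := ha₁
    obtain ⟨e, he2⟩ : (2 : ℤ) ∣ W.b₂ := ⟨2 * c ^ 2 + 2 * W.a₂, by rw [b₂, hc]; ring⟩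
    have hb₂ : A.valuation (Wbar).b₂ < 1 := by
      rw [baseChange_eq_map, map_b₂, eq_intCast]
      exact valuation_intCast_lt_one hA ⟨e, he2⟩
    have hb₆ : A.valuation (Wbar).b₆ = 1 := by
      rw [baseChange_eq_map, map_b₆]
      refine valuation_intCast_eq_one Nat.prime_two hA fun hd => hgood ?_
      obtain ⟨g, hg⟩ := hd
      rw [Δ, he2]
      push_cast at hg
      rw [hg]
      exact ⟨-(2 * e ^ 2) * W.b₈ - 4 * W.b₄ ^ 3 - 54 * g ^ 2 + 18 * e * W.b₄ * g, by ring⟩
    have hlt : A.valuation (4 * x ^ 3 + (Wbar).b₂ * x ^ 2 + 2 * (Wbar).b₄ * x) < 1 := by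
      refine A.valuation.map_add_lt (A.valuation.map_add_lt ?_ (v_mul_lt_one_left hb₂
        (v_pow_le_one hx 2))) (v_mul_lt_one_left (v_mul_lt_one_left h2
          (v_add_le_one (v_mul_le_one (v_ofNat_le_one 2) hE.h₄) (v_mul_le_one hE.h₁ hE.h₃))) hx)
      rw [show (4 : ℚbar) = 2 * 2 by norm_num, mul_assoc]
      exact v_mul_lt_one_left h2 (v_mul_le_one (v_ofNat_le_one 2) (v_pow_le_one hx 3))
    have e0 : (Wbar).b₆ = -(4 * x ^ 3 + (Wbar).b₂ * x ^ 2 + 2 * (Wbar).b₄ * x) := by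
      linear_combination he
    rw [e0, A.valuation.map_neg] at hb₆
    exact hlt.ne hb₆

end FermatLib.AtP

end
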