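import Fermat.Agent.EC.AtPPoints

/-!
Existence of small and large roots of an integral polynomial.
-/

set_option autoImplicit false

namespace FermatLib.AtP

open Polynomial

universe u w

variable {L : Type u} [Field L] {Γ : Type w} [LinearOrderedCommGroupWithZero Γ]
  {v : Valuation L Γ}

lemma v_coeff_mul_lt_one {f g : L[X]} (hf : ∀ i, v (f.coeff i) ≤ 1)
    (hg : ∀ i, v (g.coeff i) < 1) (i : ℕ) : v ((f * g).coeff i) < 1 := by
  rw [coeff_mul]
  exact v.map_sum_lt one_ne_zero fun x _ => v_mul_lt_one_right (hf _) (hg _)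

variable [IsAlgClosed L]

/-- An integral polynomial with some unit coefficient and small constant term has a small root. -/
theorem exists_root_lt_one : ∀ (n : ℕ) (f : L[X]), f.natDegree = n → (∀ i, v (f.coeff i) ≤ 1) →
    (∃ i, v (f.coeff i) = 1) → v (f.coeff 0) < 1 → ∃ r, f.eval r = 0 ∧ v r < 1
  | 0, f, hn, _, ⟨i, hi⟩, h0 => by
    rcases Nat.eq_zero_or_pos i with rfl | hpos
    · exact absurd hi h0.ne
    · rw [coeff_eq_zero_of_natDegree_lt (hn ▸ hpos), map_zero] at hi
      exact absurd hi zero_ne_one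
  | n + 1, f, hn, hf, ⟨i, hi⟩, h0 => by
    have hdeg : f.degree ≠ 0 := fun e => by
      have := natDegree_eq_of_degree_eq_some (n := 0) e
      omega
    obtain ⟨r, hr⟩ := IsAlgClosed.exists_root f hdeg
    by_cases hr1 : v r < 1
    · exact ⟨r, hr, hr1⟩
    push Not at hr1
    obtain ⟨g, hfg⟩ := dvd_iff_isRoot.2 hr
    have hrne : r ≠ 0 := v.ne_zero_iff.1 (zero_lt_one.trans_le hr1).ne'
    have hinv : v r⁻¹ ≤ 1 := by rw [map_inv₀]; exact inv_le_one_of_one_le₀ hr1
    have hk : ∀ j, v ((C r * g).coeff j) ≤ 1 := by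
      intro j
      induction j with
      | zero =>
        have := hf 0
        rw [hfg, mul_coeff_zero] at this
        simpa using this
      | succ j ihj =>
        rw [coeff_C_mul] at ihj ⊢
        have e : r * g.coeff (j + 1) = r⁻¹ * (r * g.coeff j) - f.coeff (j + 1) := by
          rw [inv_mul_cancel_left₀ hrne, hfg, sub_mul, coeff_sub, coeff_X_mul, coeff_C_mul]
          ring
        rw [e]
        exact v.map_sub_le (by rw [map_mul v r⁻¹]; exact mul_le_one' hinv ihj) (hf _)
    have hfk : f = (C r⁻¹ * X - 1) * (C r * g) := by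
      have e : (C r⁻¹ : L[X]) * C r = 1 := by rw [← C_mul, inv_mul_cancel₀ hrne, C_1]
      rw [hfg]
      linear_combination -(X * g) * e
    have hlin : ∀ j, v ((C r⁻¹ * X - 1 : L[X]).coeff j) ≤ 1 := fun j => by
      rw [coeff_sub, coeff_C_mul, coeff_X, coeff_one]
      exact v_sub_le_one (v_mul_le_one hinv (by split_ifs <;> simp)) (by split_ifs <;> simp)
    have hunit : ∃ j, v ((C r * g).coeff j) = 1 := by
      by_contra hc
      push Not at hc
      refine (lt_of_le_of_lt le_rfl ?_).ne hi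
      rw [hfk]
      exact v_coeff_mul_lt_one hlin (fun j => lt_of_le_of_ne (hk j) (hc j)) i
    have hk0 : v ((C r * g).coeff 0) < 1 := by
      have : f.coeff 0 = -((C r * g).coeff 0) := by
        rw [hfk]; simp [mul_coeff_zero]
      rwa [this, v.map_neg] at h0
    have hg0 : g ≠ 0 := fun e => by rw [hfg, e, mul_zero, natDegree_zero] at hn; omega
    have hn' : (C r * g).natDegree = n := by
      rw [natDegree_C_mul hrne]
      rw [hfg, natDegree_mul (X_sub_C_ne_zero r) hg0, natDegree_X_sub_C] at hn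
      omega
    obtain ⟨s, hs, hs1⟩ := exists_root_lt_one n _ hn' hk hunit hk0
    refine ⟨s, ?_, hs1⟩
    rw [hfk, eval_mul, hs, mul_zero]

/-- An integral polynomial with unit content and non-unit leading coefficient has a non-integral
root. -/
theorem exists_root_one_lt {f : L[X]} (hf : ∀ i, v (f.coeff i) ≤ 1)
    (hu : ∃ i, v (f.coeff i) = 1) (hlead : v f.leadingCoeff < 1) :
    ∃ r, f.eval r = 0 ∧ 1 < v r := by
  obtain ⟨i, hi⟩ := hu
  have hu' : ∃ j, v (f.reverse.coeff j) = 1 := by
    refine ⟨revAt f.natDegree i, ?_⟩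
    rwa [coeff_reverse, revAt_invol]
  obtain ⟨z, hz, hz1⟩ := exists_root_lt_one _ f.reverse rfl
    (fun j => by rw [coeff_reverse]; exact hf _) hu' (by rwa [coeff_zero_reverse])
  have hf0 : f ≠ 0 := fun e => by rw [e, coeff_zero, map_zero] at hi; exact zero_ne_one hi
  have hz0 : z ≠ 0 := by
    rintro rfl
    rw [← coeff_zero_eq_eval_zero, coeff_zero_reverse] at hz
    exact leadingCoeff_ne_zero.2 hf0 hz
  refine ⟨z⁻¹, ?_, ?_⟩
  · letI := invertibleOfNonzero (inv_ne_zero hz0)
    refine (eval₂_reverse_eq_zero_iff (RingHom.id L) z⁻¹ f).1 ?_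
    rw [invOf_eq_inv, inv_inv]
    exact hz
  · rw [map_inv₀]
    exact (one_lt_inv₀ (zero_lt_iff.2 (v.ne_zero_iff.2 hz0))).2 hz1

/-- An integral polynomial with unit content which is small at an integral point has a root
congruent to that point. -/
theorem exists_root_sub_lt_one {f : L[X]} (hf : ∀ i, v (f.coeff i) ≤ 1)
    (hu : ∃ i, v (f.coeff i) = 1) {s : L} (hs : v s ≤ 1) (h : v (f.eval s) < 1) :
    ∃ r, f.eval r = 0 ∧ v (r - s) < 1 := by
  obtain ⟨g, hg⟩ : ∃ g, g = f.comp (X + C s) := ⟨_, rfl⟩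
  have hint : ∀ (c : L), v c ≤ 1 → ∀ (j k : ℕ), v (((X + C c) ^ j : L[X]).coeff k) ≤ 1 := by
    intro c hc j k
    rw [coeff_X_add_C_pow]
    exact v_mul_le_one (v_pow_le_one hc _) (v_natCast_le_one _)
  have hgc : ∀ k, v (g.coeff k) ≤ 1 := fun k => by
    rw [hg, comp_eq_sum_left, Polynomial.sum_def, finsetSum_coeff]
    exact v.map_sum_le fun j _ => by
      rw [coeff_C_mul]; exact v_mul_le_one (hf j) (hint s hs j k)
  have hback : f = g.comp (X + C (-s)) := by
    rw [hg, comp_assoc]; simp [C_neg]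
  have hgu : ∃ k, v (g.coeff k) = 1 := by
    by_contra hc
    push Not at hc
    obtain ⟨i, hi⟩ := hu
    refine (lt_of_le_of_lt le_rfl ?_).ne hi
    rw [hback, comp_eq_sum_left, Polynomial.sum_def, finsetSum_coeff]
    exact v.map_sum_lt one_ne_zero fun j _ => by
      rw [coeff_C_mul]
      exact v_mul_lt_one_left (lt_of_le_of_ne (hgc j) (hc j)) (hint (-s) (by rwa [v.map_neg]) j i)
  obtain ⟨r, hr, hr1⟩ := exists_root_lt_one _ g rfl hgc hgu
    (by rw [hg, coeff_zero_eq_eval_zero, eval_comp]; simpa using h)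
  refine ⟨r + s, ?_, by simpa using hr1⟩
  rwa [hg, eval_comp, eval_add, eval_X, eval_C] at hr

end FermatLib.AtP
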