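import Fermat.Agent.EC.Torsion
import Mathlib.RingTheory.ZMod
import Mathlib.Data.ZMod.Basic

/-!
# Corollaries of the multiplication formula
-/

open Polynomial WeierstrassCurve WeierstrassCurve.Affine
open scoped WeierstrassCurve.Affine

namespace FermatLib.EC

variable {F : Type*} [Field F] [DecidableEq F] {W : WeierstrassCurve.Affine F} [W.IsElliptic]

theorem nsmul_some_eq_zero_iff {x y : F} (h : W.Nonsingular x y) (n : ℕ) :
    n • Point.some x y h = 0 ↔ (W.ΨSq (n : ℤ)).eval x = 0 := by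
  rw [← natCast_zsmul, zsmul_some_eq_zero_iff]

theorem eval_preΨ'_eq_zero_iff_nsmul_eq_zero {x y : F} (h : W.Nonsingular x y) {n : ℕ}
    (hn : Odd n) : (W.preΨ' n).eval x = 0 ↔ n • Point.some x y h = 0 := by
  rw [nsmul_some_eq_zero_iff, ΨSq_ofNat, if_neg (Nat.not_even_iff_odd.mpr hn), mul_one, eval_pow,
    pow_eq_zero_iff two_ne_zero]

omit [DecidableEq F] in
theorem preΨ'_ne_zero_of_isElliptic (W : WeierstrassCurve F) [W.IsElliptic] {n : ℕ}
    (hn : n ≠ 0) : W.preΨ' n ≠ 0 := by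
  classical
  intro h0
  refine ΨSq_ne_zero_of_isElliptic W (n := (n : ℤ)) (by lia) ?_
  rw [ΨSq_ofNat, h0]
  simp

end FermatLib.EC
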