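import Fermat.Agent.EC.AtP
import Fermat.Agent.EC.AtPRootsExist
import Fermat.Agent.EC.AtPDivPoly
import Fermat.Agent.EC.TorsionCorollaries

/-!
`p`-divisibility and `p`-torsion of the kernel of reduction at a semistable place over `p`.
-/

set_option autoImplicit false

noncomputable section

namespace FermatLib.AtP

open WeierstrassCurve WeierstrassCurve.Affine Polynomial
open scoped WeierstrassCurve.Affine

local notation "ℚbar" => AlgebraicClosure ℚ

variable (W : WeierstrassCurve ℤ) {A : ValuationSubring ℚbar} {p : ℕ}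

/-- `W` over `ℚ̄`. -/
local notation "Wbar" => ((W.map (Int.castRingHom ℚ))⁄(AlgebraicClosure ℚ))

/-- The `p`-th squared division polynomial does not vanish modulo `p`. -/
def UnitContent (W : WeierstrassCurve ℤ) (p : ℕ) : Prop :=
  ∃ i, ¬ (p : ℤ) ∣ (W.ΨSq (p : ℤ)).coeff i

lemma integralCoeffs_bar : IntegralCoeffs A.valuation Wbar := by
  rw [baseChange_eq_map]
  exact ⟨valuation_intCast_le_one _, valuation_intCast_le_one _, valuation_intCast_le_one _,
    valuation_intCast_le_one _, valuation_intCast_le_one _⟩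

lemma ΨSq_bar (n : ℤ) : (Wbar).ΨSq n = (W.ΨSq n).map (Int.castRingHom ℚbar) := by
  rw [baseChange_eq_map, map_ΨSq]

lemma Φ_bar (n : ℤ) : (Wbar).Φ n = (W.Φ n).map (Int.castRingHom ℚbar) := by
  rw [baseChange_eq_map, map_Φ]

lemma v_two_eq_one (hp : p.Prime) (hp2 : p ≠ 2) (hA : A.LiesOverPrime p) :
    A.valuation (2 : ℚbar) = 1 := by
  have : ¬ (p : ℤ) ∣ 2 := fun h =>
    hp2 ((Nat.prime_dvd_prime_iff_eq hp Nat.prime_two).1 (Int.natCast_dvd.1 h))
  simpa using valuation_intCast_eq_one hp hA this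

lemma v_Δ_lt_one (hA : A.LiesOverPrime p) (h : (p : ℤ) ∣ W.Δ) :
    A.valuation (Wbar).Δ < 1 := by
  rw [baseChange_eq_map, map_Δ]; exact valuation_intCast_lt_one hA h

lemma v_c₄_eq_one (hp : p.Prime) (hA : A.LiesOverPrime p) (h : ¬ (p : ℤ) ∣ W.c₄) :
    A.valuation (Wbar).c₄ = 1 := by
  rw [baseChange_eq_map, map_c₄]; exact valuation_intCast_eq_one hp hA h

lemma unitContent_of_good (hp : p.Prime) (h : ¬ (p : ℤ) ∣ W.Δ) : UnitContent W p := by
  have : Fact p.Prime := ⟨hp⟩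
  have : (W.map (Int.castRingHom (ZMod p))).IsElliptic := ⟨by
    rw [map_Δ, isUnit_iff_ne_zero]
    exact fun e => h ((ZMod.intCast_zmod_eq_zero_iff_dvd _ _).1 e)⟩
  have hne := EC.ΨSq_ne_zero_of_isElliptic (W.map (Int.castRingHom (ZMod p)))
    (n := (p : ℤ)) (Int.natCast_ne_zero.2 hp.ne_zero)
  rw [map_ΨSq] at hne
  by_contra hc
  simp only [UnitContent, not_exists, not_not] at hc
  exact hne (Polynomial.ext fun i => by
    rw [coeff_map, coeff_zero, eq_intCast]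
    exact (ZMod.intCast_zmod_eq_zero_iff_dvd _ _).2 (hc i))

lemma unitContent_of_eval (hA : A.LiesOverPrime p) {t : ℚbar} (ht : A.valuation t ≤ 1)
    (h : A.valuation (((Wbar).ΨSq (p : ℤ)).eval t) = 1) : UnitContent W p := by
  by_contra hc
  simp only [UnitContent, not_exists, not_not] at hc
  refine (lt_of_le_of_lt le_rfl ?_).ne h
  rw [eval_eq_sum, Polynomial.sum_def]
  refine A.valuation.map_sum_lt one_ne_zero fun i _ => v_mul_lt_one_left ?_ (v_pow_le_one ht i)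
  rw [ΨSq_bar, coeff_map, eq_intCast]
  exact valuation_intCast_lt_one hA (hc i)

lemma UnitContent.exists_coeff (hu : UnitContent W p) (hp : p.Prime) (hA : A.LiesOverPrime p) :
    ∃ i, A.valuation (((Wbar).ΨSq (p : ℤ)).coeff i) = 1 := by
  obtain ⟨i, hi⟩ := hu
  exact ⟨i, by rw [ΨSq_bar, coeff_map, eq_intCast]; exact valuation_intCast_eq_one hp hA hi⟩

variable [(W.map (Int.castRingHom ℚ)).IsElliptic]

lemma exists_kerPt_torsion (hu : UnitContent W p) (hp : p.Prime) (hA : A.LiesOverPrime p) :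
    ∃ z : Pts W, z ≠ 0 ∧ p • z = 0 ∧ IsKerPt A.valuation z := by
  obtain ⟨r, hr, hr1⟩ := exists_root_one_lt (v := A.valuation) (f := (Wbar).ΨSq (p : ℤ))
    (fun i => by rw [ΨSq_bar, coeff_map, eq_intCast]; exact valuation_intCast_le_one _)
    (hu.exists_coeff W hp hA) (by
      rw [leadingCoeff_ΨSq _ (by exact_mod_cast hp.ne_zero : ((p : ℤ) : ℚbar) ≠ 0), map_pow,
        Int.cast_natCast]
      exact pow_lt_one' ((A.mem_nonunits_iff).1 hA) two_ne_zero)
  obtain ⟨y, hy⟩ := EC.exists_nonsingular_of_isAlgClosed (Wbar).toAffine r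
  exact ⟨Point.some r y hy, Point.some_ne_zero hy, (EC.nsmul_some_eq_zero_iff hy p).2 hr, hr1⟩

lemma exists_kerPt_nsmul_eq (hu : UnitContent W p) (hp : p.Prime) (hA : A.LiesOverPrime p)
    {Q : Pts W} (hQ : IsKerPt A.valuation Q) :
    ∃ R : Pts W, IsKerPt A.valuation R ∧ p • R = Q := by
  match Q with
  | .zero => exact ⟨0, IsKerPt.zero, (nsmul_zero p : p • (0 : Pts W) = 0)⟩
  | .some a b h =>
    have ha : 1 < A.valuation a := hQ
    have ha0 : a ≠ 0 := A.valuation.ne_zero_iff.1 (zero_lt_one.trans ha).ne'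
    have hainv : A.valuation a⁻¹ < 1 := by rw [map_inv₀]; exact inv_lt_one_of_one_lt₀ ha
    have hΦ : ∀ i, A.valuation (((Wbar).Φ (p : ℤ)).coeff i) ≤ 1 := fun i => by
      rw [Φ_bar, coeff_map, eq_intCast]; exact valuation_intCast_le_one _
    have hΨ : ∀ i, A.valuation (((Wbar).ΨSq (p : ℤ)).coeff i) ≤ 1 := fun i => by
      rw [ΨSq_bar, coeff_map, eq_intCast]; exact valuation_intCast_le_one _
    obtain ⟨g, hg⟩ : ∃ g, g = C a⁻¹ * (Wbar).Φ (p : ℤ) - (Wbar).ΨSq (p : ℤ) := ⟨_, rfl⟩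
    have hcoe : ∀ i, A.valuation (g.coeff i) ≤ 1 := fun i => by
      rw [hg, coeff_sub, coeff_C_mul]; exact v_sub_le_one (v_mul_le_one hainv.le (hΦ i)) (hΨ i)
    obtain ⟨i, hi⟩ := hu.exists_coeff W hp hA
    have hunit : A.valuation (g.coeff i) = 1 := by
      rw [hg, coeff_sub, coeff_C_mul, A.valuation.map_sub_eq_of_lt_right, hi]
      rw [hi]; exact v_mul_lt_one_left hainv (hΦ i)
    have hgf : g = C a⁻¹ * ((Wbar).Φ (p : ℤ) - C a * (Wbar).ΨSq (p : ℤ)) := by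
      have e : (C a⁻¹ : ℚbar[X]) * C a = 1 := by rw [← C_mul, inv_mul_cancel₀ ha0, C_1]
      rw [hg]; linear_combination ((Wbar).ΨSq (p : ℤ)) * e
    have hp0 : (p : ℤ) ≠ 0 := Int.natCast_ne_zero.2 hp.ne_zero
    have hlead : A.valuation g.leadingCoeff < 1 := by
      have hd := EC.natDegree_Φ_sub_C_mul_ΨSq Wbar hp0 a
      rw [hgf, leadingCoeff_mul, leadingCoeff_C]
      refine v_mul_lt_one_left hainv ?_
      rw [leadingCoeff, hd, coeff_sub, coeff_C_mul, coeff_Φ,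
        coeff_eq_zero_of_natDegree_lt (p := (Wbar).ΨSq (p : ℤ)), mul_zero, sub_zero, map_one]
      refine lt_of_le_of_lt ((Wbar).natDegree_ΨSq_le _) ?_
      have : 0 < (p : ℤ).natAbs ^ 2 := pow_pos (Int.natAbs_pos.2 hp0) 2
      omega
    obtain ⟨r, hr, hr1⟩ := exists_root_one_lt hcoe ⟨i, hunit⟩ hlead
    rw [hgf, eval_mul, eval_C, mul_eq_zero] at hr
    obtain ⟨y, hy, e⟩ := EC.exists_zsmul_eq_of_isRoot (W := (Wbar).toAffine) h
      (hr.resolve_left (inv_ne_zero ha0))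
    exact ⟨Point.some r y hy, hr1, by rw [← natCast_zsmul]; exact e⟩

omit [(W.map (Int.castRingHom ℚ)).IsElliptic] in
lemma exists_mult_roots (hp : p.Prime) (hp2 : p ≠ 2) (hA : A.LiesOverPrime p)
    (hΔ : (p : ℤ) ∣ W.Δ) (hc₄ : ¬ (p : ℤ) ∣ W.c₄) :
    ∃ r t : ℚbar, A.valuation r ≤ 1 ∧ (Wbar).Ψ₂Sq.eval r = 0 ∧
      A.valuation (12 * r ^ 2 + 2 * (Wbar).b₂ * r + 2 * (Wbar).b₄) < 1 ∧
      A.valuation (((Wbar).preΨ' p).eval r) < 1 ∧
      A.valuation t ≤ 1 ∧ A.valuation (((Wbar).preΨ' p).eval t) = 1 := by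
  obtain ⟨r, t, hr, hfr, hdr, ht, hft, h3r, h3t⟩ :=
    exists_two_torsion_roots (E := Wbar) (integralCoeffs_bar W) (v_two_eq_one hp hp2 hA)
      (v_Δ_lt_one W hA hΔ) (v_c₄_eq_one W hp hA hc₄)
  obtain ⟨n, hn⟩ := hp.odd_of_ne_two hp2
  have hn1 : 1 ≤ n := by have := hp.two_le; omega
  rw [hn]
  exact ⟨r, t, hr, hfr, hdr, ((v_eval_preΨ'_odd hfr n).2 h3r).2 hn1, ht,
    (v_eval_preΨ'_odd hft n).1 h3t⟩

omit [(W.map (Int.castRingHom ℚ)).IsElliptic] in
lemma unitContent_of_mult (hp : p.Prime) (hp2 : p ≠ 2) (hA : A.LiesOverPrime p)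
    (hΔ : (p : ℤ) ∣ W.Δ) (hc₄ : ¬ (p : ℤ) ∣ W.c₄) : UnitContent W p := by
  obtain ⟨-, t, -, -, -, -, ht, hval⟩ := exists_mult_roots W hp hp2 hA hΔ hc₄
  refine unitContent_of_eval W hA ht ?_
  rw [ΨSq_ofNat, if_neg (Nat.not_even_iff_odd.2 (hp.odd_of_ne_two hp2)), mul_one, eval_pow,
    map_pow, hval, one_pow]

/-- At a multiplicative place of odd residue characteristic some `p`-torsion point has singular
reduction. -/
lemma exists_torsion_not_smooth (hp : p.Prime) (hp2 : p ≠ 2) (hA : A.LiesOverPrime p)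
    (hΔ : (p : ℤ) ∣ W.Δ) (hc₄ : ¬ (p : ℤ) ∣ W.c₄) :
    ∃ P : Pts W, p • P = 0 ∧ ¬ IsKerPt A.valuation P ∧ ¬ IsSmoothPt A.valuation P := by
  obtain ⟨r, t, hr, hfr, hdr, hpr, ht, hpt⟩ := exists_mult_roots W hp hp2 hA hΔ hc₄
  have hE : IntegralCoeffs A.valuation Wbar := integralCoeffs_bar W
  have hcoe : ∀ i, A.valuation (((Wbar).preΨ' p).coeff i) ≤ 1 := fun i => by
    rw [baseChange_eq_map, map_preΨ', coeff_map, eq_intCast]
    exact valuation_intCast_le_one _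
  have hunit : ∃ i, A.valuation (((Wbar).preΨ' p).coeff i) = 1 := by
    by_contra hc
    push Not at hc
    refine (lt_of_le_of_lt le_rfl ?_).ne hpt
    rw [eval_eq_sum, Polynomial.sum_def]
    exact A.valuation.map_sum_lt one_ne_zero fun i _ =>
      v_mul_lt_one_left (lt_of_le_of_ne (hcoe i) (hc i)) (v_pow_le_one ht i)
  obtain ⟨x, hx, hxr⟩ := exists_root_sub_lt_one hcoe hunit hr hpr
  obtain ⟨y, hy⟩ := EC.exists_nonsingular_of_isAlgClosed (Wbar).toAffine x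
  have hx1 : A.valuation x ≤ 1 := by
    simpa using v_add_le_one (v := A.valuation) hxr.le hr
  refine ⟨Point.some x y hy,
    (EC.eval_preΨ'_eq_zero_iff_nsmul_eq_zero hy (hp.odd_of_ne_two hp2)).1 hx,
    fun h => absurd hx1 (not_le.2 h), fun hs => ?_⟩
  have h2 := v_two_eq_one hp hp2 hA
  have h20 : (2 : ℚbar) ≠ 0 := two_ne_zero
  have hb₂ : A.valuation (Wbar).b₂ ≤ 1 :=
    v_add_le_one (v_pow_le_one hE.h₁ 2) (v_mul_le_one (v_ofNat_le_one 4) hE.h₂)
  have hb₄ : A.valuation (Wbar).b₄ ≤ 1 :=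
    v_add_le_one (v_mul_le_one (v_ofNat_le_one 2) hE.h₄) (v_mul_le_one hE.h₁ hE.h₃)
  have hq : A.valuation (2 * y + (Wbar).a₁ * x + (Wbar).a₃) < 1 := by
    have he := (equation_iff x y).1 hy.left
    have e : (2 * y + (Wbar).a₁ * x + (Wbar).a₃) ^ 2 =
        (x - r) * (4 * (x ^ 2 + x * r + r ^ 2) + (Wbar).b₂ * (x + r) + 2 * (Wbar).b₄) := by
      have h0 : 4 * r ^ 3 + (Wbar).b₂ * r ^ 2 + 2 * (Wbar).b₄ * r + (Wbar).b₆ = 0 := by
        simpa [Ψ₂Sq] using hfr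
      simp only [b₂, b₄, b₆] at h0 ⊢
      linear_combination 4 * he + h0
    have h4 : A.valuation (4 : ℚbar) ≤ 1 := v_ofNat_le_one 4
    have hlt : A.valuation ((2 * y + (Wbar).a₁ * x + (Wbar).a₃) ^ 2) < 1 := by
      rw [e]
      exact v_mul_lt_one_left hxr (v_add_le_one (v_add_le_one (v_mul_le_one h4
        (v_add_le_one (v_add_le_one (v_pow_le_one hx1 2) (v_mul_le_one hx1 hr))
          (v_pow_le_one hr 2))) (v_mul_le_one hb₂ (v_add_le_one hx1 hr)))
        (v_mul_le_one (v_ofNat_le_one 2) hb₄))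
    rw [map_pow] at hlt
    exact (pow_lt_one_iff_of_nonneg zero_le two_ne_zero).1 hlt
  have hp' : A.valuation (4 * (3 * x ^ 2 + 2 * (Wbar).a₂ * x + (Wbar).a₄ - (Wbar).a₁ * y)) < 1 := by
    have e : 4 * (3 * x ^ 2 + 2 * (Wbar).a₂ * x + (Wbar).a₄ - (Wbar).a₁ * y) =
        (12 * r ^ 2 + 2 * (Wbar).b₂ * r + 2 * (Wbar).b₄) +
          (x - r) * (12 * (x + r) + 2 * (Wbar).b₂) -
          2 * (Wbar).a₁ * (2 * y + (Wbar).a₁ * x + (Wbar).a₃) := by
      simp only [b₂, b₄]; ring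
    rw [e]
    exact A.valuation.map_sub_lt (A.valuation.map_add_lt hdr (v_mul_lt_one_left hxr
      (v_add_le_one (v_mul_le_one (v_ofNat_le_one 12) (v_add_le_one hx1 hr))
        (v_mul_le_one (v_ofNat_le_one 2) hb₂))))
      (v_mul_lt_one_right (v_mul_le_one (v_ofNat_le_one 2) hE.h₁) hq)
  rcases hs.2 with h' | h'
  · rw [map_mul, show (4 : ℚbar) = 2 * 2 by norm_num, map_mul A.valuation 2, h2, h',
      one_mul, one_mul] at hp'
    exact hp'.false
  · exact hq.ne h'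

end FermatLib.AtP

end
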