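import Fermat.Agent.EC.AtPNode

/-!
The two possible actions of an inertial automorphism on a stable line of p-torsion, according to
whether the line lies in the kernel of reduction.
-/

set_option autoImplicit false

namespace FermatLib.AtP

open WeierstrassCurve WeierstrassCurve.Affine

universe u w

variable {L : Type u} [Field L] {Γ : Type w} [LinearOrderedCommGroupWithZero Γ]
  {v : Valuation L Γ} {E : WeierstrassCurve L}

lemma IsInertial.one : IsInertial v (1 : L →+* L) :=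
  ⟨fun _ => rfl, fun z _ => by simp⟩

lemma IsInertial.mul {σ τ : L →+* L} (hσ : IsInertial v σ) (hτ : IsInertial v τ) :
    IsInertial v (σ * τ) :=
  ⟨fun z => (hσ.map_val _).trans (hτ.map_val z), fun z hz => by
    rw [RingHom.coe_mul, Function.comp_apply, show σ (τ z) - z = (σ (τ z) - τ z) + (τ z - z) by ring]
    exact v.map_add_lt (hσ.congr _ ((hτ.map_val z).le.trans hz)) (hτ.congr z hz)⟩

lemma IsInertial.pow {σ : L →+* L} (hσ : IsInertial v σ) : ∀ n : ℕ, IsInertial v (σ ^ n)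
  | 0 => by rw [pow_zero]; exact IsInertial.one
  | n + 1 => by rw [pow_succ]; exact (hσ.pow n).mul hσ

lemma map_pow_fix {σ : L →+* L} (hfix : E.map σ = E) : ∀ n : ℕ, E.map (σ ^ n) = E
  | 0 => by rw [pow_zero]; exact E.map_id
  | n + 1 => by
    have := (E.map_map σ (σ ^ n)).symm
    rw [hfix, map_pow_fix hfix n] at this
    rw [pow_succ]
    exact this

/-- The invariant of `σ ^ n` is congruent to the `n`-th power of that of `σ`. -/
lemma IsInertial.twist_pow {σ : L →+* L} (hσ : IsInertial v σ) {Z : L} (hZ : Z ≠ 0) :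
    ∀ n : ℕ, v ((σ ^ n) Z / Z - (σ Z / Z) ^ n) < 1
  | 0 => by simp [hZ]
  | n + 1 => by
    have hvZ : v Z ≠ 0 := v.ne_zero_iff.2 hZ
    have hu : v (σ Z / Z) = 1 := by rw [map_div₀, hσ.map_val, div_self hvZ]
    have hw : v ((σ ^ n) Z / Z) = 1 := by rw [map_div₀, (hσ.pow n).map_val, div_self hvZ]
    have e : (σ ^ (n + 1)) Z / Z = σ ((σ ^ n) Z / Z) * (σ Z / Z) := by
      have hσZ : σ Z ≠ 0 := (map_ne_zero σ).2 hZ
      rw [pow_succ', RingHom.coe_mul, Function.comp_apply, map_div₀]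
      field_simp
    rw [e, pow_succ, ← sub_mul, show σ ((σ ^ n) Z / Z) - (σ Z / Z) ^ n
      = (σ ((σ ^ n) Z / Z) - (σ ^ n) Z / Z) + ((σ ^ n) Z / Z - (σ Z / Z) ^ n) by ring]
    exact v_mul_lt_one_left (v.map_add_lt (hσ.congr _ hw.le) (hσ.twist_pow hZ n)) hu.le

/-- In residue characteristic `p`, a unit whose `p`-th power is `≡ 1` is itself `≡ 1`. -/
lemma v_sub_one_lt_of_pow {p : ℕ} (hp : p.Prime) (hpv : v (p : L) < 1) {u : L} (hu : v u = 1)
    (h : v (u ^ p - 1) < 1) : v (u - 1) < 1 := by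
  have hum : u - 1 ∈ v.integer := v_sub_le_one hu.le v.map_one.le
  obtain ⟨r, hr⟩ := exists_add_pow_prime_eq hp (⟨u - 1, hum⟩ : v.integer) 1
  have hr' : u ^ p = (u - 1) ^ p + 1 + (p : L) * (u - 1) * (r : L) := by
    have := congrArg (Subtype.val : v.integer → L) hr
    simpa using this
  have : v ((u - 1) ^ p) < 1 := by
    rw [show (u - 1) ^ p = (u ^ p - 1) - (p : L) * (u - 1) * (r : L) by rw [hr']; ring]
    exact v.map_sub_lt h (v_mul_lt_one_left (v_mul_lt_one_left hpv hum) r.2)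
  rw [map_pow] at this
  exact (pow_lt_one_iff_of_nonneg zero_le hp.ne_zero).1 this

/-- With unit discriminant every integral point has smooth reduction. -/
lemma IntegralCoeffs.isSmoothPt_of_Δ (hE : IntegralCoeffs v E) (hΔ : v E.Δ = 1) {x y : L}
    {h : E.toAffine.Nonsingular x y} (hx : v x ≤ 1) : IsSmoothPt v (Point.some x y h) := by
  refine ⟨hx, or_iff_not_imp_left.2 fun hp => ?_⟩
  by_contra hq
  have hy : v y ≤ 1 := hE.y_le_one h.left hx
  obtain ⟨C, hC⟩ : ∃ C : VariableChange L, C = ⟨1, x, 0, y⟩ := ⟨_, rfl⟩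
  have e1 : (C • E).a₁ = E.a₁ := by rw [hC]; simp [variableChange_a₁]
  have e2 : (C • E).a₂ = E.a₂ + 3 * x := by rw [hC]; simp [variableChange_a₂]
  have h₁ : v (C • E).a₁ ≤ 1 := e1 ▸ hE.h₁
  have h₂ : v (C • E).a₂ ≤ 1 :=
    e2 ▸ v_add_le_one hE.h₂ (v_mul_le_one (v_ofNat_le_one 3) hx)
  have h₃ : v (C • E).a₃ < 1 := by
    rw [show (C • E).a₃ = 2 * y + E.a₁ * x + E.a₃ by rw [hC]; simp [variableChange_a₃]; ring]
    exact lt_of_le_of_ne (v_add_le_one (v_add_le_one (v_mul_le_one (v_ofNat_le_one 2) hy)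
      (v_mul_le_one hE.h₁ hx)) hE.h₃) hq
  have h₄ : v (C • E).a₄ < 1 := by
    rw [show (C • E).a₄ = 3 * x ^ 2 + 2 * E.a₂ * x + E.a₄ - E.a₁ * y by
      rw [hC]; simp [variableChange_a₄]; ring]
    exact lt_of_le_of_ne (v_sub_le_one (v_add_le_one (v_add_le_one
      (v_mul_le_one (v_ofNat_le_one 3) (v_pow_le_one hx 2))
      (v_mul_le_one (v_mul_le_one (v_ofNat_le_one 2) hE.h₂) hx)) hE.h₄)
      (v_mul_le_one hE.h₁ hy)) hp
  have h₆ : v (C • E).a₆ < 1 := by
    have he := (equation_iff x y).1 h.left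
    rw [show (C • E).a₆ = 0 by rw [hC]; simp [variableChange_a₆]; linear_combination -he]
    simp
  have hb₂ : v (C • E).b₂ ≤ 1 :=
    v_add_le_one (v_pow_le_one h₁ 2) (v_mul_le_one (v_ofNat_le_one 4) h₂)
  have hb₄ : v (C • E).b₄ < 1 :=
    v.map_add_lt (v_mul_lt_one_right (v_ofNat_le_one 2) h₄) (v_mul_lt_one_right h₁ h₃)
  have hb₆ : v (C • E).b₆ < 1 := by
    refine v.map_add_lt ?_ (v_mul_lt_one_right (v_ofNat_le_one 4) h₆)
    rw [pow_two]; exact v_mul_lt_one_left h₃ h₃.le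
  have hb₈ : v (C • E).b₈ < 1 := by
    refine v.map_sub_lt (v.map_add_lt (v.map_sub_lt (v.map_add_lt ?_ ?_) ?_) ?_) ?_
    · exact v_mul_lt_one_right (v_pow_le_one h₁ 2) h₆
    · exact v_mul_lt_one_right (v_mul_le_one (v_ofNat_le_one 4) h₂) h₆
    · exact v_mul_lt_one_right (v_mul_le_one h₁ h₃.le) h₄
    · exact v_mul_lt_one_right h₂ (by rw [pow_two]; exact v_mul_lt_one_left h₃ h₃.le)
    · rw [pow_two]; exact v_mul_lt_one_left h₄ h₄.le
  have hΔ' : v (C • E).Δ < 1 := by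
    refine v.map_add_lt (v.map_sub_lt (v.map_sub_lt ?_ ?_) ?_) ?_
    · exact v_mul_lt_one_right (by rw [v.map_neg]; exact v_pow_le_one hb₂ 2) hb₈
    · refine v_mul_lt_one_right (v_ofNat_le_one 8) ?_
      rw [pow_succ']; exact v_mul_lt_one_left hb₄ (v_pow_le_one hb₄.le 2)
    · refine v_mul_lt_one_right (v_ofNat_le_one 27) ?_
      rw [pow_two]; exact v_mul_lt_one_left hb₆ hb₆.le
    · exact v_mul_lt_one_right
        (v_mul_le_one (v_mul_le_one (v_ofNat_le_one 9) hb₂) hb₄.le) hb₆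
  rw [hC] at hΔ'
  simp [variableChange_Δ, hΔ] at hΔ'

variable [DecidableEq L]

/-- `f` is the action of the field endomorphism `σ` on points. -/
def IsPointAction (σ : L →+* L) (f : E.toAffine.Point →+ E.toAffine.Point) : Prop :=
  ∀ (x y : L) (h : E.toAffine.Nonsingular x y),
    ∃ h', f (Point.some x y h) = Point.some (σ x) (σ y) h'

lemma IsPointAction.pow {σ : L →+* L} {f : E.toAffine.Point →+ E.toAffine.Point}
    (hf : IsPointAction σ f) : ∀ (n : ℕ) (x y : L) (h : E.toAffine.Nonsingular x y),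
      ∃ h', f^[n] (Point.some x y h) = Point.some ((σ ^ n) x) ((σ ^ n) y) h'
  | 0, x, y, h => ⟨h, rfl⟩
  | n + 1, x, y, h => by
    obtain ⟨h1, e1⟩ := hf x y h
    obtain ⟨h2, e2⟩ := hf.pow n (σ x) (σ y) h1
    refine ⟨by rw [pow_succ]; exact h2, ?_⟩
    rw [Function.iterate_succ_apply, e1, e2]
    simp only [pow_succ]
    rfl

variable [IsAlgClosed L]

omit [DecidableEq L] [IsAlgClosed L] in
lemma IntegralCoeffs.point_cases (hE : IntegralCoeffs v E) (hss : v E.Δ = 1 ∨ v E.c₄ = 1)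
    (P : E.toAffine.Point) :
    IsKerPt v P ∨ IsSmoothPt v P ∨
      ∃ x y h, P = Point.some x y h ∧ v x ≤ 1 ∧ ¬ IsSmoothPt v P ∧ v E.c₄ = 1 := by
  match P with
  | .zero => exact Or.inl trivial
  | .some x y h =>
    by_cases hx : 1 < v x
    · exact Or.inl hx
    push Not at hx
    by_cases hs : IsSmoothPt v (Point.some x y h)
    · exact Or.inr (Or.inl hs)
    rcases hss with hΔ | hc
    · exact absurd (hE.isSmoothPt_of_Δ hΔ hx) hs
    · exact Or.inr (Or.inr ⟨x, y, h, rfl, hx, hs, hc⟩)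

omit [IsAlgClosed L] in
lemma IntegralCoeffs.isKerPt_apply_sub (hE : IntegralCoeffs v E) {σ : L →+* L}
    {f : E.toAffine.Point →+ E.toAffine.Point} (hσ : IsInertial v σ) (hf : IsPointAction σ f)
    {P : E.toAffine.Point} (hP : IsSmoothPt v P) : IsKerPt v (f P - P) := by
  match P with
  | .zero => exact hP.elim
  | .some x y h =>
    obtain ⟨h', e⟩ := hf x y h
    rw [e]
    exact hE.isKerPt_sub_of_congr hP (hσ.congr x hP.1)
      (hσ.congr y (hE.y_le_one h.left hP.1))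

variable {σ : L →+* L} {f : E.toAffine.Point →+ E.toAffine.Point} {N : AddSubgroup E.toAffine.Point}

/-- A stable line meeting the kernel of reduction trivially is fixed by inertia. -/
theorem apply_eq_self_of_line (hE : IntegralCoeffs v E) (h2 : v (2 : L) = 1)
    (hss : v E.Δ = 1 ∨ v E.c₄ = 1) (hσ : IsInertial v σ) (hfix : E.map σ = E)
    (hf : IsPointAction σ f) (hstab : ∀ P ∈ N, f P ∈ N)
    (hgen : ∀ P ∈ N, P ≠ 0 → ∀ Q ∈ N, ∃ k : ℤ, Q = k • P)
    (hker : ∀ P ∈ N, IsKerPt v P → P = 0) {P : E.toAffine.Point} (hP : P ∈ N) : f P = P := by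
  have smooth : ∀ Q ∈ N, IsSmoothPt v Q → f Q = Q := fun Q hQ hs =>
    sub_eq_zero.1 (hker _ (N.sub_mem (hstab Q hQ) hQ) (hE.isKerPt_apply_sub hσ hf hs))
  rcases hE.point_cases hss P with hk | hs | ⟨x, y, h, rfl, hx, hns, hc⟩
  · rw [hker P hP hk, map_zero]
  · exact smooth P hP hs
  obtain ⟨Z, -, hZ⟩ := exists_twist_of_singular hE h2 hc hx hns
  obtain ⟨h', e⟩ := hf x y h
  obtain ⟨-, hD⟩ := hZ σ hσ hfix h'
  rw [← e] at hD
  have hDN := N.sub_mem (hstab _ hP) hP
  rcases hD with hk | hs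
  · exact sub_eq_zero.1 (hker _ hDN hk)
  · have hD0 : f (Point.some x y h) - Point.some x y h ≠ 0 := fun e0 => by
      rw [e0] at hs; exact hs
    obtain ⟨k, hk⟩ := hgen _ hDN hD0 _ hP
    have hfD := smooth _ hDN hs
    conv_lhs => rw [hk, map_zsmul, hfD]
    exact hk.symm

/-- If the stable line is the whole p-torsion of the kernel of reduction, inertia is trivial
on the quotient. -/
theorem apply_sub_mem_of_line (hE : IntegralCoeffs v E) (h2 : v (2 : L) = 1)
    (hss : v E.Δ = 1 ∨ v E.c₄ = 1) {p : ℕ} (hp : p.Prime) (hpv : v (p : L) < 1)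
    (hσ : IsInertial v σ) (hfix : E.map σ = E)
    (hf : IsPointAction σ f) (hstab : ∀ P ∈ N, f P ∈ N)
    (hNker : ∀ P ∈ N, IsKerPt v P)
    (hkerN : ∀ P : E.toAffine.Point, p • P = 0 → IsKerPt v P → P ∈ N)
    {P : E.toAffine.Point} (hP : p • P = 0) : f P - P ∈ N := by
  have htor : ∀ Q : E.toAffine.Point, p • Q = 0 → p • (f Q - Q) = 0 := fun Q hQ => by
    rw [smul_sub, ← map_nsmul, hQ, map_zero, sub_zero]
  rcases hE.point_cases hss P with hk | hs | ⟨x, y, h, rfl, hx, hns, hc⟩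
  · exact N.sub_mem (hstab P (hkerN P hP hk)) (hkerN P hP hk)
  · exact hkerN _ (htor P hP) (hE.isKerPt_apply_sub hσ hf hs)
  obtain ⟨Z, hZ0, hZ⟩ := exists_twist_of_singular hE h2 hc hx hns
  obtain ⟨h', e⟩ := hf x y h
  obtain ⟨hiff, hD⟩ := hZ σ hσ hfix h'
  rw [← e] at hiff hD
  refine hkerN _ (htor _ hP) (hiff.2 ?_)
  rcases hD with hk | hs
  · exact hiff.1 hk
  obtain ⟨D, hD_def⟩ : ∃ D, D = f (Point.some x y h) - Point.some x y h := ⟨_, rfl⟩
  rw [← hD_def] at hs
  have hpD : p • D = 0 := hD_def ▸ htor _ hP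
  have hn : f D - D ∈ N := hkerN _ (htor _ hpD) (hE.isKerPt_apply_sub hσ hf hs)
  have key : ∀ m : ℕ,
      f^[m] (Point.some x y h) - Point.some x y h - m • D ∈ N := by
    intro m
    induction m with
    | zero => rw [Function.iterate_zero_apply, zero_smul, sub_zero]; exact (sub_self (Point.some x y h)).symm ▸ N.zero_mem
    | succ m ih =>
      obtain ⟨A, hA⟩ : ∃ A, A = f^[m] (Point.some x y h) := ⟨_, rfl⟩
      rw [← hA] at ih
      rw [Function.iterate_succ_apply']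
      rw [← hA]
      have e2 : f A - Point.some x y h - (m + 1) • D =
          f (A - Point.some x y h - m • D) + m • (f D - D) := by
        rw [map_sub, map_sub, map_nsmul, smul_sub, add_smul, one_smul, hD_def]
        abel
      rw [e2]
      exact N.add_mem (hstab _ ih) (N.nsmul_mem hn m)
  have hkp := key p
  rw [hpD, sub_zero] at hkp
  obtain ⟨hp', ep⟩ := hf.pow p x y h
  rw [ep] at hkp
  have hup := ((hZ _ (hσ.pow p) (map_pow_fix hfix p) hp').1).1 (hNker _ hkp)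
  refine v_sub_one_lt_of_pow hp hpv (by rw [map_div₀, hσ.map_val,
    div_self (v.ne_zero_iff.2 hZ0)]) ?_
  rw [show (σ Z / Z) ^ p - 1 = ((σ ^ p) Z / Z - 1) - ((σ ^ p) Z / Z - (σ Z / Z) ^ p) by ring]
  exact v.map_sub_lt hup (hσ.twist_pow hZ0 p)

end FermatLib.AtP
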