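import Fermat.Agent.EC.AtPPoints

/-!
At a node of the reduction (residue characteristic different from 2), an inertial automorphism
moves a point to one whose difference with it has smooth reduction; the difference is in the
kernel of reduction exactly when an explicit multiplicative invariant is trivial.
-/

set_option autoImplicit false

namespace FermatLib.AtP

open WeierstrassCurve WeierstrassCurve.Affine

universe u w

variable {L : Type u} [Field L] {Γ : Type w} [LinearOrderedCommGroupWithZero Γ]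
  {v : Valuation L Γ} {E : WeierstrassCurve L}

lemma v_two_ne_zero (h2 : v (2 : L) = 1) : (2 : L) ≠ 0 :=
  v.ne_zero_iff.1 (by rw [h2]; exact one_ne_zero)

lemma v_div_two_le_one (h2 : v (2 : L) = 1) {a : L} (ha : v a ≤ 1) : v (a / 2) ≤ 1 := by
  rwa [map_div₀, h2, div_one]

lemma v_div_two_lt_one (h2 : v (2 : L) = 1) {a : L} (ha : v a < 1) : v (a / 2) < 1 := by
  rwa [map_div₀, h2, div_one]

/-- Coordinates centred at the node, for a point with singular reduction. -/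
lemma exists_node [IsAlgClosed L] (hE : IntegralCoeffs v E) (h2 : v (2 : L) = 1)
    (hc₄ : v E.c₄ = 1) {x y : L} {h : E.toAffine.Nonsingular x y} (hx : v x ≤ 1)
    (hns : ¬ IsSmoothPt v (Point.some x y h)) :
    ∃ r : L, v r ≤ 1 ∧ 3 * r ^ 2 + 2 * (E.b₂ / 4) * r + E.b₄ / 2 = 0 ∧
      v (3 * r + E.b₂ / 4) = 1 ∧ v (x - r) < 1 ∧ v (y + (E.a₁ * x + E.a₃) / 2) < 1 := by
  have h20 := v_two_ne_zero h2
  have h40 : (4 : L) ≠ 0 := by
    have := mul_ne_zero h20 h20; norm_num at this; exact this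
  have h4 : v (4 : L) = 1 := by
    rw [show (4 : L) = 2 * 2 by norm_num, map_mul, h2, mul_one]
  have hy : v y ≤ 1 := hE.y_le_one h.left hx
  have hnp : ¬ (v (3 * x ^ 2 + 2 * E.a₂ * x + E.a₄ - E.a₁ * y) = 1) := fun e => hns ⟨hx, Or.inl e⟩
  have hnq : ¬ (v (2 * y + E.a₁ * x + E.a₃) = 1) := fun e => hns ⟨hx, Or.inr e⟩
  have hp : v (3 * x ^ 2 + 2 * E.a₂ * x + E.a₄ - E.a₁ * y) < 1 :=
    lt_of_le_of_ne (v_sub_le_one (v_add_le_one (v_add_le_one
      (v_mul_le_one (v_ofNat_le_one 3) (v_pow_le_one hx 2))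
      (v_mul_le_one (v_mul_le_one (v_ofNat_le_one 2) hE.h₂) hx)) hE.h₄)
      (v_mul_le_one hE.h₁ hy)) hnp
  have hq : v (2 * y + E.a₁ * x + E.a₃) < 1 :=
    lt_of_le_of_ne (v_add_le_one (v_add_le_one (v_mul_le_one (v_ofNat_le_one 2) hy)
      (v_mul_le_one hE.h₁ hx)) hE.h₃) hnq
  have hA : v (E.b₂ / 4) ≤ 1 := by
    rw [map_div₀, h4, div_one, b₂]
    exact v_add_le_one (v_pow_le_one hE.h₁ 2) (v_mul_le_one (v_ofNat_le_one 4) hE.h₂)
  obtain ⟨g, hg_def⟩ : ∃ g, g = 3 * x ^ 2 + 2 * (E.b₂ / 4) * x + E.b₄ / 2 := ⟨_, rfl⟩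
  obtain ⟨k, hk_def⟩ : ∃ k, k = 3 * x + E.b₂ / 4 := ⟨_, rfl⟩
  have hg : v g < 1 := by
    have e : g = (3 * x ^ 2 + 2 * E.a₂ * x + E.a₄ - E.a₁ * y) +
        E.a₁ * (2 * y + E.a₁ * x + E.a₃) / 2 := by
      rw [hg_def, b₂, b₄]; field_simp; ring
    rw [e]
    exact v.map_add_lt hp (v_div_two_lt_one h2 (v_mul_lt_one_right hE.h₁ hq))
  have hk1 : v k ≤ 1 := by rw [hk_def]; exact v_add_le_one (v_mul_le_one (v_ofNat_le_one 3) hx) hA
  have hdisc : k ^ 2 - 3 * g = E.c₄ / (4 * 4) := by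
    rw [hk_def, hg_def, c₄]; field_simp; ring
  have hdisc' : v (k ^ 2 - 3 * g) = 1 := by rw [hdisc, map_div₀, map_mul, h4, hc₄, mul_one, div_one]
  have hk : v k = 1 := by
    refine le_antisymm hk1 (not_lt.1 fun hlt => hdisc'.not_lt ?_)
    exact v.map_sub_lt (by rw [pow_two]; exact v_mul_lt_one_left hlt hk1)
      (v_mul_lt_one_right (v_ofNat_le_one 3) hg)
  obtain ⟨s₀, hs₀⟩ := IsAlgClosed.exists_pow_nat_eq (k ^ 2 - 3 * g) two_pos
  have hs1 : v s₀ ≤ 1 := by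
    have := hdisc'
    rw [← hs₀, map_pow] at this
    exact ((pow_eq_one_iff_of_nonneg zero_le two_ne_zero).1 this).le
  obtain ⟨s, hs, hsk⟩ : ∃ s, s ^ 2 = k ^ 2 - 3 * g ∧ v (s + k) = 1 := by
    by_contra hcon
    push Not at hcon
    have e1 : v (s₀ + k) < 1 := lt_of_le_of_ne (v_add_le_one hs1 hk.le) (hcon s₀ hs₀)
    have e2 : v (-s₀ + k) < 1 := lt_of_le_of_ne (v_add_le_one (by rwa [v.map_neg]) hk.le)
      (hcon (-s₀) (by rw [neg_sq, hs₀]))
    have : v (2 * k) < 1 := by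
      rw [show 2 * k = (s₀ + k) + (-s₀ + k) by ring]; exact v.map_add_lt e1 e2
    rw [map_mul, h2, hk, mul_one] at this
    exact this.false
  have hsk0 : s + k ≠ 0 := v.ne_zero_iff.1 (by rw [hsk]; exact one_ne_zero)
  obtain ⟨t, ht_def⟩ : ∃ t, t = -g / (s + k) := ⟨_, rfl⟩
  have ht : v t < 1 := by rwa [ht_def, map_div₀, hsk, div_one, v.map_neg]
  refine ⟨x + t, v_add_le_one hx ht.le, ?_, ?_, ?_, ?_⟩
  · have : g + 2 * k * t + 3 * t ^ 2 = 0 := by
      rw [ht_def]; field_simp; linear_combination g * hs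
    linear_combination this - hg_def - 2 * t * hk_def
  · rw [show 3 * (x + t) + E.b₂ / 4 = k + 3 * t by rw [hk_def]; ring,
      v.map_add_eq_of_lt_left, hk]
    rw [hk]
    exact v_mul_lt_one_right (v_ofNat_le_one 3) ht
  · rwa [show x - (x + t) = -t by ring, v.map_neg]
  · rw [show y + (E.a₁ * x + E.a₃) / 2 = (2 * y + E.a₁ * x + E.a₃) / 2 by field_simp; ring]
    exact v_div_two_lt_one h2 hq

/-- The residual argument behind `exists_twist_of_singular`. -/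
lemma twist_estimate {u ξ η ξ' η' l a ε : L} (h2 : v (2 : L) = 1) (hu : v u = 1) (ha : v a = 1)
    (hξ : v ξ ≤ 1) (hη : v η ≤ 1) (hmax : v ξ = 1 ∨ v η = 1)
    (he₁ : v (ξ' - u * ξ) < 1) (he₂ : v (η' - u * η) < 1) (hε : v ε < 1)
    (hl₁ : l * (ξ' - ξ) = η' + η) (hl₂ : l * (η' - η) = a * (ξ' + ξ) + ε) :
    (v (u - 1) < 1 → 1 < v l) ∧ (¬ v (u - 1) < 1 → v l ≤ 1) ∧
      (v l ≤ 1 → ∀ β, β ^ 2 = a → ¬ v (l - β) < 1) := by
  have hξ' : v ξ' ≤ 1 := by
    rw [show ξ' = (ξ' - u * ξ) + u * ξ by ring]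
    exact v_add_le_one he₁.le (v_mul_le_one hu.le hξ)
  have hη' : v η' ≤ 1 := by
    rw [show η' = (η' - u * η) + u * η by ring]
    exact v_add_le_one he₂.le (v_mul_le_one hu.le hη)
  have hcontra : v ξ < 1 → v η < 1 → False := fun h h' =>
    hmax.elim (fun e => h.ne e) (fun e => h'.ne e)
  refine ⟨fun hu1 => ?_, fun hu1 => ?_, fun hl β hβ hlb => ?_⟩
  · by_contra hl
    push Not at hl
    have dξ : v (ξ' - ξ) < 1 := by
      rw [show ξ' - ξ = (ξ' - u * ξ) + (u - 1) * ξ by ring]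
      exact v.map_add_lt he₁ (v_mul_lt_one_left hu1 hξ)
    have dη : v (η' - η) < 1 := by
      rw [show η' - η = (η' - u * η) + (u - 1) * η by ring]
      exact v.map_add_lt he₂ (v_mul_lt_one_left hu1 hη)
    have sη : v (2 * η) < 1 := by
      rw [show 2 * η = (η' + η) - (η' - η) by ring, ← hl₁]
      exact v.map_sub_lt (v_mul_lt_one_right hl dξ) dη
    have sξ : v (a * (2 * ξ)) < 1 := by
      rw [show a * (2 * ξ) = l * (η' - η) - ε - a * (ξ' - ξ) by rw [hl₂]; ring]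
      exact v.map_sub_lt (v.map_sub_lt (v_mul_lt_one_right hl dη) hε)
        (v_mul_lt_one_right ha.le dξ)
    rw [map_mul, map_mul, ha, h2, one_mul, one_mul] at sξ
    rw [map_mul, h2, one_mul] at sη
    exact hcontra sξ sη
  · have hu1' : v (u - 1) = 1 :=
      le_antisymm (v_sub_le_one hu.le v.map_one.le) (not_lt.1 hu1)
    by_contra hl
    push Not at hl
    have small : ∀ z, v (l * z) ≤ 1 → v z < 1 := fun z hz => by
      by_contra hz'
      push Not at hz'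
      rw [map_mul] at hz
      exact hz.not_gt (lt_of_lt_of_le hl (le_mul_of_one_le_right' hz'))
    have sξ : v ((u - 1) * ξ) < 1 := by
      rw [show (u - 1) * ξ = (ξ' - ξ) - (ξ' - u * ξ) by ring]
      exact v.map_sub_lt (small _ (hl₁ ▸ v_add_le_one hη' hη)) he₁
    have sη : v ((u - 1) * η) < 1 := by
      rw [show (u - 1) * η = (η' - η) - (η' - u * η) by ring]
      exact v.map_sub_lt (small _ (hl₂ ▸ v_add_le_one
        (v_mul_le_one ha.le (v_add_le_one hξ' hξ)) hε.le)) he₂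
    rw [map_mul, hu1', one_mul] at sξ sη
    exact hcontra sξ sη
  · have hvβ : v β = 1 := by
      rw [← hβ, map_pow] at ha
      exact (pow_eq_one_iff_of_nonneg zero_le two_ne_zero).1 ha
    have hβ0 : β ≠ 0 := v.ne_zero_iff.1 (by rw [hvβ]; exact one_ne_zero)
    have h1 : v ((u + 1) * η - β * (u - 1) * ξ) < 1 := by
      rw [show (u + 1) * η - β * (u - 1) * ξ =
        (l - β) * (ξ' - ξ) + β * (ξ' - u * ξ) - (η' - u * η) by rw [sub_mul, hl₁]; ring]
      exact v.map_sub_lt (v.map_add_lt (v_mul_lt_one_left hlb (v_sub_le_one hξ' hξ))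
        (v_mul_lt_one_right hvβ.le he₁)) he₂
    have h1' : v ((u - 1) * η - β * (u + 1) * ξ) < 1 := by
      have e : β * ((u - 1) * η - β * (u + 1) * ξ) = -(l - β) * (η' - η) + ε
          + β ^ 2 * (ξ' - u * ξ) - β * (η' - u * η) := by
        linear_combination hl₂ - (ξ' + ξ) * hβ
      have : v (β * ((u - 1) * η - β * (u + 1) * ξ)) < 1 := by
        rw [e]
        exact v.map_sub_lt (v.map_add_lt (v.map_add_lt
          (v_mul_lt_one_left (by rwa [v.map_neg]) (v_sub_le_one hη' hη)) hε)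
          (v_mul_lt_one_right (v_pow_le_one hvβ.le 2) he₁)) (v_mul_lt_one_right hvβ.le he₂)
      rwa [map_mul, hvβ, one_mul] at this
    have ha' : v (2 * (η + β * ξ)) < 1 := by
      rw [show 2 * (η + β * ξ) = ((u + 1) * η - β * (u - 1) * ξ)
        - ((u - 1) * η - β * (u + 1) * ξ) by ring]
      exact v.map_sub_lt h1 h1'
    have hb' : v (2 * u * (η - β * ξ)) < 1 := by
      rw [show 2 * u * (η - β * ξ) = ((u + 1) * η - β * (u - 1) * ξ)
        + ((u - 1) * η - β * (u + 1) * ξ) by ring]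
      exact v.map_add_lt h1 h1'
    rw [map_mul, h2, one_mul] at ha'
    rw [map_mul, map_mul, h2, hu, one_mul, one_mul] at hb'
    have hη2 : v (2 * η) < 1 := by
      rw [show 2 * η = (η + β * ξ) + (η - β * ξ) by ring]; exact v.map_add_lt ha' hb'
    have hξ2 : v (2 * β * ξ) < 1 := by
      rw [show 2 * β * ξ = (η + β * ξ) - (η - β * ξ) by ring]; exact v.map_sub_lt ha' hb'
    rw [map_mul, h2, one_mul] at hη2
    rw [map_mul, map_mul, h2, hvβ, one_mul, one_mul] at hξ2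
    exact hcontra hξ2 hη2

variable [DecidableEq L]

/-- Behaviour of inertia on a point with singular reduction. -/
theorem exists_twist_of_singular [IsAlgClosed L] (hE : IntegralCoeffs v E) (h2 : v (2 : L) = 1)
    (hc₄ : v E.c₄ = 1) {x y : L} {h : E.toAffine.Nonsingular x y} (hx : v x ≤ 1)
    (hns : ¬ IsSmoothPt v (Point.some x y h)) :
    ∃ Z : L, Z ≠ 0 ∧ ∀ σ : L →+* L, IsInertial v σ → E.map σ = E →
      ∀ h' : E.toAffine.Nonsingular (σ x) (σ y),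
        let D := Point.some (σ x) (σ y) h' - Point.some x y h
        (IsKerPt v D ↔ v (σ Z / Z - 1) < 1) ∧ (IsKerPt v D ∨ IsSmoothPt v D) := by
  obtain ⟨r, hr1, hr, hva, hX, hY⟩ := exists_node hE h2 hc₄ hx hns
  have h20 := v_two_ne_zero h2
  have h40 : (4 : L) ≠ 0 := by
    have := mul_ne_zero h20 h20; norm_num at this; exact this
  obtain ⟨X, hX_def⟩ : ∃ X, X = x - r := ⟨_, rfl⟩
  obtain ⟨Y, hY_def⟩ : ∃ Y, Y = y + (E.a₁ * x + E.a₃) / 2 := ⟨_, rfl⟩
  obtain ⟨a, ha_def⟩ : ∃ a, a = 3 * r + E.b₂ / 4 := ⟨_, rfl⟩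
  rw [← hX_def] at hX
  rw [← hY_def] at hY
  rw [← ha_def] at hva
  obtain ⟨Z, hXZ, hYZ, hZmax, hZ1⟩ :
      ∃ Z, v X ≤ v Z ∧ v Y ≤ v Z ∧ (Z = X ∨ Z = Y) ∧ v Z < 1 := by
    rcases le_total (v Y) (v X) with hle | hle
    · exact ⟨X, le_rfl, hle, Or.inl rfl, hX⟩
    · exact ⟨Y, hle, le_rfl, Or.inr rfl, hY⟩
  have hZ0 : Z ≠ 0 := by
    intro e
    rw [e, map_zero] at hXZ hYZ
    have hX0 : X = 0 := v.zero_iff.1 (le_antisymm hXZ zero_le)
    have hY0 : Y = 0 := v.zero_iff.1 (le_antisymm hYZ zero_le)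
    have hxr : x = r := sub_eq_zero.1 (hX_def.symm.trans hX0)
    have hq : 2 * y + E.a₁ * x + E.a₃ = 0 := by
      rw [hY_def] at hY0; field_simp at hY0; linear_combination hY0
    rcases ((nonsingular_iff x y).1 h).2 with hp | hp
    · refine hp ?_
      rw [hxr] at hq ⊢
      rw [b₂, b₄] at hr
      linear_combination (norm := (field_simp; ring)) E.a₁ / 2 * hq - hr
    · exact hp (by linear_combination hq)
  refine ⟨Z, hZ0, fun σ hσ hfix h' => ?_⟩
  intro D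
  have hvZ : 0 < v Z := zero_lt_iff.2 (v.ne_zero_iff.2 hZ0)
  have σ₁ : σ E.a₁ = E.a₁ := congrArg WeierstrassCurve.a₁ hfix
  have σ₂ : σ E.a₂ = E.a₂ := congrArg WeierstrassCurve.a₂ hfix
  have σ₃ : σ E.a₃ = E.a₃ := congrArg WeierstrassCurve.a₃ hfix
  have σ₄ : σ E.a₄ = E.a₄ := congrArg WeierstrassCurve.a₄ hfix
  have σb₂ : σ (E.b₂ / 4) = E.b₂ / 4 := by simp [b₂, σ₁, σ₂, map_ofNat]
  have σr : σ r = r := by
    have hr' : 3 * σ r ^ 2 + 2 * (E.b₂ / 4) * σ r + E.b₄ / 2 = 0 := by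
      have := congrArg σ hr
      simpa [σb₂, b₄, σ₁, σ₃, σ₄, map_ofNat] using this
    have hfac : (σ r - r) * (2 * a + 3 * (σ r - r)) = 0 := by
      rw [ha_def]; linear_combination hr' - hr
    refine sub_eq_zero.1 ((mul_eq_zero.1 hfac).resolve_right (v.ne_zero_iff.1 ?_))
    rw [v.map_add_eq_of_lt_left, map_mul, h2, hva, mul_one]
    · exact one_ne_zero
    · rw [v.map_mul 2 a, h2, hva, mul_one]
      exact v_mul_lt_one_right (v_ofNat_le_one 3) (hσ.congr r hr1)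
  obtain ⟨u, hu_def⟩ : ∃ u, u = σ Z / Z := ⟨_, rfl⟩
  have hvu : v u = 1 := by rw [hu_def, map_div₀, hσ.map_val, div_self hvZ.ne']
  have scale : ∀ W, v W ≤ v Z → v (W / Z) ≤ 1 ∧ v (σ W / Z - u * (W / Z)) < 1 := fun W hW => by
    have hW' : v (W / Z) ≤ 1 := by rw [map_div₀]; exact (div_le_one₀ hvZ).2 hW
    refine ⟨hW', ?_⟩
    rw [show σ W / Z - u * (W / Z) = u * (σ (W / Z) - W / Z) by
      rw [hu_def, map_div₀]; field_simp [(map_ne_zero σ).2 hZ0]]
    exact v_mul_lt_one_right hvu.le (hσ.congr _ hW')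
  have hσX : σ X = σ x - r := by rw [hX_def, map_sub, σr]
  have hσY : σ Y = σ y + (E.a₁ * σ x + E.a₃) / 2 := by
    rw [hY_def]; simp [σ₁, σ₃, map_ofNat]
  rcases sub_some_cases h h' with ⟨ex, ey⟩ | ⟨l, y₃, h₃, hD, hl₁, hl₂⟩
  · have hD0 : D = 0 := by
      change Point.some (σ x) (σ y) h' - Point.some x y h = 0
      simp [ex, ey]
    have hσZ : σ Z = Z := by
      rcases hZmax with e | e <;> rw [e]
      · rw [hσX, ex, hX_def]
      · rw [hσY, ex, ey, hY_def]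
    rw [hσZ, div_self hZ0, sub_self, map_zero, hD0]
    exact ⟨⟨fun _ => zero_lt_one, fun _ => IsKerPt.zero⟩, Or.inl IsKerPt.zero⟩
  change (IsKerPt v (Point.some (σ x) (σ y) h' - Point.some x y h) ↔ _) ∧
    (IsKerPt v (Point.some (σ x) (σ y) h' - Point.some x y h) ∨
      IsSmoothPt v (Point.some (σ x) (σ y) h' - Point.some x y h))
  rw [hD, ← hu_def]
  obtain ⟨Λ, hΛ_def⟩ : ∃ Λ, Λ = l + E.a₁ / 2 := ⟨_, rfl⟩
  have R₁ : Λ * (σ X - X) = σ Y + Y := by
    rw [hσX, hσY, hΛ_def, hX_def, hY_def]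
    simp only [negY] at hl₁
    field_simp
    linear_combination 2 * hl₁
  have R₂ : Λ * (σ Y - Y) = (σ X ^ 2 + σ X * X + X ^ 2) + a * (σ X + X) := by
    rw [hσX, hσY, hΛ_def, hX_def, hY_def, ha_def]
    rw [b₂, b₄] at hr
    simp only [b₂]
    simp only [negY] at hl₁
    linear_combination (norm := (field_simp; ring)) hl₂ + E.a₁ / 2 * hl₁ + hr
  obtain ⟨ε, hε_def⟩ : ∃ ε, ε = (σ X ^ 2 + σ X * X + X ^ 2) / Z := ⟨_, rfl⟩
  have hσX1 : v (σ X) < 1 := by rwa [hσ.map_val]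
  have hε : v ε < 1 := by
    have hσXZ : v (σ X) ≤ v Z := by rwa [hσ.map_val]
    have e : ε = σ X * (σ X / Z) + σ X * (X / Z) + X * (X / Z) := by rw [hε_def]; ring
    rw [e]
    have d1 : v (σ X / Z) ≤ 1 := by rw [map_div₀]; exact (div_le_one₀ hvZ).2 hσXZ
    exact v.map_add_lt (v.map_add_lt (v_mul_lt_one_left hσX1 d1)
      (v_mul_lt_one_left hσX1 (scale X hXZ).1)) (v_mul_lt_one_left hX (scale X hXZ).1)
  have hmax : v (X / Z) = 1 ∨ v (Y / Z) = 1 := by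
    rcases hZmax with e | e
    · exact Or.inl (by rw [← e, div_self hZ0, map_one])
    · exact Or.inr (by rw [← e, div_self hZ0, map_one])
  have hl₁' : Λ * (σ X / Z - X / Z) = σ Y / Z + Y / Z := by field_simp; linear_combination R₁
  have hl₂' : Λ * (σ Y / Z - Y / Z) = a * (σ X / Z + X / Z) + ε := by
    rw [hε_def]; field_simp; linear_combination R₂
  obtain ⟨T₁, T₂, T₃⟩ := twist_estimate h2 hvu hva (scale X hXZ).1 (scale Y hYZ).1 hmax
    (scale X hXZ).2 (scale Y hYZ).2 hε hl₁' hl₂'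
  have hΛl : ∀ {c : Γ}, 1 ≤ c → (v l ≤ c ↔ v Λ ≤ c) := fun {c} hc => by
    have hh : v (E.a₁ / 2) ≤ c := (v_div_two_le_one h2 hE.h₁).trans hc
    constructor <;> intro hle
    · rw [hΛ_def]; exact v.map_add_le hle hh
    · rw [show l = Λ - E.a₁ / 2 by rw [hΛ_def]; ring]; exact v.map_sub_le hle hh
  have hσx : v (σ x) ≤ 1 := by rwa [hσ.map_val]
  by_cases hu : v (u - 1) < 1
  · have hk : IsKerPt v (Point.some _ y₃ h₃) :=
      hE.one_lt_addX hσx hx (not_le.1 fun hle => (T₁ hu).not_ge ((hΛl le_rfl).1 hle))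
    exact ⟨⟨fun _ => hu, fun _ => hk⟩, Or.inl hk⟩
  have hΛ1 := T₂ hu
  have hl1 : v l ≤ 1 := (hΛl le_rfl).2 hΛ1
  have hx3 : v (E.toAffine.addX (σ x) x l) ≤ 1 := by
    simp only [addX]
    exact v_sub_le_one (v_sub_le_one (v_sub_le_one (v_add_le_one (v_pow_le_one hl1 2)
      (v_mul_le_one hE.h₁ hl1)) hE.h₂) hσx) hx
  refine ⟨⟨fun hk => absurd hx3 (not_le.2 hk), fun e => absurd e hu⟩, Or.inr ⟨hx3, ?_⟩⟩
  obtain ⟨x₃, hx₃_def⟩ : ∃ x₃, x₃ = E.toAffine.addX (σ x) x l := ⟨_, rfl⟩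
  have he₃ := (equation_iff _ y₃).1 h₃.left
  rw [← hx₃_def] at hx3 he₃ ⊢
  obtain ⟨X₃, hX₃_def⟩ : ∃ X₃, X₃ = x₃ - r := ⟨_, rfl⟩
  obtain ⟨Y₃, hY₃_def⟩ : ∃ Y₃, Y₃ = y₃ + (E.a₁ * x₃ + E.a₃) / 2 := ⟨_, rfl⟩
  have hX₃ : v X₃ = 1 := by
    have e : X₃ = (Λ ^ 2 - a) - (σ X + X) := by
      rw [hX₃_def, hx₃_def, hΛ_def, ha_def, hσX, hX_def, b₂]
      simp only [addX]
      field_simp
      ring
    obtain ⟨β, hβ⟩ := IsAlgClosed.exists_pow_nat_eq a two_pos
    have hvβ : v β ≤ 1 := by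
      have := hva
      rw [← hβ, map_pow] at this
      exact ((pow_eq_one_iff_of_nonneg zero_le two_ne_zero).1 this).le
    have e1 : v (Λ - β) = 1 := le_antisymm (v_sub_le_one hΛ1 hvβ) (not_lt.1 (T₃ hΛ1 β hβ))
    have e2 : v (Λ + β) = 1 := le_antisymm (v_add_le_one hΛ1 hvβ)
      (not_lt.1 (by simpa using T₃ hΛ1 (-β) (by rw [neg_sq, hβ])))
    have e3 : v (Λ ^ 2 - a) = 1 := by
      rw [show Λ ^ 2 - a = (Λ - β) * (Λ + β) by rw [← hβ]; ring, map_mul, e1, e2, mul_one]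
    rw [e, v.map_sub_eq_of_lt_left, e3]
    rw [e3]
    exact v.map_add_lt hσX1 hX
  have hy3 : v y₃ ≤ 1 := hE.y_le_one h₃.left (hx₃_def ▸ hx3)
  have hY₃1 : v Y₃ ≤ 1 := by
    rw [hY₃_def]
    exact v_add_le_one hy3
      (v_div_two_le_one h2 (v_add_le_one (v_mul_le_one hE.h₁ hx3) hE.h₃))
  rcases hY₃1.eq_or_lt with hY₃ | hY₃
  · right
    rw [show 2 * y₃ + E.a₁ * x₃ + E.a₃ = 2 * Y₃ by rw [hY₃_def]; field_simp; ring, map_mul, h2,
      hY₃, mul_one]
  left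
  have cubic : Y₃ ^ 2 - X₃ ^ 2 * (X₃ + a) = Y ^ 2 - X ^ 2 * (X + a) := by
    have he := (equation_iff x y).1 h.left
    rw [hY₃_def, hX₃_def, hY_def, hX_def, ha_def]
    rw [b₂, b₄] at hr
    simp only [b₂]
    linear_combination (norm := (field_simp; ring)) he₃ - he + (x₃ - x) * hr
  have hXa : v (X₃ + a) < 1 := by
    have : v (X₃ ^ 2 * (X₃ + a)) < 1 := by
      rw [show X₃ ^ 2 * (X₃ + a) = Y₃ * Y₃ - (Y * Y - X * (X * (X + a))) by
        linear_combination -cubic]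
      exact v.map_sub_lt (v_mul_lt_one_left hY₃ hY₃.le) (v.map_sub_lt (v_mul_lt_one_left hY hY.le)
        (v_mul_lt_one_left hX (v_mul_le_one hX.le (v_add_le_one hX.le hva.le))))
    rwa [map_mul, map_pow, hX₃, one_pow, one_mul] at this
  have e : 3 * x₃ ^ 2 + 2 * E.a₂ * x₃ + E.a₄ - E.a₁ * y₃ =
      -(a * X₃) + (3 * X₃ * (X₃ + a) - E.a₁ * Y₃) := by
    rw [hX₃_def, hY₃_def, ha_def]
    rw [b₂, b₄] at hr
    simp only [b₂]
    linear_combination (norm := (field_simp; ring)) hr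
  rw [e, v.map_add_eq_of_lt_left, v.map_neg, map_mul, hva, hX₃, mul_one]
  rw [v.map_neg, v.map_mul a X₃, hva, hX₃, mul_one]
  exact v.map_sub_lt (v_mul_lt_one_right (v_mul_le_one (v_ofNat_le_one 3) hX₃.le) hXa)
    (v_mul_lt_one_right hE.h₁ hY₃)

end FermatLib.AtP
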