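import Fermat.Agent.EC.AtPNode

/-!
At a node of the reduction, two points of the same valuation type lie in the same or in opposite
components.
-/

set_option autoImplicit false

namespace FermatLib.AtP

open WeierstrassCurve WeierstrassCurve.Affine

universe u w

variable {L : Type u} [Field L] {Γ : Type w} [LinearOrderedCommGroupWithZero Γ]
  {v : Valuation L Γ} {E : WeierstrassCurve L}

/-- The shifted cubic at the node. -/
lemma cubic_eq (h20 : (2 : L) ≠ 0) {r x y : L} (h : E.toAffine.Equation x y)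
    (hr : 3 * r ^ 2 + 2 * (E.b₂ / 4) * r + E.b₄ / 2 = 0) :
    (y + (E.a₁ * x + E.a₃) / 2) ^ 2 - (x - r) ^ 2 * ((x - r) + (3 * r + E.b₂ / 4)) =
      r ^ 3 + E.b₂ / 4 * r ^ 2 + E.b₄ / 2 * r + E.b₆ / 4 := by
  have h40 : (4 : L) ≠ 0 := by
    have := mul_ne_zero h20 h20; norm_num at this; exact this
  rw [equation_iff] at h
  simp only [b₂, b₄, b₆] at hr ⊢
  linear_combination (norm := (field_simp; ring)) h + (x - r) * hr

/-- The node is unique, so it is fixed by valuation preserving endomorphisms fixing the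
coefficients. -/
lemma node_fixed (h2 : v (2 : L) = 1) {r : L} (hr1 : v r ≤ 1)
    (hr : 3 * r ^ 2 + 2 * (E.b₂ / 4) * r + E.b₄ / 2 = 0) (ha : v (3 * r + E.b₂ / 4) = 1)
    (hc : v (r ^ 3 + E.b₂ / 4 * r ^ 2 + E.b₄ / 2 * r + E.b₆ / 4) < 1)
    {σ : L →+* L} (hval : ∀ z, v (σ z) = v z) (hfix : E.map σ = E) : σ r = r := by
  have σb₂ : σ E.b₂ = E.b₂ := by rw [← map_b₂, hfix]
  have σb₄ : σ E.b₄ = E.b₄ := by rw [← map_b₄, hfix]
  have σb₆ : σ E.b₆ = E.b₆ := by rw [← map_b₆, hfix]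
  obtain ⟨d, hd⟩ : ∃ d, d = σ r - r := ⟨_, rfl⟩
  obtain ⟨a, ha_def⟩ : ∃ a, a = 3 * r + E.b₂ / 4 := ⟨_, rfl⟩
  rw [← ha_def] at ha
  by_contra hne
  have hd0 : d ≠ 0 := by rw [hd]; exact sub_ne_zero.2 hne
  have hσr : 3 * σ r ^ 2 + 2 * (E.b₂ / 4) * σ r + E.b₄ / 2 = 0 := by
    simpa [σb₂, σb₄, map_ofNat] using congrArg σ hr
  have h3d : 3 * d + 2 * a = 0 := by
    refine (mul_eq_zero.1 ?_).resolve_left hd0
    rw [hd, ha_def]; linear_combination hσr - hr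
  have hcσ : v (σ r ^ 3 + E.b₂ / 4 * σ r ^ 2 + E.b₄ / 2 * σ r + E.b₆ / 4) < 1 := by
    have := hval (r ^ 3 + E.b₂ / 4 * r ^ 2 + E.b₄ / 2 * r + E.b₆ / 4)
    simp only [map_add, map_mul, map_pow, map_div₀, σb₂, σb₄, σb₆, map_ofNat] at this
    rw [this]; exact hc
  have hdd : v (d ^ 2 * (d + a)) < 1 := by
    have e : d ^ 2 * (d + a) = (σ r ^ 3 + E.b₂ / 4 * σ r ^ 2 + E.b₄ / 2 * σ r + E.b₆ / 4) -
        (r ^ 3 + E.b₂ / 4 * r ^ 2 + E.b₄ / 2 * r + E.b₆ / 4) := by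
      rw [hd, ha_def]
      linear_combination -(σ r - r) * hr
    rw [e]; exact v.map_sub_lt hcσ hc
  have hd1 : v d ≤ 1 := by rw [hd]; exact v_sub_le_one ((hval r).le.trans hr1) hr1
  rcases hd1.eq_or_lt with hd' | hd'
  · rw [map_mul, map_pow, hd', one_pow, one_mul] at hdd
    refine ha.not_lt ?_
    rw [show a = 3 * (d + a) by linear_combination -h3d]
    exact v_mul_lt_one_right (v_ofNat_le_one 3) hdd
  · have : v (2 * a) < 1 := by
      rw [show 2 * a = -(3 * d) by linear_combination h3d, v.map_neg]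
      exact v_mul_lt_one_right (v_ofNat_le_one 3) hd'
    rw [map_mul, h2, ha, one_mul] at this
    exact this.false

variable [DecidableEq L]

/-- The difference of two points at the node: in the kernel, smooth, or the two points lie on
opposite branches. -/
lemma sub_trichotomy [IsAlgClosed L] (hE : IntegralCoeffs v E) (h2 : v (2 : L) = 1)
    {r Z x y x' y' : L} {h : E.toAffine.Nonsingular x y} {h' : E.toAffine.Nonsingular x' y'}
    (hr : 3 * r ^ 2 + 2 * (E.b₂ / 4) * r + E.b₄ / 2 = 0) (hva : v (3 * r + E.b₂ / 4) = 1)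
    (hr1 : v r ≤ 1) (hZ0 : Z ≠ 0) (hZ1 : v Z < 1)
    (hX : v (x - r) ≤ v Z) (hX' : v (x' - r) ≤ v Z)
    (hY : v (y + (E.a₁ * x + E.a₃) / 2) ≤ v Z) (hY' : v (y' + (E.a₁ * x' + E.a₃) / 2) ≤ v Z) :
    IsKerPt v (Point.some x' y' h' - Point.some x y h) ∨
      IsSmoothPt v (Point.some x' y' h' - Point.some x y h) ∨
      ∃ β, β ^ 2 = 3 * r + E.b₂ / 4 ∧
        v ((y' + (E.a₁ * x' + E.a₃) / 2 - β * (x' - r)) / Z) < 1 ∧
        v ((y + (E.a₁ * x + E.a₃) / 2 + β * (x - r)) / Z) < 1 := by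
  have h20 := v_two_ne_zero h2
  have h40 : (4 : L) ≠ 0 := by
    have := mul_ne_zero h20 h20; norm_num at this; exact this
  have hvZ : 0 < v Z := zero_lt_iff.2 (v.ne_zero_iff.2 hZ0)
  obtain ⟨X, hX_def⟩ : ∃ X, X = x - r := ⟨_, rfl⟩
  obtain ⟨Y, hY_def⟩ : ∃ Y, Y = y + (E.a₁ * x + E.a₃) / 2 := ⟨_, rfl⟩
  obtain ⟨X', hX'_def⟩ : ∃ X', X' = x' - r := ⟨_, rfl⟩
  obtain ⟨Y', hY'_def⟩ : ∃ Y', Y' = y' + (E.a₁ * x' + E.a₃) / 2 := ⟨_, rfl⟩
  obtain ⟨a, ha_def⟩ : ∃ a, a = 3 * r + E.b₂ / 4 := ⟨_, rfl⟩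
  rw [← hX_def] at hX
  rw [← hX'_def] at hX'
  rw [← hY_def] at hY
  rw [← hY'_def] at hY'
  rw [← ha_def] at hva
  rw [← hX_def, ← hY_def, ← hX'_def, ← hY'_def, ← ha_def]
  have hx : v x ≤ 1 := by
    rw [show x = X + r by rw [hX_def]; ring]; exact v_add_le_one (hX.trans hZ1.le) hr1
  have hx' : v x' ≤ 1 := by
    rw [show x' = X' + r by rw [hX'_def]; ring]; exact v_add_le_one (hX'.trans hZ1.le) hr1
  rcases sub_some_cases h h' with ⟨rfl, rfl⟩ | ⟨l, y₃, h₃, hD, hl₁, hl₂⟩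
  · left; rw [sub_self]; exact IsKerPt.zero
  rw [hD]
  by_cases hl : 1 < v l
  · exact Or.inl (hE.one_lt_addX hx' hx hl)
  push Not at hl
  obtain ⟨Λ, hΛ_def⟩ : ∃ Λ, Λ = l + E.a₁ / 2 := ⟨_, rfl⟩
  have hΛ : v Λ ≤ 1 := by rw [hΛ_def]; exact v_add_le_one hl (v_div_two_le_one h2 hE.h₁)
  have R₁ : Λ * (X' - X) = Y' + Y := by
    simp only [negY] at hl₁
    rw [hX_def, hX'_def, hY_def, hY'_def, hΛ_def]
    linear_combination (norm := (field_simp; ring)) hl₁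
  have R₂ : Λ * (Y' - Y) = (X' ^ 2 + X' * X + X ^ 2) + a * (X' + X) := by
    simp only [negY] at hl₁
    rw [hX_def, hX'_def, hY_def, hY'_def, hΛ_def, ha_def]
    rw [b₂, b₄] at hr
    simp only [b₂]
    linear_combination (norm := (field_simp; ring)) hl₂ + E.a₁ / 2 * hl₁ + hr
  by_cases hbad : v (Λ ^ 2 - a) = 1
  · right; left
    obtain ⟨x₃, hx₃_def⟩ : ∃ x₃, x₃ = E.toAffine.addX x' x l := ⟨_, rfl⟩
    have he₃ := h₃.left
    rw [← hx₃_def] at he₃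
    have hx₃ : v x₃ ≤ 1 := by
      rw [hx₃_def]; simp only [addX]
      exact v_sub_le_one (v_sub_le_one (v_sub_le_one (v_add_le_one (v_pow_le_one hl 2)
        (v_mul_le_one hE.h₁ hl)) hE.h₂) hx') hx
    obtain ⟨X₃, hX₃_def⟩ : ∃ X₃, X₃ = x₃ - r := ⟨_, rfl⟩
    obtain ⟨Y₃, hY₃_def⟩ : ∃ Y₃, Y₃ = y₃ + (E.a₁ * x₃ + E.a₃) / 2 := ⟨_, rfl⟩
    have hsum : v (X' + X) < 1 :=
      v.map_add_lt (lt_of_le_of_lt hX' hZ1) (lt_of_le_of_lt hX hZ1)
    have hX₃ : v X₃ = 1 := by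
      have e : X₃ = (Λ ^ 2 - a) - (X' + X) := by
        rw [hX₃_def, hx₃_def, hΛ_def, ha_def, hX'_def, hX_def, b₂]
        simp only [addX]
        field_simp
        ring
      rw [e, v.map_sub_eq_of_lt_left, hbad]
      rwa [hbad]
    refine ⟨hx₃_def ▸ hx₃, ?_⟩
    rw [← hx₃_def]
    have hy₃ : v y₃ ≤ 1 := hE.y_le_one he₃ hx₃
    have hY₃1 : v Y₃ ≤ 1 := by
      rw [hY₃_def]
      exact v_add_le_one hy₃ (v_div_two_le_one h2 (v_add_le_one (v_mul_le_one hE.h₁ hx₃) hE.h₃))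
    rcases hY₃1.eq_or_lt with hY₃ | hY₃
    · right
      rw [show 2 * y₃ + E.a₁ * x₃ + E.a₃ = 2 * Y₃ by rw [hY₃_def]; field_simp; ring, map_mul, h2,
        hY₃, mul_one]
    left
    have c₁ := cubic_eq h20 he₃ hr
    have c₂ := cubic_eq h20 h.left hr
    rw [← hX₃_def, ← hY₃_def, ← ha_def] at c₁
    rw [← hX_def, ← hY_def, ← ha_def] at c₂
    have hXa : v (X₃ + a) < 1 := by
      have : v (X₃ ^ 2 * (X₃ + a)) < 1 := by
        rw [show X₃ ^ 2 * (X₃ + a) = Y₃ * Y₃ - (Y * Y - X * (X * (X + a))) by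
          linear_combination c₂ - c₁]
        exact v.map_sub_lt (v_mul_lt_one_left hY₃ hY₃.le)
          (v.map_sub_lt (v_mul_lt_one_left (lt_of_le_of_lt hY hZ1) (hY.trans hZ1.le))
          (v_mul_lt_one_left (lt_of_le_of_lt hX hZ1)
            (v_mul_le_one (hX.trans hZ1.le) (v_add_le_one (hX.trans hZ1.le) hva.le))))
      rwa [map_mul, map_pow, hX₃, one_pow, one_mul] at this
    have e : 3 * x₃ ^ 2 + 2 * E.a₂ * x₃ + E.a₄ - E.a₁ * y₃ =
        -(a * X₃) + (3 * X₃ * (X₃ + a) - E.a₁ * Y₃) := by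
      rw [hX₃_def, hY₃_def, ha_def]
      rw [b₂, b₄] at hr
      simp only [b₂]
      linear_combination (norm := (field_simp; ring)) hr
    rw [e, v.map_add_eq_of_lt_left, v.map_neg, map_mul, hva, hX₃, mul_one]
    rw [v.map_neg, v.map_mul a X₃, hva, hX₃, mul_one]
    exact v.map_sub_lt (v_mul_lt_one_right (v_mul_le_one (v_ofNat_le_one 3) hX₃.le) hXa)
      (v_mul_lt_one_right hE.h₁ hY₃)
  right; right
  obtain ⟨β₀, hβ₀⟩ := IsAlgClosed.exists_pow_nat_eq a two_pos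
  have hvβ₀ : v β₀ = 1 := by
    have := hva
    rw [← hβ₀, map_pow] at this
    exact (pow_eq_one_iff_of_nonneg zero_le two_ne_zero).1 this
  obtain ⟨β, hβ, hlb⟩ : ∃ β, β ^ 2 = a ∧ v (Λ - β) < 1 := by
    by_contra hcon
    push Not at hcon
    refine hbad (le_antisymm (v_sub_le_one (v_pow_le_one hΛ 2) hva.le) ?_)
    rw [show Λ ^ 2 - a = (Λ - β₀) * (Λ + β₀) by rw [← hβ₀]; ring, map_mul]
    exact one_le_mul (hcon β₀ hβ₀) (by simpa using hcon (-β₀) (by rw [neg_sq, hβ₀]))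
  have hvβ : v β = 1 := by
    rw [← hβ, map_pow] at hva
    exact (pow_eq_one_iff_of_nonneg zero_le two_ne_zero).1 hva
  refine ⟨β, hβ, ?_⟩
  have hdiv : ∀ {W : L}, v W ≤ v Z → v (W / Z) ≤ 1 := fun hW => by
    rw [map_div₀]; exact (div_le_one₀ hvZ).2 hW
  obtain ⟨ε, hε_def⟩ : ∃ ε, ε = (X' ^ 2 + X' * X + X ^ 2) / Z := ⟨_, rfl⟩
  have hε : v ε < 1 := by
    rw [show ε = X' * (X' / Z) + X' * (X / Z) + X * (X / Z) by rw [hε_def]; ring]
    exact v.map_add_lt (v.map_add_lt (v_mul_lt_one_left (lt_of_le_of_lt hX' hZ1) (hdiv hX'))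
      (v_mul_lt_one_left (lt_of_le_of_lt hX' hZ1) (hdiv hX)))
      (v_mul_lt_one_left (lt_of_le_of_lt hX hZ1) (hdiv hX))
  have d₁ : v ((Y' / Z + Y / Z) - β * (X' / Z - X / Z)) < 1 := by
    rw [show (Y' / Z + Y / Z) - β * (X' / Z - X / Z) = (Λ - β) * (X' / Z - X / Z) by
      field_simp; linear_combination -R₁]
    exact v_mul_lt_one_left hlb (v_sub_le_one (hdiv hX') (hdiv hX))
  have d₂ : v ((Y' / Z - Y / Z) - β * (X' / Z + X / Z)) < 1 := by
    have e : β * ((Y' / Z - Y / Z) - β * (X' / Z + X / Z)) =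
        ε - (Λ - β) * (Y' / Z - Y / Z) := by
      rw [hε_def]; field_simp; linear_combination R₂ - (X' + X) * hβ
    have : v (β * ((Y' / Z - Y / Z) - β * (X' / Z + X / Z))) < 1 := by
      rw [e]; exact v.map_sub_lt hε (v_mul_lt_one_left hlb (v_sub_le_one (hdiv hY') (hdiv hY)))
    rwa [map_mul, hvβ, one_mul] at this
  constructor
  · rw [show (Y' - β * X') / Z = (((Y' / Z + Y / Z) - β * (X' / Z - X / Z)) +
      ((Y' / Z - Y / Z) - β * (X' / Z + X / Z))) / 2 by field_simp; ring]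
    exact v_div_two_lt_one h2 (v.map_add_lt d₁ d₂)
  · rw [show (Y + β * X) / Z = (((Y' / Z + Y / Z) - β * (X' / Z - X / Z)) -
      ((Y' / Z - Y / Z) - β * (X' / Z + X / Z))) / 2 by field_simp; ring]
    exact v_div_two_lt_one h2 (v.map_sub_lt d₁ d₂)

/-- A valuation preserving endomorphism moves a point with singular reduction into the same or
the opposite component. -/
theorem exists_sign_of_singular [IsAlgClosed L] (hE : IntegralCoeffs v E) (h2 : v (2 : L) = 1)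
    (hc₄ : v E.c₄ = 1) {x y : L} {h : E.toAffine.Nonsingular x y} (hx : v x ≤ 1)
    (hns : ¬ IsSmoothPt v (Point.some x y h)) {σ : L →+* L} (hval : ∀ z, v (σ z) = v z)
    (hfix : E.map σ = E) (h' : E.toAffine.Nonsingular (σ x) (σ y)) :
    (IsKerPt v (Point.some (σ x) (σ y) h' - Point.some x y h) ∨
        IsSmoothPt v (Point.some (σ x) (σ y) h' - Point.some x y h)) ∨
      (IsKerPt v (Point.some (σ x) (σ y) h' + Point.some x y h) ∨
        IsSmoothPt v (Point.some (σ x) (σ y) h' + Point.some x y h)) := by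
  obtain ⟨r, hr1, hr, hva, hX, hY⟩ := exists_node hE h2 hc₄ hx hns
  have h20 := v_two_ne_zero h2
  obtain ⟨X, hX_def⟩ : ∃ X, X = x - r := ⟨_, rfl⟩
  obtain ⟨Y, hY_def⟩ : ∃ Y, Y = y + (E.a₁ * x + E.a₃) / 2 := ⟨_, rfl⟩
  rw [← hX_def] at hX
  rw [← hY_def] at hY
  have hc : v (r ^ 3 + E.b₂ / 4 * r ^ 2 + E.b₄ / 2 * r + E.b₆ / 4) < 1 := by
    rw [← cubic_eq h20 h.left hr, ← hX_def, ← hY_def, pow_two, pow_two]
    exact v.map_sub_lt (v_mul_lt_one_left hY hY.le)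
      (v_mul_lt_one_left (v_mul_lt_one_left hX hX.le) (v_add_le_one hX.le hva.le))
  have σr := node_fixed h2 hr1 hr hva hc hval hfix
  have σ₁ : σ E.a₁ = E.a₁ := congrArg WeierstrassCurve.a₁ hfix
  have σ₃ : σ E.a₃ = E.a₃ := congrArg WeierstrassCurve.a₃ hfix
  have hσX : σ X = σ x - r := by rw [hX_def, map_sub, σr]
  have hσY : σ Y = σ y + (E.a₁ * σ x + E.a₃) / 2 := by
    rw [hY_def]; simp [σ₁, σ₃, map_ofNat]
  obtain ⟨Z, hXZ, hYZ, hZmax, hZ1⟩ :
      ∃ Z, v X ≤ v Z ∧ v Y ≤ v Z ∧ (Z = X ∨ Z = Y) ∧ v Z < 1 := by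
    rcases le_total (v Y) (v X) with hle | hle
    · exact ⟨X, le_rfl, hle, Or.inl rfl, hX⟩
    · exact ⟨Y, hle, le_rfl, Or.inr rfl, hY⟩
  by_cases hZ0 : Z = 0
  · left; left
    rw [hZ0, map_zero] at hXZ hYZ
    have hX0 : X = 0 := v.zero_iff.1 (le_antisymm hXZ zero_le)
    have hY0 : Y = 0 := v.zero_iff.1 (le_antisymm hYZ zero_le)
    have ex : σ x = x := by
      rw [show x = r by rw [hX_def, sub_eq_zero] at hX0; exact hX0, σr]
    have ey : σ y = y := by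
      rw [show y = -((E.a₁ * x + E.a₃) / 2) by rw [hY_def] at hY0; linear_combination hY0]
      simp [σ₁, σ₃, ex, map_ofNat]
    have : Point.some (σ x) (σ y) h' = Point.some x y h := by simp [ex, ey]
    rw [this, sub_self]
    exact IsKerPt.zero
  have hn : E.toAffine.Nonsingular x (E.toAffine.negY x y) := (nonsingular_neg ..).2 h
  have hYneg : E.toAffine.negY x y + (E.a₁ * x + E.a₃) / 2 = -Y := by
    rw [hY_def]; simp only [negY]; field_simp; ring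
  have hs : v (σ X) ≤ v Z ∧ v (σ Y) ≤ v Z := ⟨(hval X).le.trans hXZ, (hval Y).le.trans hYZ⟩
  have T₁ := sub_trichotomy (h := h) (h' := h') hE h2 hr hva hr1 hZ0 hZ1
    (hX_def ▸ hXZ) (hσX ▸ hs.1) (hY_def ▸ hYZ) (hσY ▸ hs.2)
  have T₂ := sub_trichotomy (h := hn) (h' := h') hE h2 hr hva hr1 hZ0 hZ1
    (hX_def ▸ hXZ) (hσX ▸ hs.1) (by rw [hYneg, v.map_neg]; exact hYZ) (hσY ▸ hs.2)
  rw [← Point.neg_some h, sub_neg_eq_add] at T₂
  rw [← hσX, ← hσY, ← hX_def, hYneg] at T₂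
  rw [← hσX, ← hσY, ← hX_def, ← hY_def] at T₁
  rcases T₁ with h₁ | h₁ | ⟨β, hβ, e₁, e₂⟩
  · exact Or.inl (Or.inl h₁)
  · exact Or.inl (Or.inr h₁)
  rcases T₂ with h₂ | h₂ | ⟨β', hβ', f₁, f₂⟩
  · exact Or.inr (Or.inl h₂)
  · exact Or.inr (Or.inr h₂)
  exfalso
  obtain ⟨a, ha_def⟩ : ∃ a, a = 3 * r + E.b₂ / 4 := ⟨_, rfl⟩
  rw [← ha_def] at hva hβ hβ'
  have hvZ : 0 < v Z := zero_lt_iff.2 (v.ne_zero_iff.2 hZ0)
  have hvβ : v β = 1 := by
    rw [← hβ, map_pow] at hva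
    exact (pow_eq_one_iff_of_nonneg zero_le two_ne_zero).1 hva
  have hβ0 : β ≠ 0 := v.ne_zero_iff.1 (by rw [hvβ]; exact one_ne_zero)
  -- both branches forced to agree, so the point is congruent to the node at every scale
  have key : ∀ (U V : L), v ((V - β * U) / Z) < 1 → v ((V + β * U) / Z) < 1 →
      v (U / Z) < 1 ∧ v (V / Z) < 1 := fun U V k₁ k₂ => by
    have e : v (2 * (β * (U / Z))) < 1 := by
      rw [show 2 * (β * (U / Z)) = (V + β * U) / Z - (V - β * U) / Z by ring]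
      exact v.map_sub_lt k₂ k₁
    have e' : v (2 * (V / Z)) < 1 := by
      rw [show 2 * (V / Z) = (V + β * U) / Z + (V - β * U) / Z by ring]
      exact v.map_add_lt k₂ k₁
    rw [map_mul, map_mul, h2, hvβ, one_mul, one_mul] at e
    rw [map_mul, h2, one_mul] at e'
    exact ⟨e, e'⟩
  rcases eq_or_eq_neg_of_sq_eq_sq β' β (hβ'.trans hβ.symm) with rfl | rfl
  · have f₂' : v ((Y - β' * X) / Z) < 1 := by
      rw [show (Y - β' * X) / Z = -((-Y + β' * X) / Z) by ring, v.map_neg]; exact f₂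
    obtain ⟨k₁, k₂⟩ := key X Y f₂' e₂
    rcases hZmax with e | e
    · rw [← e, div_self hZ0, map_one] at k₁; exact k₁.false
    · rw [← e, div_self hZ0, map_one] at k₂; exact k₂.false
  · obtain ⟨k₁, k₂⟩ := key (σ X) (σ Y) e₁ (by simpa using f₁)
    rcases hZmax with e | e
    · rw [map_div₀, hval, ← e, div_self hvZ.ne'] at k₁; exact k₁.false
    · rw [map_div₀, hval, ← e, div_self hvZ.ne'] at k₂; exact k₂.false

end FermatLib.AtP
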