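import Fermat.Agent.EC.AtPKernel
import Fermat.Agent.EC.AtPSign
import Fermat.Agent.EC.RedBridge

/-!
The `p`-power torsion of an ordinary or multiplicative curve at a place over `p`: the kernel of
reduction gives a line, inertia is trivial on the quotient, and in the multiplicative case the
decomposition group acts on the quotient by a sign.
-/

set_option autoImplicit false

noncomputable section

namespace FermatLib.AtP

open WeierstrassCurve WeierstrassCurve.Affine
open scoped WeierstrassCurve.Affine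

local notation "ℚbar" => AlgebraicClosure ℚ

variable (W : WeierstrassCurve ℤ) {A : ValuationSubring ℚbar} {p : ℕ}

/-- `W` over `ℚ̄`. -/
local notation "Wbar" => ((W.map (Int.castRingHom ℚ))⁄(AlgebraicClosure ℚ))

/-- The kernel of reduction does not contain all of `E[p]`. -/
def KernelProper (W : WeierstrassCurve ℤ) (A : ValuationSubring ℚbar) (p : ℕ) : Prop :=
  ∃ P : Pts W, p • P = 0 ∧ ¬ IsKerPt A.valuation P

/-- The reduced curve is nonsingular, or it has a node and the residue characteristic is odd. -/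
def GoodOrOddMult (W : WeierstrassCurve ℤ) (p : ℕ) : Prop :=
  ¬ (p : ℤ) ∣ W.Δ ∨ (p ≠ 2 ∧ ¬ (p : ℤ) ∣ W.c₄)

lemma inE0_of_isKerPt {P : Pts W} (h : IsKerPt A.valuation P) : EC.InE0 A P := by
  match P with
  | .zero => trivial
  | .some x y hP => exact Or.inl (EC.not_mem_iff_valuation.2 h)

lemma inE0_of_isSmoothPt {P : Pts W} (h : IsSmoothPt A.valuation P) : EC.InE0 A P := by
  match P with
  | .zero => exact h.elim
  | .some x y hP =>
    obtain ⟨hx, hs⟩ := h
    have hxA : x ∈ A := EC.mem_iff_valuation.2 hx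
    refine Or.inr ⟨hxA, EC.mem_iff_valuation.2 ((integralCoeffs_bar W).y_le_one hP.left hx), ?_⟩
    rw [(EC.integralAt_intCurve W A).nonsingular_red_iff hP.left hxA, ← A.valuation.map_neg,
      neg_sub]
    exact hs

lemma isKerPt_or_isSmoothPt_of_inE0 {P : Pts W} (h : EC.InE0 A P) :
    IsKerPt A.valuation P ∨ IsSmoothPt A.valuation P := by
  match P with
  | .zero => exact Or.inl trivial
  | .some x y hP =>
    rcases h with h | ⟨hx, -, hns⟩
    · exact Or.inl (EC.not_mem_iff_valuation.1 h)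
    · rw [(EC.integralAt_intCurve W A).nonsingular_red_iff hP.left hx, ← A.valuation.map_neg,
        neg_sub] at hns
      exact Or.inr ⟨EC.mem_iff_valuation.1 hx, hns⟩

lemma smul_eq_point (σ : ℚbar ≃ₐ[ℚ] ℚbar) {x y : ℚbar} (h : (Wbar).toAffine.Nonsingular x y) :
    ∃ h', σ • (Point.some x y h : Pts W) = Point.some (σ x) (σ y) h' :=
  galois_smul_some W σ h

/-- The decomposition group preserves the kernel of reduction. -/
lemma isKerPt_smul_iff {σ : ℚbar ≃ₐ[ℚ] ℚbar} (hσ : σ ∈ A.decompositionSubgroup ℚ) {P : Pts W} :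
    IsKerPt A.valuation (σ • P) ↔ IsKerPt A.valuation P := by
  match P with
  | .zero => exact Iff.rfl
  | .some x y h =>
    show 1 < A.valuation (σ x) ↔ 1 < A.valuation x
    rw [valuation_apply_of_mem_decomposition hσ]

lemma galois_zero (σ : ℚbar ≃ₐ[ℚ] ℚbar) : σ • (0 : Pts W) = 0 := rfl

lemma galois_add (σ : ℚbar ≃ₐ[ℚ] ℚbar) (P Q : Pts W) : σ • (P + Q) = σ • P + σ • Q :=
  map_add (DistribSMul.toAddMonoidHom (Pts W) σ) P Q

lemma galois_nsmul (σ : ℚbar ≃ₐ[ℚ] ℚbar) (k : ℕ) (P : Pts W) : σ • (k • P) = k • (σ • P) :=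
  map_nsmul (DistribSMul.toAddMonoidHom (Pts W) σ) k P

lemma mult_of_not_smooth (hgm : GoodOrOddMult W p) (hp : p.Prime) (hA : A.LiesOverPrime p)
    {x y : ℚbar} {h : (Wbar).toAffine.Nonsingular x y} (hx : A.valuation x ≤ 1)
    (hns : ¬ IsSmoothPt A.valuation (Point.some x y h)) :
    (p : ℤ) ∣ W.Δ ∧ p ≠ 2 ∧ ¬ (p : ℤ) ∣ W.c₄ := by
  by_cases hΔ : (p : ℤ) ∣ W.Δ
  · exact ⟨hΔ, hgm.resolve_left fun h' => h' hΔ⟩
  · refine absurd ((integralCoeffs_bar W).isSmoothPt_of_Δ ?_ hx) hns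
    rw [baseChange_eq_map, map_Δ]
    exact valuation_intCast_eq_one hp hA hΔ

variable [(W.map (Int.castRingHom ℚ)).IsElliptic] [hpf : Fact p.Prime]

omit [(W.map (Int.castRingHom ℚ)).IsElliptic] in
lemma unitContent_of_goodOrOddMult (hgm : GoodOrOddMult W p) (hA : A.LiesOverPrime p) :
    UnitContent W p := by
  by_cases hΔ : (p : ℤ) ∣ W.Δ
  · obtain ⟨h2, hc⟩ := hgm.resolve_left fun h => h hΔ
    exact unitContent_of_mult W hpf.out h2 hA hΔ hc
  · exact unitContent_of_good W hpf.out hΔ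

/-- A subgroup missing part of `E[p]` has at most a line of `p`-torsion. -/
lemma exists_eq_nsmul_of_proper (H : AddSubgroup (Pts W)) {z : Pts W} (hzH : z ∈ H) (hz : z ≠ 0)
    (hpz : p • z = 0) (hprop : ∃ P : Pts W, p • P = 0 ∧ P ∉ H) {R : Pts W} (hR : R ∈ H)
    (hpR : p • R = 0) : ∃ k : ℕ, R = k • z := by
  have hmem : ∀ P : Pts W, p • P = 0 → P ∈ Tors W p := fun P hP =>
    (Submodule.mem_torsionBy_iff _ _).2 (by rw [natCast_zsmul]; exact hP)
  obtain ⟨S, hS⟩ : ∃ S, S = AddSubgroup.toZModSubmodule p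
      (H.comap (Tors W p).subtype.toAddMonoidHom) := ⟨_, rfl⟩
  have memS : ∀ w : Tors W p, w ∈ S ↔ (w : Pts W) ∈ H := fun w => by rw [hS]; rfl
  have h2 : Module.finrank (ZMod p) (Tors W p) = 2 :=
    EC.finrank_torsionBy_baseChange (K := ℚbar) (W.map (Int.castRingHom ℚ)) (p := p)
      (Nat.cast_ne_zero.2 hpf.out.ne_zero)
  have : FiniteDimensional (ZMod p) (Tors W p) := Module.finite_of_finrank_eq_succ h2
  obtain ⟨P, hP, hPH⟩ := hprop
  have htop : S ≠ ⊤ := fun e => hPH ((memS ⟨P, hmem P hP⟩).1 (e ▸ Submodule.mem_top))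
  have hle : Module.finrank (ZMod p) S ≤ 1 := by
    have := Submodule.finrank_lt htop
    omega
  obtain ⟨w, hw⟩ : ∃ w : Tors W p, (w : Pts W) = z := ⟨⟨z, hmem z hpz⟩, rfl⟩
  have hw0 : w ≠ 0 := fun e => hz (by rw [← hw, e]; rfl)
  have hspan : Submodule.span (ZMod p) {w} = S :=
    Submodule.eq_of_le_of_finrank_le
      (Submodule.span_le.2 (Set.singleton_subset_iff.2 ((memS w).2 (hw ▸ hzH))))
      (hle.trans (finrank_span_singleton hw0).ge)
  have hRS : (⟨R, hmem R hpR⟩ : Tors W p) ∈ S := (memS _).2 hR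
  rw [← hspan, Submodule.mem_span_singleton] at hRS
  obtain ⟨c, hc⟩ := hRS
  refine ⟨c.val, ?_⟩
  rw [← ZMod.natCast_zmod_val c, Nat.cast_smul_eq_nsmul (ZMod p)] at hc
  have := congrArg (Subtype.val : Tors W p → Pts W) hc
  rw [← hw]
  exact this.symm

variable (hgm : GoodOrOddMult W p) (hA : A.LiesOverPrime p)
include hgm hA

/-- The kernel of reduction on `p`-power torsion is a compatible system of cyclic groups. -/
theorem exists_kerPt_generators (hprop : KernelProper W A p) :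
    ∃ z : ℕ → Pts W, z 0 = 0 ∧ z 1 ≠ 0 ∧ (∀ n, p • z (n + 1) = z n) ∧
      (∀ n, IsKerPt A.valuation (z n)) ∧
      ∀ n (P : Pts W), p ^ n • P = 0 → IsKerPt A.valuation P → ∃ k : ℕ, P = k • z n := by
  have hu := unitContent_of_goodOrOddMult W hgm hA
  obtain ⟨z₁, hz₁, hpz₁, hkz₁⟩ := exists_kerPt_torsion W hu hpf.out hA
  choose next hnext hnextp using fun Q : {Q : Pts W // IsKerPt A.valuation Q} =>
    exists_kerPt_nsmul_eq W hu hpf.out hA Q.2
  let seq : ℕ → {Q : Pts W // IsKerPt A.valuation Q} := fun n =>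
    Nat.rec ⟨0, IsKerPt.zero⟩ (fun m Q => if m = 0 then ⟨z₁, hkz₁⟩ else ⟨next Q, hnext Q⟩) n
  have hstep : ∀ n, p • (seq (n + 1)).1 = (seq n).1 := fun n => by
    rcases n with _ | m
    · exact hpz₁
    · exact hnextp (seq (m + 1))
  refine ⟨fun n => (seq n).1, rfl, hz₁, hstep, fun n => (seq n).2, ?_⟩
  intro n
  induction n with
  | zero =>
    intro P hP _
    refine ⟨0, ?_⟩
    rw [pow_zero, one_smul] at hP
    rw [hP]
    exact (zero_nsmul _).symm
  | succ n ih =>
    intro P hP hk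
    obtain ⟨k, hk'⟩ := ih (p • P) (by rw [← mul_smul, ← pow_succ]; exact hP)
      ((kerSubgroup (integralCoeffs_bar W)).nsmul_mem hk p)
    have hz : p • (P - k • (seq (n + 1)).1) = 0 := by
      rw [nsmul_sub, ← mul_nsmul', mul_nsmul, hstep, hk', sub_self]
    have hmem : P - k • (seq (n + 1)).1 ∈ kerSubgroup (integralCoeffs_bar W) :=
      AddSubgroup.sub_mem _ hk (AddSubgroup.nsmul_mem _ (seq (n + 1)).2 k)
    obtain ⟨P₀, hP₀, hP₀k⟩ := hprop
    obtain ⟨j, hj⟩ := exists_eq_nsmul_of_proper W (kerSubgroup (integralCoeffs_bar W)) hkz₁ hz₁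
      hpz₁ ⟨P₀, hP₀, hP₀k⟩ hmem hz
    have hpow : ∀ m, p ^ m • (seq (1 + m)).1 = z₁ := fun m => by
      induction m with
      | zero => rw [pow_zero, one_smul]; rfl
      | succ m ihm => rw [pow_succ, mul_smul, ← add_assoc, hstep, ihm]
    refine ⟨k + j * p ^ n, ?_⟩
    rw [add_smul, mul_smul, add_comm n 1, hpow n, ← hj, add_comm 1 n]
    abel

omit hgm in
/-- At a multiplicative place a `p`-power torsion point in the zero component is in the kernel
of reduction. -/
theorem isKerPt_of_inE0 (hp2 : p ≠ 2) (hΔ : (p : ℤ) ∣ W.Δ) (hc₄ : ¬ (p : ℤ) ∣ W.c₄) :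
    ∀ {n : ℕ} {Q : Pts W}, p ^ n • Q = 0 → EC.InE0 A Q → IsKerPt A.valuation Q := by
  have hu := unitContent_of_mult W hpf.out hp2 hA hΔ hc₄
  obtain ⟨z₁, hz₁, hpz₁, hkz₁⟩ := exists_kerPt_torsion W hu hpf.out hA
  obtain ⟨P₀, hP₀, hP₀k, hP₀s⟩ := exists_torsion_not_smooth W hpf.out hp2 hA hΔ hc₄
  have key : ∀ R : Pts W, p • R = 0 → EC.InE0 A R → IsKerPt A.valuation R := fun R hR hR0 => by
    obtain ⟨k, rfl⟩ := exists_eq_nsmul_of_proper W (EC.E0 (EC.integralAt_intCurve W A))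
      (inE0_of_isKerPt W hkz₁) hz₁ hpz₁
      ⟨P₀, hP₀, fun h => (isKerPt_or_isSmoothPt_of_inE0 W h).elim hP₀k hP₀s⟩ hR0 hR
    exact (kerSubgroup (integralCoeffs_bar W)).nsmul_mem hkz₁ k
  intro n
  induction n with
  | zero => intro Q hQ _; rw [pow_zero, one_smul] at hQ; rw [hQ]; exact IsKerPt.zero
  | succ n ih =>
    intro Q hQ hQ0
    have hpQ := ih (Q := p • Q) (by rw [← mul_smul, ← pow_succ]; exact hQ)
      ((EC.E0 (EC.integralAt_intCurve W A)).nsmul_mem hQ0 p)
    obtain ⟨R, hR, hRp⟩ := exists_kerPt_nsmul_eq W hu hpf.out hA hpQ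
    have hdiff := key (Q - R) (by rw [nsmul_sub, hRp, sub_self])
      ((EC.E0 (EC.integralAt_intCurve W A)).sub_mem hQ0 (inE0_of_isKerPt W hR))
    simpa using (kerSubgroup (integralCoeffs_bar W)).add_mem hdiff hR

/-- Inertia acts trivially on the `p`-power torsion modulo the kernel of reduction. -/
theorem isKerPt_inertia_sub {σ : ℚbar ≃ₐ[ℚ] ℚbar} (hσ : σ ∈ A.inertiaSubgroupIn ℚ) {n : ℕ}
    {P : Pts W} (hP : p ^ n • P = 0) : IsKerPt A.valuation (σ • P - P) := by
  have hE : IntegralCoeffs A.valuation (Wbar) := integralCoeffs_bar W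
  have hin := isInertial_of_mem hσ
  have htor : p ^ n • (σ • P - P) = 0 := by
    rw [nsmul_sub, ← galois_nsmul, hP, galois_zero, sub_zero]
  match P with
  | .zero =>
    change IsKerPt A.valuation (σ • (0 : Pts W) - 0)
    rw [galois_zero, sub_zero]
    exact IsKerPt.zero
  | .some x y h =>
    by_cases hk : IsKerPt A.valuation (Point.some x y h)
    · have hk' : IsKerPt A.valuation (σ • (Point.some x y h : Pts W)) := by
        obtain ⟨τ, -, rfl⟩ := hσ
        exact (isKerPt_smul_iff W τ.2).2 hk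
      exact (kerSubgroup hE).sub_mem hk' hk
    have hx : A.valuation x ≤ 1 := not_lt.1 hk
    obtain ⟨h', e⟩ := smul_eq_point W σ h
    rw [e] at htor ⊢
    by_cases hs : IsSmoothPt A.valuation (Point.some x y h)
    · exact hE.isKerPt_sub_of_congr hs (hin.congr x hx) (hin.congr y (hE.y_le_one h.left hx))
    obtain ⟨hΔ, hp2, hc₄⟩ := mult_of_not_smooth W hgm hpf.out hA hx hs
    obtain ⟨Z, -, hZ⟩ := exists_twist_of_singular hE (v_two_eq_one hpf.out hp2 hA)
      (v_c₄_eq_one W hpf.out hA hc₄) hx hs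
    obtain ⟨-, hd⟩ := hZ _ hin (WeierstrassCurve.map_baseChange (W.map (Int.castRingHom ℚ))
      σ.toAlgHom) h'
    exact hd.elim id fun hsm => isKerPt_of_inE0 W hA hp2 hΔ hc₄ htor (inE0_of_isSmoothPt W hsm)

omit hgm in
/-- At a multiplicative place a decomposition element acts by a sign on the `p`-power torsion
modulo the kernel of reduction. -/
theorem decomposition_sign (hp2 : p ≠ 2) (hΔ : (p : ℤ) ∣ W.Δ) (hc₄ : ¬ (p : ℤ) ∣ W.c₄)
    {σ : ℚbar ≃ₐ[ℚ] ℚbar} (hσ : σ ∈ A.decompositionSubgroup ℚ) :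
    (∀ (n : ℕ) (P : Pts W), p ^ n • P = 0 → IsKerPt A.valuation (σ • P - P)) ∨
      (∀ (n : ℕ) (P : Pts W), p ^ n • P = 0 → IsKerPt A.valuation (σ • P + P)) := by
  have hE : IntegralCoeffs A.valuation (Wbar) := integralCoeffs_bar W
  obtain ⟨K, hK⟩ : ∃ K, K = kerSubgroup hE := ⟨_, rfl⟩
  have memK : ∀ P : Pts W, P ∈ K ↔ IsKerPt A.valuation P := fun P => by rw [hK]; rfl
  have hkσ : ∀ P : Pts W, IsKerPt A.valuation P → IsKerPt A.valuation (σ • P) := fun P h =>
    (isKerPt_smul_iff W hσ).2 h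
  have pointwise : ∀ (n : ℕ) (P : Pts W), p ^ n • P = 0 →
      IsKerPt A.valuation (σ • P - P) ∨ IsKerPt A.valuation (σ • P + P) := by
    intro n P hP
    have hσP : p ^ n • (σ • P) = 0 := by rw [← galois_nsmul, hP, galois_zero]
    match P with
    | .zero =>
      left
      change IsKerPt A.valuation (σ • (0 : Pts W) - 0)
      rw [galois_zero, sub_zero]
      exact IsKerPt.zero
    | .some x y h =>
      have tm : p ^ n • (σ • (Point.some x y h : Pts W) - Point.some x y h) = 0 := by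
        rw [nsmul_sub, hσP, hP, sub_zero]
      have tp : p ^ n • (σ • (Point.some x y h : Pts W) + Point.some x y h) = 0 := by
        rw [nsmul_add, hσP, hP, add_zero]
      by_cases hk : IsKerPt A.valuation (Point.some x y h)
      · exact Or.inl ((kerSubgroup hE).sub_mem (hkσ _ hk) hk)
      have hx : A.valuation x ≤ 1 := not_lt.1 hk
      by_cases hs : IsSmoothPt A.valuation (Point.some x y h)
      · exact absurd (isKerPt_of_inE0 W hA hp2 hΔ hc₄ hP (inE0_of_isSmoothPt W hs)) hk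
      obtain ⟨h', e⟩ := smul_eq_point W σ h
      rw [e] at tm tp ⊢
      rcases exists_sign_of_singular hE (v_two_eq_one hpf.out hp2 hA)
        (v_c₄_eq_one W hpf.out hA hc₄) hx hs
        (fun z => valuation_apply_of_mem_decomposition hσ z)
        (WeierstrassCurve.map_baseChange (W.map (Int.castRingHom ℚ)) σ.toAlgHom) h' with
        (h₁ | h₁) | (h₁ | h₁)
      · exact Or.inl h₁
      · exact Or.inl (isKerPt_of_inE0 W hA hp2 hΔ hc₄ tm (inE0_of_isSmoothPt W h₁))
      · exact Or.inr h₁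
      · exact Or.inr (isKerPt_of_inE0 W hA hp2 hΔ hc₄ tp (inE0_of_isSmoothPt W h₁))
  by_contra hcon
  push Not at hcon
  obtain ⟨⟨n, P, hP, hPm⟩, ⟨m, Q, hQ, hQp⟩⟩ := hcon
  have hP' : p ^ (n + m) • P = 0 := by rw [pow_add, mul_comm, mul_smul, hP, nsmul_zero]
  have hQ' : p ^ (n + m) • Q = 0 := by rw [pow_add, mul_smul, hQ, nsmul_zero]
  have hPp := (pointwise n P hP).resolve_left hPm
  have hQm := (pointwise m Q hQ).resolve_right hQp
  rcases pointwise (n + m) (P + Q) (by rw [nsmul_add, hP', hQ', add_zero]) with h | h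
  · refine hPm ((memK _).1 ?_)
    have e : σ • P - P = (σ • (P + Q) - (P + Q)) - (σ • Q - Q) := by rw [galois_add]; abel
    rw [e]
    exact K.sub_mem ((memK _).2 h) ((memK _).2 hQm)
  · refine hQp ((memK _).1 ?_)
    have e : σ • Q + Q = (σ • (P + Q) + (P + Q)) - (σ • P + P) := by rw [galois_add]; abel
    rw [e]
    exact K.sub_mem ((memK _).2 h) ((memK _).2 hPp)

omit hgm in
/-- At a multiplicative place the kernel of reduction misses part of `E[p]`. -/
theorem kernelProper_of_mult (hp2 : p ≠ 2) (hΔ : (p : ℤ) ∣ W.Δ) (hc₄ : ¬ (p : ℤ) ∣ W.c₄) :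
    KernelProper W A p := by
  obtain ⟨P, hP, hk, -⟩ := exists_torsion_not_smooth W hpf.out hp2 hA hΔ hc₄
  exact ⟨P, hP, hk⟩

end FermatLib.AtP

end
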