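import Mathlib

/-!
Elementary valuation estimates for points on an integral Weierstrass equation over a valued
field: the kernel of reduction, smooth reduction, and the effect of an automorphism which is
trivial on residues.
-/

set_option autoImplicit false

namespace FermatLib.AtP

open WeierstrassCurve WeierstrassCurve.Affine

universe u w

variable {L : Type u} [Field L] {Γ : Type w} [LinearOrderedCommGroupWithZero Γ]

/-- All coefficients of `E` are integral for `v`. -/
structure IntegralCoeffs (v : Valuation L Γ) (E : WeierstrassCurve L) : Prop where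
  h₁ : v E.a₁ ≤ 1
  h₂ : v E.a₂ ≤ 1
  h₃ : v E.a₃ ≤ 1
  h₄ : v E.a₄ ≤ 1
  h₆ : v E.a₆ ≤ 1

/-- An endomorphism of the field preserving the valuation and trivial on the residue field. -/
structure IsInertial (v : Valuation L Γ) (σ : L →+* L) : Prop where
  map_val : ∀ z, v (σ z) = v z
  congr : ∀ z, v z ≤ 1 → v (σ z - z) < 1

/-- A point in the kernel of reduction. -/
def IsKerPt (v : Valuation L Γ) {E : WeierstrassCurve L} : E.toAffine.Point → Prop
  | .zero => True
  | .some x _ _ => 1 < v x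

/-- An integral point whose reduction is a smooth point of the reduced cubic. -/
def IsSmoothPt (v : Valuation L Γ) {E : WeierstrassCurve L} : E.toAffine.Point → Prop
  | .zero => False
  | .some x y _ => v x ≤ 1 ∧
      (v (3 * x ^ 2 + 2 * E.a₂ * x + E.a₄ - E.a₁ * y) = 1 ∨ v (2 * y + E.a₁ * x + E.a₃) = 1)

variable {v : Valuation L Γ} {E : WeierstrassCurve L}

lemma v_add_le_one {a b : L} (ha : v a ≤ 1) (hb : v b ≤ 1) : v (a + b) ≤ 1 :=
  v.map_add_le ha hb

lemma v_sub_le_one {a b : L} (ha : v a ≤ 1) (hb : v b ≤ 1) : v (a - b) ≤ 1 :=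
  v.map_sub_le ha hb

lemma v_mul_le_one {a b : L} (ha : v a ≤ 1) (hb : v b ≤ 1) : v (a * b) ≤ 1 := by
  rw [map_mul]; exact mul_le_one' ha hb

lemma v_pow_le_one {a : L} (ha : v a ≤ 1) (n : ℕ) : v (a ^ n) ≤ 1 := by
  rw [map_pow]; exact pow_le_one' ha n

lemma v_natCast_le_one : ∀ n : ℕ, v (n : L) ≤ 1
  | 0 => by simp
  | n + 1 => by rw [Nat.cast_succ]; exact v_add_le_one (v_natCast_le_one n) (by simp)

lemma v_ofNat_le_one (n : ℕ) [n.AtLeastTwo] : v (OfNat.ofNat n : L) ≤ 1 := by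
  rw [← Nat.cast_ofNat]; exact v_natCast_le_one _

lemma v_mul_lt_one_left {a b : L} (ha : v a < 1) (hb : v b ≤ 1) : v (a * b) < 1 := by
  rw [map_mul]; exact mul_lt_one_of_lt_of_le ha hb

lemma v_mul_lt_one_right {a b : L} (ha : v a ≤ 1) (hb : v b < 1) : v (a * b) < 1 := by
  rw [mul_comm]; exact v_mul_lt_one_left hb ha

lemma IntegralCoeffs.y_le_one (hE : IntegralCoeffs v E) {x y : L}
    (h : E.toAffine.Equation x y) (hx : v x ≤ 1) : v y ≤ 1 := by
  by_contra hy
  push Not at hy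
  rw [equation_iff] at h
  have h1 : y ^ 2 = x ^ 3 + E.a₂ * x ^ 2 + E.a₄ * x + E.a₆ - (E.a₁ * x + E.a₃) * y := by
    linear_combination h
  have h2 : v (x ^ 3 + E.a₂ * x ^ 2 + E.a₄ * x + E.a₆) ≤ v y :=
    (v_add_le_one (v_add_le_one (v_add_le_one (v_pow_le_one hx 3)
      (v_mul_le_one hE.h₂ (v_pow_le_one hx 2))) (v_mul_le_one hE.h₄ hx)) hE.h₆).trans hy.le
  have h3 : v ((E.a₁ * x + E.a₃) * y) ≤ v y := by
    rw [map_mul]
    exact mul_le_of_le_one_left' (v_add_le_one (v_mul_le_one hE.h₁ hx) hE.h₃)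
  have h4 : v (y ^ 2) ≤ v y := h1 ▸ v.map_sub_le h2 h3
  rw [map_pow, pow_two] at h4
  exact absurd h4 (not_le.2 (lt_mul_of_one_lt_left (zero_lt_one.trans hy) hy))

/-- If the slope of a chord through two integral points is not integral, neither is the sum. -/
lemma IntegralCoeffs.one_lt_addX (hE : IntegralCoeffs v E) {x₁ x₂ l : L}
    (h₁ : v x₁ ≤ 1) (h₂ : v x₂ ≤ 1) (hl : 1 < v l) : 1 < v (E.toAffine.addX x₁ x₂ l) := by
  have hl2 : v l < v (l ^ 2) := by
    rw [map_pow, pow_two]; exact lt_mul_of_one_lt_left (zero_lt_one.trans hl) hl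
  have h : v (E.a₁ * l - E.a₂ - x₁ - x₂) < v (l ^ 2) := by
    refine lt_of_le_of_lt (v.map_sub_le (v.map_sub_le (v.map_sub_le ?_ ?_) ?_) ?_) hl2
    · rw [map_mul]; exact mul_le_of_le_one_left' hE.h₁
    · exact hE.h₂.trans hl.le
    · exact h₁.trans hl.le
    · exact h₂.trans hl.le
  have : E.toAffine.addX x₁ x₂ l = l ^ 2 + (E.a₁ * l - E.a₂ - x₁ - x₂) := by
    simp only [addX]; ring
  rw [this, v.map_add_eq_of_lt_left h]
  exact hl.trans hl2

section Points

variable [DecidableEq L]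

/-- The difference of two affine points, described by two linear equations for the slope. -/
lemma sub_some_cases {x y x' y' : L} (h : E.toAffine.Nonsingular x y)
    (h' : E.toAffine.Nonsingular x' y') :
    (x' = x ∧ y' = y) ∨ ∃ (l y₃ : L) (h₃ : E.toAffine.Nonsingular (E.toAffine.addX x' x l) y₃),
      (Point.some x' y' h' - Point.some x y h) = Point.some _ y₃ h₃ ∧
      l * (x' - x) = y' - E.toAffine.negY x y ∧
      l * (y' - y) = x' ^ 2 + x' * x + x ^ 2 + E.a₂ * (x' + x) + E.a₄ - E.a₁ * y' := by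
  by_cases hxy : x' = x ∧ y' = y
  · exact Or.inl hxy
  right
  have hn : E.toAffine.Nonsingular x (E.toAffine.negY x y) := (nonsingular_neg ..).2 h
  have hxy' : ¬(x' = x ∧ y' = E.toAffine.negY x (E.toAffine.negY x y)) := by
    rwa [negY_negY]
  refine ⟨E.toAffine.slope x' x y' (E.toAffine.negY x y), _, nonsingular_add h' hn hxy',
    ?_, ?_⟩
  · rw [sub_eq_add_neg, Point.neg_some, Point.add_some hxy']
  have he' := (equation_iff x' y').1 h'.left
  have he := (equation_iff x y).1 h.left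
  by_cases hx : x' = x
  · subst hx
    have hy : y' ≠ y := fun h0 => hxy ⟨rfl, h0⟩
    have hyn : y' = E.toAffine.negY x' y := (Y_eq_of_X_eq h'.left h.left rfl).resolve_left hy
    have hny : E.toAffine.negY x' y' = y := by rw [hyn, negY_negY]
    refine ⟨by rw [sub_self, mul_zero, ← hyn, sub_self], ?_⟩
    rw [slope_of_Y_ne rfl (by rwa [negY_negY]), hny, div_mul_cancel₀ _ (sub_ne_zero.2 hy)]
    ring
  · rw [slope_of_X_ne hx]
    have hd : x' - x ≠ 0 := sub_ne_zero.2 hx
    refine ⟨div_mul_cancel₀ _ hd, ?_⟩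
    rw [div_mul_eq_mul_div, div_eq_iff hd]
    simp only [negY]
    linear_combination he' - he

omit [DecidableEq L] in
lemma IntegralCoeffs.y_gt (hE : IntegralCoeffs v E) {x y : L}
    (h : E.toAffine.Equation x y) (hx : 1 < v x) : v x ≤ v y ∧ v y ≤ v x ^ 2 := by
  rw [equation_iff] at h
  have hx1 : v x ≤ v x ^ 2 := le_self_pow hx.le two_ne_zero
  have hx2 : v x ^ 2 < v x ^ 3 := pow_lt_pow_right₀ hx (by norm_num)
  have hrhs : v (x ^ 3 + (E.a₂ * x ^ 2 + E.a₄ * x + E.a₆)) = v x ^ 3 := by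
    rw [v.map_add_eq_of_lt_left, map_pow]
    rw [map_pow]
    refine lt_of_le_of_lt (v.map_add_le (v.map_add_le ?_ ?_) ?_) hx2
    · rw [map_mul, map_pow]; exact mul_le_of_le_one_left' hE.h₂
    · rw [map_mul]; exact (mul_le_of_le_one_left' hE.h₄).trans hx1
    · exact hE.h₆.trans (hx.le.trans hx1)
  have hlhs : x ^ 3 + (E.a₂ * x ^ 2 + E.a₄ * x + E.a₆) = y * (y + E.a₁ * x + E.a₃) := by
    linear_combination -h
  rw [hlhs, map_mul] at hrhs
  have hlin : v (E.a₁ * x + E.a₃) ≤ v x :=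
    v.map_add_le (by rw [map_mul]; exact mul_le_of_le_one_left' hE.h₁) (hE.h₃.trans hx.le)
  constructor
  · by_contra hy
    push Not at hy
    have hs : v (y + E.a₁ * x + E.a₃) ≤ v x := by
      rw [add_assoc]; exact v.map_add_le hy.le hlin
    have hmul : v y * v (y + E.a₁ * x + E.a₃) ≤ v x ^ 2 := by
      rw [pow_two]; exact mul_le_mul' hy.le hs
    rw [hrhs] at hmul
    exact absurd hmul (not_le.2 hx2)
  · by_contra hy
    push Not at hy
    have hs : v (y + E.a₁ * x + E.a₃) = v y := by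
      rw [add_assoc]; exact v.map_add_eq_of_lt_left (lt_of_le_of_lt (hlin.trans hx1) hy)
    rw [hs] at hrhs
    have hmul : (v x ^ 2) * (v x ^ 2) ≤ v y * v y := mul_le_mul' hy.le hy.le
    rw [hrhs, ← pow_add] at hmul
    exact absurd hmul (not_le.2 (pow_lt_pow_right₀ hx (by norm_num)))

omit [DecidableEq L] in
lemma IsKerPt.zero : IsKerPt v (0 : E.toAffine.Point) := trivial

omit [DecidableEq L] in
lemma IsKerPt.neg {P : E.toAffine.Point} (hP : IsKerPt v P) : IsKerPt v (-P) := by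
  match P with
  | .zero => exact hP
  | .some x y h => rw [Point.neg_some]; exact hP

/-- An integral point plus a point in the kernel of reduction is integral. -/
lemma IntegralCoeffs.not_isKerPt_add (hE : IntegralCoeffs v E) {P Q : E.toAffine.Point}
    (hP : IsKerPt v P) (hQ : ¬ IsKerPt v Q) : ¬ IsKerPt v (P + Q) := by
  match P, Q with
  | .zero, Q => change ¬ IsKerPt v (0 + Q); rwa [zero_add]
  | .some x y h, .zero => exact absurd trivial hQ
  | .some x y h, .some x' y' h' =>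
    have hx : 1 < v x := hP
    have hx' : v x' ≤ 1 := not_lt.1 hQ
    have hy' : v y' ≤ 1 := hE.y_le_one h'.left hx'
    have hne : x ≠ x' := fun e => absurd hx' (not_le.2 (e ▸ hx))
    rw [Point.add_of_X_ne hne]
    change ¬ 1 < v _
    rw [not_lt]
    have hd : x - x' ≠ 0 := sub_ne_zero.2 hne
    have hN : E.toAffine.addX x x' (E.toAffine.slope x x' y y') * (x - x') ^ 2 =
        -E.a₃ * y + E.a₄ * x + E.a₆ - 2 * y' * y - E.a₁ * x' * y - E.a₁ * y' * x
          + x' * x ^ 2 + x' ^ 2 * x + 2 * E.a₂ * x' * x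
          + (y' ^ 2 + E.a₁ * x' * y' - E.a₂ * x' ^ 2 - x' ^ 3) := by
      have he := (equation_iff x y).1 h.left
      rw [slope_of_X_ne hne]
      simp only [addX]
      field_simp
      linear_combination he
    obtain ⟨-, hy2⟩ := hE.y_gt h.left hx
    have hxle : v x ≤ v x ^ 2 := le_self_pow hx.le two_ne_zero
    have h1le : (1 : Γ) ≤ v x ^ 2 := hx.le.trans hxle
    have kmul : ∀ a b : L, v a ≤ 1 → v b ≤ v x ^ 2 → v (a * b) ≤ v x ^ 2 := fun a b ha hb => by
      rw [map_mul]; exact (mul_le_of_le_one_left' ha).trans hb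
    have hsq : v ((x - x') ^ 2) = v x ^ 2 := by
      rw [map_pow, v.map_sub_eq_of_lt_left (lt_of_le_of_lt hx' hx)]
    have hpos : 0 < v x ^ 2 := zero_lt_one.trans_le h1le
    rw [← mul_le_mul_iff_left₀ hpos, one_mul, ← hsq, ← map_mul, hN, hsq]
    refine v.map_add_le (v.map_add_le (v.map_add_le (v.map_add_le (v.map_sub_le (v.map_sub_le
      (v.map_sub_le (v.map_add_le (v.map_add_le ?_ ?_) ?_) ?_) ?_) ?_) ?_) ?_) ?_) ?_
    · exact kmul _ _ (by simpa using hE.h₃) hy2
    · exact kmul _ _ hE.h₄ hxle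
    · exact hE.h₆.trans h1le
    · exact kmul _ _ (v_mul_le_one (v_ofNat_le_one 2) hy') hy2
    · exact kmul _ _ (v_mul_le_one hE.h₁ hx') hy2
    · exact kmul _ _ (v_mul_le_one hE.h₁ hy') hxle
    · exact kmul _ _ hx' (by rw [map_pow])
    · exact kmul _ _ (v_pow_le_one hx' 2) hxle
    · exact kmul _ _ (v_mul_le_one (v_mul_le_one (v_ofNat_le_one 2) hE.h₂) hx') hxle
    · exact (v_sub_le_one (v_sub_le_one (v_add_le_one (v_pow_le_one hy' 2)
        (v_mul_le_one (v_mul_le_one hE.h₁ hx') hy'))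
        (v_mul_le_one hE.h₂ (v_pow_le_one hx' 2))) (v_pow_le_one hx' 3)).trans h1le

/-- The kernel of reduction as a subgroup. -/
def kerSubgroup (hE : IntegralCoeffs v E) : AddSubgroup E.toAffine.Point where
  carrier := {P | IsKerPt v P}
  zero_mem' := IsKerPt.zero (v := v) (E := E)
  neg_mem' hP := IsKerPt.neg (v := v) hP
  add_mem' {P Q} hP hQ := by
    refine by_contra fun hR => hE.not_isKerPt_add (P := -Q) (Q := P + Q) hQ.neg hR ?_
    rwa [neg_add_eq_sub, add_sub_cancel_right]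

@[simp] lemma mem_kerSubgroup (hE : IntegralCoeffs v E) {P : E.toAffine.Point} :
    P ∈ kerSubgroup hE ↔ IsKerPt v P :=
  Iff.rfl

/-- Two integral points with the same smooth reduction differ by a point in the kernel. -/
lemma IntegralCoeffs.isKerPt_sub_of_congr (hE : IntegralCoeffs v E) {x y x' y' : L}
    {h : E.toAffine.Nonsingular x y} {h' : E.toAffine.Nonsingular x' y'}
    (hs : IsSmoothPt v (Point.some x y h)) (hcx : v (x' - x) < 1) (hcy : v (y' - y) < 1) :
    IsKerPt v (Point.some x' y' h' - Point.some x y h) := by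
  obtain ⟨hx, hs⟩ := hs
  have hx' : v x' ≤ 1 := by
    simpa using v_add_le_one (v := v) hcx.le hx
  rcases sub_some_cases h h' with ⟨rfl, rfl⟩ | ⟨l, y₃, h₃, hD, hl₁, hl₂⟩
  · rw [sub_self]; exact IsKerPt.zero
  rw [hD]
  by_contra hker
  have hl : v l ≤ 1 := not_lt.1 fun hl => hker (hE.one_lt_addX hx' hx hl)
  rcases hs with hs | hs
  · refine hs.not_lt ?_
    have hy' : v (x' + 2 * x + E.a₂) ≤ 1 :=
      v_add_le_one (v_add_le_one hx' (v_mul_le_one (v_ofNat_le_one 2) hx)) hE.h₂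
    have e : 3 * x ^ 2 + 2 * E.a₂ * x + E.a₄ - E.a₁ * y =
        (l + E.a₁) * (y' - y) - (x' + 2 * x + E.a₂) * (x' - x) := by
      linear_combination -hl₂
    rw [e]
    exact v.map_sub_lt (v_mul_lt_one_right (v_add_le_one hl hE.h₁) hcy)
      (v_mul_lt_one_right hy' hcx)
  · refine hs.not_lt ?_
    have e : 2 * y + E.a₁ * x + E.a₃ = l * (x' - x) - (y' - y) := by
      rw [hl₁]; simp only [negY]; ring
    rw [e]
    exact v.map_sub_lt (v_mul_lt_one_right hl hcx) hcy

end Points

end FermatLib.AtP
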