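import Fermat.Agent.EC.AtPTame
import Fermat.Agent.EC.AtPOrdinary

/-!
Supersingular places: inertia acts on `E[p]` through the tame character of level two.
-/

set_option autoImplicit false

noncomputable section

namespace FermatLib.AtP

open WeierstrassCurve WeierstrassCurve.Affine Polynomial
open scoped WeierstrassCurve.Affine

local notation "ℚbar" => AlgebraicClosure ℚ
local notation "Γℚ" => (AlgebraicClosure ℚ ≃ₐ[ℚ] AlgebraicClosure ℚ)

variable (W : WeierstrassCurve ℤ) {A : ValuationSubring ℚbar} {p : ℕ}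

/-- `W` over `ℚ̄`. -/
local notation "Wbar" => ((W.map (Int.castRingHom ℚ))⁄(AlgebraicClosure ℚ))

/-- A simple level-two inertia action on `E[p]`: some inertia element permutes the nonzero
points up to sign transitively, and all inertia acts through its powers up to sign. -/
def TameLevelTwoAt (W : WeierstrassCurve ℤ) (A : ValuationSubring ℚbar) (p : ℕ) : Prop :=
  ∃ τ ∈ A.inertiaSubgroupIn ℚ,
    (∀ P Q : Pts W, p • P = 0 → p • Q = 0 → P ≠ 0 → Q ≠ 0 →
      ∃ k : ℕ, (τ ^ k) • P = Q ∨ (τ ^ k) • P = -Q) ∧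
    (∀ σ ∈ A.inertiaSubgroupIn ℚ, ∃ k : ℕ, (∀ P : Pts W, p • P = 0 → σ • P = (τ ^ k) • P) ∨
      (∀ P : Pts W, p • P = 0 → σ • P = -((τ ^ k) • P)))

lemma eq_or_eq_neg_of_xCoord {P Q : Pts W} (hP : P ≠ 0) (hQ : Q ≠ 0)
    (h : xCoord P = xCoord Q) : P = Q ∨ P = -Q := by
  match P, Q with
  | .zero, _ => exact absurd rfl hP
  | .some x y h', .zero => exact absurd rfl hQ
  | .some x y h', .some x' y' h'' => exact (Point.X_eq_iff (h₁ := h') (h₂ := h'')).1 h

lemma galois_ne_zero (σ : Γℚ) {P : Pts W} (hP : P ≠ 0) : σ • P ≠ 0 := fun h =>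
  hP (by rw [← inv_smul_smul σ P, h]; rfl)

/-- The abstract form: the `x`-coordinates of `E[p]` have valuation exactly `p ^ (-e/d)`. -/
theorem tameLevelTwoAt_of_roots (hp : p.Prime) (hA : A.LiesOverPrime p) {d e : ℕ}
    (hd : ¬ p ∣ d) (hde : Nat.Coprime d e) (F : ℚbar[X]) (hF : F ≠ 0) (hdeg : F.natDegree ≤ d)
    (hroot : ∀ P : Pts W, p • P = 0 → P ≠ 0 → F.eval (xCoord P) = 0)
    (hval : ∀ P : Pts W, p • P = 0 → P ≠ 0 →
      A.valuation (xCoord P) ^ d * A.valuation (p : ℚbar) ^ e = 1) :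
    TameLevelTwoAt W A p := by
  have hd0 : d ≠ 0 := fun h => hd (h ▸ dvd_zero p)
  obtain ⟨π, hπ⟩ := IsAlgClosed.exists_pow_nat_eq ((p : ℚbar) ^ e) (Nat.pos_of_ne_zero hd0)
  obtain ⟨τ, hτ, u, hu, hτπ, hτu, hall⟩ := exists_tame_generator hp hA hd hde hπ
  have hu0 : u ≠ 0 := hu.ne_zero hd0
  have hπ0 : π ≠ 0 := fun h => by
    rw [h, zero_pow hd0] at hπ
    exact pow_ne_zero e (Nat.cast_ne_zero.2 hp.ne_zero : (p : ℚbar) ≠ 0) hπ.symm
  have hvu : A.valuation u = 1 :=
    (pow_eq_one_iff_of_nonneg zero_le hd0).1 (by rw [← map_pow, hu.pow_eq_one, map_one])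
  have hpowπ : ∀ k : ℕ, (τ ^ k) π = u ^ k * π := fun k => by
    induction k with
    | zero => simp
    | succ k ih =>
      rw [pow_succ', AlgEquiv.mul_apply, ih, map_mul, map_pow, hτu, hτπ]
      ring
  -- the residual coordinate of a point
  have hw : ∀ P : Pts W, p • P = 0 → P ≠ 0 → A.valuation ((xCoord P)⁻¹ / π) = 1 := by
    intro P hP h0
    refine (pow_eq_one_iff_of_nonneg zero_le hd0).1 ?_
    have hv := hval P hP h0
    have hvπ : A.valuation π ^ d = A.valuation (p : ℚbar) ^ e := by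
      rw [← map_pow, hπ, map_pow]
    rw [← hvπ] at hv
    rw [map_div₀, map_inv₀, div_pow, inv_pow, div_eq_mul_inv, ← mul_inv, hv, inv_one]
  have hwσ : ∀ σ ∈ A.inertiaSubgroupIn ℚ, ∀ c : ℚbar, σ π = c * π → A.valuation c = 1 →
      ∀ P : Pts W, p • P = 0 → P ≠ 0 →
      A.valuation ((xCoord (σ • P))⁻¹ / π - c * ((xCoord P)⁻¹ / π)) < 1 := by
    intro σ hσ c hc hvc P hP h0
    have hin := isInertial_of_mem hσ
    have e1 : (xCoord (σ • P))⁻¹ / π = c * σ ((xCoord P)⁻¹ / π) := by
      rw [map_div₀, map_inv₀, hc, xCoord_smul]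
      have hc0 : c ≠ 0 := A.valuation.ne_zero_iff.1 (by rw [hvc]; exact one_ne_zero)
      field_simp
    rw [e1, ← mul_sub]
    exact v_mul_lt_one_right hvc.le (hin.congr _ (hw P hP h0).le)
  have hvuk : ∀ k : ℕ, A.valuation (u ^ k) = 1 := fun k => by rw [map_pow, hvu, one_pow]
  -- distinct powers of `τ` give distinct residual coordinates
  have hinj : ∀ (P : Pts W), p • P = 0 → P ≠ 0 → ∀ i j : ℕ,
      A.valuation (u ^ i * ((xCoord P)⁻¹ / π) - u ^ j * ((xCoord P)⁻¹ / π)) < 1 →
      u ^ i = u ^ j := by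
    intro P hP h0 i j hlt
    rw [← sub_mul, map_mul, hw P hP h0, mul_one] at hlt
    have hj0 : u ^ j ≠ 0 := pow_ne_zero j hu0
    refine (div_eq_one_iff_eq hj0).1 (eq_one_of_pow_eq_one (valuation_natCast_eq_one hp hA hd) ?_ ?_)
    · rw [div_pow, ← pow_mul, ← pow_mul, mul_comm i, mul_comm j, pow_mul, pow_mul, hu.pow_eq_one,
        one_pow, one_pow, div_one]
    · rw [show u ^ i / u ^ j - 1 = (u ^ i - u ^ j) / u ^ j by rw [sub_div, div_self hj0],
        map_div₀, hvuk, div_one]
      exact hlt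
  have htor : ∀ (σ : Γℚ) (P : Pts W), p • P = 0 → p • (σ • P) = 0 := fun σ P hP => by
    rw [← galois_nsmul, hP, galois_zero]
  have hres : ∀ (P : Pts W), p • P = 0 → P ≠ 0 → ∀ k : ℕ, A.valuation
      ((xCoord ((τ ^ k) • P))⁻¹ / π - u ^ k * ((xCoord P)⁻¹ / π)) < 1 := fun P hP h0 k =>
    hwσ _ ((A.inertiaSubgroupIn ℚ).pow_mem hτ k) _ (hpowπ k) (hvuk k) P hP h0
  -- the orbit exhausts all roots, and its `x`-coordinate only depends on the power of `u`
  have hdiff : ∀ a b c : ℚbar, (a - b) - (a - c) = c - b := fun a b c => by ring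
  have heq : ∀ (P : Pts W), p • P = 0 → P ≠ 0 → ∀ i j : ℕ,
      xCoord ((τ ^ i) • P) = xCoord ((τ ^ j) • P) → u ^ i = u ^ j := by
    intro P hP h0 i j hij
    have e := A.valuation.map_sub_lt (hres P hP h0 j) (hres P hP h0 i)
    rw [hij, hdiff] at e
    exact hinj P hP h0 i j e
  have horbit : ∀ P : Pts W, p • P = 0 → P ≠ 0 → ∀ Q : Pts W, p • Q = 0 → Q ≠ 0 →
      ∃ k : ℕ, k < d ∧ xCoord ((τ ^ k) • P) = xCoord Q := by
    intro P hP h0 Q hQ hQ0
    have hinjOn : Set.InjOn (fun k => xCoord ((τ ^ k) • P))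
        (Finset.range d : Finset ℕ) := by
      intro i hi j hj hij
      simp only [Finset.coe_range, Set.mem_Iio] at hi hj
      exact hu.pow_inj hi hj (heq P hP h0 i j hij)
    have himg : (Finset.range d).image (fun k => xCoord ((τ ^ k) • P)) = F.roots.toFinset := by
      refine Finset.eq_of_subset_of_card_le (fun x hx => ?_) ?_
      · obtain ⟨k, -, rfl⟩ := Finset.mem_image.1 hx
        rw [Multiset.mem_toFinset, mem_roots hF]
        exact hroot _ (htor _ P hP) (galois_ne_zero W _ h0)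
      · rw [Finset.card_image_of_injOn hinjOn, Finset.card_range]
        exact (Multiset.toFinset_card_le _).trans ((card_roots' F).trans hdeg)
    have hQm : xCoord Q ∈ F.roots.toFinset := by
      rw [Multiset.mem_toFinset, mem_roots hF]; exact hroot Q hQ hQ0
    rw [← himg, Finset.mem_image] at hQm
    exact hQm.imp fun k hk => ⟨Finset.mem_range.1 hk.1, hk.2⟩
  refine ⟨τ, hτ, fun P Q hP hQ h0 hQ0 => ?_, fun σ hσ => ?_⟩
  · obtain ⟨k, -, hk⟩ := horbit P hP h0 Q hQ hQ0
    exact ⟨k, eq_or_eq_neg_of_xCoord W (galois_ne_zero W _ h0) hQ0 hk⟩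
  obtain ⟨k, hk⟩ := hall σ hσ
  refine ⟨k, ?_⟩
  have pointwise : ∀ P : Pts W, p • P = 0 → σ • P = (τ ^ k) • P ∨ σ • P = -((τ ^ k) • P) := by
    intro P hP
    by_cases h0 : P = 0
    · left; rw [h0, galois_zero, galois_zero]
    obtain ⟨j, hjd, hj⟩ := horbit P hP h0 (σ • P) (htor σ P hP) (galois_ne_zero W σ h0)
    have e := A.valuation.map_sub_lt (hwσ σ hσ _ hk (hvuk k) P hP h0) (hres P hP h0 j)
    rw [hj, hdiff] at e
    have hjk := hinj P hP h0 j k e
    refine eq_or_eq_neg_of_xCoord W (galois_ne_zero W σ h0) (galois_ne_zero W _ h0) ?_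
    obtain ⟨i, hid, hi⟩ := horbit P hP h0 ((τ ^ k) • P) (htor _ P hP) (galois_ne_zero W _ h0)
    rw [← hj, ← hi, hu.pow_inj hjd hid (hjk.trans (heq P hP h0 i k hi).symm)]
  by_contra hcon
  push Not at hcon
  obtain ⟨⟨P, hP, hPm⟩, Q, hQ, hQp⟩ := hcon
  have hPp := (pointwise P hP).resolve_left hPm
  have hQm := (pointwise Q hQ).resolve_right hQp
  rcases pointwise (P + Q) (by rw [nsmul_add, hP, hQ, add_zero]) with h | h
  · refine hPm ?_
    rw [galois_add, galois_add, hQm] at h
    exact add_right_cancel h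
  · refine hQp ?_
    rw [galois_add, galois_add, hPp, neg_add] at h
    exact add_left_cancel h

variable [(W.map (Int.castRingHom ℚ)).IsElliptic] [hpf : Fact p.Prime]

/-- Supersingular reduction in odd residue characteristic. -/
theorem tameLevelTwoAt_of_odd (hA : A.LiesOverPrime p) (hp2 : p ≠ 2) (hgood : ¬ (p : ℤ) ∣ W.Δ)
    (hss : ¬ KernelProper W A p) : TameLevelTwoAt W A p := by
  have hp := hpf.out
  have hodd := hp.odd_of_ne_two hp2
  simp only [KernelProper, not_exists, not_and, not_not] at hss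
  obtain ⟨d, hd_def⟩ : ∃ d, d = (p ^ 2 - 1) / 2 := ⟨_, rfl⟩
  obtain ⟨m, hm⟩ := hodd
  have h2d : 2 * d + 1 = p ^ 2 := by
    have e : p ^ 2 = 2 * (2 * m ^ 2 + 2 * m) + 1 := by rw [hm]; ring
    omega
  have hd : ¬ p ∣ d := fun h => by
    have h1 : p ∣ p ^ 2 := dvd_pow_self p two_ne_zero
    have h2 : p ∣ 2 * d := Dvd.dvd.mul_left h 2
    exact hp.one_lt.ne' (Nat.dvd_one.1 ((Nat.dvd_add_right h2).1 (h2d ▸ h1)))
  have hodd : Odd p := ⟨m, hm⟩
  have hcoe : ∀ i, A.valuation (((Wbar).preΨ' p).coeff i) ≤ 1 := fun i => by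
    rw [baseChange_eq_map, map_preΨ', coeff_map, eq_intCast]
    exact valuation_intCast_le_one _
  have hp0 : (p : ℚbar) ≠ 0 := Nat.cast_ne_zero.2 hp.ne_zero
  have hdeg : ((Wbar).preΨ' p).natDegree = d := by
    rw [natDegree_preΨ' _ hp0, if_neg (Nat.not_even_iff_odd.2 hodd), hd_def]
  have hlc : ((Wbar).preΨ' p).coeff d = (p : ℚbar) := by
    rw [← hdeg, coeff_natDegree, leadingCoeff_preΨ' _ hp0, if_neg (Nat.not_even_iff_odd.2 hodd)]
  have hvp : A.valuation (p : ℚbar) < 1 := (A.mem_nonunits_iff).1 hA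
  -- every root is non-integral
  have hbig : ∀ r, ((Wbar).preΨ' p).eval r = 0 → 1 < A.valuation r := by
    intro r hr
    obtain ⟨y, hy⟩ := EC.exists_nonsingular_of_isAlgClosed (Wbar).toAffine r
    exact hss (Point.some r y hy) ((EC.eval_preΨ'_eq_zero_iff_nsmul_eq_zero hy hodd).1 hr)
  -- some coefficient is a unit
  obtain ⟨i₀, hi₀⟩ : ∃ i, ¬ (p : ℤ) ∣ (W.preΨ' p).coeff i := by
    by_contra hc
    push Not at hc
    have : (W.map (Int.castRingHom (ZMod p))).IsElliptic := ⟨by
      rw [map_Δ, isUnit_iff_ne_zero]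
      exact fun e => hgood ((ZMod.intCast_zmod_eq_zero_iff_dvd _ _).1 e)⟩
    refine EC.preΨ'_ne_zero_of_isElliptic (W.map (Int.castRingHom (ZMod p))) hp.ne_zero ?_
    rw [map_preΨ']
    exact Polynomial.ext fun i => by
      rw [coeff_map, coeff_zero, eq_intCast]
      exact (ZMod.intCast_zmod_eq_zero_iff_dvd _ _).2 (hc i)
  have hcast : ∀ i, ((Wbar).preΨ' p).coeff i = ((W.preΨ' p).coeff i : ℚbar) := fun i => by
    rw [baseChange_eq_map, map_preΨ', coeff_map, eq_intCast]
  have h0 : A.valuation (((Wbar).preΨ' p).coeff 0) = 1 := by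
    refine le_antisymm (hcoe 0) (not_lt.1 fun hlt => ?_)
    obtain ⟨r, hr, hr1⟩ := exists_root_lt_one _ _ rfl hcoe
      ⟨i₀, by rw [hcast]; exact valuation_intCast_eq_one hp hA hi₀⟩ hlt
    exact absurd hr1 (not_lt.2 (hbig r hr).le)
  -- the middle coefficients are multiples of `p`
  have hmid : ∀ j, 1 ≤ j → A.valuation (((Wbar).preΨ' p).coeff j) ≤ A.valuation (p : ℚbar) := by
    intro j hj
    have hdvd : (p : ℤ) ∣ (W.preΨ' p).coeff j := by
      by_contra hnd
      obtain ⟨g, hg⟩ : ∃ g, g = C (((Wbar).preΨ' p).coeff 0)⁻¹ * (Wbar).preΨ' p := ⟨_, rfl⟩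
      have hc0 : ((Wbar).preΨ' p).coeff 0 ≠ 0 :=
        A.valuation.ne_zero_iff.1 (by rw [h0]; exact one_ne_zero)
      -- peel off the roots: a polynomial with only large roots is constant modulo the place
      have key : ∀ (n : ℕ) (f : ℚbar[X]), f.natDegree = n → f.coeff 0 = 1 →
          (∀ r, f.eval r = 0 → 1 < A.valuation r) → ∀ j, 1 ≤ j → A.valuation (f.coeff j) < 1 := by
        intro n
        induction n with
        | zero =>
          intro f hn _ _ j hj
          rw [coeff_eq_zero_of_natDegree_lt (by omega), map_zero]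
          exact zero_lt_one
        | succ n ih =>
          intro f hn hf0 hroots j hj
          obtain ⟨r, hr⟩ := IsAlgClosed.exists_root f fun e => by
            have := natDegree_eq_of_degree_eq_some (n := 0) e
            omega
          have hr1 := hroots r hr
          have hr0 : r ≠ 0 := A.valuation.ne_zero_iff.1 (zero_lt_one.trans hr1).ne'
          obtain ⟨q, hq⟩ := dvd_iff_isRoot.2 hr
          have hC : (C r⁻¹ : ℚbar[X]) * C r = 1 := by rw [← C_mul, inv_mul_cancel₀ hr0, C_1]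
          have hfk : f = (1 - C r⁻¹ * X) * (-(C r * q)) := by
            rw [hq]; linear_combination -(X * q) * hC
          have hq0 : q ≠ 0 := fun e => by rw [hq, e, mul_zero, natDegree_zero] at hn; omega
          have hk0 : (-(C r * q)).coeff 0 = 1 := by
            rw [← hf0, hfk]; simp [mul_coeff_zero]
          have hkn : (-(C r * q)).natDegree = n := by
            rw [natDegree_neg, natDegree_C_mul hr0]
            rw [hq, natDegree_mul (X_sub_C_ne_zero r) hq0, natDegree_X_sub_C] at hn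
            omega
          have hksmall := ih _ hkn hk0 fun s hs => hroots s (by rw [hfk, eval_mul, hs, mul_zero])
          obtain ⟨i, rfl⟩ : ∃ i, j = i + 1 := ⟨j - 1, by omega⟩
          rw [hfk, sub_mul, one_mul, mul_assoc, coeff_sub, coeff_C_mul, coeff_X_mul]
          refine A.valuation.map_sub_lt (hksmall _ hj) ?_
          refine v_mul_lt_one_left (by rw [map_inv₀]; exact inv_lt_one_of_one_lt₀ hr1) ?_
          rcases Nat.eq_zero_or_pos i with rfl | hi
          · rw [hk0, map_one]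
          · exact (hksmall i hi).le
      have hlt := key _ g rfl (by rw [hg, coeff_C_mul, inv_mul_cancel₀ hc0])
        (fun r hr => hbig r (by
          rw [hg, eval_mul, eval_C, mul_eq_zero] at hr
          exact hr.resolve_left (inv_ne_zero hc0))) j hj
      rw [hg, coeff_C_mul, map_mul, map_inv₀, h0, inv_one, one_mul, hcast,
        valuation_intCast_eq_one hp hA hnd] at hlt
      exact hlt.false
    obtain ⟨c, hc⟩ := hdvd
    rw [hcast, hc, Int.cast_mul, Int.cast_natCast, map_mul]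
    exact mul_le_of_le_one_right' (valuation_intCast_le_one c)
  refine tameLevelTwoAt_of_roots W hp hA (e := 1) hd (Nat.coprime_one_right d) ((Wbar).preΨ' p)
    (EC.preΨ'_ne_zero_of_isElliptic _ hp.ne_zero) hdeg.le
    (fun P hP h0' => xCoord_isRoot W hodd hP h0') (fun P hP h0' => ?_)
  obtain ⟨x, hx_def⟩ : ∃ x, x = xCoord P := ⟨_, rfl⟩
  rw [← hx_def, pow_one]
  have hx : ((Wbar).preΨ' p).eval x = 0 := hx_def ▸ xCoord_isRoot W hodd hP h0'
  have hx1 := hbig x hx
  rw [eval_eq_sum_range, hdeg] at hx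
  rw [Finset.sum_range_succ, hlc] at hx
  obtain ⟨d', rfl⟩ : ∃ d', d = d' + 1 := ⟨d - 1, by
    have : 4 ≤ p ^ 2 := by calc 4 = 2 ^ 2 := rfl
                              _ ≤ p ^ 2 := Nat.pow_le_pow_left hp.two_le 2
    omega⟩
  rw [Finset.sum_range_succ', pow_zero, mul_one] at hx
  obtain ⟨S, hS⟩ : ∃ S, S = ∑ k ∈ Finset.range d', ((Wbar).preΨ' p).coeff (k + 1) * x ^ (k + 1) :=
    ⟨_, rfl⟩
  rw [← hS] at hx
  have hxpos : 0 < A.valuation x := zero_lt_one.trans hx1
  have hS1 : A.valuation S < A.valuation ((p : ℚbar) * x ^ (d' + 1)) := by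
    rw [hS]
    refine A.valuation.map_sum_lt
      (A.valuation.ne_zero_iff.2 (mul_ne_zero hp0
        (pow_ne_zero _ (A.valuation.ne_zero_iff.1 hxpos.ne')))) fun k hk => ?_
    rw [map_mul, map_mul, map_pow, map_pow]
    refine lt_of_le_of_lt (mul_le_mul_left (hmid (k + 1) (by omega)) _) ?_
    exact mul_lt_mul_of_pos_left
      (pow_lt_pow_right₀ hx1 (by have := Finset.mem_range.1 hk; omega))
      (zero_lt_iff.2 (A.valuation.ne_zero_iff.2 hp0))
  have e : (p : ℚbar) * x ^ (d' + 1) + S = -((Wbar).preΨ' p).coeff 0 := by linear_combination hx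
  have := congrArg A.valuation e
  rw [A.valuation.map_add_eq_of_lt_left hS1, A.valuation.map_neg, h0, map_mul, map_pow] at this
  rw [mul_comm]
  exact this

/-- Supersingular reduction at `2`. -/
theorem tameLevelTwoAt_two [Fact (Nat.Prime 2)] (hA : A.LiesOverPrime 2)
    (hgood : ¬ (2 : ℤ) ∣ W.Δ) (hss : ¬ KernelProper W A 2) : TameLevelTwoAt W A 2 := by
  have hp : Nat.Prime 2 := Nat.prime_two
  simp only [KernelProper, not_exists, not_and, not_not] at hss
  have hE : IntegralCoeffs A.valuation (Wbar) := integralCoeffs_bar W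
  have h2 : A.valuation (2 : ℚbar) < 1 := by simpa using (A.mem_nonunits_iff).1 hA
  have hv2 : 0 < A.valuation (2 : ℚbar) := zero_lt_iff.2 (A.valuation.ne_zero_iff.2 two_ne_zero)
  -- supersingular at 2 means `a₁` even
  have ha₁ : (2 : ℤ) ∣ W.a₁ := by
    by_contra hodd
    have hb₂ : A.valuation (Wbar).b₂ = 1 := by
      rw [baseChange_eq_map, map_b₂]
      refine valuation_intCast_eq_one hp hA fun h => hodd ?_
      have hsq : (2 : ℤ) ∣ W.a₁ ^ 2 := by
        have := Int.dvd_sub h ((dvd_mul_right 2 2).mul_right W.a₂)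
        simpa [b₂] using this
      exact Int.prime_two.dvd_of_dvd_pow hsq
    have hu : ∃ i, A.valuation ((Wbar).Ψ₂Sq.coeff i) = 1 := ⟨2, by simpa [Ψ₂Sq] using hb₂⟩
    have hcoe : ∀ i, A.valuation ((Wbar).Ψ₂Sq.coeff i) ≤ 1 := fun i => by
      rw [baseChange_eq_map, map_Ψ₂Sq, coeff_map, eq_intCast]
      exact valuation_intCast_le_one _
    -- integral root near a root of the reduced polynomial
    obtain ⟨s, hs⟩ := IsAlgClosed.exists_pow_nat_eq (-(Wbar).b₆ / (Wbar).b₂) two_pos
    have hb₂0 : (Wbar).b₂ ≠ 0 := A.valuation.ne_zero_iff.1 (by rw [hb₂]; exact one_ne_zero)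
    have hb₆ : A.valuation (Wbar).b₆ ≤ 1 :=
      v_add_le_one (v_pow_le_one hE.h₃ 2) (v_mul_le_one (v_ofNat_le_one 4) hE.h₆)
    have hb₄ : A.valuation (Wbar).b₄ ≤ 1 :=
      v_add_le_one (v_mul_le_one (v_ofNat_le_one 2) hE.h₄) (v_mul_le_one hE.h₁ hE.h₃)
    have hs1 : A.valuation s ≤ 1 := by
      refine (pow_le_one_iff_of_nonneg zero_le two_ne_zero).1 ?_
      rw [← map_pow, hs, map_div₀, hb₂, div_one, A.valuation.map_neg]
      exact hb₆
    have hsmall : A.valuation ((Wbar).Ψ₂Sq.eval s) < 1 := by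
      have hs' : (Wbar).b₂ * s ^ 2 + (Wbar).b₆ = 0 := by rw [hs]; field_simp; ring
      have e : (Wbar).Ψ₂Sq.eval s = 2 * (2 * s ^ 3 + (Wbar).b₄ * s) := by
        simp [Ψ₂Sq]; linear_combination hs'
      rw [e]
      exact v_mul_lt_one_left h2
        (v_add_le_one (v_mul_le_one (v_ofNat_le_one 2) (v_pow_le_one hs1 3))
          (v_mul_le_one hb₄ hs1))
    obtain ⟨r, hr, hrs⟩ := exists_root_sub_lt_one hcoe hu hs1 hsmall
    obtain ⟨y, hy⟩ := EC.exists_nonsingular_of_isAlgClosed (Wbar).toAffine r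
    have hker := hss (Point.some r y hy) ((EC.nsmul_some_eq_zero_iff hy 2).2 (by
      rw [show ((2 : ℕ) : ℤ) = 2 from rfl, ΨSq_two]; exact hr))
    exact absurd hker (not_lt.2 (by simpa using v_add_le_one (v := A.valuation) hrs.le hs1))
  have hb₂ : A.valuation (Wbar).b₂ ≤ A.valuation (4 : ℚbar) := by
    obtain ⟨c, hc⟩ := ha₁
    have : (W.b₂ : ℤ) = 4 * (c ^ 2 + W.a₂) := by rw [b₂, hc]; ring
    rw [baseChange_eq_map, map_b₂, eq_intCast, this, Int.cast_mul, map_mul,
      show ((4 : ℤ) : ℚbar) = 4 by norm_num]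
    exact mul_le_of_le_one_right' (valuation_intCast_le_one _)
  have hb₆ : A.valuation (Wbar).b₆ = 1 := by
    rw [baseChange_eq_map, map_b₆]
    refine valuation_intCast_eq_one hp hA fun h => hgood ?_
    obtain ⟨c, hc⟩ := ha₁
    obtain ⟨e, he⟩ : (2 : ℤ) ∣ W.b₂ := ⟨2 * c ^ 2 + 2 * W.a₂, by rw [b₂, hc]; ring⟩
    obtain ⟨g, hg⟩ := h
    rw [Δ, he]
    push_cast at hg
    rw [hg]
    exact ⟨-(2 * e ^ 2) * W.b₈ - 4 * W.b₄ ^ 3 - 54 * g ^ 2 + 18 * e * W.b₄ * g, by ring⟩
  refine tameLevelTwoAt_of_roots W hp hA (d := 3) (e := 2) (by norm_num) (by norm_num)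
    (Wbar).Ψ₂Sq ?_ (natDegree_Ψ₂Sq_le _) (fun P hP h0 => ?_) (fun P hP h0 => ?_)
  · intro h
    have := congrArg (fun f : ℚbar[X] => f.coeff 0) h
    simp [Ψ₂Sq] at this
    rw [this, map_zero] at hb₆
    exact zero_ne_one hb₆
  · match P with
    | .zero => exact absurd rfl h0
    | .some x y h =>
      have := (EC.nsmul_some_eq_zero_iff h 2).1 hP
      rwa [show ((2 : ℕ) : ℤ) = 2 from rfl, ΨSq_two] at this
  · have hk := hss P hP
    match P with
    | .zero => exact absurd rfl h0
    | .some x y h =>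
      have hx1 : 1 < A.valuation x := hk
      have hxpos : 0 < A.valuation x := zero_lt_one.trans hx1
      have he := (EC.nsmul_some_eq_zero_iff h 2).1 hP
      rw [show ((2 : ℕ) : ℤ) = 2 from rfl, ΨSq_two] at he
      simp [Ψ₂Sq] at he
      have h4 : A.valuation (4 : ℚbar) = A.valuation (2 : ℚbar) ^ 2 := by
        rw [← map_pow]; norm_num
      show A.valuation x ^ 3 * A.valuation ((2 : ℕ) : ℚbar) ^ 2 = 1
      rw [Nat.cast_ofNat, ← h4, ← map_pow, mul_comm, ← map_mul]
      have hlin : A.valuation (2 * (Wbar).b₄ * x) ≤ A.valuation (2 : ℚbar) * A.valuation x := by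
        rw [map_mul, map_mul, mul_assoc]
        exact mul_le_mul_right (mul_le_of_le_one_left'
          (v_add_le_one (v_mul_le_one (v_ofNat_le_one 2) hE.h₄) (v_mul_le_one hE.h₁ hE.h₃))) _
      have hquad : A.valuation ((Wbar).b₂ * x ^ 2) < A.valuation (4 * x ^ 3) := by
        rw [map_mul, map_mul, map_pow, map_pow]
        refine lt_of_le_of_lt (mul_le_mul_left hb₂ _) ?_
        refine mul_lt_mul_of_pos_left (pow_lt_pow_right₀ hx1 (by norm_num)) ?_
        rw [h4]; exact pow_pos hv2 2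
      rcases lt_trichotomy (A.valuation (4 * x ^ 3)) 1 with hlt | heq | hgt
      · exfalso
        -- then the linear term is a unit
        have e : 2 * (Wbar).b₄ * x = -(4 * x ^ 3 + (Wbar).b₂ * x ^ 2 + (Wbar).b₆) := by
          linear_combination he
        have h1 : A.valuation (2 * (Wbar).b₄ * x) = 1 := by
          rw [e, A.valuation.map_neg, A.valuation.map_add_eq_of_lt_right, hb₆]
          rw [hb₆]
          exact A.valuation.map_add_lt hlt (hquad.trans hlt)
        rw [map_mul A.valuation 4, h4, map_pow] at hlt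
        have h2x : 1 ≤ A.valuation (2 : ℚbar) * A.valuation x := h1 ▸ hlin
        refine hlt.not_ge ?_
        calc (1 : _) ≤ (A.valuation (2 : ℚbar) * A.valuation x) ^ 2 * A.valuation x :=
              one_le_mul (one_le_pow₀ h2x) hx1.le
          _ = A.valuation (2 : ℚbar) ^ 2 * A.valuation x ^ 3 := by rw [mul_pow, pow_succ _ 2, mul_assoc]
      · exact heq
      · exfalso
        have e : 4 * x ^ 3 = -((Wbar).b₂ * x ^ 2 + 2 * (Wbar).b₄ * x + (Wbar).b₆) := by
          linear_combination he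
        have hle : A.valuation (4 * x ^ 3) ≤ A.valuation (2 : ℚbar) * A.valuation x := by
          by_contra hc
          push Not at hc
          have h1 : A.valuation (-((Wbar).b₂ * x ^ 2 + 2 * (Wbar).b₄ * x + (Wbar).b₆)) <
              A.valuation (4 * x ^ 3) := by
            rw [A.valuation.map_neg]
            exact A.valuation.map_add_lt (A.valuation.map_add_lt hquad (hlin.trans_lt hc))
              (hb₆ ▸ hgt)
          rw [← e] at h1
          exact h1.false
        have h2x : 1 < A.valuation (2 : ℚbar) * A.valuation x := hgt.trans_le hle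
        have hstrict : A.valuation (2 : ℚbar) * A.valuation x <
            A.valuation (4 * x ^ 3) := by
          rw [map_mul A.valuation 4, h4, map_pow]
          calc A.valuation (2 : ℚbar) * A.valuation x
              < A.valuation (2 : ℚbar) * A.valuation x *
                  (A.valuation (2 : ℚbar) * A.valuation x * A.valuation x) :=
                lt_mul_of_one_lt_right (zero_lt_one.trans h2x)
                  (h2x.trans_le (le_mul_of_one_le_right' hx1.le))
            _ = A.valuation (2 : ℚbar) ^ 2 * A.valuation x ^ 3 := by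
                simp only [pow_succ, pow_zero, one_mul, mul_assoc]
                rw [mul_left_comm (A.valuation x)]
        exact (hle.trans_lt hstrict).false

end FermatLib.AtP

end
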