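import Fermat.Agent.EC.AtP
import Fermat.Agent.Galois.Flat.Ramification

/-!
A tame inertia element at a place of `ℚ̄` over `p`.
-/

set_option autoImplicit false

noncomputable section

namespace FermatLib.AtP

local notation "ℚbar" => AlgebraicClosure ℚ
local notation "Γℚ" => (AlgebraicClosure ℚ ≃ₐ[ℚ] AlgebraicClosure ℚ)

universe u w

/-- Roots of unity of order prime to the residue characteristic inject into the residue field. -/
lemma eq_one_of_pow_eq_one {L : Type u} [Field L] {Γ : Type w}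
    [LinearOrderedCommGroupWithZero Γ] {v : Valuation L Γ} {u : L} {d : ℕ} (hd : v (d : L) = 1)
    (hu : u ^ d = 1) (h : v (u - 1) < 1) : u = 1 := by
  have hu1 : v u = 1 := by
    rw [show u = 1 + (u - 1) by ring, v.map_add_eq_of_lt_left, map_one]
    rwa [map_one]
  by_contra hne
  have hgeom : ∑ i ∈ Finset.range d, u ^ i = 0 := by
    have := geom_sum_mul u d
    rw [hu, sub_self, mul_eq_zero] at this
    exact this.resolve_right (sub_ne_zero.2 hne)
  have hsmall : v (∑ i ∈ Finset.range d, (u ^ i - 1)) < 1 :=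
    v.map_sum_lt one_ne_zero fun i _ => by
      rw [← geom_sum_mul u i]
      exact v_mul_lt_one_right (v.map_sum_le fun j _ => v_pow_le_one hu1.le j) h
  rw [Finset.sum_sub_distrib, hgeom, zero_sub, Finset.sum_const, Finset.card_range, nsmul_one,
    v.map_neg, hd] at hsmall
  exact hsmall.false

variable {A : ValuationSubring ℚbar} {p : ℕ}

lemma valuation_natCast_eq_one (hp : p.Prime) (hA : A.LiesOverPrime p) {d : ℕ} (hd : ¬ p ∣ d) :
    A.valuation (d : ℚbar) = 1 := by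
  have := valuation_intCast_eq_one hp hA (n := (d : ℤ)) fun h => hd (Int.natCast_dvd_natCast.1 h)
  simpa using this

/-- Inertia at a place over `p` realises a generator of the tame character of level `d`:
if `π ^ d = p ^ e` with `e` prime to `d` and `p ∤ d`, some inertia element multiplies `π` by a
`d`-th root of unity of exact order `d`, and every inertia element by one of its powers. -/
theorem exists_tame_generator (hp : p.Prime) (hA : A.LiesOverPrime p) {d e : ℕ} (hd : ¬ p ∣ d)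
    (hde : Nat.Coprime d e) {π : ℚbar} (hπ : π ^ d = (p : ℚbar) ^ e) :
    ∃ τ ∈ A.inertiaSubgroupIn ℚ, ∃ u : ℚbar, IsPrimitiveRoot u d ∧ τ π = u * π ∧ τ u = u ∧
      ∀ σ ∈ A.inertiaSubgroupIn ℚ, ∃ k : ℕ, σ π = u ^ k * π := by
  have hd0 : d ≠ 0 := fun h => hd (h ▸ dvd_zero p)
  have : NeZero d := ⟨hd0⟩
  have hp0 : (p : ℚbar) ≠ 0 := Nat.cast_ne_zero.2 hp.ne_zero
  have hπ0 : π ≠ 0 := fun h => by
    rw [h, zero_pow hd0] at hπ
    exact pow_ne_zero e hp0 hπ.symm
  let I := A.inertiaSubgroupIn ℚ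
  have hroot : ∀ σ : Γℚ, (σ π / π) ^ d = 1 := fun σ => by
    rw [div_pow, ← map_pow, hπ, map_pow, map_natCast, div_self (pow_ne_zero e hp0)]
  have hfix : ∀ σ ∈ I, ∀ z : ℚbar, z ^ d = 1 → σ z = z := by
    intro σ hσ z hz
    have hin := isInertial_of_mem hσ
    have hz0 : z ≠ 0 := fun h => by rw [h, zero_pow hd0] at hz; exact zero_ne_one hz
    have hvz : A.valuation z = 1 := by
      refine (pow_eq_one_iff_of_nonneg zero_le hd0).1 ?_
      rw [← map_pow, hz, map_one]
    refine (div_eq_one_iff_eq hz0).1 (eq_one_of_pow_eq_one (valuation_natCast_eq_one hp hA hd) ?_ ?_)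
    · rw [div_pow, ← map_pow, hz, map_one, div_one]
    · rw [show σ z / z - 1 = (σ z - z) / z by rw [sub_div, div_self hz0], map_div₀, hvz, div_one]
      exact hin.congr z hvz.le
  let θ : I →* rootsOfUnity d ℚbar :=
    { toFun := fun σ => rootsOfUnity.mkOfPowEq (σ.1 π / π) (hroot σ.1)
      map_one' := by
        refine Subtype.ext (Units.ext ?_)
        simp [rootsOfUnity.val_mkOfPowEq_coe, div_self hπ0]
      map_mul' := fun σ τ => by
        refine Subtype.ext (Units.ext ?_)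
        simp only [rootsOfUnity.val_mkOfPowEq_coe, Subgroup.coe_mul, Units.val_mul]
        have h1 : σ.1 (τ.1 π / π) = τ.1 π / π := hfix σ.1 σ.2 _ (hroot τ.1)
        rw [map_div₀] at h1
        rw [AlgEquiv.mul_apply]
        field_simp at h1 ⊢
        have h2 : σ.1 π ≠ 0 := (map_ne_zero σ.1).2 hπ0
        field_simp at h1
        linear_combination h1 }
  obtain ⟨g, hg⟩ := IsCyclic.exists_generator (α := θ.range)
  obtain ⟨τ, hτ⟩ := g.2
  obtain ⟨u, hu_def⟩ : ∃ u, u = τ.1 π / π := ⟨_, rfl⟩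
  have hτπ : τ.1 π = u * π := by rw [hu_def, div_mul_cancel₀ _ hπ0]
  have hud : u ^ d = 1 := hu_def ▸ hroot τ.1
  have hall : ∀ σ ∈ I, ∃ k : ℕ, σ π = u ^ k * π := by
    intro σ hσ
    obtain ⟨j, hj⟩ := Subgroup.mem_zpowers_iff.1 (hg ⟨θ ⟨σ, hσ⟩, ⟨⟨σ, hσ⟩, rfl⟩⟩)
    have hj' : (θ τ) ^ j = θ ⟨σ, hσ⟩ := by
      rw [hτ]; exact congrArg Subtype.val hj
    refine ⟨(j % (d : ℤ)).toNat, ?_⟩
    have hju : u ^ j = σ π / π := by
      have := congrArg (fun z : rootsOfUnity d ℚbar => ((z : ℚbarˣ) : ℚbar)) hj'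
      simpa [θ, rootsOfUnity.val_mkOfPowEq_coe, hu_def] using this
    have hu0 : u ≠ 0 := fun h => by rw [h, zero_pow hd0] at hud; exact zero_ne_one hud
    have : u ^ (j % (d : ℤ)).toNat = u ^ j := by
      rw [← zpow_natCast, Int.toNat_of_nonneg (Int.emod_nonneg _ (by exact_mod_cast hd0))]
      conv_rhs => rw [← Int.emod_add_mul_ediv j (d : ℤ)]
      rw [zpow_add₀ hu0, zpow_mul, zpow_natCast u d, hud, one_zpow, mul_one]
    rw [this, hju, div_mul_cancel₀ _ hπ0]
  refine ⟨τ.1, τ.2, u, ?_, hτπ, hfix τ.1 τ.2 u hud, hall⟩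
  refine IsPrimitiveRoot.iff_orderOf.2
    (Nat.dvd_antisymm (orderOf_dvd_of_pow_eq_one hud) ?_)
  obtain ⟨k, hk⟩ : ∃ k, k = orderOf u := ⟨_, rfl⟩
  rw [← hk]
  have hfixk : ∀ σ ∈ I, σ (π ^ k) = π ^ k := fun σ hσ => by
    obtain ⟨j, hj⟩ := hall σ hσ
    rw [map_pow, hj, mul_pow, ← pow_mul, mul_comm j k, pow_mul, hk, pow_orderOf_eq_one, one_pow,
      one_mul]
  obtain ⟨m, hm⟩ :=
    Galois.Flat.exists_valuation_eq_zpow hp hA (pow_ne_zero k hπ0) hfixk
  have hvp : A.valuation (p : ℚbar) < 1 := (A.mem_nonunits_iff).1 hA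
  have hvp0 : 0 < A.valuation (p : ℚbar) := zero_lt_iff.2 (A.valuation.ne_zero_iff.2 hp0)
  have hexp : A.valuation (p : ℚbar) ^ ((e * k : ℕ) : ℤ) =
      A.valuation (p : ℚbar) ^ (m * (d : ℤ)) := by
    rw [zpow_natCast, zpow_mul, ← hm, zpow_natCast, pow_mul, ← map_pow, ← map_pow, ← map_pow, ← hπ]
    congr 1
    ring
  have hek : ((e * k : ℕ) : ℤ) = m * (d : ℤ) :=
    zpow_right_injective₀ hvp0 hvp.ne hexp
  have : (d : ℤ) ∣ ((e * k : ℕ) : ℤ) := ⟨m, by rw [hek, mul_comm]⟩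
  exact hde.dvd_of_dvd_mul_left (Int.natCast_dvd_natCast.1 this)

end FermatLib.AtP

end
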