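import Fermat.Agent.EC.ValTwoXOnly
import Fermat.Prelude.Def_FLTPrelim_FreyPackage
import Mathlib.Algebra.Module.ZMod
import Mathlib.GroupTheory.OrderOfElement

/-!
# The Frey curve has no rational point of order `p`

A curve `y² + xy = x³ + a₂x² + a₄x` over `ℚ` with `a₂` integral at `2` and `v₂(a₄) = m ≥ 1` has no
rational point of prime order `p ≥ 5` prime to `2m`: the `2`-adic valuations of the
`x`-coordinates of the multiples follow the component pattern of a multiplicative reduction.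
-/

set_option autoImplicit false

namespace FermatLib.EC.TwoTorsion

open WeierstrassCurve WeierstrassCurve.Affine

local notation "v" => padicValRat 2

variable {W : WeierstrassCurve ℚ} {p m : ℕ}

/-- Hypotheses of the two-adic argument. -/
structure TwoAdicData (W : WeierstrassCurve ℚ) (p m : ℕ) : Prop where
  shape : HasShape W
  a₂_int : ∃ z : ℤ, W.a₂ = z
  a₄_ne : W.a₄ ≠ 0
  val_a₄ : v W.a₄ = m
  one_le : 1 ≤ m
  prime : p.Prime
  five_le : 5 ≤ p
  not_dvd : ¬ p ∣ 2 * m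

theorem nsmul_ne_zero_of_prime {T : W.toAffine.Point} (hp : p.Prime) (hT : T ≠ 0)
    (hpT : p • T = 0) {i : ℕ} (hi : ¬ p ∣ i) : i • T ≠ 0 := by
  intro h
  have h1 : addOrderOf T = p := addOrderOf_eq_prime hpT hT (hp := ⟨hp⟩)
  exact hi (h1 ▸ addOrderOf_dvd_of_nsmul_eq_zero h)

theorem v_b₂ (h : TwoAdicData W p m) : 1 + 4 * W.a₂ ≠ 0 ∧ v (1 + 4 * W.a₂) = 0 := by
  obtain ⟨z, hz⟩ := h.a₂_int
  have hne : (1 + 4 * z : ℤ) ≠ 0 := by omega
  have e : 1 + 4 * W.a₂ = ((1 + 4 * z : ℤ) : ℚ) := by push_cast [hz]; ring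
  refine ⟨by rw [e]; exact_mod_cast hne, ?_⟩
  rw [e, padicValRat.of_int, padicValInt.eq_zero_of_not_dvd (by push_cast; omega)]
  rfl

theorem v_natCast_two : v (2 : ℚ) = 1 := padicValRat.self (by norm_num)

theorem v_four : v (4 : ℚ) = 2 := by
  have : Fact (Nat.Prime 2) := ⟨Nat.prime_two⟩
  rw [show (4 : ℚ) = 2 * 2 by norm_num, padicValRat.mul (by norm_num) (by norm_num),
    v_natCast_two]
  norm_num

section step

variable (h : TwoAdicData W p m) {Q : W.toAffine.Point} (hQ : Q ≠ 0) (hpQ : p • Q = 0)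
include h hQ hpQ

theorem two_three_ne_zero : Q + Q ≠ 0 ∧ Q + Q + Q ≠ 0 := by
  have hp5 := h.five_le
  have h2 := nsmul_ne_zero_of_prime h.prime hQ hpQ (i := 2)
    (fun hd => by have := Nat.le_of_dvd (by omega) hd; omega)
  have h3 := nsmul_ne_zero_of_prime h.prime hQ hpQ (i := 3)
    (fun hd => by have := Nat.le_of_dvd (by omega) hd; omega)
  rw [two_nsmul] at h2
  rw [show (3 : ℕ) = 2 + 1 from rfl, add_nsmul, two_nsmul, one_nsmul] at h3
  exact ⟨h2, h3⟩

/-- Valuation of the doubled `x`-coordinate. -/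
theorem v_double :
    xOf Q ≠ 0 ∧ xOf (Q + Q) ≠ 0 ∧ xOf Q ^ 2 - W.a₄ ≠ 0 ∧
    ∃ B : ℚ, B ≠ 0 ∧ B = 4 * xOf Q ^ 2 + (1 + 4 * W.a₂) * xOf Q + 4 * W.a₄ ∧
      v (xOf (Q + Q)) + v (xOf Q) + v B = 2 * v (xOf Q ^ 2 - W.a₄) := by
  have : Fact (Nat.Prime 2) := ⟨Nat.prime_two⟩
  obtain ⟨h2, -⟩ := two_three_ne_zero h hQ hpQ
  have hpQ2 : p • (Q + Q) = 0 := by rw [nsmul_add, hpQ, add_zero]
  have hx : xOf Q ≠ 0 := xOf_ne_zero h.shape hQ h2
  have hx2 : xOf (Q + Q) ≠ 0 :=
    xOf_ne_zero h.shape h2 (two_three_ne_zero h h2 hpQ2).1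
  have e := xOf_add_self_mul h.shape h2
  have hB : 4 * xOf Q ^ 2 + (1 + 4 * W.a₂) * xOf Q + 4 * W.a₄ ≠ 0 := by
    intro hz
    obtain ⟨x, y, hh, rfl⟩ := exists_eq_some_of_ne_zero hQ
    apply h2
    refine Point.add_self_of_Y_eq ?_
    have eq := equation_of_shape h.shape hh.1
    rw [xOf_some] at hz hx
    have : (2 * y + x) ^ 2 = 0 := by linear_combination 4 * eq + x * hz
    have hz2 := eq_zero_of_pow_eq_zero this
    obtain ⟨ha1, ha3, -⟩ := h.shape
    simp only [Affine.negY, ha1, ha3]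
    linear_combination hz2
  have hN : xOf Q ^ 2 - W.a₄ ≠ 0 := by
    intro hz
    rw [hz] at e
    simp [hx, hx2, hB] at e
  refine ⟨hx, hx2, hN, _, hB, rfl, ?_⟩
  have hv := congrArg v e
  rw [padicValRat.mul hx2 (mul_ne_zero hx hB), padicValRat.mul hx hB,
    padicValRat.pow] at hv
  push_cast at hv
  omega

/-- Lower bound for the bracket in the doubling formula. -/
theorem v_bracket_ge {c : ℤ} (hc1 : c ≤ 2 + 2 * v (xOf Q)) (hc2 : c ≤ v (xOf Q))
    (hc3 : c ≤ 2 + m) (hne : 4 * xOf Q ^ 2 + (1 + 4 * W.a₂) * xOf Q + 4 * W.a₄ ≠ 0) :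
    c ≤ v (4 * xOf Q ^ 2 + (1 + 4 * W.a₂) * xOf Q + 4 * W.a₄) := by
  have : Fact (Nat.Prime 2) := ⟨Nat.prime_two⟩
  obtain ⟨hb, hvb⟩ := v_b₂ h
  have hx := (v_double h hQ hpQ).1
  have e1 : v (4 * xOf Q ^ 2) = 2 + 2 * v (xOf Q) := by
    rw [padicValRat.mul (by norm_num) (pow_ne_zero _ hx), v_four, padicValRat.pow]; rfl
  have e2 : v ((1 + 4 * W.a₂) * xOf Q) = v (xOf Q) := by
    rw [padicValRat.mul hb hx, hvb, zero_add]
  have e3 : v (4 * W.a₄) = 2 + m := by
    rw [padicValRat.mul (by norm_num) h.a₄_ne, v_four, h.val_a₄]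
  by_cases hs : 4 * xOf Q ^ 2 + (1 + 4 * W.a₂) * xOf Q = 0
  · rw [hs, zero_add] at hne ⊢
    omega
  · refine le_trans (le_min ?_ (e3 ▸ hc3)) (padicValRat.min_le_padicValRat_add hne)
    exact le_trans (le_min (e1 ▸ hc1) (e2 ▸ hc2)) (padicValRat.min_le_padicValRat_add hs)

theorem v_bracket_eq (h0 : 0 ≤ v (xOf Q)) (hm : v (xOf Q) < 2 + m) :
    ∀ B : ℚ, B = 4 * xOf Q ^ 2 + (1 + 4 * W.a₂) * xOf Q + 4 * W.a₄ → v B = v (xOf Q) := by
  rintro _ rfl
  have : Fact (Nat.Prime 2) := ⟨Nat.prime_two⟩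
  obtain ⟨hb, hvb⟩ := v_b₂ h
  have hx := (v_double h hQ hpQ).1
  have e1 : v (-(4 * xOf Q ^ 2)) = 2 + 2 * v (xOf Q) := by
    rw [padicValRat.neg, padicValRat.mul (by norm_num) (pow_ne_zero _ hx), v_four,
      padicValRat.pow]; rfl
  have e2 : v ((1 + 4 * W.a₂) * xOf Q) = v (xOf Q) := by
    rw [padicValRat.mul hb hx, hvb, zero_add]
  have e3 : v (-(4 * W.a₄)) = 2 + m := by
    rw [padicValRat.neg, padicValRat.mul (by norm_num) h.a₄_ne, v_four, h.val_a₄]
  obtain ⟨hne, hv⟩ := v_sub_eq (p := 2) (mul_ne_zero hb hx)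
    (neg_ne_zero.mpr (mul_ne_zero (by norm_num : (4 : ℚ) ≠ 0) (pow_ne_zero 2 hx)))
    (by rw [e1, e2]; omega)
  obtain ⟨-, hv2⟩ := v_sub_eq (p := 2) hne
    (neg_ne_zero.mpr (mul_ne_zero (by norm_num : (4 : ℚ) ≠ 0) h.a₄_ne)) (by rw [e3, hv, e2]; omega)
  rw [hv, e2] at hv2
  rw [← hv2]
  congr 1
  ring

theorem v_two_mul_lt (hneg : v (xOf Q) < 0) : v (xOf (Q + Q)) < v (xOf Q) := by
  have : Fact (Nat.Prime 2) := ⟨Nat.prime_two⟩
  obtain ⟨hx, hx2, hN, B, hB, hBe, e⟩ := v_double h hQ hpQ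
  subst hBe
  have hnum : v (xOf Q ^ 2 - W.a₄) = 2 * v (xOf Q) := by
    obtain ⟨-, hh⟩ := v_sub_eq (p := 2) (pow_ne_zero 2 hx) h.a₄_ne
      (by rw [padicValRat.pow, h.val_a₄]; push_cast; omega)
    rw [hh, padicValRat.pow]; rfl
  have hbr : min (2 + 2 * v (xOf Q)) (v (xOf Q)) ≤
      v (4 * xOf Q ^ 2 + (1 + 4 * W.a₂) * xOf Q + 4 * W.a₄) :=
    v_bracket_ge h hQ hpQ (min_le_left _ _) (min_le_right _ _) (by
      have := min_le_right (2 + 2 * v (xOf Q)) (v (xOf Q)); omega) hB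
  omega

theorem v_two_mul_le_zero (hm : (m : ℤ) ≤ v (xOf Q)) : v (xOf (Q + Q)) ≤ 0 := by
  have : Fact (Nat.Prime 2) := ⟨Nat.prime_two⟩
  have h1m := h.one_le
  obtain ⟨hx, hx2, hN, B, hB, hBe, e⟩ := v_double h hQ hpQ
  subst hBe
  have hnum : v (xOf Q ^ 2 - W.a₄) = m := by
    obtain ⟨-, hh⟩ := v_sub_eq' (p := 2) (pow_ne_zero 2 hx) h.a₄_ne
      (by rw [padicValRat.pow, h.val_a₄]; push_cast; omega)
    rw [hh, h.val_a₄]
  have hbr : (m : ℤ) ≤ v (4 * xOf Q ^ 2 + (1 + 4 * W.a₂) * xOf Q + 4 * W.a₄) :=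
    v_bracket_ge h hQ hpQ (by omega) hm (by omega) hB
  omega

theorem v_three_mul_neg (hz : v (xOf Q) = 0) : v (xOf (Q + Q + Q)) < 0 := by
  have : Fact (Nat.Prime 2) := ⟨Nat.prime_two⟩
  have h1m := h.one_le
  obtain ⟨hx, hx2, hN, B, hB, hBe, e⟩ := v_double h hQ hpQ
  have hBv := v_bracket_eq h hQ hpQ (by omega) (by omega) B hBe
  obtain ⟨-, hnum⟩ := v_sub_eq (p := 2) (pow_ne_zero 2 hx) h.a₄_ne
    (by rw [padicValRat.pow, h.val_a₄]; push_cast; omega)
  rw [padicValRat.pow] at hnum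
  push_cast at hnum
  have hv2 : v (xOf (Q + Q)) = 0 := by omega
  obtain ⟨h2, h3⟩ := two_three_ne_zero h hQ hpQ
  have hne : xOf (Q + Q) ≠ xOf Q := by
    intro he
    rcases eq_or_eq_neg_of_xOf_eq h2 hQ he with e1 | e1
    · exact hQ (by simpa using e1)
    · exact h3 (by rw [e1]; simp)
  have hadd := xOf_add_mul_xOf_sub h.shape h2 hQ hne
  rw [add_sub_cancel_right] at hadd
  have hd : xOf (Q + Q) - xOf Q ≠ 0 := sub_ne_zero.mpr hne
  have hx3 : xOf (Q + Q + Q) ≠ 0 :=
    xOf_ne_zero h.shape h3 (two_three_ne_zero h h3 (by rw [nsmul_add, nsmul_add, hpQ]; simp)).1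
  obtain ⟨hn, hnv⟩ := v_sub_eq (p := 2) (mul_ne_zero hx2 hx) h.a₄_ne
    (by rw [padicValRat.mul hx2 hx, h.val_a₄]; omega)
  rw [padicValRat.mul hx2 hx] at hnv
  have hv := congrArg v hadd
  rw [padicValRat.mul (mul_ne_zero hx3 hx) (pow_ne_zero 2 hd), padicValRat.mul hx3 hx,
    padicValRat.pow, padicValRat.pow] at hv
  push_cast at hv
  have := one_le_v_sub_of_units hx2 hx hd hv2 hz
  omega

end step

/-- The three-term relation between valuations of multiples. -/
theorem v_succ_add_pred (h : TwoAdicData W p m) {T : W.toAffine.Point} (hT : T ≠ 0)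
    (hpT : p • T = 0) {i : ℕ} (hi : 1 ≤ i) (hiT : i • T ≠ 0)
    (hne : xOf (i • T) ≠ xOf T) :
    v (xOf ((i + 1) • T)) + v (xOf ((i - 1) • T)) + 2 * v (xOf (i • T) - xOf T) =
      2 * v (xOf (i • T) * xOf T - W.a₄) ∧ xOf (i • T) * xOf T - W.a₄ ≠ 0 := by
  have : Fact (Nat.Prime 2) := ⟨Nat.prime_two⟩
  have hs : (i + 1) • T = i • T + T := succ_nsmul T i
  have hpred : (i - 1) • T = i • T - T := by
    obtain ⟨j, rfl⟩ := Nat.exists_eq_add_of_le hi
    rw [Nat.add_sub_cancel_left, add_comm 1 j, succ_nsmul, add_sub_cancel_right]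
  have nz : ∀ R : W.toAffine.Point, R ≠ 0 → p • R = 0 → xOf R ≠ 0 := fun R hR hpR =>
    (v_double h hR hpR).1
  have hp1 : i • T + T ≠ 0 := fun e => hne (by rw [eq_neg_of_add_eq_zero_left e, xOf_neg])
  have hm1 : i • T - T ≠ 0 := fun e => hne (by rw [sub_eq_zero.mp e])
  have hpi : p • (i • T) = 0 := by rw [← mul_nsmul', mul_comm, mul_nsmul', hpT, nsmul_zero]
  have hx1 := nz _ hp1 (by rw [nsmul_add, hpi, hpT, add_zero])
  have hx2 := nz _ hm1 (by rw [nsmul_sub, hpi, hpT, sub_zero])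
  have hadd := xOf_add_mul_xOf_sub h.shape hiT hT hne
  have hd : xOf (i • T) - xOf T ≠ 0 := sub_ne_zero.mpr hne
  rw [← hs, ← hpred] at hadd
  rw [← hs] at hx1
  rw [← hpred] at hx2
  have hN : xOf (i • T) * xOf T - W.a₄ ≠ 0 := by
    intro e
    rw [e] at hadd
    simp [hx1, hx2, hd] at hadd
  refine ⟨?_, hN⟩
  have hv := congrArg v hadd
  rw [padicValRat.mul (mul_ne_zero hx1 hx2) (pow_ne_zero 2 hd), padicValRat.mul hx1 hx2,
    padicValRat.pow, padicValRat.pow] at hv
  push_cast at hv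
  omega

theorem exists_min_point (hp : p.Prime) {T : W.toAffine.Point} (hT : T ≠ 0) (hpT : p • T = 0) :
    ∃ Q : W.toAffine.Point, Q ≠ 0 ∧ p • Q = 0 ∧
      ∀ i : ℕ, i • Q ≠ 0 → v (xOf Q) ≤ v (xOf (i • Q)) := by
  classical
  have hp0 := hp.pos
  let S : Finset ℕ := (Finset.range p).filter fun i => i • T ≠ 0
  have h1 : (1 % p) ∈ S := by
    simp only [S, Finset.mem_filter, Finset.mem_range]
    refine ⟨Nat.mod_lt _ hp0, ?_⟩
    rw [← nsmul_eq_mod_nsmul 1 hpT, one_nsmul]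
    exact hT
  obtain ⟨j, hj, hmin⟩ := S.exists_min_image (fun i => v (xOf (i • T))) ⟨_, h1⟩
  simp only [S, Finset.mem_filter, Finset.mem_range] at hj hmin
  refine ⟨j • T, hj.2, by rw [← mul_nsmul', mul_comm, mul_nsmul', hpT, nsmul_zero], fun i hi => ?_⟩
  have e : i • (j • T) = ((i * j) % p) • T := by
    rw [← nsmul_eq_mod_nsmul (i * j) hpT, mul_nsmul']
  rw [e] at hi ⊢
  exact hmin _ ⟨Nat.mod_lt _ hp0, hi⟩

/-- No rational point of order `p`. -/
theorem eq_zero_of_nsmul_eq_zero (h : TwoAdicData W p m) (T : W.toAffine.Point)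
    (hpT : p • T = 0) : T = 0 := by
  by_contra hT0
  have : Fact (Nat.Prime 2) := ⟨Nat.prime_two⟩
  obtain ⟨T, hT, hpT, hmin⟩ := exists_min_point h.prime hT0 hpT
  have hpi : ∀ i : ℕ, p • (i • T) = 0 := fun i => by
    rw [← mul_nsmul', mul_comm, mul_nsmul', hpT, nsmul_zero]
  have hminT : ∀ i : ℕ, i • T ≠ 0 → v (xOf T) ≤ v (xOf (i • T)) := hmin
  obtain ⟨h2T, h3T⟩ := two_three_ne_zero h hT hpT
  -- valuations are nonnegative
  have hge : ∀ i : ℕ, i • T ≠ 0 → 0 ≤ v (xOf (i • T)) := by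
    intro i hi
    refine le_trans ?_ (hminT i hi)
    by_contra hlt
    have h2 := v_two_mul_lt h hT hpT (by omega)
    have h2' := hminT 2 (by rwa [two_nsmul])
    rw [two_nsmul] at h2'
    omega
  -- valuations are positive
  have hk0 : 1 ≤ v (xOf T) := by
    have h0 := hge 1 (by rwa [one_nsmul])
    rw [one_nsmul] at h0
    by_contra hlt
    have h3 := v_three_mul_neg h hT hpT (by omega)
    have h3' := hge 3 (by rwa [show (3 : ℕ) = 2 + 1 from rfl, add_nsmul, two_nsmul, one_nsmul])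
    rw [show (3 : ℕ) = 2 + 1 from rfl, add_nsmul, two_nsmul, one_nsmul] at h3'
    omega
  -- valuations are below `m`
  have hlt : ∀ i : ℕ, i • T ≠ 0 → v (xOf (i • T)) < m := by
    intro i hi
    by_contra hle
    have h2 := v_two_mul_le_zero h hi (hpi i) (by omega)
    have hne : (i + i) • T ≠ 0 := by
      rw [add_nsmul]; exact (two_three_ne_zero h hi (hpi i)).1
    have := hminT _ hne
    rw [add_nsmul] at this
    omega
  obtain ⟨k, hk⟩ := Int.eq_ofNat_of_zero_le (show 0 ≤ v (xOf T) by omega)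
  have hkm : k < m := by
    have := hlt 1 (by rwa [one_nsmul])
    rw [one_nsmul, hk] at this
    omega
  have hk1 : 1 ≤ k := by omega
  have hval0 : ∀ i : ℕ, i • T = 0 → v (xOf (i • T)) = 0 := fun i hi => by simp [hi]
  have hxk : xOf T ≠ 0 := (v_double h hT hpT).1
  have hnz : ∀ i : ℕ, v (xOf (i • T)) ≠ 0 → i • T ≠ 0 := fun i hi e => hi (hval0 i e)
  have hne_of : ∀ i : ℕ, v (xOf (i • T)) ≠ k → xOf (i • T) ≠ xOf T := fun i hi e =>
    hi (by rw [e, hk])
  have hdouble : v (xOf (2 • T)) + k + k = 2 * v (xOf T ^ 2 - W.a₄) := by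
    obtain ⟨-, -, -, B, -, hBe, e⟩ := v_double h hT hpT
    have hBv := v_bracket_eq h hT hpT (by omega) (by omega) B hBe
    rw [two_nsmul]
    omega
  -- ascending range
  have hup : ∀ i : ℕ, 1 ≤ i → i * k < m → v (xOf (i • T)) = (i * k : ℕ) := by
    intro i
    induction i using Nat.strong_induction_on with
    | _ i ih =>
      intro hi him
      match i, hi with
      | 1, _ => rw [one_nsmul, hk, one_mul]
      | 2, _ =>
        obtain ⟨-, hh⟩ := v_sub_eq (p := 2) (pow_ne_zero 2 hxk) h.a₄_ne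
          (by rw [padicValRat.pow, h.val_a₄, hk]; push_cast; omega)
        rw [padicValRat.pow, hk] at hh
        rw [hh] at hdouble
        push_cast at hdouble ⊢
        omega
      | j + 3, _ =>
        have hj2 : (j + 2) * k < m :=
          lt_of_le_of_lt (Nat.mul_le_mul_right k (by omega)) him
        have hj1 : (j + 1) * k < m :=
          lt_of_le_of_lt (Nat.mul_le_mul_right k (by omega)) him
        have e1 := ih (j + 2) (by omega) (by omega) hj2
        have e0 := ih (j + 1) (by omega) (by omega) hj1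
        have e3 : (j + 3) * k = (j + 1) * k + 2 * k := by ring
        have e2 : (j + 2) * k = (j + 1) * k + k := by ring
        have hgt : k < (j + 2) * k := by nlinarith
        have hi0 : (j + 2) • T ≠ 0 := hnz _ (by omega)
        have hne := hne_of (j + 2) (by omega)
        obtain ⟨es, -⟩ := v_succ_add_pred h hT hpT (by omega) hi0 hne
        have hxi : xOf ((j + 2) • T) ≠ 0 := (v_double h hi0 (hpi _)).1
        obtain ⟨-, hd⟩ := v_sub_eq' (p := 2) hxi hxk (by omega)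
        obtain ⟨-, hN⟩ := v_sub_eq (p := 2) (mul_ne_zero hxi hxk) h.a₄_ne
          (by rw [padicValRat.mul hxi hxk, h.val_a₄]; omega)
        rw [padicValRat.mul hxi hxk] at hN
        rw [hd, hN, show j + 2 + 1 = j + 3 from rfl, show j + 2 - 1 = j + 1 from rfl] at es
        omega
  -- the turning point
  let r := (m - 1) / k
  have hr1 : 1 ≤ r := (Nat.one_le_div_iff (by omega)).mpr (by omega)
  have hr : r * k < m := by
    have := Nat.div_mul_le_self (m - 1) k
    change (m - 1) / k * k < m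
    omega
  have hr' : m ≤ (r + 1) * k := by
    have := Nat.lt_mul_div_succ (m - 1) (show 0 < k by omega)
    change m ≤ ((m - 1) / k + 1) * k
    rw [mul_comm]
    omega
  have hr0 : (r + 1) • T ≠ 0 := by
    intro e
    rcases Nat.lt_or_ge r 2 with h2 | h2
    · exact h2T (by rw [show r + 1 = 2 by omega, two_nsmul] at e; exact e)
    · have er := hup r hr1 hr
      rw [succ_nsmul] at e
      rw [eq_neg_of_add_eq_zero_left e, xOf_neg, hk] at er
      have : 2 * k ≤ r * k := Nat.mul_le_mul_right k h2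
      omega
  have hturn : ((r + 1) * k = m → (m : ℤ) ≤ v (xOf ((r + 1) • T))) ∧
      (m < (r + 1) * k → v (xOf ((r + 1) • T)) = 2 * m - ((r + 1) * k : ℕ)) := by
    have hrk : (r + 1) * k = r * k + k := by ring
    rcases Nat.lt_or_ge r 2 with h2 | h2
    · have hr2 : r = 1 := by omega
      rw [hr2]
      rw [hr2, one_mul] at hrk
      have hN : xOf T ^ 2 - W.a₄ ≠ 0 := (v_double h hT hpT).2.2.1
      constructor
      · intro heq
        have := le_v_sub (p := 2) (c := (m : ℤ)) hN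
          (by rw [padicValRat.pow, hk]; push_cast; omega) (by rw [h.val_a₄])
        change (m : ℤ) ≤ v (xOf (2 • T))
        omega
      · intro hgt
        obtain ⟨-, hh⟩ := v_sub_eq' (p := 2) (pow_ne_zero 2 hxk) h.a₄_ne
          (by rw [padicValRat.pow, h.val_a₄, hk]; push_cast; omega)
        rw [h.val_a₄] at hh
        change v (xOf (2 • T)) = 2 * m - (((1 + 1) * k : ℕ) : ℤ)
        omega
    · have er := hup r hr1 hr
      have ep := hup (r - 1) (by omega)
        (lt_of_le_of_lt (Nat.mul_le_mul_right k (by omega)) hr)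
      have hrm : r * k = (r - 1) * k + k := by
        conv_lhs => rw [show r = r - 1 + 1 by omega, add_mul, one_mul]
      have hgt2 : k < r * k := by nlinarith
      have hi0 : r • T ≠ 0 := hnz _ (by omega)
      have hne := hne_of r (by omega)
      obtain ⟨es, hN0⟩ := v_succ_add_pred h hT hpT hr1 hi0 hne
      have hxi : xOf (r • T) ≠ 0 := (v_double h hi0 (hpi _)).1
      obtain ⟨-, hd⟩ := v_sub_eq' (p := 2) hxi hxk (by omega)
      constructor
      · intro heq
        have := le_v_sub (p := 2) (c := (m : ℤ)) hN0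
          (by rw [padicValRat.mul hxi hxk]; omega) (by rw [h.val_a₄])
        omega
      · intro hgt
        obtain ⟨-, hN⟩ := v_sub_eq' (p := 2) (mul_ne_zero hxi hxk) h.a₄_ne
          (by rw [padicValRat.mul hxi hxk, h.val_a₄]; omega)
        rw [h.val_a₄] at hN
        omega
  have hgt : m < (r + 1) * k := by
    rcases lt_or_eq_of_le hr' with h' | h'
    · exact h'
    · have := hturn.1 h'.symm
      have := hlt (r + 1) hr0
      omega
  -- descending range
  have hdown : ∀ i : ℕ, r + 1 ≤ i → i * k < 2 * m →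
      v (xOf (i • T)) = 2 * m - (i * k : ℕ) := by
    intro i
    induction i using Nat.strong_induction_on with
    | _ i ih =>
      intro hi him
      rcases eq_or_lt_of_le hi with rfl | hi'
      · exact hturn.2 hgt
      · obtain ⟨j, rfl⟩ : ∃ j, i = j + 1 := ⟨i - 1, by omega⟩
        have e1k : (j + 1) * k = j * k + k := by ring
        have ej := ih j (by omega) (by omega) (by omega)
        have hi0 : j • T ≠ 0 := hnz _ (by omega)
        have hne := hne_of j (by omega)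
        obtain ⟨es, -⟩ := v_succ_add_pred h hT hpT (by omega) hi0 hne
        have hxi : xOf (j • T) ≠ 0 := (v_double h hi0 (hpi _)).1
        obtain ⟨-, hd⟩ := v_sub_eq' (p := 2) hxi hxk (by omega)
        have hjm : j * k = (j - 1) * k + k := by
          conv_lhs => rw [show j = j - 1 + 1 by omega, add_mul, one_mul]
        rcases eq_or_lt_of_le (show r + 1 ≤ j by omega) with rfl | hj'
        · have ep := hup r hr1 hr
          obtain ⟨-, hN⟩ := v_sub_eq' (p := 2) (mul_ne_zero hxi hxk) h.a₄_ne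
            (by rw [padicValRat.mul hxi hxk, h.val_a₄]
                simp only [Nat.add_sub_cancel] at hjm
                omega)
          rw [h.val_a₄] at hN
          rw [Nat.add_sub_cancel] at es hjm
          omega
        · have ep := ih (j - 1) (by omega) (by omega) (by omega)
          have hbig : (r + 1) * k ≤ (j - 1) * k := Nat.mul_le_mul_right k (by omega)
          obtain ⟨-, hN⟩ := v_sub_eq (p := 2) (mul_ne_zero hxi hxk) h.a₄_ne
            (by rw [padicValRat.mul hxi hxk, h.val_a₄]; omega)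
          rw [padicValRat.mul hxi hxk] at hN
          omega
  -- `2 m = (2 r + 1) k`
  let n := (2 * m - 1) / k
  have hn1 : n * k < 2 * m := by
    have := Nat.div_mul_le_self (2 * m - 1) k
    change (2 * m - 1) / k * k < 2 * m
    omega
  have hn2 : 2 * m ≤ (n + 1) * k := by
    have := Nat.lt_mul_div_succ (2 * m - 1) (show 0 < k by omega)
    change 2 * m ≤ ((2 * m - 1) / k + 1) * k
    rw [mul_comm ((2 * m - 1) / k + 1) k]
    omega
  have hrk : (r + 1) * k = r * k + k := by ring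
  have hnr : r + 1 ≤ n := by
    by_contra hc
    have : (n + 1) * k ≤ (r + 1) * k := Nat.mul_le_mul_right k (by omega)
    omega
  have hexact : (n + 1) * k = 2 * m := by
    have ev := hdown n hnr hn1
    have := hminT n (hnz _ (by omega))
    rw [hk, ev] at this
    have : (n + 1) * k = n * k + k := by ring
    omega
  have hn2r : n = 2 * r := by
    have h1 : (2 * r) * k < (n + 1) * k := by
      have : 2 * r * k = 2 * (r * k) := by ring
      omega
    have h2 : (n + 1) * k < (2 * (r + 1)) * k := by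
      have : 2 * (r + 1) * k = 2 * ((r + 1) * k) := by ring
      omega
    have := Nat.lt_of_mul_lt_mul_right h1
    have := Nat.lt_of_mul_lt_mul_right h2
    omega
  have hodd : ¬ p ∣ 2 * r + 1 := fun hd =>
    h.not_dvd (by rw [← hexact, hn2r]; exact hd.mul_right k)
  -- the final contradiction
  have h1 := hup r hr1 hr
  have h2 := hdown (r + 1) le_rfl (lt_of_le_of_lt (Nat.mul_le_mul_right k hnr) hn1)
  have hmid : (r + 1) * k + r * k = 2 * m := by rw [← hexact, hn2r]; ring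
  have hrk0 : 1 ≤ r * k := Nat.mul_pos hr1 hk1
  have hrT : r • T ≠ 0 := hnz _ (by omega)
  have hsum : (r + 1) • T + r • T = (2 * r + 1) • T := by
    rw [← add_nsmul, show r + 1 + r = 2 * r + 1 by ring]
  have hsum0 : (r + 1) • T + r • T ≠ 0 := by
    rw [hsum]; exact nsmul_ne_zero_of_prime h.prime hT hpT hodd
  have hdiff : (r + 1) • T - r • T = T := by rw [succ_nsmul, add_sub_cancel_left]
  have hne : xOf ((r + 1) • T) ≠ xOf (r • T) := by
    intro e
    rcases eq_or_eq_neg_of_xOf_eq hr0 hrT e with e' | e'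
    · exact hT (by rw [← hdiff, e', sub_self])
    · exact hsum0 (by rw [e', neg_add_cancel])
  have hadd := xOf_add_mul_xOf_sub h.shape hr0 hrT hne
  rw [hdiff, hsum] at hadd
  have hxa : xOf ((r + 1) • T) ≠ 0 := (v_double h hr0 (hpi _)).1
  have hxb : xOf (r • T) ≠ 0 := (v_double h hrT (hpi _)).1
  have hxs : xOf ((2 * r + 1) • T) ≠ 0 :=
    (v_double h (hsum ▸ hsum0) (hpi _)).1
  have hd : xOf ((r + 1) • T) - xOf (r • T) ≠ 0 := sub_ne_zero.mpr hne
  obtain ⟨-, hN⟩ := v_sub_eq' (p := 2) (mul_ne_zero hxa hxb) h.a₄_ne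
    (by rw [padicValRat.mul hxa hxb, h.val_a₄]; omega)
  rw [h.val_a₄] at hN
  have hv := congrArg v hadd
  rw [padicValRat.mul (mul_ne_zero hxs hxk) (pow_ne_zero 2 hd), padicValRat.mul hxs hxk,
    padicValRat.pow, padicValRat.pow] at hv
  push_cast at hv
  have hge' := le_v_sub (p := 2) (c := ((r * k : ℕ) : ℤ)) hd (by omega) (by omega)
  have := hminT _ (hsum ▸ hsum0)
  omega

end FermatLib.EC.TwoTorsion

namespace FermatLib.EC

open WeierstrassCurve TwoTorsion

theorem frey_four_dvd (P : FreyPackage) : (4 : ℤ) ∣ P.b ^ P.p - 1 - P.a ^ P.p := by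
  have hb : (2 : ℤ) ∣ P.b := (ZMod.intCast_zmod_eq_zero_iff_dvd P.b 2).mp P.hb2
  have hb' : ((P.b ^ P.p : ℤ) : ZMod 4) = 0 := by
    rw [ZMod.intCast_zmod_eq_zero_iff_dvd]
    exact dvd_trans (by norm_num : (4 : ℤ) ∣ 2 ^ 2)
      (dvd_trans (pow_dvd_pow 2 (by have := P.hp5; omega)) (pow_dvd_pow_of_dvd hb P.p))
  have ha : ((P.a ^ P.p : ℤ) : ZMod 4) = 3 := by
    obtain ⟨t, ht⟩ := P.hp_odd
    rw [Int.cast_pow, P.ha4, ht, pow_succ, pow_mul, show (3 : ZMod 4) ^ 2 = 1 by decide,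
      one_pow, one_mul]
  have : ((P.b ^ P.p - 1 - P.a ^ P.p : ℤ) : ZMod 4) = 0 := by
    rw [Int.cast_sub, Int.cast_sub, hb', ha, Int.cast_one]; decide
  exact (ZMod.intCast_zmod_eq_zero_iff_dvd _ 4).mp this

theorem frey_twoAdicData (P : FreyPackage) :
    ∃ m : ℕ, TwoAdicData P.freyCurve P.p m := by
  have : Fact (Nat.Prime 2) := ⟨Nat.prime_two⟩
  have hb : (2 : ℤ) ∣ P.b := (ZMod.intCast_zmod_eq_zero_iff_dvd P.b 2).mp P.hb2
  have ha : ¬ (2 : ℤ) ∣ P.a := fun hd => by
    have h1 : (2 : ℤ) ∣ gcd P.a P.b := dvd_gcd hd hb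
    rw [P.hgcdab] at h1
    norm_num at h1
  let w := padicValInt 2 P.b
  have hw : 1 ≤ w := by
    rw [Nat.one_le_iff_ne_zero]
    intro e
    rcases padicValInt.eq_zero_iff.mp e with h | h | h
    · norm_num at h
    · exact P.hb0 h
    · exact h (by exact_mod_cast hb)
  have hp5 := P.hp5
  have hval : padicValRat 2 P.freyCurve.a₄ = ((P.p * w - 4 : ℕ) : ℤ) ∧ P.freyCurve.a₄ ≠ 0 := by
    have hA : (P.a : ℚ) ≠ 0 := by exact_mod_cast P.ha0
    have hB : (P.b : ℚ) ≠ 0 := by exact_mod_cast P.hb0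
    have e : P.freyCurve.a₄ = -(((P.a : ℚ) ^ P.p) * (P.b : ℚ) ^ P.p / 2 ^ 4) := by
      change -((P.a : ℚ) ^ P.p) * (P.b : ℚ) ^ P.p / 16 = _
      ring
    refine ⟨?_, by rw [e]; exact neg_ne_zero.mpr (div_ne_zero
      (mul_ne_zero (pow_ne_zero _ hA) (pow_ne_zero _ hB)) (by norm_num))⟩
    rw [e, padicValRat.neg, padicValRat.div (mul_ne_zero (pow_ne_zero _ hA) (pow_ne_zero _ hB))
      (by norm_num), padicValRat.mul (pow_ne_zero _ hA) (pow_ne_zero _ hB),
      padicValRat.pow, padicValRat.pow, padicValRat.pow,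
      padicValRat.of_int, padicValRat.of_int, v_natCast_two,
      padicValInt.eq_zero_of_not_dvd (by exact_mod_cast ha)]
    change (P.p : ℤ) * (0 : ℕ) + (P.p : ℤ) * (w : ℤ) - ((4 : ℕ) : ℤ) * 1 = _
    have : 4 ≤ P.p * w := by nlinarith
    push_cast [Nat.cast_sub this]
    ring
  refine ⟨P.p * w - 4, ⟨⟨rfl, rfl, rfl⟩, ?_, hval.2, hval.1, ?_, P.pp, hp5, ?_⟩⟩
  · obtain ⟨z, hz⟩ := frey_four_dvd P
    refine ⟨z, ?_⟩
    change ((P.b : ℚ) ^ P.p - 1 - (P.a : ℚ) ^ P.p) / 4 = _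
    have : ((P.b ^ P.p - 1 - P.a ^ P.p : ℤ) : ℚ) = ((4 * z : ℤ) : ℚ) := congrArg _ hz
    push_cast at this
    rw [this]; ring
  · have : 5 ≤ P.p * w := by nlinarith
    omega
  · intro hd
    rcases P.pp.dvd_mul.mp hd with h | h
    · have := Nat.le_of_dvd (by norm_num) h; omega
    · have h4 : 4 ≤ P.p * w := by nlinarith
      have : P.p ∣ P.p * w - (P.p * w - 4) := Nat.dvd_sub (dvd_mul_right _ _) h
      rw [Nat.sub_sub_self h4] at this
      have := Nat.le_of_dvd (by norm_num) this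
      omega

/-- The Frey curve has no nonzero rational point killed by `p`. -/
theorem frey_rational_pTorsion_eq_zero (P : FreyPackage) (T : P.freyCurve.toAffine.Point)
    (hT : P.p • T = 0) : T = 0 := by
  obtain ⟨m, h⟩ := frey_twoAdicData P
  exact eq_zero_of_nsmul_eq_zero h T hT

end FermatLib.EC
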