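import Fermat.Agent.EC.InertiaConjugate
import Fermat.Agent.EC.FreyRationalTorsion
import Fermat.Agent.EC.Torsion
import Fermat.Agent.Basic.FreyCurveFacts
import Fermat.Agent.EC.Frey05Frey
import Fermat.Agent.Basic.FrobeniusExists
import Fermat.Prelude.Def_FLTPrelim_CofixedLine

/-!
# A stable line of the Frey representation has trivial quotient

The two characters of a stable line are unramified away from `p`, and one of them is unramified
at `p`, hence trivial. The character on the line cannot be trivial since the Frey curve has no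
rational point of order `p`.
-/

set_option autoImplicit false

noncomputable section

open WeierstrassCurve WeierstrassCurve.Affine WeierstrassCurve.Affine.Point
open scoped WeierstrassCurve.Affine

namespace FermatLib.EC

local notation "ℚbar" => AlgebraicClosure ℚ

/-- A unipotent endomorphism of a plane acts trivially on an invariant line and on the quotient
by it. -/
theorem unipotent_of_invariant_line {k V : Type*} [Field k] [AddCommGroup V] [Module k V]
    [FiniteDimensional k V] (hV : Module.finrank k V = 2) (N : Submodule k V) (hN0 : N ≠ ⊥)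
    (hN1 : N ≠ ⊤) (g : V →ₗ[k] V) (hg : ∀ x, g (g x) = 0) (hgN : ∀ x ∈ N, g x ∈ N) :
    (∀ x ∈ N, g x = 0) ∧ ∀ x, g x ∈ N := by
  have hlt : Module.finrank k N < 2 :=
    hV ▸ Submodule.finrank_lt hN1
  have hpos : Module.finrank k N ≠ 0 := fun h => hN0 (Submodule.finrank_eq_zero.mp h)
  have hone : Module.finrank k N = 1 := by omega
  obtain ⟨n, hn0, hn⟩ := finrank_eq_one_iff'.mp hone
  have hgn : g (n : V) = 0 := by
    obtain ⟨c, hc⟩ := hn ⟨g n, hgN n n.2⟩
    have hc' : c • (n : V) = g n := congrArg Subtype.val hc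
    have h2 : (c * c) • (n : V) = 0 := by
      rw [mul_smul, hc', ← map_smul, hc', hg]
    have hn0' : (n : V) ≠ 0 := fun h => hn0 (Subtype.ext h)
    rw [smul_eq_zero, mul_self_eq_zero, or_iff_left hn0'] at h2
    rw [← hc', h2, zero_smul]
  have hfix : ∀ x ∈ N, g x = 0 := fun x hx => by
    obtain ⟨c, hc⟩ := hn ⟨x, hx⟩
    have hc' : c • (n : V) = x := congrArg Subtype.val hc
    rw [← hc', map_smul, hgn, smul_zero]
  refine ⟨hfix, fun x => ?_⟩
  by_contra hx
  have htop : N ⊔ Submodule.span k {g x} = ⊤ := by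
    by_contra hne
    have h2 := Submodule.finrank_lt hne
    have h3 : N < N ⊔ Submodule.span k {g x} :=
      left_lt_sup.mpr fun h => hx (h (Submodule.mem_span_singleton_self _))
    have := Submodule.finrank_lt_finrank_of_lt h3
    omega
  obtain ⟨a, ha, b, hb, hab⟩ := Submodule.mem_sup.mp (htop ▸ Submodule.mem_top (x := x))
  obtain ⟨c, rfl⟩ := Submodule.mem_span_singleton.mp hb
  have : g x = 0 := by
    conv_lhs => rw [← hab]
    rw [map_add, map_smul, hg, hfix a ha, smul_zero, add_zero]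
  exact hx (this ▸ N.zero_mem)

section Galois

variable {n : ℕ} (W : WeierstrassCurve ℚ)
  (N : Submodule (ZMod n) (Submodule.torsionBy ℤ (W⁄ℚbar).Point n))

/-- Automorphisms fixing a subgroup of torsion points pointwise. -/
def fixesLine : Subgroup (ℚbar ≃ₐ[ℚ] ℚbar) where
  carrier := {σ | ∀ x ∈ N, σ • x = x}
  one_mem' x _ := one_smul _ x
  mul_mem' {σ τ} hσ hτ x hx := by rw [mul_smul, hτ x hx, hσ x hx]
  inv_mem' {σ} hσ x hx := by rw [inv_smul_eq_iff, hσ x hx]

variable (hN : IsGaloisStable ℚ N)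

/-- Automorphisms acting trivially on the quotient by a stable subgroup. -/
def fixesQuotient : Subgroup (ℚbar ≃ₐ[ℚ] ℚbar) where
  carrier := {σ | ∀ x, σ • x - x ∈ N}
  one_mem' x := by rw [one_smul, sub_self]; exact N.zero_mem
  mul_mem' {σ τ} hσ hτ x := by
    rw [mul_smul, ← sub_add_sub_cancel (σ • τ • x) (τ • x) x]
    exact N.add_mem (hσ _) (hτ x)
  inv_mem' {σ} hσ x := by
    have h := hσ (σ⁻¹ • x)
    rw [smul_inv_smul] at h
    rw [← neg_sub]
    exact N.neg_mem h

variable {W N}

include hN in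
theorem fixesLine_conj {σ g : ℚbar ≃ₐ[ℚ] ℚbar} (h : g⁻¹ * σ * g ∈ fixesLine W N) :
    σ ∈ fixesLine W N := fun x hx => by
  have := h (g⁻¹ • x) (hN g⁻¹ x hx)
  rw [← mul_smul, mul_inv_cancel_right, mul_smul] at this
  exact smul_left_cancel g⁻¹ this

include hN in
theorem fixesQuotient_conj {σ g : ℚbar ≃ₐ[ℚ] ℚbar} (h : g⁻¹ * σ * g ∈ fixesQuotient W N) :
    σ ∈ fixesQuotient W N := fun x => by
  have := hN g _ (h (g⁻¹ • x))
  rwa [← mul_smul, mul_inv_cancel_right, mul_smul, smul_sub, smul_inv_smul, smul_inv_smul] at this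

end Galois

/-- A Galois-fixed point is rational. -/
theorem exists_map_eq_of_fixed (W : WeierstrassCurve ℚ) (Q : (W⁄ℚbar).Point)
    (hQ : ∀ σ : ℚbar ≃ₐ[ℚ] ℚbar, σ • Q = Q) :
    ∃ T : W.toAffine.Point, Point.map (W' := W) (Algebra.ofId ℚ ℚbar) T = Q := by
  have : Algebra.IsAlgebraic ℚ ℚbar := AlgebraicClosure.isAlgebraic ℚ
  have : IsAlgClosure ℚ ℚbar := ⟨inferInstance, inferInstance⟩
  have : Normal ℚ ℚbar := IsAlgClosure.normal ℚ ℚbar
  have : IsGalois ℚ ℚbar := { }
  cases Q with
  | zero => exact ⟨0, rfl⟩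
  | some x y h =>
    have hxy : ∀ σ : ℚbar ≃ₐ[ℚ] ℚbar, σ x = x ∧ σ y = y := fun σ => by
      have := hQ σ
      rw [algEquiv_smul_def, Point.map_some, Point.some.injEq] at this
      exact this
    obtain ⟨a, rfl⟩ := (InfiniteGalois.mem_range_algebraMap_iff_fixed (k := ℚ) x).mpr
      fun σ => (hxy σ).1
    obtain ⟨b, rfl⟩ := (InfiniteGalois.mem_range_algebraMap_iff_fixed (k := ℚ) y).mpr
      fun σ => (hxy σ).2
    have hab : W.toAffine.Nonsingular a b :=
      (W.toAffine.map_nonsingular (algebraMap ℚ ℚbar).injective a b).mp h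
    exact ⟨Point.some a b hab, rfl⟩

/-- A reducible Frey representation has a cofixed line, given unipotence of inertia at `2` and
the dichotomy at `p`. -/
theorem frey_hasCofixedLine_of (P : FreyPackage)
    (hred : ¬ GaloisRepIsIrreducible (K := ℚbar) ℚ P.freyCurve P.p)
    (htwo : ∀ A : ValuationSubring ℚbar, A.LiesOverPrime 2 → ∀ σ ∈ A.inertiaSubgroupIn ℚ,
      ∀ x : Submodule.torsionBy ℤ (P.freyCurve⁄ℚbar).Point P.p,
        σ • (σ • x - x) = σ • x - x)
    (hp : ∀ N : Submodule (ZMod P.p) (Submodule.torsionBy ℤ (P.freyCurve⁄ℚbar).Point P.p),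
      IsGaloisStable ℚ N → N ≠ ⊥ → N ≠ ⊤ → ∀ A : ValuationSubring ℚbar, A.LiesOverPrime P.p →
        (∀ σ ∈ A.inertiaSubgroupIn ℚ, ∀ x ∈ N, σ • x = x) ∨
        (∀ σ ∈ A.inertiaSubgroupIn ℚ, ∀ x, σ • x - x ∈ N)) :
    HasGaloisStableCofixedLine (K := ℚbar) ℚ P.freyCurve P.p := by
  have : Fact P.p.Prime := ⟨P.pp⟩
  have : P.freyCurve.IsElliptic := Basic.Frey.freyCurve_isElliptic P
  have hpK : (P.p : ℚbar) ≠ 0 := by exact_mod_cast P.pp.ne_zero
  let V := Submodule.torsionBy ℤ (P.freyCurve⁄ℚbar).Point P.p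
  have hV : Module.finrank (ZMod P.p) V = 2 := finrank_torsionBy_baseChange P.freyCurve hpK
  have hfin : FiniteDimensional (ZMod P.p) V := Module.finite_of_finrank_pos (by omega)
  have hnt : Nontrivial V := Module.nontrivial_of_finrank_pos (R := ZMod P.p) (by omega)
  obtain ⟨N, hN, hN0, hN1⟩ : ∃ N : Submodule (ZMod P.p) V,
      IsGaloisStable ℚ N ∧ N ≠ ⊥ ∧ N ≠ ⊤ := by
    by_contra hc
    exact hred ⟨hnt, fun N hN => or_iff_not_imp_left.mpr fun h0 =>
      not_not.mp fun h1 => hc ⟨N, hN, h0, h1⟩⟩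
  refine ⟨N, hN, hN0, hN1, ?_⟩
  -- the two kernels contain inertia away from `p`
  have haway : ∀ q : ℕ, q.Prime → q ≠ P.p → ∀ A : ValuationSubring ℚbar, A.LiesOverPrime q →
      A.inertiaSubgroupIn ℚ ≤ fixesLine P.freyCurve N ∧
        A.inertiaSubgroupIn ℚ ≤ fixesQuotient P.freyCurve N := by
    intro q hq hqp A hA
    have hboth : ∀ σ ∈ A.inertiaSubgroupIn ℚ,
        (∀ x ∈ N, σ • x = x) ∧ ∀ x : V, σ • x - x ∈ N := by
      intro σ hσ
      by_cases h2 : q = 2
      · subst h2
        let g : V →ₗ[ZMod P.p] V :=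
          AddMonoidHom.toZModLinearMap P.p
            (AddMonoidHom.mk' (fun x : V => σ • x - x) fun a b => by rw [smul_add]; abel)
        obtain ⟨h1, h2⟩ := unipotent_of_invariant_line hV N hN0 hN1 g
          (fun x => sub_eq_zero.mpr (htwo A hA σ hσ x))
          (fun x hx => N.sub_mem (hN σ x hx) hx)
        exact ⟨fun x hx => sub_eq_zero.mp (h1 x hx), h2⟩
      · have h := Frey05.frey_unramified P hq h2 hqp A hA σ hσ
        exact ⟨fun x _ => h x, fun x => (sub_eq_zero.mpr (h x) : σ • x - x = 0) ▸ N.zero_mem⟩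
    exact ⟨fun σ hσ => (hboth σ hσ).1, fun σ hσ => (hboth σ hσ).2⟩
  -- finite level
  obtain ⟨F, hF, hFfix⟩ := exists_finiteDimensional_smul_eq P.freyCurve P.pp.ne_zero
  have hFle : ∀ σ ∈ F.fixingSubgroup, ∀ x : V, σ • x = x := fun σ hσ x =>
    Subtype.ext (hFfix σ ((IntermediateField.mem_fixingSubgroup_iff F σ).mp hσ) x.1
      ((Submodule.mem_torsionBy_iff _ _).mp x.2))
  obtain ⟨A₀, hA₀⟩ := Basic.exists_liesOverPrime P.pp
  rcases hp N hN hN0 hN1 A₀ hA₀ with h | h
  · -- the line would consist of rational points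
    have htop := eq_top_of_forall_inertia_le (fixesLine P.freyCurve N) F
      (fun σ hσ x _ => hFle σ hσ x) (fun q hq A hA => by
        by_cases hqp : q = P.p
        · subst hqp
          intro σ hσ
          obtain ⟨g, hg⟩ := exists_conj_mem_inertia hq A₀ A hA₀ hA
          exact fixesLine_conj hN (h _ (hg σ hσ))
        · exact (haway q hq hqp A hA).1)
    obtain ⟨x, hx, hx0⟩ := Submodule.exists_mem_ne_zero_of_ne_bot hN0
    exfalso
    obtain ⟨T, hT⟩ := exists_map_eq_of_fixed P.freyCurve (x : (P.freyCurve⁄ℚbar).Point) fun σ => by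
      have hm : σ ∈ fixesLine P.freyCurve N := htop ▸ Subgroup.mem_top σ
      exact congrArg Subtype.val (hm x hx)
    have hxp : P.p • (x : (P.freyCurve⁄ℚbar).Point) = 0 := by
      rw [← natCast_zsmul]
      exact (Submodule.mem_torsionBy_iff _ _).mp x.2
    have hpT : P.p • T = 0 := by
      apply Point.map_injective (W' := P.freyCurve) (f := Algebra.ofId ℚ ℚbar)
      refine ((map_nsmul (Point.map (W' := P.freyCurve) (Algebra.ofId ℚ ℚbar)) P.p T).trans ?_).trans
        (Point.map_zero _).symm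
      exact (congrArg (P.p • ·) hT).trans hxp
    have hT0 : T = 0 := frey_rational_pTorsion_eq_zero P T hpT
    exact hx0 (Subtype.ext (hT.symm.trans (hT0 ▸ Point.map_zero _)))
  · have htop := eq_top_of_forall_inertia_le (fixesQuotient P.freyCurve N) F
      (fun σ hσ x => by rw [hFle σ hσ x, sub_self]; exact N.zero_mem) (fun q hq A hA => by
        by_cases hqp : q = P.p
        · subst hqp
          intro σ hσ
          obtain ⟨g, hg⟩ := exists_conj_mem_inertia hq A₀ A hA₀ hA
          exact fixesQuotient_conj hN (h _ (hg σ hσ))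
        · exact (haway q hq hqp A hA).2)
    intro σ x
    have hm : σ ∈ fixesQuotient P.freyCurve N := htop ▸ Subgroup.mem_top σ
    exact hm x

end FermatLib.EC
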