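import Fermat.Agent.EC.GenericMultiple
import Mathlib.AlgebraicGeometry.EllipticCurve.DivisionPolynomial.Degree
import Mathlib.RingTheory.MvPolynomial.Basic

/-!
# The addition-subtraction recursion for `(Φₙ : ΨSqₙ)`
-/

open WeierstrassCurve WeierstrassCurve.Affine Polynomial
open scoped Polynomial.Bivariate

namespace FermatLib.EC

section Values

variable {F : Type*} [Field F] [DecidableEq F] {W : WeierstrassCurve.Affine F} {x y : F}

omit [DecidableEq F] in
lemma sq_sub_negY_eq_eval (h : W.Equation x y) : (y - W.negY x y) ^ 2 = W.Ψ₂Sq.eval x := by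
  rw [sq_sub_negY h]
  simp [Ψ₂Sq]

omit [DecidableEq F] in
lemma divVal_eq_eval (h : W.Equation x y) (n : ℤ) :
    divVal W x y n = (W.preΨ n).eval x * if Even n then y - W.negY x y else 1 := by
  rw [divVal, normEDS, preΨ, ← coe_evalRingHom, map_preNormEDS, map_pow, coe_evalRingHom,
    ← sq_sub_negY_eq_eval h, ← pow_mul]

omit [DecidableEq F] in
lemma eval_ΨSq_eq_sq (h : W.Equation x y) (n : ℤ) :
    (W.ΨSq n).eval x = divVal W x y n ^ 2 := by
  rw [divVal_eq_eval h, ΨSq]
  split_ifs <;> simp [mul_pow, ← sq_sub_negY_eq_eval h]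

omit [DecidableEq F] in
lemma eval_Φ_eq (h : W.Equation x y) (n : ℤ) :
    (W.Φ n).eval x = x * divVal W x y n ^ 2 - divVal W x y (n + 1) * divVal W x y (n - 1) := by
  rw [WeierstrassCurve.Φ, eval_sub, eval_mul, eval_X, eval_ΨSq_eq_sq h, divVal_eq_eval h (n + 1),
    divVal_eq_eval h (n - 1)]
  simp only [Int.even_add_one, Int.even_sub_one, ite_not]
  split_ifs <;> simp [← sq_sub_negY_eq_eval h] <;> ring

end Values

lemma comp_vec_two {R S : Type*} (f : R → S) (a b : R) : f ∘ ![a, b] = ![f a, f b] := by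
  funext i
  fin_cases i <;> simp

lemma comp_symVec {R S : Type*} [CommRing R] [CommRing S] (f : R →+* S) (v w : Fin 2 → R) :
    f ∘ symVec v w = symVec (f ∘ v) (f ∘ w) := by
  funext i
  fin_cases i <;> simp [symVec]

lemma comp_addSubVec {R S : Type*} [CommRing R] [CommRing S] (f : R →+* S)
    (W : WeierstrassCurve R) (v : Fin 3 → R) :
    f ∘ addSubVec W v = addSubVec (W.map f) (f ∘ v) := by
  funext i
  fin_cases i <;> simp [addSubVec, map_ofNat]

lemma symVec_smul_left {R : Type*} [CommRing R] (c : R) (v w : Fin 2 → R) :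
    symVec (c • v) w = c • symVec v w := by
  funext i
  fin_cases i <;> simp [symVec] <;> ring

lemma symVec_smul_right {R : Type*} [CommRing R] (c : R) (v w : Fin 2 → R) :
    symVec v (c • w) = c • symVec v w := by
  funext i
  fin_cases i <;> simp [symVec] <;> ring

/-- The recursion satisfied by `(Φₙ : ΨSqₙ)`. -/
def DivisionRec {R : Type*} [CommRing R] (W : WeierstrassCurve R) (n : ℕ) : Prop :=
  addSubVec (W.map C) (symVec ![W.Φ n, W.ΨSq n] ![X, 1]) =
    symVec ![W.Φ (n + 1 : ℤ), W.ΨSq (n + 1 : ℤ)] ![W.Φ (n - 1 : ℤ), W.ΨSq (n - 1 : ℤ)]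

lemma DivisionRec.map {R S : Type*} [CommRing R] [CommRing S] {W : WeierstrassCurve R} {n : ℕ}
    (h : DivisionRec W n) (f : R →+* S) : DivisionRec (W.map f) n := by
  have h' := congrArg ((mapRingHom f : R[X] →+* S[X]) ∘ ·) h
  rw [comp_addSubVec, comp_symVec, comp_symVec, comp_vec_two, comp_vec_two, comp_vec_two,
    comp_vec_two, WeierstrassCurve.map_map, mapRingHom_comp_C, map_one] at h'
  simp only [coe_mapRingHom, Polynomial.map_X] at h'
  simpa only [DivisionRec, map_Φ, map_ΨSq, WeierstrassCurve.map_map] using h'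

section Universal

local notation "𝓡" => MvPolynomial (Fin 5) ℤ

/-- The universal Weierstrass curve. -/
noncomputable def univW : WeierstrassCurve 𝓡 :=
  ⟨MvPolynomial.X 0, MvPolynomial.X 1, MvPolynomial.X 2, MvPolynomial.X 3, MvPolynomial.X 4⟩

local notation "𝓚" => WeierstrassCurve.Affine.FunctionField (univW.toAffine)

/-- The inclusion of `R[X]` in the function field of the universal curve. -/
noncomputable def univEmb : 𝓡[X] →+* 𝓚 :=
  (algebraMap univW.toAffine.CoordinateRing 𝓚).comp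
    ((CoordinateRing.mk univW.toAffine).comp C)

lemma univEmb_injective : Function.Injective univEmb := by
  refine (IsFractionRing.injective univW.toAffine.CoordinateRing 𝓚).comp ?_
  refine (injective_iff_map_eq_zero ((CoordinateRing.mk univW.toAffine).comp C)).mpr
    fun p hp => by_contra fun hne => ?_
  exact AdjoinRoot.mk_ne_zero_of_natDegree_lt monic_polynomial (C_ne_zero.mpr hne)
    (by rw [natDegree_polynomial, natDegree_C]; norm_num) hp

/-- The universal curve over its own function field. -/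
noncomputable def univWK : WeierstrassCurve.Affine 𝓚 :=
  (univW.map (univEmb.comp C)).toAffine

lemma eval_map_univEmb (p : 𝓡[X]) : (p.map (univEmb.comp C)).eval (univEmb X) = univEmb p := by
  rw [eval_map, ← hom_eval₂, eval₂_C_X]

lemma univW_Δ_ne_zero : univW.Δ ≠ 0 := fun h => by
  have h' : (univW.map (MvPolynomial.eval₂Hom (Int.castRingHom ℤ) ![0, 0, 0, 0, 1])).Δ = 0 := by
    rw [map_Δ, h, map_zero]
  simp [univW, Δ, b₂, b₄, b₆, b₈] at h'

instance : univWK.IsElliptic :=
  ⟨by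
    rw [isUnit_iff_ne_zero]
    change (univW.map (univEmb.comp C)).Δ ≠ 0
    rw [map_Δ]
    exact (map_ne_zero_iff (univEmb.comp C) (univEmb_injective.comp C_injective)).mpr univW_Δ_ne_zero⟩

/-- The `y`-coordinate of the generic point. -/
noncomputable def univY : 𝓚 :=
  algebraMap univW.toAffine.CoordinateRing 𝓚 (CoordinateRing.mk univW.toAffine Y)

lemma univ_equation : univWK.Equation (univEmb X) univY := by
  have h : algebraMap univW.toAffine.CoordinateRing 𝓚
      (CoordinateRing.mk univW.toAffine univW.toAffine.polynomial) = 0 := by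
    rw [AdjoinRoot.mk_self, map_zero]
  rw [equation_iff']
  simp only [univWK, univY, univEmb, RingHom.comp_apply, WeierstrassCurve.map_a₁,
    WeierstrassCurve.map_a₂, WeierstrassCurve.map_a₃, WeierstrassCurve.map_a₄,
    WeierstrassCurve.map_a₆, WeierstrassCurve.toAffine] at h ⊢
  simp only [Affine.polynomial, map_sub, map_add, map_mul, map_pow] at h
  linear_combination h

theorem divisionRec_univ (n : ℕ) (hn : n ≠ 0) : DivisionRec univW n := by
  classical
  rcases eq_or_ne n 1 with rfl | hn1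
  · funext i
    fin_cases i <;> simp [addSubVec, symVec, Ψ₂Sq, map_ofNat] <;> ring
  have hev := eval_map_univEmb
  have he := univ_equation
  have h := (equation_iff_nonsingular (W := univWK)).mp he
  set q := divVal univWK (univEmb X) univY with hqdef
  have hΨ : ∀ k : ℤ, univEmb (univW.ΨSq k) = q k ^ 2 := fun k => by
    rw [hqdef, ← eval_ΨSq_eq_sq he, ← hev, univWK, ← map_ΨSq]
  have hΦ : ∀ k : ℤ, univEmb (univW.Φ k) = univEmb X * q k ^ 2 - q (k + 1) * q (k - 1) := fun k => by
    rw [hqdef, ← eval_Φ_eq he, ← hev (univW.Φ k), univWK, ← map_Φ]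
  have hq : ∀ k : ℤ, k ≠ 0 → q k ≠ 0 := fun k hk hc => by
    refine univW.ΨSq_ne_zero (n := k) (by exact_mod_cast hk) (univEmb_injective ?_)
    rw [hΨ, hc, map_zero, zero_pow two_ne_zero]
  set P := Point.some (univEmb X) univY h
  have hv : ∀ k : ℕ, k ≠ 0 →
      ![univEmb (univW.Φ k), univEmb (univW.ΨSq k)] = q k ^ 2 • ((k : ℤ) • P).xRep := fun k hk => by
    obtain ⟨Xk, Yk, Hk, ek, fk⟩ := multX_natCast h hq k hk
    rw [ek, Point.xRep_some, hΦ, hΨ]
    funext i
    fin_cases i <;> simp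
    linear_combination fk
  obtain ⟨c, -, hc⟩ := addSubVec_sym2x ((n : ℤ) • P) P
  have key : ∀ v : Fin 3 → 𝓡[X], ∀ a : 𝓚,
      univEmb ∘ v = a • ((n : ℤ) • P + P).sym2x ((n : ℤ) • P - P) →
      univEmb (v 2) = a * (((n : ℤ) • P + P).xRep 1 * ((n : ℤ) • P - P).xRep 1) := fun v a hva => by
    simpa [sym2x_eq_symVec, symVec] using congrFun hva 2
  have e1 : ((n + 1 : ℕ) : ℤ) • P = (n : ℤ) • P + P := by push_cast; rw [add_zsmul, one_zsmul]
  have e2 : ((n - 1 : ℕ) : ℤ) • P = (n : ℤ) • P - P := by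
    rw [Nat.cast_sub (by lia), Nat.cast_one, sub_zsmul, one_zsmul, sub_eq_add_neg]
  have hr : univEmb ∘ symVec ![univW.Φ (n + 1 : ℤ), univW.ΨSq (n + 1 : ℤ)]
      ![univW.Φ (n - 1 : ℤ), univW.ΨSq (n - 1 : ℤ)] =
      (q (n + 1 : ℤ) ^ 2 * q (n - 1 : ℤ) ^ 2) •
        ((n : ℤ) • P + P).sym2x ((n : ℤ) • P - P) := by
    have g1 := hv (n + 1) (by lia)
    have g2 := hv (n - 1) (by lia)
    rw [e1, show ((n + 1 : ℕ) : ℤ) = (n : ℤ) + 1 by push_cast; rfl] at g1
    rw [e2, show ((n - 1 : ℕ) : ℤ) = (n : ℤ) - 1 by lia] at g2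
    rw [comp_symVec, comp_vec_two, comp_vec_two, g1, g2, symVec_smul_left, symVec_smul_right,
      smul_smul, sym2x_eq_symVec]
  have hl : univEmb ∘ addSubVec (univW.map C) (symVec ![univW.Φ n, univW.ΨSq n] ![X, 1]) =
      ((q n ^ 2) ^ 2 * c) • ((n : ℤ) • P + P).sym2x ((n : ℤ) • P - P) := by
    rw [comp_addSubVec, comp_symVec, comp_vec_two, comp_vec_two, hv n hn, map_one,
      symVec_smul_left, addSubVec_smul, WeierstrassCurve.map_map]
    change (q n ^ 2) ^ 2 • addSubVec univWK (symVec ((n : ℤ) • P).xRep P.xRep) = _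
    rw [← sym2x_eq_symVec, hc, smul_smul]
  suffices hscal : (q n ^ 2) ^ 2 * c = q (n + 1 : ℤ) ^ 2 * q (n - 1 : ℤ) ^ 2 by
    unfold DivisionRec
    funext i
    apply univEmb_injective
    exact congrFun (hl.trans (hscal ▸ hr.symm)) i
  -- both sides have last coordinate `(ψₙ₊₁ ψₙ₋₁)²`
  have kl := key _ _ hl
  have kr := key _ _ hr
  have hu : univEmb ((addSubVec (univW.map C) (symVec ![univW.Φ n, univW.ΨSq n] ![X, 1])) 2) =
      univEmb ((symVec ![univW.Φ (n + 1 : ℤ), univW.ΨSq (n + 1 : ℤ)]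
        ![univW.Φ (n - 1 : ℤ), univW.ΨSq (n - 1 : ℤ)]) 2) := by
    simp [-ΨSq_ofNat, -Φ_ofNat, addSubVec, symVec, hΦ, hΨ, map_ofNat]
    ring
  refine mul_right_cancel₀ ?_ (kl.symm.trans (hu.trans kr))
  have hne : univEmb ((symVec ![univW.Φ (n + 1 : ℤ), univW.ΨSq (n + 1 : ℤ)]
        ![univW.Φ (n - 1 : ℤ), univW.ΨSq (n - 1 : ℤ)]) 2) ≠ 0 := by
    simpa [symVec, hΨ] using And.intro (hq (n + 1 : ℤ) (by lia)) (hq (n - 1 : ℤ) (by lia))
  exact right_ne_zero_of_mul (kr ▸ hne)

end Universal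

theorem divisionRec {R : Type*} [CommRing R] (W : WeierstrassCurve R) {n : ℕ} (hn : n ≠ 0) :
    DivisionRec W n := by
  have h := (divisionRec_univ n hn).map
    (MvPolynomial.eval₂Hom (Int.castRingHom R) ![W.a₁, W.a₂, W.a₃, W.a₄, W.a₆])
  convert h
  ext <;> simp [univW]

end FermatLib.EC
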