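import Fermat.Prelude.Def_EllipticCurve_FrobeniusTrace
import Fermat.Prelude.Def_GaloisRep_Residual
import Mathlib.AlgebraicGeometry.EllipticCurve.DivisionPolynomial.Degree
import Mathlib.FieldTheory.IsAlgClosed.AlgebraicClosure
import Mathlib.FieldTheory.IntermediateField.Adjoin.Basic

/-!
# Counting torsion points from the multiplication formula

Given that multiplication by `n` is `x ↦ Φₙ(x) / ΨSqₙ(x)` on `x`-coordinates, we show that there are
`n ^ 2` points of order dividing `n`: a generic fibre of `x ↦ Φₙ(x) / ΨSqₙ(x)` has `n ^ 2` simple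
roots because the Wronskian of `Φₙ` and `ΨSqₙ` has leading coefficient `n ^ 2`.
-/

open Polynomial WeierstrassCurve
open scoped WeierstrassCurve.Affine

namespace FermatLib.EC.TorsionCard

section Field

variable {F : Type*} [Field F] [DecidableEq F] (W : WeierstrassCurve.Affine F) [W.IsElliptic]

omit [DecidableEq F] [W.IsElliptic] in
lemma finite_setOf_X_eq (r : F) : {P : W.Point | ∃ y h, P = .some r y h}.Finite := by
  by_cases hne : ∃ y, W.Nonsingular r y
  · obtain ⟨y₀, h₀⟩ := hne
    apply Set.Finite.subset (Set.toFinite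
      ({.some r y₀ h₀, -.some r y₀ h₀} : Set W.Point))
    rintro P ⟨y, h, rfl⟩
    exact (Affine.Point.X_eq_iff (h₁ := h) (h₂ := h₀)).mp rfl
  · apply Set.Finite.subset Set.finite_empty
    rintro P ⟨y, h, rfl⟩
    exact hne ⟨y, h⟩

end Field

end FermatLib.EC.TorsionCard
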