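import Fermat.Agent.EC.FlatFunctions
import Fermat.Agent.EC.TorsionCardCore
import Fermat.Agent.EC.InertiaIntegers
import Fermat.Agent.Mazur.GunitCyclo
import Mathlib.Data.Nat.Prime.Infinite

/-!
# Linear forms and auxiliary points at a place of `ℚ̄`

Inertia-invariant linear forms avoiding a finite set of residual points, and points with nonsingular
reduction avoiding finitely many residual conditions.
-/

set_option autoImplicit false

noncomputable section

open WeierstrassCurve Polynomial

namespace FermatLib.EC.Flat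

local notation "Qbar" => AlgebraicClosure ℚ

variable {p : ℕ} {V : ValuationSubring (AlgebraicClosure ℚ)}

/-- A root of unity of order prime to `p` with residue outside a given finite set. -/
theorem exists_inertia_fixed_res_notMem (hV : V.LiesOverPrime p) (hp : p.Prime)
    {T : Set (IsLocalRing.ResidueField V)} (hT : T.Finite) :
    ∃ ζ ∈ V, (∀ σ ∈ V.inertiaSubgroupIn ℚ, σ ζ = ζ) ∧ res V ζ ∉ T := by
  classical
  obtain ⟨l, hl, hlp⟩ := Nat.exists_infinite_primes (hT.toFinset.card + p + 1)
  have : NeZero (l : Qbar) := ⟨Nat.cast_ne_zero.mpr hlp.ne_zero⟩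
  obtain ⟨η, hη⟩ := HasEnoughRootsOfUnity.exists_primitiveRoot Qbar l
  have hmem : ∀ {z : Qbar}, z ^ l = 1 → z ∈ V := fun {z} hz =>
    integral_mem_valuationSubring V
      (IsIntegral.of_pow hlp.pos (by rw [hz]; exact isIntegral_one))
  have hinj : ∀ {z w : Qbar}, z ^ l = 1 → w ^ l = 1 → res V z = res V w → z = w := by
    intro z w hz hw h
    have hw0 : w ≠ 0 := fun h0 => by simp [h0, zero_pow hlp.ne_zero] at hw
    have hwi : w⁻¹ ∈ V := hmem (by rw [inv_pow, hw, inv_one])
    have h1 : z * w⁻¹ - 1 ∈ V.nonunits := by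
      rw [mem_nonunits_iff_res]
      refine ⟨sub_mem (mul_mem (hmem hz) hwi) V.one_mem, ?_⟩
      rw [res_sub (mul_mem (hmem hz) hwi) V.one_mem, res_mul (hmem hz) hwi, h,
        ← res_mul (hmem hw) hwi, mul_inv_cancel₀ hw0, sub_self]
    have h2 := Mazur.eq_one_of_pow_eq_one_of_sub_one_mem hV
      ((hlp.coprime_iff_not_dvd).mpr fun hd => by
        have := Nat.le_of_dvd hp.pos hd
        omega) hlp.pos
      (by rw [mul_pow, hz, inv_pow, hw, inv_one, one_mul]) h1
    rwa [mul_inv_eq_one₀ hw0] at h2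
  obtain ⟨i, hi⟩ : ∃ i : Fin l, res V (η ^ (i : ℕ)) ∉ T := by
    by_contra hall
    push Not at hall
    have hle : (Finset.univ : Finset (Fin l)).card ≤ hT.toFinset.card :=
      Finset.card_le_card_of_injOn (fun i => res V (η ^ (i : ℕ)))
        (fun i _ => hT.mem_toFinset.mpr (hall i)) fun i _ j _ h => Fin.ext
          (hη.pow_inj i.2 j.2 (hinj (by rw [← pow_mul, mul_comm, pow_mul, hη.pow_eq_one, one_pow])
            (by rw [← pow_mul, mul_comm, pow_mul, hη.pow_eq_one, one_pow]) h))
    rw [Finset.card_univ, Fintype.card_fin] at hle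
    omega
  have hz : (η ^ (i : ℕ)) ^ l = 1 := by rw [← pow_mul, mul_comm, pow_mul, hη.pow_eq_one, one_pow]
  exact ⟨_, hmem hz, fun σ hσ => hinj (by rw [← map_pow, hz, map_one]) hz
    (fixesResidues_of_mem_inertia hσ _ (hmem hz)).2, hi⟩

variable {W : WeierstrassCurve (AlgebraicClosure ℚ)}

/-- An inertia-invariant integral linear form nonvanishing at finitely many residual points. -/
theorem exists_goodForm (hV : V.LiesOverPrime p) (hp : p.Prime)
    {S : Set (redCurve V W).toAffine.Point} (hS : S.Finite) :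
    ∃ l : Fin 3 → Qbar, (∀ i, l i ∈ V) ∧ (∀ σ ∈ V.inertiaSubgroupIn ℚ, ∀ i, σ (l i) = l i) ∧
      ∀ P ∈ S, linForm (fun i => res V (l i)) (stdVec P) ≠ 0 := by
  classical
  let q : (redCurve V W).toAffine.Point → (IsLocalRing.ResidueField V)[X] := fun P =>
    C (stdVec P 0) + C (stdVec P 1) * X + C (stdVec P 2) * X ^ 2
  have hq : ∀ P, q P ≠ 0 := fun P h => by
    apply (isRep_stdVec P).ne_zero
    funext i
    have h0 := congrArg (fun r => coeff r (i : ℕ)) h
    fin_cases i <;> simpa [q] using h0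
  obtain ⟨ζ, hζ, hζf, hζT⟩ := exists_inertia_fixed_res_notMem hV hp
    (T := ⋃ P ∈ S, {z | (q P).IsRoot z})
    (hS.biUnion fun P _ => finite_setOfPred_isRoot (hq P))
  refine ⟨![1, ζ, ζ ^ 2], fun i => ?_, fun σ hσ i => ?_, fun P hP h => hζT ?_⟩
  · fin_cases i <;> simp [one_mem, hζ, pow_mem hζ]
  · fin_cases i <;> simp [hζf σ hσ]
  · refine Set.mem_biUnion hP ?_
    simp only [Set.mem_ofPred_eq, IsRoot, q, eval_add, eval_mul, eval_C, eval_X, eval_pow]
    simp only [linForm] at h
    simp [res_pow hζ] at h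
    linear_combination h

/-- The points of the reduced curve killed by two are finite. -/
theorem finite_two_torsion_red [DecidableEq (IsLocalRing.ResidueField V)]
    (hΨ : (redCurve V W).Ψ₂Sq ≠ 0) :
    {P : (redCurve V W).toAffine.Point | 2 • P = 0}.Finite := by
  classical
  refine (((finite_setOfPred_isRoot hΨ).biUnion
    fun r _ => TorsionCard.finite_setOf_X_eq (redCurve V W).toAffine r).insert 0).subset ?_
  rintro (_ | ⟨x, y, h⟩) hP
  · exact Set.mem_insert _ _
  refine Set.mem_insert_of_mem _ (Set.mem_biUnion (x := x) ?_ ⟨y, h, rfl⟩)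
  rw [Set.mem_ofPred_eq, two_nsmul] at hP
  have hy : y = (redCurve V W).toAffine.negY x y := by
    by_contra hne
    rw [Affine.Point.add_self_of_Y_ne hne] at hP
    exact Affine.Point.some_ne_zero _ hP
  rw [Affine.negY] at hy
  have he := (Affine.equation_iff _ _).mp h.1
  simp only [Set.mem_ofPred_eq, IsRoot, WeierstrassCurve.Ψ₂Sq, eval_add, eval_mul, eval_C, eval_X,
    eval_pow, b₂, b₄, b₆]
  linear_combination (-4 : IsLocalRing.ResidueField V) * he +
    (2 * y + (redCurve V W).a₁ * x + (redCurve V W).a₃) * hy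

/-- A point with nonsingular reduction avoiding finitely many residual conditions. -/
theorem exists_auxPoint [DecidableEq (IsLocalRing.ResidueField V)] (hV : V.LiesOverPrime p)
    (hp : p.Prime) (hW : IntegralAt V W) (hΨ : (redCurve V W).Ψ₂Sq ≠ 0)
    {S D : Set (redCurve V W).toAffine.Point} (hS : S.Finite) (hD : D.Finite) :
    ∃ a : W.toAffine.Point, InE0 V a ∧ redPt V a ∉ S ∧ 2 • redPt V a ∉ D := by
  classical
  have hbad : (S ∪ {P | 2 • P ∈ D}).Finite := by
    refine hS.union ?_
    refine (hD.biUnion (t := fun d => {P : (redCurve V W).toAffine.Point | 2 • P = d})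
      fun d _ => ?_).subset fun P hP => Set.mem_biUnion hP rfl
    rcases Set.eq_empty_or_nonempty {P : (redCurve V W).toAffine.Point | 2 • P = d} with
      h | ⟨P₀, hP₀⟩
    · rw [h]; exact Set.finite_empty
    · refine ((finite_two_torsion_red hΨ).image (· + P₀)).subset fun P hP => ⟨P - P₀, ?_,
        sub_add_cancel P P₀⟩
      rw [Set.mem_ofPred_eq] at hP₀ hP ⊢
      rw [nsmul_sub, hP, hP₀, sub_self]
  let X' : (redCurve V W).toAffine.Point → IsLocalRing.ResidueField V := fun P => stdVec P 0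
  obtain ⟨x, hx, -, hxT⟩ := exists_inertia_fixed_res_notMem hV hp
    (T := X' '' (S ∪ {P | 2 • P ∈ D}) ∪ {z | (redCurve V W).Ψ₂Sq.IsRoot z})
    ((hbad.image X').union (finite_setOfPred_isRoot hΨ))
  rw [Set.mem_union, not_or] at hxT
  obtain ⟨y, hy⟩ := IsAlgClosed.exists_root
    (X ^ 2 + C (W.a₁ * x + W.a₃) * X - C (x ^ 3 + W.a₂ * x ^ 2 + W.a₄ * x + W.a₆) : Qbar[X])
    (by
      have : (X ^ 2 + C (W.a₁ * x + W.a₃) * X - C (x ^ 3 + W.a₂ * x ^ 2 + W.a₄ * x + W.a₆) :
          Qbar[X]).degree = 2 := by compute_degree!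
      rw [this]; decide)
  simp only [IsRoot, eval_sub, eval_add, eval_pow, eval_mul, eval_C, eval_X] at hy
  have heq : W.toAffine.Equation x y := by
    rw [Affine.equation_iff]; linear_combination hy
  have hym : y ∈ V := hW.mem_y heq hx
  have hred := hW.equation_red heq hx
  have hne : 2 * res V y + (redCurve V W).a₁ * res V x + (redCurve V W).a₃ ≠ 0 := by
    intro h0
    apply hxT.2
    have he := (Affine.equation_iff _ _).mp hred
    simp only [Set.mem_ofPred_eq, IsRoot, WeierstrassCurve.Ψ₂Sq, eval_add, eval_mul, eval_C,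
      eval_X, eval_pow, b₂, b₄, b₆]
    linear_combination (-4 : IsLocalRing.ResidueField V) * he +
      (2 * res V y + (redCurve V W).a₁ * res V x + (redCurve V W).a₃) * h0
  have hns : (redCurve V W).toAffine.Nonsingular (res V x) (res V y) :=
    (Affine.nonsingular_iff' _ _).mpr ⟨hred, Or.inr hne⟩
  have hnsW : W.toAffine.Nonsingular x y := by
    refine (Affine.nonsingular_iff' _ _).mpr ⟨heq, Or.inr fun h0 => hne ?_⟩
    have := congrArg (res V) h0
    rw [res_add (add_mem (mul_mem (ofNat_mem_place 2) hym) (mul_mem hW.a₁ hx)) hW.a₃,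
      res_add (mul_mem (ofNat_mem_place 2) hym) (mul_mem hW.a₁ hx),
      res_mul (ofNat_mem_place 2) hym, res_mul hW.a₁ hx, res_ofNat, res_zero] at this
    exact this
  have hnot : Affine.Point.some _ _ hns ∉ S ∪ {P | 2 • P ∈ D} := fun hm =>
    hxT.1 ⟨_, hm, rfl⟩
  refine ⟨.some x y hnsW, Or.inr ⟨hx, hym, hns⟩, ?_⟩
  rw [redPt_some hx hns]
  exact ⟨fun h => hnot (Or.inl h), fun h => hnot (Or.inr h)⟩

end FermatLib.EC.Flat
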