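import Fermat.Agent.EC.FlatRep
import Mathlib.RingTheory.IntegralClosure.IsIntegralClosure.Basic

/-!
# Rings of integral functions and coordinates of families of points

For a subalgebra `T` of `L`-valued functions on a finite set over a valuation ring `A`, a family of
points `HasRep T F` if it has good representatives with coordinates in `T`. Coordinates normalised
by a linear form which is nowhere zero on the reductions then lie in `T`.
-/

set_option autoImplicit false

noncomputable section

open WeierstrassCurve Polynomial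

namespace FermatLib.EC.Flat

variable {L : Type*} [Field L] {A : ValuationSubring L} {V : WeierstrassCurve L} {ι : Type*}

/-- A function with integral values is integral over the valuation ring. -/
lemma exists_monic_annihilator [Finite ι] (f : ι → L) (hf : ∀ q, f q ∈ A) :
    ∃ P : A[X], P.Monic ∧ aeval f P = 0 ∧
      (∀ _ : ∀ q, res A (f q) ≠ 0, IsUnit (P.coeff 0)) := by
  cases nonempty_fintype ι
  refine ⟨∏ q : ι, (X - C ⟨f q, hf q⟩), monic_prod_of_monic _ _ fun q _ => monic_X_sub_C _,
    ?_, fun hu => ?_⟩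
  · funext q
    have h := congrArg (Pi.evalAlgHom A (fun _ => L) q) (show aeval f
      (∏ q : ι, (X - C (⟨f q, hf q⟩ : A))) = ∏ q' : ι, (f - algebraMap A (ι → L) ⟨f q', hf q'⟩)
      by simp)
    refine h.trans ?_
    rw [map_prod]
    exact Finset.prod_eq_zero (Finset.mem_univ q) (by simp)
  · rw [coeff_zero_eq_eval_zero, eval_prod, IsUnit.prod_univ_iff]
    intro q
    simp only [eval_sub, eval_X, eval_C, zero_sub, IsUnit.neg_iff]
    exact (IsLocalRing.residue_ne_zero_iff_isUnit _).mp (by rw [← res_coe]; exact hu q)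

/-- A member of `T` with unit values has its inverse in `T`. -/
lemma inv_mem_of_res_ne_zero' [Finite ι] (T : Subalgebra A (ι → L)) {f : ι → L} (hf : f ∈ T)
    (hu : ∀ q, res A (f q) ≠ 0) : (fun q => (f q)⁻¹) ∈ T := by
  obtain ⟨P, -, hP, hP0⟩ := exists_monic_annihilator f fun q => mem_of_res_ne_zero (hu q)
  obtain ⟨u, hu'⟩ := hP0 hu
  have hmem : aeval f P.divX ∈ T := by
    have : aeval f P.divX = ((aeval (⟨f, hf⟩ : T) P.divX : T) : ι → L) :=
      (aeval_algHom_apply T.val (⟨f, hf⟩ : T) _)
    rw [this]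
    exact SetLike.coe_mem _
  have hmul : f * aeval f P.divX + algebraMap A (ι → L) (P.coeff 0) = 0 := by
    conv_rhs => rw [← hP, ← X_mul_divX_add P, map_add, map_mul, aeval_X, aeval_C]
  have hkey : (fun q => (f q)⁻¹) = -(algebraMap A (ι → L) (↑u⁻¹ : A)) * aeval f P.divX := by
    funext q
    have h1 := congr_fun hmul q
    simp only [Pi.add_apply, Pi.mul_apply, Pi.zero_apply, Pi.algebraMap_apply] at h1
    rw [← hu'] at h1
    have h2 : algebraMap A L (↑u⁻¹ : A) * algebraMap A L (u : A) = 1 := by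
      rw [← map_mul, u.inv_mul, map_one]
    have hne : f q ≠ 0 := fun h => hu q (by rw [h, res_zero])
    simp only [Pi.mul_apply, Pi.neg_apply, Pi.algebraMap_apply]
    refine inv_eq_of_mul_eq_one_right ?_
    linear_combination (-algebraMap A L (↑u⁻¹ : A)) * h1 + h2
  rw [hkey]
  exact T.mul_mem (T.neg_mem (T.algebraMap_mem _)) hmem

/-- Good representatives with coordinates in `T`. -/
def HasRep (T : Subalgebra A (ι → L)) (F : ι → V.toAffine.Point) : Prop :=
  ∃ w : ι → Fin 3 → L, (∀ i, (fun q => w q i) ∈ T) ∧ ∀ q, IsGoodRep A (w q) (F q)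

lemma HasRep.inE0 {T : Subalgebra A (ι → L)} {F : ι → V.toAffine.Point} (h : HasRep T F) (q : ι) :
    InE0 A (F q) :=
  (h.choose_spec.2 q).inE0

lemma HasRep.congr {T : Subalgebra A (ι → L)} {F G : ι → V.toAffine.Point} (h : HasRep T F)
    (e : ∀ q, F q = G q) : HasRep T G := by
  rwa [← funext e]

lemma hasRep_of_factor (hV : IntegralAt A V) {T : Subalgebra A (ι → L)}
    {F : ι → V.toAffine.Point} (hF : ∀ q, InE0 A (F q))
    (hT : ∀ g : ι → L, (∀ q, g q ∈ A) → (∀ q q', F q = F q' → g q = g q') → g ∈ T) :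
    HasRep T F := by
  classical
  let r : V.toAffine.Point → Fin 3 → L := fun P =>
    if h : InE0 A P then (exists_isGoodRep hV h).choose else 0
  have hr : ∀ q, IsGoodRep A (r (F q)) (F q) := fun q => by
    simp only [r, dif_pos (hF q)]
    exact (exists_isGoodRep hV (hF q)).choose_spec
  exact ⟨fun q => r (F q), fun i => hT _ (fun q => (hr q).mem i) fun q q' e => by
    change r (F q) i = r (F q') i
    rw [e], hr⟩

lemma HasRep.add [DecidableEq L] (hV : IntegralAt A V) {T : Subalgebra A (ι → L)}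
    {F G : ι → V.toAffine.Point} (h : HasRep T F) (h' : HasRep T G)
    (hne : ∀ q, redPt A (F q) ≠ redPt A (G q)) : HasRep T (fun q => F q + G q) := by
  obtain ⟨w, hw, hwr⟩ := h
  obtain ⟨v, hv, hvr⟩ := h'
  refine ⟨fun q => V.toProjective.addXYZ (w q) (v q), fun i => ?_,
    fun q => (hwr q).add hV (hvr q) (hne q)⟩
  let wT : Fin 3 → T := fun j => ⟨_, hw j⟩
  let vT : Fin 3 → T := fun j => ⟨_, hv j⟩
  have key : ∀ q : ι, V.toProjective.addXYZ (w q) (v q) i =
      ((hV.model.map (algebraMap A T)).toProjective.addXYZ wT vT i : ι → L) q := by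
    intro q
    let ev : T →+* L := (Pi.evalRingHom (fun _ : ι => L) q).comp T.val.toRingHom
    have h1 := Projective.map_addXYZ (f := ev)
      (W' := (hV.model.map (algebraMap A T)).toProjective) wT vT
    have h2 : (hV.model.map (algebraMap A T)).map ev = V := by
      rw [WeierstrassCurve.map_map]
      exact hV.map_model_subtype
    change ((hV.model.map (algebraMap A T)).map ev).toProjective.addXYZ _ _ = _ at h1
    rw [h2] at h1
    exact congr_fun h1 i
  rw [funext key]
  exact SetLike.coe_mem _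

lemma HasRep.neg (hV : IntegralAt A V) {T : Subalgebra A (ι → L)}
    {F : ι → V.toAffine.Point} (h : HasRep T F) : HasRep T (fun q => -F q) := by
  obtain ⟨w, hw, hwr⟩ := h
  refine ⟨fun q => V.toProjective.neg (w q), fun i => ?_, fun q => (hwr q).neg hV⟩
  have h1 : (fun q => -w q 1 - V.a₁ * w q 0 - V.a₃ * w q 2) ∈ T := by
    refine T.sub_mem (T.sub_mem (T.neg_mem (hw 1)) ?_) ?_
    · exact T.smul_mem (hw 0) (⟨_, hV.a₁⟩ : A)
    · exact T.smul_mem (hw 2) (⟨_, hV.a₃⟩ : A)
  fin_cases i
  · exact hw 0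
  · exact h1
  · exact hw 2

/-! ## Normalised coordinates -/

/-- The value of a linear form. -/
def linForm {F : Type*} [Field F] (l p : Fin 3 → F) : F := l 0 * p 0 + l 1 * p 1 + l 2 * p 2

lemma linForm_smul {F : Type*} [Field F] (l p : Fin 3 → F) (u : F) :
    linForm l (u • p) = u * linForm l p := by
  simp [linForm]; ring

/-- The linear form `l` does not vanish at the reduction of `P`. -/
def IsGoodForm (A : ValuationSubring L) (l : Fin 3 → L) (P : V.toAffine.Point) : Prop :=
  linForm (fun i => res A (l i)) (stdVec (redPt A P)) ≠ 0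

/-- The coordinates of `P` normalised by `l`. -/
def coord (l : Fin 3 → L) (P : V.toAffine.Point) (i : Fin 3) : L :=
  stdVec P i / linForm l (stdVec P)

lemma IsGoodRep.coord_eq {l : Fin 3 → L} {p : Fin 3 → L} {P : V.toAffine.Point}
    (h : IsGoodRep A p P) (i : Fin 3) : coord l P i = p i / linForm l p := by
  obtain ⟨u, hu, e⟩ := h.rep.exists_eq_smul
  rw [e, linForm_smul, Pi.smul_apply, smul_eq_mul, mul_div_mul_left _ _ hu]
  rfl

lemma IsGoodRep.res_linForm_ne_zero {l : Fin 3 → L} (hl : ∀ i, l i ∈ A) {p : Fin 3 → L}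
    {P : V.toAffine.Point} (h : IsGoodRep A p P) (hg : IsGoodForm A l P) :
    res A (linForm l p) ≠ 0 := by
  have e : res A (linForm l p) = linForm (fun i => res A (l i)) (fun i => res A (p i)) := by
    simp only [linForm]
    rw [res_add (add_mem (mul_mem (hl 0) (h.mem 0)) (mul_mem (hl 1) (h.mem 1)))
      (mul_mem (hl 2) (h.mem 2)), res_add (mul_mem (hl 0) (h.mem 0)) (mul_mem (hl 1) (h.mem 1)),
      res_mul (hl 0) (h.mem 0), res_mul (hl 1) (h.mem 1), res_mul (hl 2) (h.mem 2)]
  obtain ⟨u, hu, eu⟩ := h.red.exists_eq_smul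
  rw [e, eu, linForm_smul]
  exact mul_ne_zero hu hg

lemma coord_mem_place (hV : IntegralAt A V) {l : Fin 3 → L} (hl : ∀ i, l i ∈ A)
    {P : V.toAffine.Point} (hP : InE0 A P) (hg : IsGoodForm A l P) (i : Fin 3) :
    coord l P i ∈ A := by
  obtain ⟨p, hp⟩ := exists_isGoodRep hV hP
  rw [hp.coord_eq]
  exact div_mem_of_res_ne_zero (hp.mem i) (hp.res_linForm_ne_zero hl hg)

/-- **Membership of coordinates.** -/
lemma HasRep.coord_mem [Finite ι] {T : Subalgebra A (ι → L)} {F : ι → V.toAffine.Point}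
    (h : HasRep T F) {l : Fin 3 → L} (hl : ∀ i, l i ∈ A) (hg : ∀ q, IsGoodForm A l (F q))
    (i : Fin 3) : (fun q => coord l (F q) i) ∈ T := by
  obtain ⟨w, hw, hwr⟩ := h
  have hlin : (fun q => linForm l (w q)) ∈ T := by
    have : ∀ j, (fun q => l j * w q j) ∈ T := fun j => T.smul_mem (hw j) (⟨_, hl j⟩ : A)
    exact T.add_mem (T.add_mem (this 0) (this 1)) (this 2)
  have hinv := inv_mem_of_res_ne_zero' T hlin fun q => (hwr q).res_linForm_ne_zero hl (hg q)
  convert! T.mul_mem (hw i) hinv using 1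
  funext q
  rw [(hwr q).coord_eq, div_eq_mul_inv]
  rfl

lemma eq_of_coord_eq (hV : IntegralAt A V) {l : Fin 3 → L} (hl : ∀ i, l i ∈ A)
    {P Q : V.toAffine.Point} (hP : InE0 A P) (hgP : IsGoodForm A l P) (hQ : InE0 A Q)
    (hgQ : IsGoodForm A l Q) (h : ∀ i, coord l P i = coord l Q i) : P = Q := by
  obtain ⟨p, hp⟩ := exists_isGoodRep hV hP
  obtain ⟨q, hq⟩ := exists_isGoodRep hV hQ
  have hp0 : linForm l p ≠ 0 := fun e => hp.res_linForm_ne_zero hl hgP (by rw [e, res_zero])
  have hq0 : linForm l q ≠ 0 := fun e => hq.res_linForm_ne_zero hl hgQ (by rw [e, res_zero])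
  refine hp.rep.point_eq hq.rep (div_ne_zero hp0 hq0) (funext fun i => ?_)
  have := h i
  rw [hp.coord_eq, hq.coord_eq, div_eq_iff hp0] at this
  rw [this, Pi.smul_apply, smul_eq_mul]
  ring

end FermatLib.EC.Flat
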