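import Fermat.Agent.EC.FlatLocal
import Fermat.Agent.EC.RedBridge
import Fermat.Agent.Basic.FrobeniusExists
import Fermat.Agent.MLT.Tate.Curve
import Fermat.Agent.Galois.FlatBaseChange

/-!
# Flatness of the torsion of curves with good reduction

For an elliptic curve over `ℚ` with good reduction at `p` (including `p = 2`), every finite Galois
submodule of `E(ℚ̄)` is the group of points of a finite flat group scheme over `ℤ_(p)`; the Tate
module is flat at `p`.
-/

set_option autoImplicit false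

noncomputable section

open WeierstrassCurve
open scoped WeierstrassCurve.Affine

namespace FermatLib.EC.Flat

open FermatLib.Galois LocalDescent

local notation "Qbar" => AlgebraicClosure ℚ
local notation "Γℚ" => (AlgebraicClosure ℚ ≃ₐ[ℚ] AlgebraicClosure ℚ)

variable {W : WeierstrassCurve ℚ} {V : ValuationSubring (AlgebraicClosure ℚ)} {p : ℕ}

/-- A smooth or nodal reduction has nonzero two-division polynomial. -/
theorem Ψ₂Sq_ne_zero {F : Type*} [Field F] {C : WeierstrassCurve F} (h : C.Δ ≠ 0 ∨ C.c₄ ≠ 0) :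
    C.Ψ₂Sq ≠ 0 := by
  intro h0
  have h3 := congrArg (fun q => Polynomial.coeff q 3) h0
  have h2 := congrArg (fun q => Polynomial.coeff q 2) h0
  have h6 := congrArg (fun q => Polynomial.coeff q 0) h0
  simp [WeierstrassCurve.Ψ₂Sq, Polynomial.coeff_X] at h3 h2 h6
  rcases h with h | h
  · apply h
    rw [WeierstrassCurve.Δ, h2, h6]
    linear_combination (-2 * C.b₄ ^ 3) * h3
  · apply h
    rw [WeierstrassCurve.c₄, h2]
    linear_combination (-6 * C.b₄) * h3

/-- **Finite Galois modules of points at a place of good reduction.** -/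
theorem hasModelAt_of_good (hp : p.Prime) (hV : V.LiesOverPrime p)
    (hW : IntegralAt V (W⁄Qbar)) (hΔ : res V (W⁄Qbar).Δ ≠ 0) {M : Type} [AddCommGroup M]
    [DistribMulAction Γℚ M] [Finite M] (hM : HasLevel M) (ι : M →+ (W⁄Qbar).Point)
    (hι : Function.Injective ι) (hιact : ∀ (σ : Γℚ) (m : M), ι (σ • m) = σ • ι m) :
    FlatModel.HasModelAt p M (fun (σ : Γℚ) (m : M) => σ • m) :=
  TransData.hasModelAt hW hp hV
    (Ψ₂Sq_ne_zero (Or.inl (by rwa [hW.res_Δ]))) hM
    { emb := ι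
      injective := hι
      equivariant := hιact
      pt := fun _ => 0
      inE0 := fun _ => hW.inE0_of_res_Δ_ne_zero hΔ _
      fixed := fun _ _ _ => rfl
      pt_congr := fun _ _ _ => rfl }

/-- The torsion as a module with a finite level. -/
theorem hasLevel_torsionBy (W : WeierstrassCurve ℚ) [W.IsElliptic] {n : ℕ} (hn : n ≠ 0) :
    HasLevel (Submodule.torsionBy ℤ (W⁄Qbar).Point (n : ℤ)) := by
  obtain ⟨L, hL, h⟩ := exists_finiteDimensional_smul_eq W hn
  exact ⟨L, hL, fun σ hσ m => Subtype.ext (h σ hσ m.1 ((Submodule.mem_torsionBy_iff _ _).mp m.2))⟩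

/-- The torsion is finite. -/
theorem finite_torsionBy (W : WeierstrassCurve ℚ) [W.IsElliptic] {n : ℕ} (hn : n ≠ 0) :
    Finite (Submodule.torsionBy ℤ (W⁄Qbar).Point (n : ℤ)) := by
  refine Nat.finite_of_card_ne_zero ?_
  rw [natCard_torsionBy_baseChange W (Nat.cast_ne_zero.mpr hn)]
  exact pow_ne_zero 2 hn

/-- **`E[n]` is finite flat at a prime of good reduction.** -/
theorem hasModelAt_torsionBy_of_good [W.IsElliptic] (hp : p.Prime) (hV : V.LiesOverPrime p)
    (hW : IntegralAt V (W⁄Qbar)) (hΔ : res V (W⁄Qbar).Δ ≠ 0) {n : ℕ} (hn : n ≠ 0) :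
    FlatModel.HasModelAt p (Submodule.torsionBy ℤ (W⁄Qbar).Point (n : ℤ))
      (fun (σ : Γℚ) (x : Submodule.torsionBy ℤ (W⁄Qbar).Point (n : ℤ)) => σ • x) :=
  have := finite_torsionBy W hn
  hasModelAt_of_good hp hV hW hΔ (hasLevel_torsionBy W hn)
    (Submodule.torsionBy ℤ (W⁄Qbar).Point (n : ℤ)).subtype.toAddMonoidHom Subtype.val_injective
    fun _ _ => rfl

/-- Flat models of the levels give flatness of the Tate module. -/
theorem isFlatAt_curveTate_of_models [W.IsElliptic] [Fact p.Prime]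
    (h : ∀ k : ℕ, FlatModel.HasModelAt p (Submodule.torsionBy ℤ (W⁄Qbar).Point ((p ^ k : ℕ) : ℤ))
      (fun (σ : Γℚ) (x : Submodule.torsionBy ℤ (W⁄Qbar).Point ((p ^ k : ℕ) : ℤ)) => σ • x)) :
    (MLT.Tate.curveTate W p).IsFlatAt p := by
  let ρ := MLT.Tate.curveTate W p
  refine (FlatModel.isFlatAt_iff_hasModelAt ρ p).mpr
    ⟨Finite.of_equiv _ (PadicInt.residueField (p := p)).toEquiv.symm, fun I hI => ?_⟩
  obtain ⟨k, hk⟩ : ∃ k : ℕ, IsLocalRing.maximalIdeal ℤ_[p] ^ k ≤ I := by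
    have hI0 : I ≠ ⊥ := by
      rintro rfl
      have := Finite.of_equiv _ (RingEquiv.quotientBot ℤ_[p]).toEquiv
      exact not_finite ℤ_[p]
    obtain ⟨k, hk⟩ := PadicInt.ideal_eq_span_pow_p hI0
    exact ⟨k, by rw [hk, PadicInt.maximalIdeal_eq_span_p, Ideal.span_singleton_pow]⟩
  let π : ρ.V →+ Submodule.torsionBy ℤ (W⁄Qbar).Point ((p ^ k : ℕ) : ℤ) :=
    (MLT.Tate.curveTateProj W p k).codRestrict _ fun v => by
      rw [Submodule.mem_torsionBy_iff, natCast_zsmul]
      exact MLT.Tate.pow_smul_curveTateProj W p k v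
  have hπ : Function.Surjective π := fun x => by
    obtain ⟨v, hv⟩ := MLT.Tate.exists_curveTateProj_eq W p (n := k) (x := x.1) (by
      rw [← natCast_zsmul]; exact (Submodule.mem_torsionBy_iff _ _).mp x.2)
    exact ⟨v, Subtype.ext hv⟩
  let q : ρ.V →+ ρ.V ⧸ (I • (⊤ : Submodule ℤ_[p] ρ.V)) :=
    (Submodule.mkQ (I • (⊤ : Submodule ℤ_[p] ρ.V))).toAddMonoidHom
  have hker : π.ker ≤ q.ker := fun v hv => by
    have h1 : MLT.Tate.curveTateProj W p k v = 0 := congrArg Subtype.val hv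
    exact (Submodule.Quotient.mk_eq_zero _).mpr
      (Submodule.smul_mono hk le_rfl ((MLT.Tate.curveTateProj_eq_zero_iff W p).mp h1))
  let f := π.liftOfSurjective hπ ⟨q, hker⟩
  have hf : ∀ v, f (π v) = q v := fun v =>
    π.liftOfRightInverse_comp_apply _ (Function.rightInverse_surjInv hπ) ⟨q, hker⟩ v
  refine (h k).of_surjective f (fun y => ?_) fun σ x => ?_
  · obtain ⟨v, rfl⟩ := Submodule.mkQ_surjective _ y
    exact ⟨π v, hf v⟩
  · obtain ⟨v, rfl⟩ := hπ x
    have h1 : σ • π v = π (ρ.ρ σ v) := Subtype.ext (MLT.Tate.curveTateProj_rho W p σ k v).symm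
    show f (σ • π v) = ρ.levelAction I σ (f (π v))
    rw [h1, hf, hf]
    rfl

/-- **The Tate module at a prime of good reduction is flat.** -/
theorem isFlatAt_curveTate_of_good [W.IsElliptic] [Fact p.Prime] (hV : V.LiesOverPrime p)
    (hW : IntegralAt V (W⁄Qbar)) (hΔ : res V (W⁄Qbar).Δ ≠ 0) :
    (MLT.Tate.curveTate W p).IsFlatAt p :=
  isFlatAt_curveTate_of_models fun k => hasModelAt_torsionBy_of_good Fact.out hV hW hΔ
    (pow_ne_zero k (Fact.out : p.Prime).ne_zero)

/-- An integral Weierstrass model with discriminant prime to `p`: flatness of the Tate module. -/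
theorem isFlatAt_curveTate_intCurve {W₀ : WeierstrassCurve ℤ}
    [(W₀.map (Int.castRingHom ℚ)).IsElliptic] [Fact p.Prime] (hΔ : ¬(p : ℤ) ∣ W₀.Δ) :
    (MLT.Tate.curveTate (W₀.map (Int.castRingHom ℚ)) p).IsFlatAt p := by
  obtain ⟨A, hA⟩ := FermatLib.Basic.exists_liesOverPrime (Fact.out : p.Prime)
  refine isFlatAt_curveTate_of_good hA (integralAt_intCurve W₀ A) ?_
  rw [res_Δ_intCurve]
  exact (res_intCast_ne_zero_iff A Fact.out hA _).mpr hΔ

/-- A representation over a finite field whose space is the `p`-torsion is flat when that is. -/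
theorem isFlatAt_of_torsion_model [W.IsElliptic] {k : Type} [Field k] [Finite k]
    (ρ : GaloisRepAdic k)
    (e : Submodule.torsionBy ℤ (W⁄Qbar).Point (p : ℤ) ≃+ ρ.V)
    (he : ∀ (σ : Γℚ) x, e (σ • x) = ρ.ρ σ (e x))
    (h : FlatModel.HasModelAt p (Submodule.torsionBy ℤ (W⁄Qbar).Point (p : ℤ))
      (fun (σ : Γℚ) (x : Submodule.torsionBy ℤ (W⁄Qbar).Point (p : ℤ)) => σ • x)) :
    ρ.IsFlatAt p :=
  (FlatModel.isFlatAt_iff_of_finite ρ p).mpr (h.congr e fun σ x => he σ x)

end FermatLib.EC.Flat
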