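import Fermat.Agent.EC.FlatTranslate
import Mathlib.RingTheory.IntegralClosure.IsIntegralClosure.Basic

/-!
# Finite flat models from translates into the smooth locus

For a finite Galois module of points with inertia-invariant translations into the smooth locus,
normalised coordinates and indicators of translates generate a local algebra, hence the module is
the group of points of a finite flat group scheme over `ℤ_(p)`.
-/

set_option autoImplicit false

set_option linter.unusedSectionVars false

noncomputable section

open WeierstrassCurve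
open scoped WeierstrassCurve.Affine Pointwise

namespace FermatLib.EC.Flat

open FermatLib.Galois LocalDescent

local notation "Qbar" => AlgebraicClosure ℚ
local notation "Γℚ" => (AlgebraicClosure ℚ ≃ₐ[ℚ] AlgebraicClosure ℚ)

variable {W : WeierstrassCurve ℚ} {V : ValuationSubring (AlgebraicClosure ℚ)} {p : ℕ}
  {M : Type} [AddCommGroup M] [DistribMulAction Γℚ M]

/-- The algebra generated by products of functions of two variables. -/
def pairAlgebra (B : Subalgebra V (M → Qbar)) : Subalgebra V (M × M → Qbar) :=
  (Submodule.map₂ (pairMul V M) (Subalgebra.toSubmodule B) (Subalgebra.toSubmodule B)).toSubalgebra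
    (by
      rw [show (1 : M × M → Qbar) = pairMul V M 1 1 from funext fun q => by simp]
      exact Submodule.apply_mem_map₂ _ B.one_mem B.one_mem)
    (by
      intro a b ha hb
      have := Submodule.mul_mem_mul ha hb
      refine (?_ : _ * _ ≤ Submodule.map₂ (pairMul V M) (Subalgebra.toSubmodule B)
        (Subalgebra.toSubmodule B)) this
      rw [Submodule.map₂_eq_span_image2, Submodule.span_mul_span, Submodule.span_le]
      rintro _ ⟨_, ⟨f, hf, g, hg, rfl⟩, _, ⟨f', hf', g', hg', rfl⟩, rfl⟩
      refine Submodule.subset_span ⟨f * f', B.mul_mem hf hf', g * g', B.mul_mem hg hg', ?_⟩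
      funext q
      simp only [pairMul_apply, Pi.mul_apply]
      ring)

lemma fst_mem_pairAlgebra {B : Subalgebra V (M → Qbar)} {f : M → Qbar} (hf : f ∈ B) :
    (fun q : M × M => f q.1) ∈ pairAlgebra B := by
  rw [show (fun q : M × M => f q.1) = pairMul V M f 1 from funext fun q => by simp]
  exact Submodule.apply_mem_map₂ _ hf B.one_mem

lemma snd_mem_pairAlgebra {B : Subalgebra V (M → Qbar)} {f : M → Qbar} (hf : f ∈ B) :
    (fun q : M × M => f q.2) ∈ pairAlgebra B := by
  rw [show (fun q : M × M => f q.2) = pairMul V M 1 f from funext fun q => by simp]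
  exact Submodule.apply_mem_map₂ _ B.one_mem hf

lemma HasRep.comp_fst {C : WeierstrassCurve Qbar} {B : Subalgebra V (M → Qbar)}
    {F : M → C.toAffine.Point} (h : HasRep B F) :
    HasRep (pairAlgebra B) fun q : M × M => F q.1 := by
  obtain ⟨w, hw, hwr⟩ := h
  exact ⟨fun q => w q.1, fun i => fst_mem_pairAlgebra (hw i), fun q => hwr q.1⟩

lemma HasRep.comp_snd {C : WeierstrassCurve Qbar} {B : Subalgebra V (M → Qbar)}
    {F : M → C.toAffine.Point} (h : HasRep B F) :
    HasRep (pairAlgebra B) fun q : M × M => F q.2 := by
  obtain ⟨w, hw, hwr⟩ := h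
  exact ⟨fun q => w q.2, fun i => snd_mem_pairAlgebra (hw i), fun q => hwr q.2⟩

/-- Precomposition. -/
def precomp {ι : Type*} (φ : ι → M) : (M → Qbar) →ₐ[V] (ι → Qbar) :=
  AlgHom.pi fun q => Pi.evalAlgHom V (fun _ => Qbar) (φ q)

omit [AddCommGroup M] [DistribMulAction Γℚ M] in
@[simp] lemma precomp_apply {ι : Type*} (φ : ι → M) (f : M → Qbar) (q : ι) :
    precomp (V := V) φ f q = f (φ q) := rfl

/-- Functions with integral values. -/
def integralFunctions (V : ValuationSubring Qbar) (M : Type) : Subalgebra V (M → Qbar) where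
  carrier := {f | ∀ m, f m ∈ V}
  mul_mem' ha hb m := mul_mem (ha m) (hb m)
  add_mem' ha hb m := add_mem (ha m) (hb m)
  algebraMap_mem' r _ := r.2

namespace TransData

variable (d : TransData W V M) [Finite M] {l : Fin 3 → Qbar}
  (hW : IntegralAt V (W⁄Qbar)) (hl : ∀ i, l i ∈ V)
  (hgood : ∀ m, IsGoodForm V l (d.translate m))

include hW hl hgood in
lemma gens_subset_integralFunctions : d.gens l ⊆ integralFunctions V M := by
  classical
  rintro f (⟨n, rfl⟩ | ⟨i, rfl⟩) m
  · simp only [indicator]
    split_ifs
    · exact V.one_mem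
    · exact V.zero_mem
  · exact coord_mem_place hW hl (d.inE0 m) (hgood m) i

include hW in
lemma mem_pairAlgebra_of_congr {g : M × M → Qbar} (hg : ∀ q, g q ∈ V)
    (hgc : ∀ q q', d.Rel q.1 q'.1 → d.Rel q.2 q'.2 → g q = g q') :
    g ∈ pairAlgebra (d.algebra l) := by
  classical
  obtain ⟨s, hs⟩ := d.exists_sum_indicator hW
  have : g = ∑ k ∈ s ×ˢ s, (⟨g k, hg k⟩ : V) • pairMul V M (d.indicator k.1) (d.indicator k.2) := by
    funext q
    obtain ⟨n, ⟨hns, hn⟩, hnu⟩ := hs q.1
    obtain ⟨n', ⟨hns', hn'⟩, hnu'⟩ := hs q.2
    rw [Finset.sum_apply, Finset.sum_eq_single (n, n')]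
    · simp [indicator, hn, hn', Algebra.smul_def, hgc q (n, n') hn hn']
    · rintro ⟨k, k'⟩ hk hne
      obtain ⟨hk1, hk2⟩ := Finset.mem_product.mp hk
      by_cases h1 : d.Rel q.1 k
      · have h2 : ¬d.Rel q.2 k' := fun h2 =>
          hne (Prod.ext (hnu k ⟨hk1, h1⟩) (hnu' k' ⟨hk2, h2⟩))
        simp [indicator, h2]
      · simp [indicator, h1]
    · exact fun h => absurd (Finset.mem_product.mpr ⟨hns, hns'⟩) h
  rw [this]
  exact sum_mem fun k _ => Subalgebra.smul_mem _
    (Submodule.apply_mem_map₂ _ (d.indicator_mem k.1) (d.indicator_mem k.2)) _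

variable (hp : p.Prime) (hV : V.LiesOverPrime p) (hΨ : (redCurve V (W⁄Qbar)).Ψ₂Sq ≠ 0)

include hW hl hgood hp hV hΨ in
/-- The algebra of a family of translates is local. -/
theorem isLocalAlgebra (hlf : ∀ τ ∈ V.inertiaSubgroupIn ℚ, ∀ i, τ (l i) = l i) :
    IsLocalAlgebra (d.algebra l) := by
  classical
  have hint : d.algebra l ≤ integralFunctions V M :=
    Algebra.adjoin_le (d.gens_subset_integralFunctions hW hl hgood)
  have hQ := d.hasRep_translate hW hl hgood
  refine ⟨?_, fun f hf => hint hf, fun z w h => ?_, fun f hf => ?_, fun f hf => ?_,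
    fun σ hσ f hf => ?_, ?_⟩
  · -- finitely generated
    refine fg_adjoin_of_finite ((Set.finite_range _).union (Set.finite_range _)) fun f hf => ?_
    obtain ⟨P, hP, hP0, -⟩ :=
      exists_monic_annihilator f (d.gens_subset_integralFunctions hW hl hgood hf)
    exact ⟨P, hP, hP0⟩
  · -- separating
    have hr : d.Rel z w := by
      have h1 := h _ (d.indicator_mem w)
      by_contra hr
      simp [indicator, hr, d.rel_refl w] at h1
    have h2 : d.translate z = d.translate w :=
      eq_of_coord_eq hW hl (d.inE0 z) (hgood z) (d.inE0 w) (hgood w)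
        fun i => h _ (d.coord_translate_mem i)
    rw [translate, translate, d.pt_eq_of_rel hr] at h2
    exact d.injective (sub_left_inj.mp h2)
  · -- comultiplication
    suffices d.algebra l ≤ (pairAlgebra (d.algebra l)).comap
        (precomp fun q : M × M => q.1 + q.2) from this hf
    refine Algebra.adjoin_le ?_
    rintro g (⟨n, rfl⟩ | ⟨i, rfl⟩)
    · refine d.mem_pairAlgebra_of_congr hW
        (fun q => hint (d.indicator_mem n) (q.1 + q.2)) fun q q' h1 h2 => ?_
      have := d.rel_add hW h1 h2
      simp only [RingHom.coe_coe, precomp_apply, indicator]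
      exact if_congr ⟨d.rel_trans hW (d.rel_symm hW this), d.rel_trans hW this⟩ rfl rfl
    · let δ : M × M → (W⁄Qbar).Point := fun q => d.pt q.1 + d.pt q.2 - d.pt (q.1 + q.2)
      have hδ : HasRep (pairAlgebra (d.algebra l)) δ := by
        refine hasRep_of_factor hW (fun q => ?_) fun g hg hgδ =>
          d.mem_pairAlgebra_of_congr hW hg fun q q' h1 h2 => hgδ q q' ?_
        · have h1 := inE0_sub hW (d.inE0 (q.1 + q.2)) (inE0_sum hW (d.inE0 q.1) (d.inE0 q.2))
          convert! h1 using 1
          simp only [δ, map_add]
          abel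
        · simp only [δ]
          rw [d.pt_eq_of_rel h1, d.pt_eq_of_rel h2, d.pt_eq_of_rel (d.rel_add hW h1 h2)]
      have hsum : HasRep (pairAlgebra (d.algebra l)) fun q => d.translate (q.1 + q.2) :=
        ((hQ.comp_fst.add' hV hp hW hΨ hQ.comp_snd).add' hV hp hW hΨ hδ).congr fun q => by
          simp only [translate, δ, map_add]
          abel
      exact hsum.coord_mem hl (fun q => hgood _) i
  · -- antipode
    suffices d.algebra l ≤ (d.algebra l).comap (precomp Neg.neg) from this hf
    refine Algebra.adjoin_le ?_
    rintro g (⟨n, rfl⟩ | ⟨i, rfl⟩)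
    · refine d.mem_algebra_of_congr hW (fun m => hint (d.indicator_mem n) (-m)) fun m m' h => ?_
      simp only [RingHom.coe_coe, precomp_apply, indicator]
      have := d.rel_neg hW h
      exact if_congr ⟨d.rel_trans hW (d.rel_symm hW this), d.rel_trans hW this⟩ rfl rfl
    · let δ : M → (W⁄Qbar).Point := fun m => -d.pt m - d.pt (-m)
      have hδ : HasRep (d.algebra l) δ := by
        refine d.hasRep_of_congr hW (fun m => ?_) fun m m' h => ?_
        · have h1 := inE0_sum hW (d.inE0 (-m)) (d.inE0 m)
          convert! h1 using 1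
          simp only [δ, map_neg]
          abel
        · simp only [δ]
          rw [d.pt_eq_of_rel h, d.pt_eq_of_rel (d.rel_neg hW h)]
      have hneg : HasRep (d.algebra l) fun m => d.translate (-m) :=
        ((hQ.neg hW).add' hV hp hW hΨ hδ).congr fun m => by
          simp only [translate, δ, map_neg]
          abel
      exact hneg.coord_mem hl (fun m => hgood _) i
  · -- decomposition
    have hσV : ∀ {x}, x ∈ V → σ x ∈ V := fun hx => apply_mem_of_mem_decomposition V hσ hx
    induction hf using Algebra.adjoin_induction with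
    | algebraMap r =>
      have : twist σ (algebraMap V (M → Qbar) r) = algebraMap V (M → Qbar) ⟨σ r, hσV r.2⟩ := rfl
      rw [this]
      exact Subalgebra.algebraMap_mem _ _
    | add f g _ _ hf hg => rw [twist_add]; exact add_mem hf hg
    | mul f g _ _ hf hg => rw [twist_prod_mul]; exact mul_mem hf hg
    | mem g hg =>
      rcases hg with ⟨n, rfl⟩ | ⟨i, rfl⟩
      · refine d.mem_algebra_of_congr hW (fun m => hσV (hint (d.indicator_mem n) _))
          fun m m' h => ?_
        have := d.rel_smul hW ((V.decompositionSubgroup ℚ).inv_mem hσ) h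
        simp only [twist_apply, indicator]
        exact congrArg σ
          (if_congr ⟨d.rel_trans hW (d.rel_symm hW this), d.rel_trans hW this⟩ rfl rfl)
      · let δ : M → (W⁄Qbar).Point := fun m => d.pt m - σ • d.pt (σ⁻¹ • m)
        have hE : ∀ m, InE0 V (σ • d.translate (σ⁻¹ • m)) := fun m =>
          (inE0_smul_iff hW (apply_mem_iff_of_mem_decomposition hσ)).mpr (d.inE0 _)
        have hδ : HasRep (d.algebra l) δ := by
          refine d.hasRep_of_congr hW (fun m => ?_) fun m m' h => ?_
          · have h1 := inE0_sub hW (hE m) (d.inE0 m)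
            convert! h1 using 1
            simp only [δ, translate, smul_sub, ← d.equivariant, smul_inv_smul]
            abel
          · simp only [δ]
            rw [d.pt_eq_of_rel h,
              d.pt_eq_of_rel (d.rel_smul hW ((V.decompositionSubgroup ℚ).inv_mem hσ) h)]
        have hF : HasRep (d.algebra l) fun m => σ • d.translate (σ⁻¹ • m) :=
          (hQ.add' hV hp hW hΨ hδ).congr fun m => by
            simp only [translate, δ, smul_sub, ← d.equivariant, smul_inv_smul]
            abel
        have hσgood : ∀ m, IsGoodForm V (fun j => σ (l j)) (σ • d.translate (σ⁻¹ • m)) := by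
          intro m
          obtain ⟨g, hg⟩ := exists_isGoodRep hW (d.inE0 (σ⁻¹ • m))
          obtain ⟨u, hu, eg⟩ := hg.rep.exists_eq_smul
          have hr : IsRep (W⁄Qbar) (fun j => σ (g j)) (σ • d.translate (σ⁻¹ • m)) := by
            have e : (fun j => σ (g j)) = σ u • stdVec (σ • d.translate (σ⁻¹ • m)) := by
              funext j
              rw [eg, Pi.smul_apply, smul_eq_mul, map_mul, map_apply_stdVec, Pi.smul_apply,
                smul_eq_mul]
              rfl
            rw [e]
            exact (isRep_stdVec _).smul ((map_ne_zero σ).mpr hu)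
          refine isGoodForm_of_isRep hW (fun j => hσV (hl j)) (hE m) hr (fun j => hσV (hg.mem j)) ?_
          rw [← map_apply_linForm]
          exact res_apply_ne_zero hσ (hg.res_linForm_ne_zero hl (hgood _))
        have e : twist σ (fun m => coord l (d.translate m) i) =
            fun m => coord (fun j => σ (l j)) (σ • d.translate (σ⁻¹ • m)) i := by
          funext m
          rw [twist_apply, map_apply_coord]
        rw [e]
        exact hF.coord_mem (fun j => hσV (hl j)) hσgood i
  · -- spanned by inertia-invariant functions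
    refine (Algebra.adjoin_eq_span (R := V) (d.gens l)).trans_le (Submodule.span_mono fun f hf => ?_)
    induction hf using Submonoid.closure_induction with
    | one => exact ⟨one_mem _, fun τ _ => funext fun m => by simp [twist_apply]⟩
    | mul f g _ _ hf hg =>
      exact ⟨mul_mem hf.1 hg.1, fun τ hτ => by rw [twist_prod_mul, hf.2 τ hτ, hg.2 τ hτ]⟩
    | mem g hg =>
      refine ⟨Algebra.subset_adjoin hg, fun τ hτ => (twist_eq_self_iff τ g).mpr fun m => ?_⟩
      rcases hg with ⟨n, rfl⟩ | ⟨i, rfl⟩
      · have := d.rel_inertia hW hτ m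
        simp only [indicator]
        rw [if_congr (show d.Rel (τ • m) n ↔ d.Rel m n from
          ⟨d.rel_trans hW (d.rel_symm hW this), d.rel_trans hW this⟩) rfl rfl]
        split_ifs <;> simp
      · show coord l (d.translate (τ • m)) i = τ (coord l (d.translate m) i)
        rw [map_apply_coord, d.translate_inertia hW hτ]
        simp only [hlf τ hτ]

include hW hp hV hΨ in
/-- **Finite flat models of translates.** -/
theorem hasModelAt (hM : HasLevel M) (d : TransData W V M) :
    FlatModel.HasModelAt p M (fun (σ : Γℚ) (m : M) => σ • m) := by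
  obtain ⟨l, hl, hlf, hgood⟩ := exists_goodForm hV hp
    (Set.finite_range fun m => redPt V (d.translate m))
  exact (d.isLocalAlgebra hW hl (fun m => hgood _ ⟨m, rfl⟩) hp hV hΨ hlf).hasModelAt hp hV hM

end TransData

end FermatLib.EC.Flat
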