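import Fermat.Agent.EC.RedMult
import Fermat.Agent.EC.RedGalois
import Mathlib.FieldTheory.IsAlgClosed.AlgebraicClosure
import Mathlib.FieldTheory.Minpoly.Field
import Mathlib.Dynamics.PeriodicPts.Defs

/-!
# Inertia on torsion at multiplicative places
-/

set_option autoImplicit false
set_option linter.all false

noncomputable section

namespace FermatLib.EC

open WeierstrassCurve
open scoped WeierstrassCurve.Affine

/-- An automorphism of an algebraic extension which preserves a valuation subring preserves its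
valuation. -/
theorem valuation_algEquiv_eq {S L : Type*} [Field S] [Field L] [Algebra S L]
    [Algebra.IsAlgebraic S L] {A : ValuationSubring L} {σ : L ≃ₐ[S] L}
    (hσ : ∀ x, σ x ∈ A ↔ x ∈ A) (z : L) : A.valuation (σ z) = A.valuation z := by
  by_cases hz : z = 0
  · simp [hz]
  have hmono : ∀ {a b : L}, a ≠ 0 → A.valuation a < A.valuation b →
      A.valuation (σ a) < A.valuation (σ b) := by
    intro a b ha hab
    have key : ∀ {c d : L}, c ≠ 0 → (A.valuation d ≤ A.valuation c ↔ d / c ∈ A) := by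
      intro c d hc
      rw [mem_iff_valuation, map_div₀, div_le_one₀ (zero_lt_iff.mpr (by simpa using hc))]
    have hσa : σ a ≠ 0 := by simpa using ha
    rw [← not_le, key hσa, ← map_div₀, hσ, ← key ha, not_le]
    exact hab
  -- the orbit is finite
  have hmem : ∀ i : ℕ, σ^[i] z ∈ {r | Polynomial.aeval r (minpoly S z) = 0} := by
    intro i
    induction i with
    | zero => exact minpoly.aeval S z
    | succ i ih =>
      rw [Function.iterate_succ_apply']
      show Polynomial.aeval (σ _) _ = 0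
      rw [Polynomial.aeval_algHom_apply, (show Polynomial.aeval (σ^[i] z) (minpoly S z) = 0 from ih),
        map_zero]
  have hfin : {r : L | Polynomial.aeval r (minpoly S z) = 0}.Finite := by
    refine Set.Finite.subset ((minpoly S z).rootSet_finite L) fun r hr => ?_
    exact Polynomial.mem_rootSet.mpr
      ⟨minpoly.ne_zero (Algebra.IsIntegral.isIntegral z), hr⟩
  obtain ⟨i, -, j, -, hij, heq⟩ :=
    Set.infinite_univ.exists_ne_map_eq_of_mapsTo (f := fun i : ℕ => σ^[i] z)
      (fun i _ => hmem i) hfin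
  have hne : ∀ k : ℕ, σ^[k] z ≠ 0 := fun k => by
    induction k with
    | zero => exact hz
    | succ k ih => rw [Function.iterate_succ_apply']; simpa using ih
  rcases lt_trichotomy (A.valuation (σ z)) (A.valuation z) with h | h | h
  · exfalso
    have hs : StrictAnti fun k : ℕ => A.valuation (σ^[k] z) := by
      refine strictAnti_nat_of_succ_lt fun k => ?_
      induction k with
      | zero => exact h
      | succ k ih =>
        rw [Function.iterate_succ_apply' σ (k + 1), Function.iterate_succ_apply' σ k]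
        rw [Function.iterate_succ_apply' σ k] at ih
        exact hmono (by simpa using hne k) ih
    exact hij (hs.injective (congrArg A.valuation heq))
  · exact h
  · exfalso
    have hs : StrictMono fun k : ℕ => A.valuation (σ^[k] z) := by
      refine strictMono_nat_of_lt_succ fun k => ?_
      induction k with
      | zero => exact h
      | succ k ih =>
        rw [Function.iterate_succ_apply' σ (k + 1), Function.iterate_succ_apply' σ k]
        rw [Function.iterate_succ_apply' σ k] at ih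
        exact hmono (hne k) ih
    exact hij (hs.injective (congrArg A.valuation heq))

variable {R : Type*} [CommRing R] {S : Type*} [Field S] {L : Type*} [Field L] [DecidableEq L]
  [IsAlgClosed L] [Algebra R S] [Algebra R L] [Algebra S L] [IsScalarTower R S L]
  [Algebra.IsAlgebraic S L] {W : WeierstrassCurve.Affine R} {A : ValuationSubring L}
  {σ : L ≃ₐ[S] L}

lemma map_baseChange_algEquiv :
    WeierstrassCurve.map (W⁄L) ((σ : L →ₐ[S] L) : L →+* L) = (W⁄L) :=
  Affine.map_baseChange W (σ : L →ₐ[S] L)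

/-- An element fixing the residues commutes with the normal form. -/
lemma smul_iso_some (M : MultModel A (W⁄L)) (hσ : FixesResidues A σ) {x y : L}
    (h : (nodeModel M.w).toAffine.Nonsingular x y) :
    ∃ h', σ • (M.iso (.some x y h) : (W⁄L).Point) = M.iso (.some (σ x) (σ y) h') := by
  obtain ⟨hns, e⟩ := M.iso_some h
  obtain ⟨hC, -⟩ := M.fix ((σ : L →ₐ[S] L) : L →+* L) hσ map_baseChange_algEquiv
  obtain ⟨hns', e'⟩ := algEquiv_smul_some (σ := σ) hns
  have hu : σ (M.C.u : L) = M.C.u :=
    congrArg (fun C : WeierstrassCurve.VariableChange L => (C.u : L)) hC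
  have hr : σ M.C.r = M.C.r := congrArg WeierstrassCurve.VariableChange.r hC
  have hs : σ M.C.s = M.C.s := congrArg WeierstrassCurve.VariableChange.s hC
  have ht : σ M.C.t = M.C.t := congrArg WeierstrassCurve.VariableChange.t hC
  have hX : σ (vcX M.C x) = vcX M.C (σ x) := by simp [vcX, hu, hr]
  have hY : σ (vcY M.C x y) = vcY M.C (σ x) (σ y) := by simp [vcY, hu, hs, ht]
  have hm : (nodeModel M.w).toAffine.Nonsingular (σ x) (σ y) := by
    rw [← M.eq, ← vc_nonsingular_iff, ← hX, ← hY]
    exact hns'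
  refine ⟨hm, ?_⟩
  obtain ⟨hns'', e''⟩ := M.iso_some hm
  rw [e, e', e'', Affine.Point.some.injEq]
  exact ⟨hX, hY⟩

/-- Inertia does not change the component. -/
theorem comp_smul (M : MultModel A (W⁄L)) (hσ : FixesResidues A σ) (P : (W⁄L).Point) :
    M.comp (σ • P) = M.comp P := by
  obtain ⟨P, rfl⟩ := M.iso.surjective P
  rcases P with _ | ⟨x, y, h⟩
  · show M.comp (σ • M.iso 0) = M.comp (M.iso 0)
    rw [map_zero M.iso, smul_zero]
  obtain ⟨h', e⟩ := smul_iso_some M hσ h
  rw [e, M.comp_apply_iso, M.comp_apply_iso]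
  refine congrArg Additive.ofMul ?_
  show pval A M.w (σ x) (σ y) = pval A M.w x y
  have hv := valuation_algEquiv_eq (σ := σ) fun z => hσ.mem_iff
  simp only [pval, hv]
  split_ifs with h1 h2 h3
  · exact cls_eq_of_valuation_eq (fun h0 => by rw [← hv x, h0] at h2; simp at h2) (hv x)
  · refine cls_eq_of_valuation_eq ?_ (by rw [map_inv₀, map_inv₀, hv])
    exact inv_ne_zero fun h0 => by rw [← hv x, h0] at h2; simp at h2
  · rfl
  · rfl

/-- At a multiplicative place inertia moves every point by a point with nonsingular reduction. -/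
theorem inE0_smul_sub (hV : IntegralAt A (W⁄L)) (hc₄ : res A (W⁄L).c₄ ≠ 0)
    (hΔ : res A (W⁄L).Δ = 0) (hΔ0 : (W⁄L).Δ ≠ 0) (hσ : FixesResidues A σ) (P : (W⁄L).Point) :
    InE0 A (σ • P - P) := by
  obtain ⟨M⟩ := exists_multModel hV hc₄ hΔ hΔ0
  rw [M.sub_mem_iff_comp_eq hV]
  exact comp_smul M hσ P

/-- Inertia acts unipotently on the torsion prime to the residue characteristic. -/
theorem smul_smul_sub_eq (hV : IntegralAt A (W⁄L)) (hc₄ : res A (W⁄L).c₄ ≠ 0)
    (hΔ : res A (W⁄L).Δ = 0) (hΔ0 : (W⁄L).Δ ≠ 0) {τ : L ≃ₐ[S] L} (hσ : FixesResidues A σ)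
    (hτ : FixesResidues A τ) {n : ℕ} (hn : res A (n : L) ≠ 0) {P : (W⁄L).Point}
    (hP : n • P = 0) : τ • (σ • P - P) = σ • P - P := by
  refine smul_eq_self_of_inE0 hV hτ hn (inE0_smul_sub hV hc₄ hΔ hΔ0 hσ P) ?_
  rw [smul_sub n]
  show n • (DistribSMul.toAddMonoidHom (W⁄L).Point σ P) - n • P = 0
  rw [← map_nsmul, hP, _root_.map_zero, sub_zero]

/-- If the valuation of the discriminant is divisible by `p` through an element fixed by `σ`,
then inertia fixes the `p`-torsion. -/
theorem smul_eq_self_of_multiplicative (hV : IntegralAt A (W⁄L)) (hc₄ : res A (W⁄L).c₄ ≠ 0)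
    (hΔ : res A (W⁄L).Δ = 0) (hΔ0 : (W⁄L).Δ ≠ 0) (hσ : FixesResidues A σ) {p : ℕ}
    (hp : 3 ≤ p) (hn : res A (p : L) ≠ 0) {π : L}
    (hπ : A.valuation π ^ p = A.valuation (W⁄L).Δ) (hfix : σ π = π) {T : (W⁄L).Point}
    (hT : p • T = 0) : σ • T = T := by
  classical
  obtain ⟨M⟩ := exists_multModel hV hc₄ hΔ hΔ0
  rw [M.valuation_Δ] at hπ
  obtain ⟨x, y, h, hcomp, hxy⟩ := M.exists_point_comp hp hπ
  obtain ⟨-, hw⟩ := M.fix ((σ : L →ₐ[S] L) : L →+* L) hσ map_baseChange_algEquiv
  obtain ⟨hx, hy⟩ := hxy ((σ : L →ₐ[S] L) : L →+* L) hσ hfix hw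
  set P₁ : (W⁄L).Point := M.iso (.some x y h) with hP₁
  have hP₁fix : σ • P₁ = P₁ := by
    obtain ⟨h', e⟩ := smul_iso_some M hσ h
    rw [hP₁, e]
    congr 1
    rw [Affine.Point.some.injEq]
    exact ⟨hx, hy⟩
  obtain ⟨k, hk⟩ := M.exists_zsmul_eq_comp (by omega) hπ hT
  set D := T - k • P₁ with hD
  have hD0 : InE0 A D := by
    rw [hD, M.sub_mem_iff_comp_eq hV, map_zsmul, hcomp, hk]
  have hkP : σ • (k • P₁) = k • P₁ := by
    show DistribSMul.toAddMonoidHom (W⁄L).Point σ (k • P₁) = _
    rw [map_zsmul]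
    show k • (σ • P₁) = _
    rw [hP₁fix]
  have hσD : σ • T - T = σ • D - D := by rw [hD, smul_sub, hkP]; abel
  obtain ⟨h0, hr⟩ := redPt_smul hV hσ hD0
  have hsub : InE0 A (σ • T - T) := hσD ▸ (E0 hV).sub_mem h0 hD0
  rw [← sub_eq_zero]
  refine inE1_eq_zero_of_nsmul_eq_zero hV hn ((redPt_eq_zero_iff hsub).mp ?_) ?_
  · rw [hσD, sub_eq_add_neg, (inE0_add_and_redPt_add hV h0 (hV.inE0_neg hD0)).2,
      hV.redPt_neg hD0, hr, add_neg_cancel]
  · rw [smul_sub p]
    show p • (DistribSMul.toAddMonoidHom (W⁄L).Point σ T) - p • T = 0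
    rw [← map_nsmul, hT, _root_.map_zero, sub_zero]

end FermatLib.EC
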