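import Fermat.Agent.EC.FlatGood
import Fermat.Agent.EC.RedMultGalois

/-!
# Flatness of the `p`-torsion at a multiplicative prime with `p ∣ v(Δ)`

If `E` has multiplicative reduction and the valuation of `Δ` is the `p`-th power of the valuation
of an element fixed by inertia, every component meeting `E[p]` has an inertia-invariant point, so
`E[p]` is the group of points of a finite flat group scheme over `ℤ_(p)`.
-/

set_option autoImplicit false

noncomputable section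

open WeierstrassCurve
open scoped WeierstrassCurve.Affine

namespace FermatLib.EC.Flat

open FermatLib.Galois LocalDescent

local notation "Qbar" => AlgebraicClosure ℚ
local notation "Γℚ" => (AlgebraicClosure ℚ ≃ₐ[ℚ] AlgebraicClosure ℚ)

variable {W : WeierstrassCurve ℚ} {V : ValuationSubring (AlgebraicClosure ℚ)} {p : ℕ}

/-- **Finite Galois modules of `p`-torsion points at a multiplicative place with `p ∣ v(Δ)`.** -/
theorem hasModelAt_of_multiplicative (hp : p.Prime) (hp3 : 3 ≤ p) (hV : V.LiesOverPrime p)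
    (hW : IntegralAt V (W⁄Qbar)) (hc₄ : res V (W⁄Qbar).c₄ ≠ 0) (hΔ : res V (W⁄Qbar).Δ = 0)
    (hΔ0 : (W⁄Qbar).Δ ≠ 0) {π : Qbar} (hπ : V.valuation π ^ p = V.valuation (W⁄Qbar).Δ)
    (hfix : ∀ τ ∈ V.inertiaSubgroupIn ℚ, τ π = π) {M : Type} [AddCommGroup M]
    [DistribMulAction Γℚ M] [Finite M] (hM : HasLevel M) (ι : M →+ (W⁄Qbar).Point)
    (hι : Function.Injective ι) (hιact : ∀ (σ : Γℚ) (m : M), ι (σ • m) = σ • ι m)
    (hkill : ∀ m : M, p • m = 0) :
    FlatModel.HasModelAt p M (fun (σ : Γℚ) (m : M) => σ • m) := by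
  classical
  obtain ⟨N⟩ := exists_multModel hW hc₄ hΔ hΔ0
  rw [N.valuation_Δ] at hπ
  obtain ⟨x, y, h, hcomp, hxy⟩ := N.exists_point_comp hp3 hπ
  set P₁ : (W⁄Qbar).Point := N.iso (.some x y h) with hP₁
  have hP₁fix : ∀ τ ∈ V.inertiaSubgroupIn ℚ, τ • P₁ = P₁ := by
    intro τ hτ
    have hτr := fixesResidues_of_mem_inertia hτ
    obtain ⟨-, hw⟩ := N.fix ((τ : Qbar →ₐ[ℚ] Qbar) : Qbar →+* Qbar) hτr map_baseChange_algEquiv
    obtain ⟨hx, hy⟩ := hxy ((τ : Qbar →ₐ[ℚ] Qbar) : Qbar →+* Qbar) hτr (hfix τ hτ) hw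
    obtain ⟨h', e⟩ := smul_iso_some N hτr h
    rw [hP₁, e]
    congr 1
    rw [Affine.Point.some.injEq]
    exact ⟨hx, hy⟩
  set g := Additive.ofMul (cls V (N.w ^ 2) π)
  let F : Additive (CompGroup V (N.w ^ 2)) → (W⁄Qbar).Point := fun c =>
    if hc : ∃ k : ℤ, c = k • g then hc.choose • P₁ else 0
  have hcompP : N.comp P₁ = g := hcomp
  have hF : ∀ m, N.comp (F (N.comp (ι m))) = N.comp (ι m) := by
    intro m
    have hc : ∃ k : ℤ, N.comp (ι m) = k • g :=
      N.exists_zsmul_eq_comp hp.ne_zero hπ (by rw [← map_nsmul, hkill, map_zero])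
    simp only [F, dif_pos hc]
    rw [map_zsmul, hcompP]
    exact hc.choose_spec.symm
  refine TransData.hasModelAt hW hp hV (Ψ₂Sq_ne_zero (Or.inr (by rwa [hW.res_c₄]))) hM
    { emb := ι
      injective := hι
      equivariant := hιact
      pt := fun m => F (N.comp (ι m))
      inE0 := fun m => (N.sub_mem_iff_comp_eq hW).mpr (hF m).symm
      fixed := fun τ hτ m => ?_
      pt_congr := fun m n hmn => by rw [(N.sub_mem_iff_comp_eq hW).mp hmn] }
  simp only [F]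
  split_ifs with hc
  · rw [Affine.Point.algEquiv_smul_zsmul, hP₁fix τ hτ]
  · rfl

/-- **`E[p]` is finite flat at a multiplicative prime `p ≥ 3` dividing `v(Δ)`.** -/
theorem hasModelAt_torsionBy_of_multiplicative [W.IsElliptic] (hp : p.Prime) (hp3 : 3 ≤ p)
    (hV : V.LiesOverPrime p) (hW : IntegralAt V (W⁄Qbar)) (hc₄ : res V (W⁄Qbar).c₄ ≠ 0)
    (hΔ : res V (W⁄Qbar).Δ = 0) (hΔ0 : (W⁄Qbar).Δ ≠ 0) {π : Qbar}
    (hπ : V.valuation π ^ p = V.valuation (W⁄Qbar).Δ)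
    (hfix : ∀ τ ∈ V.inertiaSubgroupIn ℚ, τ π = π) :
    FlatModel.HasModelAt p (Submodule.torsionBy ℤ (W⁄Qbar).Point (p : ℤ))
      (fun (σ : Γℚ) (x : Submodule.torsionBy ℤ (W⁄Qbar).Point (p : ℤ)) => σ • x) :=
  have := finite_torsionBy W hp.ne_zero
  hasModelAt_of_multiplicative hp hp3 hV hW hc₄ hΔ hΔ0 hπ hfix (hasLevel_torsionBy W hp.ne_zero)
    (Submodule.torsionBy ℤ (W⁄Qbar).Point (p : ℤ)).subtype.toAddMonoidHom Subtype.val_injective
    (fun _ _ => rfl) fun x => Subtype.ext (by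
      rw [Submodule.coe_smul_of_tower, Submodule.coe_zero, ← natCast_zsmul]
      exact (Submodule.mem_torsionBy_iff _ _).mp x.2)

/-- The same for an integral model: `p ∣ Δ`, `p ∤ c₄` and `p ∣ v_p(Δ)`. -/
theorem hasModelAt_torsionBy_intCurve_of_multiplicative {W₀ : WeierstrassCurve ℤ}
    [(W₀.map (Int.castRingHom ℚ)).IsElliptic] (hp : p.Prime) (hp3 : 3 ≤ p)
    (hΔp : (p : ℤ) ∣ W₀.Δ) (hc₄ : ¬(p : ℤ) ∣ W₀.c₄) {j : ℕ} {u : ℤ} (hu : ¬(p : ℤ) ∣ u)
    (hΔ : W₀.Δ = (p : ℤ) ^ (p * j) * u) :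
    FlatModel.HasModelAt p
      (Submodule.torsionBy ℤ ((W₀.map (Int.castRingHom ℚ))⁄Qbar).Point (p : ℤ))
      (fun (σ : Γℚ) (x : Submodule.torsionBy ℤ
        ((W₀.map (Int.castRingHom ℚ))⁄Qbar).Point (p : ℤ)) => σ • x) := by
  obtain ⟨A, hA⟩ := FermatLib.Basic.exists_liesOverPrime hp
  refine hasModelAt_torsionBy_of_multiplicative hp hp3 hA (integralAt_intCurve W₀ A) ?_ ?_ ?_
    (π := (p : Qbar) ^ j) ?_ fun τ _ => by simp
  · rw [res_c₄_intCurve]
    exact (res_intCast_ne_zero_iff A hp hA _).mpr hc₄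
  · rw [res_Δ_intCurve]
    by_contra h
    exact (res_intCast_ne_zero_iff A hp hA _).mp h hΔp
  · rw [res_Δ_intCurve, Int.cast_ne_zero, hΔ]
    exact mul_ne_zero (pow_ne_zero _ (by exact_mod_cast hp.ne_zero)) fun h => hu (h ▸ dvd_zero _)
  · have hu1 : A.valuation (u : Qbar) = 1 :=
      (res_ne_zero_iff (intCast_mem_place u)).mp ((res_intCast_ne_zero_iff A hp hA u).mpr hu)
    rw [res_Δ_intCurve, hΔ]
    push_cast
    rw [map_mul, hu1, mul_one, map_pow, map_pow, ← pow_mul, mul_comm]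

end FermatLib.EC.Flat
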