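import Fermat.Agent.EC.RedGalois
import Mathlib.AlgebraicGeometry.EllipticCurve.Projective.Point

/-!
# Integral projective representatives of points with nonsingular reduction

`IsRep W p P`: the nonsingular vector `p` represents the point `P`. `IsGoodRep hV p P`: in
addition `p` is integral at the place and its reduction represents the reduction of `P`. Chord
addition `addXYZ` preserves good representatives when the reductions differ.
-/

set_option autoImplicit false

noncomputable section

open WeierstrassCurve
open scoped WeierstrassCurve.Projective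

namespace FermatLib.EC.Flat

section Field

variable {F : Type*} [Field F] {W : WeierstrassCurve F}

/-- `p` is a projective representative of `P`. -/
def IsRep (W : WeierstrassCurve F) (p : Fin 3 → F) (P : W.toAffine.Point) : Prop :=
  W.toProjective.Nonsingular p ∧ Projective.Point.toAffine W.toProjective p = P

/-- The standard representative. -/
def stdVec : W.toAffine.Point → Fin 3 → F
  | .zero => ![0, 1, 0]
  | .some x y _ => ![x, y, 1]

lemma isRep_stdVec (P : W.toAffine.Point) : IsRep W (stdVec P) P := by
  rcases P with _ | ⟨x, y, h⟩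
  · exact ⟨Projective.nonsingular_zero, Projective.Point.toAffine_zero⟩
  · exact ⟨(Projective.nonsingular_some x y).mpr h,
      Projective.Point.toAffine_some ((Projective.nonsingular_some x y).mpr h)⟩

lemma IsRep.exists_eq_smul {p : Fin 3 → F} {P : W.toAffine.Point} (h : IsRep W p P) :
    ∃ u : F, u ≠ 0 ∧ p = u • stdVec P := by
  obtain ⟨hp, rfl⟩ := h
  by_cases hz : p 2 = 0
  · obtain ⟨u, hu⟩ := Projective.equiv_zero_of_Z_eq_zero hp hz
    refine ⟨u, u.ne_zero, ?_⟩
    rw [Projective.Point.toAffine_of_Z_eq_zero hz]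
    exact hu.symm
  · obtain ⟨u, hu⟩ := Projective.equiv_some_of_Z_ne_zero hz
    refine ⟨u, u.ne_zero, ?_⟩
    rw [Projective.Point.toAffine_of_Z_ne_zero hp hz]
    exact hu.symm

lemma IsRep.ne_zero {p : Fin 3 → F} {P : W.toAffine.Point} (h : IsRep W p P) : p ≠ 0 := by
  obtain ⟨u, hu, rfl⟩ := h.exists_eq_smul
  intro h0
  rcases P with _ | ⟨x, y, hP⟩
  · have := congr_fun h0 1
    simp [stdVec, hu] at this
  · have := congr_fun h0 2
    simp [stdVec, hu] at this

lemma IsRep.smul {p : Fin 3 → F} {P : W.toAffine.Point} (h : IsRep W p P) {u : F} (hu : u ≠ 0) :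
    IsRep W (u • p) P :=
  ⟨(Projective.nonsingular_smul p hu.isUnit).mpr h.1,
    (Projective.Point.toAffine_smul p hu.isUnit).trans h.2⟩

lemma IsRep.neg {p : Fin 3 → F} {P : W.toAffine.Point} (h : IsRep W p P) :
    IsRep W (W.toProjective.neg p) (-P) :=
  ⟨Projective.nonsingular_neg h.1, (Projective.Point.toAffine_neg h.1).trans (congrArg _ h.2)⟩

lemma IsRep.point_eq {p q : Fin 3 → F} {P Q : W.toAffine.Point} (h : IsRep W p P)
    (h' : IsRep W q Q) {u : F} (hu : u ≠ 0) (e : p = u • q) : P = Q := by
  rw [← h.2, ← h'.2, e]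
  exact Projective.Point.toAffine_smul q hu.isUnit

lemma IsRep.add [DecidableEq F] {p q : Fin 3 → F} {P Q : W.toAffine.Point} (h : IsRep W p P)
    (h' : IsRep W q Q) (hne : P ≠ Q) : IsRep W (W.toProjective.addXYZ p q) (P + Q) := by
  have hne' : ¬p ≈ q := fun e => hne (by rw [← h.2, ← h'.2, Projective.Point.toAffine_of_equiv e])
  rw [← Projective.add_of_not_equiv hne']
  exact ⟨Projective.nonsingular_add h.1 h'.1, by
    rw [Projective.Point.toAffine_add h.1 h'.1, h.2, h'.2]⟩

end Field

section Place

variable {L : Type*} [Field L] {A : ValuationSubring L} {V : WeierstrassCurve L}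

/-- An integral representative with good reduction. -/
structure IsGoodRep (A : ValuationSubring L) (p : Fin 3 → L) (P : V.toAffine.Point) : Prop where
  inE0 : InE0 A P
  mem : ∀ i, p i ∈ A
  rep : IsRep V p P
  red : IsRep (redCurve A V) (fun i => res A (p i)) (redPt A P)

/-- Every point with nonsingular reduction has a good representative. -/
lemma exists_isGoodRep (hV : IntegralAt A V) {P : V.toAffine.Point} (hP : InE0 A P) :
    ∃ p, IsGoodRep A p P := by
  rcases P with _ | ⟨x, y, h⟩
  · refine ⟨![0, 1, 0], hP, fun i => ?_, isRep_stdVec (W := V) 0, ?_⟩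
    · fin_cases i <;> simp [zero_mem, one_mem]
    · convert! isRep_stdVec (W := redCurve A V) 0 using 1
      funext i; fin_cases i <;> simp [stdVec]
  by_cases hx : x ∈ A
  · obtain ⟨-, hy, hns⟩ := (inE0_some.mp hP).resolve_left (not_not_intro hx)
    refine ⟨![x, y, 1], hP, fun i => ?_, isRep_stdVec (W := V) (.some x y h), ?_⟩
    · fin_cases i <;> simp [hx, hy, one_mem]
    · rw [redPt_some hx hns]
      convert! isRep_stdVec (W := redCurve A V) (.some _ _ hns) using 1
      funext i; fin_cases i <;> simp [stdVec]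
  · obtain ⟨hη, hη0, hν, hν1⟩ := hV.inE1_aux h.1 hx
    obtain ⟨hr, hr0⟩ := inv_of_not_mem hx
    have hx0 : x ≠ 0 := fun h' => hx (h' ▸ A.zero_mem)
    have hy0 : y ≠ 0 := by
      rintro rfl
      simp at hν1
    have hνr : res A (y ^ 2 * x⁻¹ ^ 3) ≠ 0 := by rw [hν1]; exact one_ne_zero
    have h1 : x / y = y * x⁻¹ ^ 2 / (y ^ 2 * x⁻¹ ^ 3) := by field_simp
    have h2 : y⁻¹ = x⁻¹ * (y * x⁻¹ ^ 2) / (y ^ 2 * x⁻¹ ^ 3) := by field_simp
    have hm1 : x / y ∈ A := h1 ▸ div_mem_of_res_ne_zero hη hνr
    have hm2 : y⁻¹ ∈ A := h2 ▸ div_mem_of_res_ne_zero (mul_mem hr hη) hνr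
    refine ⟨![x / y, 1, y⁻¹], hP, fun i => ?_, ?_, ?_⟩
    · fin_cases i <;> simp [hm1, hm2, one_mem]
    · convert! (isRep_stdVec (W := V) (.some x y h)).smul (inv_ne_zero hy0) using 1
      funext i; fin_cases i <;> simp [stdVec, div_eq_inv_mul, hy0]
    · rw [redPt_of_inE1 (P := Affine.Point.some x y h) hx]
      convert! isRep_stdVec (W := redCurve A V) 0 using 1
      funext i
      have e1 : res A (x / y) = 0 := by rw [h1, res_div hη hνr, hη0, zero_div]
      have e2 : res A y⁻¹ = 0 := by
        rw [h2, res_div (mul_mem hr hη) hνr, res_mul hr hη, hη0, mul_zero, zero_div]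
      fin_cases i
      · simpa [stdVec] using e1
      · simp [stdVec]
      · simpa [stdVec] using e2

/-- The vector over the valuation ring. -/
def IsGoodRep.lift {p : Fin 3 → L} {P : V.toAffine.Point} (h : IsGoodRep A p P) : Fin 3 → A :=
  fun i => ⟨p i, h.mem i⟩

lemma IsGoodRep.residue_lift {p : Fin 3 → L} {P : V.toAffine.Point} (h : IsGoodRep A p P) :
    IsLocalRing.residue A ∘ h.lift = fun i => res A (p i) :=
  funext fun i => (res_of_mem (h.mem i)).symm

/-- Good representatives add by the chord formula when the reductions differ. -/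
lemma IsGoodRep.add [DecidableEq L] (hV : IntegralAt A V) {p q : Fin 3 → L}
    {P Q : V.toAffine.Point} (h : IsGoodRep A p P) (h' : IsGoodRep A q Q)
    (hne : redPt A P ≠ redPt A Q) : IsGoodRep A (V.toProjective.addXYZ p q) (P + Q) := by
  classical
  obtain ⟨hE0, hred⟩ := inE0_add_and_redPt_add hV h.inE0 h'.inE0
  have hL : V.toProjective.addXYZ p q =
      algebraMap A L ∘ hV.model.toProjective.addXYZ h.lift h'.lift :=
    Projective.map_addXYZ (f := algebraMap A L) (W' := hV.model.toProjective) h.lift h'.lift
  have hmem : ∀ i, V.toProjective.addXYZ p q i ∈ A := fun i => by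
    rw [hL]
    exact SetLike.coe_mem _
  refine ⟨hE0, hmem, h.rep.add h'.rep fun e => hne (by rw [e]), ?_⟩
  have hk : (redCurve A V).toProjective.addXYZ (fun i => res A (p i)) (fun i => res A (q i)) =
      fun i => res A (V.toProjective.addXYZ p q i) := by
    have := Projective.map_addXYZ (f := IsLocalRing.residue A) (W' := hV.model.toProjective)
      h.lift h'.lift
    rw [h.residue_lift, h'.residue_lift] at this
    rw [← hV.map_model_residue]
    refine this.trans (funext fun i => ?_)
    rw [Function.comp_apply, hL, Function.comp_apply]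
    exact (res_coe _).symm
  rw [hred, ← hk]
  exact h.red.add h'.red hne

/-- Negation of good representatives. -/
lemma IsGoodRep.neg (hV : IntegralAt A V) {p : Fin 3 → L} {P : V.toAffine.Point}
    (h : IsGoodRep A p P) : IsGoodRep A (V.toProjective.neg p) (-P) := by
  have hL : V.toProjective.neg p = algebraMap A L ∘ hV.model.toProjective.neg h.lift := by
    funext i
    fin_cases i <;> simp [Projective.neg, Projective.negY, IntegralAt.model, IsGoodRep.lift]
  have hk : (redCurve A V).toProjective.neg (fun i => res A (p i)) =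
      fun i => res A (V.toProjective.neg p i) := by
    funext i
    fin_cases i
    · rfl
    · simp only [Projective.neg, Projective.negY]
      have h1 : p 1 ∈ A := h.mem 1
      have h0 : p 0 ∈ A := h.mem 0
      have h2 : p 2 ∈ A := h.mem 2
      simp only [redCurve, toProjective]
      change -res A (p 1) - res A V.a₁ * res A (p 0) - res A V.a₃ * res A (p 2) =
        res A (-p 1 - V.a₁ * p 0 - V.a₃ * p 2)
      rw [res_sub (sub_mem (neg_mem h1) (mul_mem hV.a₁ h0)) (mul_mem hV.a₃ h2),
        res_sub (neg_mem h1) (mul_mem hV.a₁ h0), res_neg h1, res_mul hV.a₁ h0,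
        res_mul hV.a₃ h2]
    · rfl
  refine ⟨hV.inE0_neg h.inE0, fun i => by rw [hL]; exact SetLike.coe_mem _, h.rep.neg, ?_⟩
  rw [hV.redPt_neg h.inE0, ← hk]
  exact h.red.neg

end Place

end FermatLib.EC.Flat
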