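import Fermat.Agent.EC.RedBasic

/-!
# The points with nonsingular reduction form a subgroup, and reduction is a homomorphism
-/

set_option autoImplicit false
set_option linter.unusedSectionVars false

noncomputable section

namespace FermatLib.EC

open WeierstrassCurve

variable {L : Type*} [Field L] [DecidableEq L] {A : ValuationSubring L} {V : WeierstrassCurve L}

variable (hV : IntegralAt A V)
include hV

/-- Adding a point which reduces to infinity does not move an integral point modulo the place. -/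
lemma coord_add_inE1 {x₁ y₁ x₂ y₂ : L} (h₁ : V.toAffine.Equation x₁ y₁)
    (h₂ : V.toAffine.Equation x₂ y₂) (hx₁ : x₁ ∈ A) (hx₂ : x₂ ∉ A) :
    V.toAffine.addX x₁ x₂ (V.toAffine.slope x₁ x₂ y₁ y₂) ∈ A ∧
    res A (V.toAffine.addX x₁ x₂ (V.toAffine.slope x₁ x₂ y₁ y₂)) = res A x₁ ∧
    V.toAffine.addY x₁ x₂ y₁ (V.toAffine.slope x₁ x₂ y₁ y₂) ∈ A ∧
    res A (V.toAffine.addY x₁ x₂ y₁ (V.toAffine.slope x₁ x₂ y₁ y₂)) = res A y₁ := by
  have hy₁ := hV.mem_y h₁ hx₁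
  obtain ⟨hr, hr0⟩ := inv_of_not_mem hx₂
  have hne : x₁ ≠ x₂ := fun h => hx₂ (h ▸ hx₁)
  have hx₂0 : x₂ ≠ 0 := fun h => hx₂ (h ▸ A.zero_mem)
  obtain ⟨hη, hη0, hν, hν1⟩ := hV.inE1_aux h₂ hx₂
  rw [Affine.equation_iff] at h₁ h₂
  set r := x₂⁻¹ with hrdef
  set η := y₂ * r ^ 2 with hηdef
  set ν := y₂ ^ 2 * r ^ 3 with hνdef
  have hxr : x₂ * r = 1 := mul_inv_cancel₀ hx₂0
  -- coefficients of the addition formula
  set cy := -(2 * y₁ + V.a₁ * x₁ + V.a₃) with hcy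
  set cx := V.a₄ - V.a₁ * y₁ + 2 * V.a₂ * x₁ + 3 * x₁ ^ 2 with hcx
  set c0 := V.a₆ + y₁ ^ 2 + V.a₁ * x₁ * y₁ - V.a₂ * x₁ ^ 2 - 2 * x₁ ^ 3 with hc0
  have hcyA : cy ∈ A :=
    neg_mem (add_mem (add_mem (mul_mem (ofNat_mem_place 2) hy₁) (mul_mem hV.a₁ hx₁)) hV.a₃)
  have hcxA : cx ∈ A :=
    add_mem (add_mem (sub_mem hV.a₄ (mul_mem hV.a₁ hy₁))
      (mul_mem (mul_mem (ofNat_mem_place 2) hV.a₂) hx₁))
      (mul_mem (ofNat_mem_place 3) (pow_mem hx₁ 2))
  have hc0A : c0 ∈ A :=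
    sub_mem (sub_mem (add_mem (add_mem hV.a₆ (pow_mem hy₁ 2)) (mul_mem (mul_mem hV.a₁ hx₁) hy₁))
      (mul_mem hV.a₂ (pow_mem hx₁ 2))) (mul_mem (ofNat_mem_place 2) (pow_mem hx₁ 3))
  set N := cy * η + cx * r + c0 * r ^ 2 with hN
  have hNA : N ∈ A :=
    add_mem (add_mem (mul_mem hcyA hη) (mul_mem hcxA hr)) (mul_mem hc0A (pow_mem hr 2))
  have hN0 : res A N = 0 := by
    rw [hN, res_add (add_mem (mul_mem hcyA hη) (mul_mem hcxA hr)) (mul_mem hc0A (pow_mem hr 2)),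
      res_add (mul_mem hcyA hη) (mul_mem hcxA hr), res_mul hcyA hη, res_mul hcxA hr,
      res_mul hc0A (pow_mem hr 2), res_pow hr, hr0, hη0]
    simp
  set M := cy * ν + cx * η + c0 * (η * r) - y₁ * r * N with hM
  have hMA : M ∈ A :=
    sub_mem (add_mem (add_mem (mul_mem hcyA hν) (mul_mem hcxA hη))
      (mul_mem hc0A (mul_mem hη hr))) (mul_mem (mul_mem hy₁ hr) hNA)
  have hM0 : res A M = res A cy := by
    rw [hM, res_sub (add_mem (add_mem (mul_mem hcyA hν) (mul_mem hcxA hη))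
        (mul_mem hc0A (mul_mem hη hr))) (mul_mem (mul_mem hy₁ hr) hNA),
      res_add (add_mem (mul_mem hcyA hν) (mul_mem hcxA hη)) (mul_mem hc0A (mul_mem hη hr)),
      res_add (mul_mem hcyA hν) (mul_mem hcxA hη), res_mul hcyA hν, res_mul hcxA hη,
      res_mul hc0A (mul_mem hη hr), res_mul (mul_mem hy₁ hr) hNA, res_mul hη hr, hr0, hη0, hν1,
      hN0]
    simp
  set D := 1 - x₁ * r with hD
  have hDA : D ∈ A := sub_mem A.one_mem (mul_mem hx₁ hr)
  have hD1 : res A D = 1 := by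
    rw [hD, res_sub A.one_mem (mul_mem hx₁ hr), res_mul hx₁ hr, hr0, res_one, mul_zero, sub_zero]
  have hD2 : ∀ n : ℕ, res A (D ^ n) ≠ 0 := fun n => by
    rw [res_pow hDA, hD1, one_pow]; exact one_ne_zero
  have hD0 : D ≠ 0 := fun h => by rw [h, res_zero] at hD1; exact zero_ne_one hD1
  set x₃ := V.toAffine.addX x₁ x₂ (V.toAffine.slope x₁ x₂ y₁ y₂) with hx₃
  have hdiff : x₁ - x₂ ≠ 0 := sub_ne_zero.mpr hne
  have hdiff' : x₂ - x₁ ≠ 0 := sub_ne_zero.mpr hne.symm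
  have hDx : D = (x₂ - x₁) * r := by rw [hD]; linear_combination -hxr
  have hx₃eq : x₃ = x₁ + N / D ^ 2 := by
    rw [hx₃, Affine.slope_of_X_ne hne, hN, hcy, hcx, hc0, hDx, hηdef, hrdef]
    simp only [Affine.addX]
    field_simp
    linear_combination (x₁ - x₂) ^ 2 * h₂
  have hline : V.toAffine.slope x₁ x₂ y₁ y₂ * (x₃ - x₁) = M / D ^ 3 := by
    rw [hx₃eq, Affine.slope_of_X_ne hne, add_sub_cancel_left, hM, hN, hνdef, hDx, hηdef, hrdef]
    field_simp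
    ring
  have hx₃A : x₃ ∈ A := hx₃eq ▸ add_mem hx₁ (div_mem_of_res_ne_zero hNA (hD2 2))
  have hx₃r : res A x₃ = res A x₁ := by
    rw [hx₃eq, res_add hx₁ (div_mem_of_res_ne_zero hNA (hD2 2)), res_div hNA (hD2 2), hN0]
    simp
  have hlA : M / D ^ 3 + y₁ ∈ A := add_mem (div_mem_of_res_ne_zero hMA (hD2 3)) hy₁
  have hy₃ : V.toAffine.addY x₁ x₂ y₁ (V.toAffine.slope x₁ x₂ y₁ y₂)
      = V.toAffine.negY x₃ (M / D ^ 3 + y₁) := by
    rw [← hline]; rfl
  refine ⟨hx₃A, hx₃r, ?_, ?_⟩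
  · rw [hy₃]; exact hV.mem_negY hx₃A hlA
  · rw [hy₃, hV.res_negY hx₃A hlA, hx₃r, res_add (div_mem_of_res_ne_zero hMA (hD2 3)) hy₁,
      res_div hMA (hD2 3), hM0, res_pow hDA, hD1, one_pow, div_one, hcy,
      res_neg (add_mem (add_mem (mul_mem (ofNat_mem_place 2) hy₁) (mul_mem hV.a₁ hx₁)) hV.a₃),
      res_add (add_mem (mul_mem (ofNat_mem_place 2) hy₁) (mul_mem hV.a₁ hx₁)) hV.a₃,
      res_add (mul_mem (ofNat_mem_place 2) hy₁) (mul_mem hV.a₁ hx₁),
      res_mul (ofNat_mem_place 2) hy₁, res_mul hV.a₁ hx₁, res_ofNat]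
    simp only [Affine.negY, redCurve]
    ring

/-- An integral point plus a point reducing to infinity is integral with the same reduction. -/
lemma add_inE1_of_integral {x₁ y₁ : L} {h₁ : V.toAffine.Nonsingular x₁ y₁} (hx₁ : x₁ ∈ A)
    {Q : V.toAffine.Point} (hQ : InE1 A Q) :
    ∃ (x₃ y₃ : L) (h₃ : V.toAffine.Nonsingular x₃ y₃),
      Affine.Point.some x₁ y₁ h₁ + Q = .some x₃ y₃ h₃ ∧
      x₃ ∈ A ∧ res A x₃ = res A x₁ ∧ y₃ ∈ A ∧ res A y₃ = res A y₁ := by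
  cases Q with
  | zero =>
    exact ⟨x₁, y₁, h₁, add_zero (Affine.Point.some x₁ y₁ h₁), hx₁, rfl, hV.mem_y h₁.1 hx₁, rfl⟩
  | some x₂ y₂ h₂ =>
    have hne : x₁ ≠ x₂ := fun h => hQ (h ▸ hx₁)
    exact ⟨_, _, _, Affine.Point.add_of_X_ne hne, coord_add_inE1 hV h₁.1 h₂.1 hx₁ hQ⟩

/-- The points reducing to infinity are closed under addition. -/
lemma inE1_add {P Q : V.toAffine.Point} (hP : InE1 A P) (hQ : InE1 A Q) : InE1 A (P + Q) := by
  rcases hR : P + Q with _ | ⟨x, y, h⟩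
  · trivial
  · intro hx
    obtain ⟨x₃, y₃, h₃, he, hx₃, -⟩ :=
      add_inE1_of_integral hV (h₁ := h) hx (hV.inE1_neg hQ)
    rw [← hR, add_neg_cancel_right] at he
    rw [he] at hP
    exact hP hx₃

section

variable [DecidableEq (IsLocalRing.ResidueField A)]

/-- Key addition lemma for two integral points with nonsingular reduction. -/
lemma add_integral {x₁ y₁ x₂ y₂ : L} {h₁ : V.toAffine.Nonsingular x₁ y₁}
    {h₂ : V.toAffine.Nonsingular x₂ y₂} (hx₁ : x₁ ∈ A) (hx₂ : x₂ ∈ A)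
    (n₁ : (redCurve A V).toAffine.Nonsingular (res A x₁) (res A y₁))
    (n₂ : (redCurve A V).toAffine.Nonsingular (res A x₂) (res A y₂)) :
    InE0 A (Affine.Point.some x₁ y₁ h₁ + .some x₂ y₂ h₂) ∧
      redPt A (Affine.Point.some x₁ y₁ h₁ + .some x₂ y₂ h₂) =
        Affine.Point.some _ _ n₁ + .some _ _ n₂ := by
  have hy₁ := hV.mem_y h₁.1 hx₁
  have hy₂ := hV.mem_y h₂.1 hx₂
  have e₁ := (Affine.equation_iff _ _).mp h₁.1
  have e₂ := (Affine.equation_iff _ _).mp h₂.1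
  -- the numerator and the denominator of the chord-tangent slope
  set Nu := x₁ ^ 2 + x₁ * x₂ + x₂ ^ 2 + V.a₂ * (x₁ + x₂) + V.a₄ - V.a₁ * y₁ with hNu
  set De := y₁ + y₂ + V.a₁ * x₂ + V.a₃ with hDe
  have hs₁ : x₁ ^ 2 + x₁ * x₂ + x₂ ^ 2 + V.a₂ * (x₁ + x₂) ∈ A :=
    add_mem (add_mem (add_mem (pow_mem hx₁ 2) (mul_mem hx₁ hx₂)) (pow_mem hx₂ 2))
      (mul_mem hV.a₂ (add_mem hx₁ hx₂))
  have hNuA : Nu ∈ A := sub_mem (add_mem hs₁ hV.a₄) (mul_mem hV.a₁ hy₁)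
  have hDeA : De ∈ A := add_mem (add_mem (add_mem hy₁ hy₂) (mul_mem hV.a₁ hx₂)) hV.a₃
  have hresDe : res A De = res A y₁ - (redCurve A V).toAffine.negY (res A x₂) (res A y₂) := by
    rw [← hV.res_negY hx₂ hy₂, ← res_sub hy₁ (hV.mem_negY hx₂ hy₂)]
    congr 1
    simp only [Affine.negY, hDe]
    ring
  have hrel : (y₁ - y₂) * De = (x₁ - x₂) * Nu := by
    rw [hDe, hNu]; linear_combination e₁ - e₂
  have hslope : ¬(x₁ = x₂ ∧ y₁ = V.toAffine.negY x₂ y₂) →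
      V.toAffine.slope x₁ x₂ y₁ y₂ * De = Nu := by
    intro hxy
    by_cases hx : x₁ = x₂
    · have hy : y₁ ≠ V.toAffine.negY x₂ y₂ := fun h => hxy ⟨hx, h⟩
      obtain rfl := Affine.Y_eq_of_Y_ne h₁.1 h₂.1 hx hy
      subst hx
      have hd : De = y₁ - V.toAffine.negY x₁ y₁ := by simp only [hDe, Affine.negY]; ring
      rw [Affine.slope_of_Y_ne rfl hy, hd, div_mul_cancel₀ _ (sub_ne_zero.mpr hy), hNu]
      ring
    · rw [Affine.slope_of_X_ne hx, div_mul_eq_mul_div, hrel,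
        mul_div_cancel_left₀ _ (sub_ne_zero.mpr hx)]
  by_cases hxy' : res A x₁ = res A x₂ ∧ res A y₁ = (redCurve A V).toAffine.negY (res A x₂) (res A y₂)
  · -- the reductions are opposite
    obtain ⟨hxr, hyr⟩ := hxy'
    rw [Affine.Point.add_of_Y_eq hxr hyr]
    suffices h : InE1 A (Affine.Point.some x₁ y₁ h₁ + .some x₂ y₂ h₂) from
      ⟨h.inE0, redPt_of_inE1 h⟩
    by_cases hxy : x₁ = x₂ ∧ y₁ = V.toAffine.negY x₂ y₂
    · rw [Affine.Point.add_of_Y_eq hxy.1 hxy.2]; trivial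
    rw [Affine.Point.add_some hxy, inE1_some]
    intro hx₃
    set ℓ := V.toAffine.slope x₁ x₂ y₁ y₂ with hℓdef
    have hℓ : ℓ ∈ A := by
      refine mem_of_quadratic (x := ℓ) (b := V.a₁)
        (c := V.toAffine.addX x₁ x₂ ℓ + V.a₂ + x₁ + x₂) ?_ hV.a₁
        (add_mem (add_mem (add_mem hx₃ hV.a₂) hx₁) hx₂)
      simp only [Affine.addX]; ring
    have hy12 : res A y₁ = res A y₂ := by
      by_cases hx : x₁ = x₂
      · rw [Affine.Y_eq_of_Y_ne h₁.1 h₂.1 hx fun h => hxy ⟨hx, h⟩]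
      · have hmul : ℓ * (x₁ - x₂) = y₁ - y₂ := by
          rw [hℓdef, Affine.slope_of_X_ne hx, div_mul_cancel₀ _ (sub_ne_zero.mpr hx)]
        have := congrArg (res A) hmul
        rw [res_mul hℓ (sub_mem hx₁ hx₂), res_sub hx₁ hx₂, res_sub hy₁ hy₂, hxr, sub_self,
          mul_zero] at this
        exact sub_eq_zero.mp this.symm
    have hres0 := congrArg (res A) (hslope hxy)
    rw [res_mul hℓ hDeA, hresDe, hyr, sub_self, mul_zero, hNu,
      res_sub (add_mem hs₁ hV.a₄) (mul_mem hV.a₁ hy₁), res_add hs₁ hV.a₄,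
      res_add (add_mem (add_mem (pow_mem hx₁ 2) (mul_mem hx₁ hx₂)) (pow_mem hx₂ 2))
        (mul_mem hV.a₂ (add_mem hx₁ hx₂)),
      res_add (add_mem (pow_mem hx₁ 2) (mul_mem hx₁ hx₂)) (pow_mem hx₂ 2),
      res_add (pow_mem hx₁ 2) (mul_mem hx₁ hx₂), res_pow hx₁, res_pow hx₂, res_mul hx₁ hx₂,
      res_mul hV.a₂ (add_mem hx₁ hx₂), res_add hx₁ hx₂, res_mul hV.a₁ hy₁, hy12, hxr] at hres0
    rcases ((Affine.nonsingular_iff' _ _).mp n₂).2 with h | h
    · refine h ?_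
      simp only [redCurve]
      linear_combination hres0
    · refine h ?_
      simp only [Affine.negY, hy12] at hyr
      simp only [redCurve] at hyr ⊢
      linear_combination hyr
  · have hxy : ¬(x₁ = x₂ ∧ y₁ = V.toAffine.negY x₂ y₂) := fun h => hxy' ⟨by rw [h.1], by
      rw [h.2]; exact hV.res_negY hx₂ hy₂⟩
    rw [Affine.Point.add_some hxy']
    rw [Affine.Point.add_some hxy]
    set ℓ := V.toAffine.slope x₁ x₂ y₁ y₂ with hℓdef
    have hℓr : ℓ ∈ A ∧ res A ℓ =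
        (redCurve A V).toAffine.slope (res A x₁) (res A x₂) (res A y₁) (res A y₂) := by
      by_cases hx : res A x₁ = res A x₂
      · have hy : res A y₁ ≠ (redCurve A V).toAffine.negY (res A x₂) (res A y₂) :=
          fun h => hxy' ⟨hx, h⟩
        have hD : res A De ≠ 0 := by rw [hresDe]; exact sub_ne_zero.mpr hy
        have hy12 : res A y₁ = res A y₂ := Affine.Y_eq_of_Y_ne n₁.1 n₂.1 hx hy
        have hℓe : ℓ = Nu / De := by
          rw [eq_div_iff fun h => hD (by rw [h, res_zero]), hℓdef, hslope hxy]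
        rw [hℓe]
        refine ⟨div_mem_of_res_ne_zero hNuA hD, ?_⟩
        rw [res_div hNuA hD, Affine.slope_of_Y_ne hx hy, hresDe, hy12, hx, hNu,
          res_sub (add_mem hs₁ hV.a₄) (mul_mem hV.a₁ hy₁), res_add hs₁ hV.a₄,
          res_add (add_mem (add_mem (pow_mem hx₁ 2) (mul_mem hx₁ hx₂)) (pow_mem hx₂ 2))
            (mul_mem hV.a₂ (add_mem hx₁ hx₂)),
          res_add (add_mem (pow_mem hx₁ 2) (mul_mem hx₁ hx₂)) (pow_mem hx₂ 2),
          res_add (pow_mem hx₁ 2) (mul_mem hx₁ hx₂), res_pow hx₁, res_pow hx₂, res_mul hx₁ hx₂,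
          res_mul hV.a₂ (add_mem hx₁ hx₂), res_add hx₁ hx₂, res_mul hV.a₁ hy₁, hy12, hx]
        simp only [redCurve]
        ring
      · have hD : res A (x₁ - x₂) ≠ 0 := by rw [res_sub hx₁ hx₂]; exact sub_ne_zero.mpr hx
        have hℓe : ℓ = (y₁ - y₂) / (x₁ - x₂) :=
          Affine.slope_of_X_ne fun h => hx (by rw [h])
        rw [hℓe]
        refine ⟨div_mem_of_res_ne_zero (sub_mem hy₁ hy₂) hD, ?_⟩
        rw [res_div (sub_mem hy₁ hy₂) hD, Affine.slope_of_X_ne hx, res_sub hy₁ hy₂,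
          res_sub hx₁ hx₂]
    obtain ⟨hℓ, hℓr⟩ := hℓr
    have hs : ℓ ^ 2 + V.a₁ * ℓ ∈ A := add_mem (pow_mem hℓ 2) (mul_mem hV.a₁ hℓ)
    have hx₃ : V.toAffine.addX x₁ x₂ ℓ ∈ A :=
      sub_mem (sub_mem (sub_mem hs hV.a₂) hx₁) hx₂
    have hxr3 : res A (V.toAffine.addX x₁ x₂ ℓ)
        = (redCurve A V).toAffine.addX (res A x₁) (res A x₂) (res A ℓ) := by
      simp only [Affine.addX, redCurve]
      rw [res_sub (sub_mem (sub_mem hs hV.a₂) hx₁) hx₂, res_sub (sub_mem hs hV.a₂) hx₁,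
        res_sub hs hV.a₂, res_add (pow_mem hℓ 2) (mul_mem hV.a₁ hℓ), res_pow hℓ,
        res_mul hV.a₁ hℓ]
    have hny : V.toAffine.negAddY x₁ x₂ y₁ ℓ ∈ A :=
      add_mem (mul_mem hℓ (sub_mem hx₃ hx₁)) hy₁
    have hyr3 : res A (V.toAffine.addY x₁ x₂ y₁ ℓ)
        = (redCurve A V).toAffine.addY (res A x₁) (res A x₂) (res A y₁) (res A ℓ) := by
      unfold Affine.addY
      rw [hV.res_negY hx₃ hny, hxr3]
      congr 1
      unfold Affine.negAddY
      rw [res_add (mul_mem hℓ (sub_mem hx₃ hx₁)) hy₁, res_mul hℓ (sub_mem hx₃ hx₁),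
        res_sub hx₃ hx₁, hxr3]
    have hns := Affine.nonsingular_add n₁ n₂ hxy'
    rw [← hℓr, ← hxr3, ← hyr3] at hns
    refine ⟨Or.inr ⟨hx₃, hV.mem_negY hx₃ hny, hns⟩, ?_⟩
    rw [redPt_some hx₃ hns, Affine.Point.some.injEq]
    exact ⟨by rw [hxr3, hℓr], by rw [hyr3, hℓr]⟩

/-- Reduction is compatible with addition on points with nonsingular reduction. -/
lemma inE0_add_and_redPt_add {P Q : V.toAffine.Point} (hP : InE0 A P) (hQ : InE0 A Q) :
    InE0 A (P + Q) ∧ redPt A (P + Q) = redPt A P + redPt A Q := by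
  wlog h : InE1 A P → InE1 A Q generalizing P Q
  · rw [Classical.not_imp] at h
    have := this hQ hP fun hq => absurd hq h.2
    rw [add_comm P Q, add_comm (redPt A P)]
    exact this
  by_cases hQ1 : InE1 A Q
  · rw [redPt_of_inE1 hQ1, add_zero]
    by_cases hP1 : InE1 A P
    · have := inE1_add hV hP1 hQ1
      exact ⟨this.inE0, by rw [redPt_of_inE1 this, redPt_of_inE1 hP1]⟩
    cases P with
    | zero => exact absurd trivial hP1
    | some x₁ y₁ h₁ =>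
      obtain ⟨hx₁, hy₁, hns⟩ := hP.resolve_left hP1
      obtain ⟨x₃, y₃, h₃, he, hx₃, hxr, hy₃, hyr⟩ := add_inE1_of_integral hV (h₁ := h₁) hx₁ hQ1
      have hns' : (redCurve A V).toAffine.Nonsingular (res A x₃) (res A y₃) := by
        rwa [hxr, hyr]
      rw [he]
      refine ⟨Or.inr ⟨hx₃, hy₃, hns'⟩, ?_⟩
      rw [redPt_some hx₁ hns, redPt_some hx₃ hns', Affine.Point.some.injEq]
      exact ⟨hxr, hyr⟩
  · have hP1 : ¬InE1 A P := fun h' => hQ1 (h h')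
    cases P with
    | zero => exact absurd trivial hP1
    | some x₁ y₁ h₁ =>
      cases Q with
      | zero => exact absurd trivial hQ1
      | some x₂ y₂ h₂ =>
        obtain ⟨hx₁, -, n₁⟩ := hP.resolve_left hP1
        obtain ⟨hx₂, -, n₂⟩ := hQ.resolve_left hQ1
        rw [redPt_some hx₁ n₁, redPt_some hx₂ n₂]
        exact add_integral hV hx₁ hx₂ n₁ n₂

end

/-- The subgroup of points with nonsingular reduction. -/
def E0 : AddSubgroup V.toAffine.Point where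
  carrier := {P | InE0 A P}
  zero_mem' := trivial
  add_mem' {P Q} hP hQ := by
    classical
    exact (inE0_add_and_redPt_add (P := P) (Q := Q) hV hP hQ).1
  neg_mem' hP := hV.inE0_neg hP

/-- The subgroup of points reducing to infinity. -/
def E1 : AddSubgroup V.toAffine.Point where
  carrier := {P | InE1 A P}
  zero_mem' := trivial
  add_mem' hP hQ := inE1_add hV hP hQ
  neg_mem' hP := hV.inE1_neg hP

lemma mem_E0 {P : V.toAffine.Point} : P ∈ E0 hV ↔ InE0 A P := Iff.rfl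

/-- The reduction homomorphism. -/
def redHom [DecidableEq (IsLocalRing.ResidueField A)] : E0 hV →+ (redCurve A V).toAffine.Point where
  toFun P := redPt A P.1
  map_zero' := redPt_zero
  map_add' P Q := (inE0_add_and_redPt_add hV P.2 Q.2).2

lemma redHom_apply [DecidableEq (IsLocalRing.ResidueField A)] (P : E0 hV) : redHom hV P = redPt A P.1 := rfl

end FermatLib.EC
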