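import Fermat.Agent.EC.FlatChoices
import Fermat.Agent.EC.RedAdd

/-!
# Sums of families of integral representatives

Over a place of `ℚ̄`, the families of points with good representatives in a given algebra of
functions are closed under addition: an auxiliary point separates the reductions.
-/

set_option autoImplicit false

noncomputable section

open WeierstrassCurve

namespace FermatLib.EC.Flat

local notation "Qbar" => AlgebraicClosure ℚ

variable {p : ℕ} {V : ValuationSubring (AlgebraicClosure ℚ)}
  {W : WeierstrassCurve (AlgebraicClosure ℚ)} {ι : Type*} [Finite ι]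

/-- **Sums of families with integral representatives.** -/
theorem HasRep.add' (hV : V.LiesOverPrime p) (hp : p.Prime) (hW : IntegralAt V W)
    (hΨ : (redCurve V W).Ψ₂Sq ≠ 0) {T : Subalgebra V (ι → Qbar)} {F G : ι → W.toAffine.Point}
    (hF : HasRep T F) (hG : HasRep T G) : HasRep T (fun q => F q + G q) := by
  classical
  obtain ⟨a, ha0, haS, haD⟩ := exists_auxPoint hV hp hW hΨ
    (S := Set.range (fun q => redPt V (F q)) ∪ Set.range (fun q => -redPt V (G q)))
    (D := Set.range (fun q => redPt V (G q) - redPt V (F q)))
    ((Set.finite_range _).union (Set.finite_range _)) (Set.finite_range _)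
  simp only [Set.mem_union, Set.mem_range, not_or, not_exists] at haS haD
  have hconst : ∀ b : W.toAffine.Point, InE0 V b → HasRep T (fun _ : ι => b) := fun b hb =>
    hasRep_of_factor hW (fun _ => hb) fun g hg hgc => by
      rcases isEmpty_or_nonempty ι with h | ⟨⟨q₀⟩⟩
      · convert T.zero_mem
      · have : g = algebraMap V (ι → Qbar) ⟨g q₀, hg q₀⟩ := funext fun q => hgc q q₀ rfl
        rw [this]
        exact T.algebraMap_mem _
  have hA : HasRep T (fun q => F q + a) := hF.add hW (hconst a ha0) fun q => haS.1 q
  have hB : HasRep T (fun q => G q + -a) := hG.add hW (hconst _ (hW.inE0_neg ha0)) fun q h => by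
    rw [hW.redPt_neg ha0] at h
    exact haS.2 q (neg_eq_iff_eq_neg.mpr h)
  refine (hA.add hW hB fun q h => haD q ?_).congr fun q => by abel
  rw [(inE0_add_and_redPt_add hW (hF.inE0 q) ha0).2,
    (inE0_add_and_redPt_add hW (hG.inE0 q) (hW.inE0_neg ha0)).2, hW.redPt_neg ha0] at h
  linear_combination (norm := module) -h

end FermatLib.EC.Flat
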