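import Fermat.Agent.EC.FlatSum
import Fermat.Agent.EC.RedGalois
import Fermat.Agent.Galois.LocalModel
import Mathlib.FieldTheory.Galois.Basic

/-!
# Translates into the smooth locus

Finite Galois submodules `M` of the points of a Weierstrass curve over `ℚ`, integral at a place
`V`, together with inertia-invariant translations `m ↦ P m` into the points with nonsingular
reduction, and the algebra of functions they generate.
-/

set_option autoImplicit false

set_option linter.unusedSectionVars false

noncomputable section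

open WeierstrassCurve
open scoped WeierstrassCurve.Affine Pointwise

namespace FermatLib.EC.Flat

open FermatLib.Galois

local notation "Qbar" => AlgebraicClosure ℚ
local notation "Γℚ" => (AlgebraicClosure ℚ ≃ₐ[ℚ] AlgebraicClosure ℚ)

variable {W : WeierstrassCurve ℚ}

lemma map_apply_stdVec (σ : Γℚ) (P : (W⁄Qbar).Point) (i : Fin 3) :
    σ (stdVec P i) = stdVec (σ • P) i := by
  rcases P with _ | ⟨x, y, h⟩
  · rw [show σ • (Affine.Point.zero : (W⁄Qbar).Point) = .zero from rfl]
    fin_cases i <;> simp [stdVec]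
  · obtain ⟨h', e⟩ := algEquiv_smul_some (σ := σ) h
    rw [e]
    fin_cases i <;> simp [stdVec]

lemma map_apply_linForm (σ : Γℚ) (l v : Fin 3 → Qbar) :
    σ (linForm l v) = linForm (fun i => σ (l i)) (fun i => σ (v i)) := by
  simp [linForm]

lemma map_apply_coord (σ : Γℚ) (l : Fin 3 → Qbar) (P : (W⁄Qbar).Point) (i : Fin 3) :
    σ (coord l P i) = coord (fun j => σ (l j)) (σ • P) i := by
  simp only [coord, map_div₀, map_apply_linForm, map_apply_stdVec]

variable {V : ValuationSubring (AlgebraicClosure ℚ)}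

lemma apply_mem_iff_of_mem_decomposition {σ : Γℚ} (hσ : σ ∈ V.decompositionSubgroup ℚ)
    (x : Qbar) : σ x ∈ V ↔ x ∈ V := by
  refine ⟨fun h => ?_, LocalDescent.apply_mem_of_mem_decomposition V hσ⟩
  have := LocalDescent.apply_mem_of_mem_decomposition V
    ((V.decompositionSubgroup ℚ).inv_mem hσ) h
  rwa [show σ⁻¹ (σ x) = x from σ.symm_apply_apply x] at this

lemma res_apply_ne_zero {σ : Γℚ} (hσ : σ ∈ V.decompositionSubgroup ℚ) {x : Qbar}
    (hx : res V x ≠ 0) : res V (σ x) ≠ 0 := by
  intro h
  have hxV := mem_of_res_ne_zero hx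
  have h1 := LocalDescent.apply_mem_nonunits V ((V.decompositionSubgroup ℚ).inv_mem hσ)
    (mem_nonunits_iff_res.mpr ⟨LocalDescent.apply_mem_of_mem_decomposition V hσ hxV, h⟩)
  rw [show σ⁻¹ (σ x) = x from σ.symm_apply_apply x] at h1
  exact hx (mem_nonunits_iff_res.mp h1).2

/-- Good representatives may be scaled by units. -/
lemma IsGoodRep.smul {L : Type*} [Field L] {A : ValuationSubring L} {C : WeierstrassCurve L}
    {g : Fin 3 → L} {P : C.toAffine.Point} (hg : IsGoodRep A g P) {u : L} (hu : res A u ≠ 0) :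
    IsGoodRep A (u • g) P := by
  refine ⟨hg.inE0, fun i => mul_mem (mem_of_res_ne_zero hu) (hg.mem i),
    hg.rep.smul fun h => hu (by rw [h, res_zero]), ?_⟩
  convert! hg.red.smul hu using 1
  funext i
  exact res_mul (mem_of_res_ne_zero hu) (hg.mem i)

/-- Goodness of a linear form from any integral representative. -/
lemma isGoodForm_of_isRep {L : Type*} [Field L] {A : ValuationSubring L} {C : WeierstrassCurve L}
    (hC : IntegralAt A C) {l : Fin 3 → L} (hl : ∀ i, l i ∈ A) {q : Fin 3 → L}
    {P : C.toAffine.Point} (hP : InE0 A P) (hr : IsRep C q P) (hq : ∀ i, q i ∈ A)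
    (h : res A (linForm l q) ≠ 0) : IsGoodForm A l P := by
  have hlin : ∀ v : Fin 3 → L, (∀ i, v i ∈ A) →
      res A (linForm l v) = linForm (fun i => res A (l i)) (fun i => res A (v i)) := fun v hv => by
    simp only [linForm]
    rw [res_add (add_mem (mul_mem (hl 0) (hv 0)) (mul_mem (hl 1) (hv 1)))
      (mul_mem (hl 2) (hv 2)), res_add (mul_mem (hl 0) (hv 0)) (mul_mem (hl 1) (hv 1)),
      res_mul (hl 0) (hv 0), res_mul (hl 1) (hv 1), res_mul (hl 2) (hv 2)]
  obtain ⟨g, hg⟩ := exists_isGoodRep hC hP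
  obtain ⟨u₁, hu₁, e₁⟩ := hg.rep.exists_eq_smul
  obtain ⟨u₂, hu₂, e₂⟩ := hr.exists_eq_smul
  have eg : g = (u₁ / u₂) • q := by rw [e₂, smul_smul, div_mul_cancel₀ _ hu₂, e₁]
  obtain ⟨i, hi⟩ : ∃ i, res A (q i) ≠ 0 := by
    by_contra hall
    push Not at hall
    rw [hlin q hq] at h
    simp [linForm, hall] at h
  have hu : u₁ / u₂ ∈ A := by
    have hqi : q i ≠ 0 := fun e => hi (by rw [e, res_zero])
    have : u₁ / u₂ = g i / q i := by
      rw [eg, Pi.smul_apply, smul_eq_mul, mul_div_assoc, div_self hqi, mul_one]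
    rw [this]
    exact div_mem_of_res_ne_zero (hg.mem i) hi
  obtain ⟨v, hv, ev⟩ := hg.red.exists_eq_smul
  have hu0 : res A (u₁ / u₂) ≠ 0 := by
    intro h0
    refine hg.red.ne_zero (funext fun j => ?_)
    rw [eg, Pi.smul_apply, smul_eq_mul, res_mul hu (hq j), h0, zero_mul]
    rfl
  have hgl : res A (linForm l g) ≠ 0 := by
    rw [eg, linForm_smul, res_mul hu (mem_of_res_ne_zero h)]
    exact mul_ne_zero hu0 h
  intro hbad
  apply hgl
  rw [hlin g hg.mem, ev, linForm_smul, hbad, mul_zero]

/-! ## The data -/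

/-- A finite Galois module of points with inertia-invariant translations into the smooth part. -/
structure TransData (W : WeierstrassCurve ℚ) (V : ValuationSubring (AlgebraicClosure ℚ))
    (M : Type) [AddCommGroup M] [DistribMulAction Γℚ M] where
  emb : M →+ (W⁄Qbar).Point
  injective : Function.Injective emb
  equivariant : ∀ (σ : Γℚ) (m : M), emb (σ • m) = σ • emb m
  pt : M → (W⁄Qbar).Point
  inE0 : ∀ m, InE0 V (emb m - pt m)
  fixed : ∀ τ ∈ V.inertiaSubgroupIn ℚ, ∀ m, τ • pt m = pt m
  pt_congr : ∀ m n, InE0 V (emb m - emb n) → pt m = pt n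

namespace TransData

variable {M : Type} [AddCommGroup M] [DistribMulAction Γℚ M] (d : TransData W V M)
  (hW : IntegralAt V (W⁄Qbar))

/-- The translated point. -/
def translate (m : M) : (W⁄Qbar).Point := d.emb m - d.pt m

/-- Lying in the same translate. -/
def Rel (m n : M) : Prop := InE0 V (d.emb m - d.emb n)

lemma pt_eq_of_rel {m n : M} (h : d.Rel m n) : d.pt m = d.pt n := d.pt_congr m n h

include hW in
lemma inE0_sub {P Q : (W⁄Qbar).Point} (hP : InE0 V P) (hQ : InE0 V Q) : InE0 V (P - Q) :=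
  (E0 hW).sub_mem hP hQ

include hW in
lemma inE0_sum {P Q : (W⁄Qbar).Point} (hP : InE0 V P) (hQ : InE0 V Q) : InE0 V (P + Q) :=
  (E0 hW).add_mem hP hQ

lemma rel_refl (m : M) : d.Rel m m := by rw [Rel, sub_self]; exact inE0_zero

include hW in
lemma rel_symm {m n : M} (h : d.Rel m n) : d.Rel n m := by
  rw [Rel, ← neg_sub]; exact hW.inE0_neg h

include hW in
lemma rel_trans {m n k : M} (h : d.Rel m n) (h' : d.Rel n k) : d.Rel m k := by
  rw [Rel, ← sub_add_sub_cancel (d.emb m) (d.emb n)]; exact inE0_sum hW h h'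

include hW in
lemma rel_add {m n m' n' : M} (h : d.Rel m n) (h' : d.Rel m' n') :
    d.Rel (m + m') (n + n') := by
  rw [Rel, map_add, map_add, add_sub_add_comm]; exact inE0_sum hW h h'

include hW in
lemma rel_neg {m n : M} (h : d.Rel m n) : d.Rel (-m) (-n) := by
  have := hW.inE0_neg h
  rwa [Rel, map_neg, map_neg, ← neg_sub']

include hW in
lemma rel_smul {σ : Γℚ} (hσ : σ ∈ V.decompositionSubgroup ℚ) {m n : M} (h : d.Rel m n) :
    d.Rel (σ • m) (σ • n) := by
  rw [Rel, d.equivariant, d.equivariant, ← smul_sub σ (d.emb m) (d.emb n)]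
  exact (inE0_smul_iff hW (apply_mem_iff_of_mem_decomposition hσ)).mpr h

include hW in
lemma rel_inertia {τ : Γℚ} (hτ : τ ∈ V.inertiaSubgroupIn ℚ) (m : M) : d.Rel (τ • m) m := by
  have h0 := (redPt_smul hW (fixesResidues_of_mem_inertia hτ) (d.inE0 m)).1
  rw [smul_sub, d.fixed τ hτ, ← d.equivariant] at h0
  have := inE0_sub hW h0 (d.inE0 m)
  rwa [sub_sub_sub_cancel_right] at this

include hW in
lemma translate_inertia {τ : Γℚ} (hτ : τ ∈ V.inertiaSubgroupIn ℚ) (m : M) :
    d.translate (τ • m) = τ • d.translate m := by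
  rw [translate, translate, smul_sub, d.fixed τ hτ, d.equivariant,
    d.pt_eq_of_rel (d.rel_inertia hW hτ m)]

open Classical in
/-- The indicator of a translate. -/
def indicator (n : M) : M → Qbar := fun m => if d.Rel m n then 1 else 0

/-- The generators of the algebra of functions. -/
def gens (l : Fin 3 → Qbar) : Set (M → Qbar) :=
  Set.range d.indicator ∪ Set.range fun i m => coord l (d.translate m) i

/-- The algebra of functions. -/
def algebra (l : Fin 3 → Qbar) : Subalgebra V (M → Qbar) := Algebra.adjoin V (d.gens l)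

variable {l : Fin 3 → Qbar}

lemma indicator_mem (n : M) : d.indicator n ∈ d.algebra l :=
  Algebra.subset_adjoin (Or.inl ⟨n, rfl⟩)

lemma coord_translate_mem (i : Fin 3) : (fun m => coord l (d.translate m) i) ∈ d.algebra l :=
  Algebra.subset_adjoin (Or.inr ⟨i, rfl⟩)

variable [Finite M]

include hW in
/-- Functions constant on translates, in several variables. -/
lemma exists_sum_indicator :
    ∃ (s : Finset M), (∀ m, ∃! n, n ∈ s ∧ d.Rel m n) := by
  classical
  cases nonempty_fintype M
  let st : Setoid M := ⟨d.Rel, d.rel_refl, d.rel_symm hW, d.rel_trans hW⟩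
  refine ⟨Finset.univ.image fun m => (Quotient.mk st m).out, fun m =>
    ⟨(Quotient.mk st m).out, ⟨Finset.mem_image_of_mem _ (Finset.mem_univ m),
      d.rel_symm hW (Quotient.mk_out (s := st) m)⟩, ?_⟩⟩
  rintro n ⟨hn, hmn⟩
  obtain ⟨k, -, rfl⟩ := Finset.mem_image.mp hn
  congr 1
  exact Quotient.sound (s := st) (d.rel_symm hW (d.rel_trans hW hmn (Quotient.mk_out (s := st) k)))

include hW in
lemma mem_algebra_of_congr {g : M → Qbar} (hg : ∀ m, g m ∈ V)
    (hgc : ∀ m n, d.Rel m n → g m = g n) : g ∈ d.algebra l := by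
  classical
  obtain ⟨s, hs⟩ := d.exists_sum_indicator hW
  have : g = ∑ n ∈ s, (⟨g n, hg n⟩ : V) • d.indicator n := by
    funext m
    obtain ⟨n, ⟨hns, hmn⟩, huniq⟩ := hs m
    rw [Finset.sum_apply, Finset.sum_eq_single n]
    · simp [indicator, hmn, Algebra.smul_def, hgc m n hmn]
    · intro k hk hkn
      simp [indicator, show ¬d.Rel m k from fun h => hkn (huniq k ⟨hk, h⟩)]
    · exact fun h => absurd hns h
  rw [this]
  exact sum_mem fun n _ => Subalgebra.smul_mem _ (d.indicator_mem n) _

include hW in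
lemma hasRep_of_congr {F : M → (W⁄Qbar).Point} (hF : ∀ m, InE0 V (F m))
    (hFc : ∀ m n, d.Rel m n → F m = F n) : HasRep (d.algebra l) F :=
  hasRep_of_factor hW hF fun _ hg hgF =>
    d.mem_algebra_of_congr hW hg fun m n h => hgF m n (hFc m n h)

variable (hl : ∀ i, l i ∈ V) (hgood : ∀ m, IsGoodForm V l (d.translate m))

include hW hl hgood in
lemma hasRep_translate : HasRep (d.algebra l) d.translate := by
  refine ⟨fun m i => coord l (d.translate m) i, fun i => d.coord_translate_mem i, fun m => ?_⟩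
  obtain ⟨g, hg⟩ := exists_isGoodRep hW (d.inE0 m)
  have hlin := hg.res_linForm_ne_zero hl (hgood m)
  have e : (fun i => coord l (d.translate m) i) = (linForm l g)⁻¹ • g := by
    funext i
    rw [Pi.smul_apply, smul_eq_mul, ← div_eq_inv_mul]
    exact hg.coord_eq i
  change IsGoodRep V (fun i => coord l (d.translate m) i) _
  rw [e]
  refine hg.smul ?_
  intro h
  have h1 := inv_mem_of_res_ne_zero hlin
  have h2 : res V ((linForm l g)⁻¹ * linForm l g) = 1 := by
    rw [inv_mul_cancel₀ (fun h0 => hlin (by rw [h0, res_zero])), res_one]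
  rw [res_mul h1 (mem_of_res_ne_zero hlin), h, zero_mul] at h2
  exact zero_ne_one h2

end TransData

end FermatLib.EC.Flat
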