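import Fermat.Agent.EC.Frey05Reduction
import Mathlib.FieldTheory.IsAlgClosed.Basic
import Mathlib.Tactic.Abel

/-!
# Components of the multiplicative fibre of `Y² = X (X - d) (X - u)`, `v d < 1 = v u`

`InE0` is a subgroup; a point outside it with `v d < v X < 1` lies on one of two branches, and
the classes of these points modulo `InE0` multiply like `v X`. Consequently, if `v d = v δ ^ p`,
then a point of order `p` on a branch has `v X = v δ ^ j` for some `j`.
-/

set_option autoImplicit false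

open WeierstrassCurve WeierstrassCurve.Affine

namespace FermatLib.EC.Frey05

variable {L : Type*} [Field L] [DecidableEq L] {Γ : Type*} [LinearOrderedCommGroupWithZero Γ]
  {v : Valuation L Γ} {W : Affine L} {d u : L}

/-- Hypotheses of multiplicative reduction. -/
structure IsMult (v : Valuation L Γ) (W : Affine L) (d u : L) : Prop where
  std : IsStd W d u
  two : v 2 = 1
  vd : v d < 1
  vu : v u = 1
  d0 : d ≠ 0

namespace IsMult

variable (hM : IsMult v W d u)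
include hM

omit [DecidableEq L]

theorem two_ne : (2 : L) ≠ 0 := fun hz => by have := hM.two; simp [hz] at this

theorem u0 : u ≠ 0 := fun hz => by have := hM.vu; simp [hz] at this

theorem du_ne : d ≠ u := fun hz => by have h1 := hM.vd; rw [hz, hM.vu] at h1; exact lt_irrefl _ h1

theorem v_sub : v (u - d) = 1 := by
  rw [v.map_sub_eq_of_lt_left (hM.vu.symm ▸ hM.vd), hM.vu]

theorem nonsing {X Y : L} (h : Y ^ 2 = X * (X - d) * (X - u)) : W.Nonsingular X Y :=
  hM.std.nonsingular hM.d0 hM.u0 hM.du_ne h hM.two_ne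

theorem nonsing00 : W.Nonsingular 0 0 := hM.nonsing (by ring)

theorem nonsing_u : W.Nonsingular u 0 := hM.nonsing (by ring)

theorem val_sub_u {X : L} (hX : v X < 1) : v (X - u) = 1 := by
  rw [v.map_sub_eq_of_lt_right (hM.vu.symm ▸ hX), hM.vu]

theorem val_Y_pow_le {X Y : L} (h : W.Nonsingular X Y) (hX : 1 ≤ v X) :
    v Y ^ 2 ≤ v X ^ 3 := by
  rw [← map_pow, hM.std.eqn h, map_mul, map_mul, pow_three, mul_assoc]
  refine mul_le_mul' le_rfl (mul_le_mul' (v.map_sub_le le_rfl ?_) (v.map_sub_le le_rfl ?_))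
  · exact hM.vd.le.trans hX
  · rw [hM.vu]; exact hX

end IsMult

namespace IsMult

variable (hM : IsMult v W d u)
include hM

theorem inE0_sub {P Q : W.Point} (hP : InE0 v P) (hQ : InE0 v Q) : InE0 v (P - Q) := by
  intro Xr Yr hr hR
  by_contra hc
  push Not at hc
  have hQ' : Q = P + -Point.some Xr Yr hr := by rw [← hR]; abel
  obtain ⟨hr', hneg⟩ := hM.std.neg_coords hr
  rw [hneg] at hQ'
  rcases P with _ | ⟨Xp, Yp, hp⟩
  · rw [show (Point.zero : W.Point) = 0 from rfl, zero_add] at hQ'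
    exact absurd hc (not_lt.2 (hQ Xr (-Yr) hr' hQ'))
  · have hXp : 1 ≤ v Xp := hP Xp Yp hp rfl
    have hne : Xp ≠ Xr := fun hh => by rw [hh] at hXp; exact absurd hc (not_lt.2 hXp)
    obtain ⟨X₃, Y₃, s, h₃, he, hs, hX₃, -, hf⟩ := hM.std.add_coords hp hr' hne
    rw [he] at hQ'
    have hge : 1 ≤ v X₃ := hQ X₃ Y₃ h₃ hQ'
    have hXp0 : Xp ≠ 0 := fun hz => by simp [hz] at hXp
    rcases eq_or_ne Xr 0 with rfl | hXr0
    · have hYr : Yr = 0 := by
        have := hM.std.eqn hr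
        simpa using this
      subst hYr
      simp only [neg_zero, sub_zero] at hs
      have h3 : X₃ * Xp = d * u := by
        refine mul_right_cancel₀ hXp0 ?_
        rw [hX₃]
        linear_combination (s * Xp + Yp) * hs + hM.std.eqn hp
      have hlt : v (X₃ * Xp) < 1 := by rw [h3]; exact val_mul_lt_one' hM.vd hM.vu.le
      rw [map_mul] at hlt
      exact absurd hlt (not_lt.2 (one_le_mul hge hXp))
    · have hlt : v Xr < v Xp := lt_of_lt_of_le hc hXp
      have hval : v (Xp * Xr * (Xp - Xr) ^ 2) = v Xp ^ 3 * v Xr := by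
        rw [map_mul, map_mul, map_pow, v.map_sub_eq_of_lt_left hlt]
        simp only [pow_succ, pow_zero, one_mul]
        ac_rfl
      have hpos : 0 < v Xp ^ 3 * v Xr := by
        rw [← hval]
        exact v.pos_iff.2 (mul_ne_zero (mul_ne_zero hXp0 hXr0) (pow_ne_zero 2 (sub_ne_zero.2 hne)))
      have h1 : v ((Xr * Yp) ^ 2) < v Xp ^ 3 * v Xr := by
        rw [map_pow, map_mul, mul_pow, mul_comm]
        refine lt_of_le_of_lt (mul_le_mul' (hM.val_Y_pow_le hp hXp) le_rfl) ?_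
        refine mul_lt_mul_of_pos_left ?_ (pow_pos (zero_lt_one.trans_le hXp) 3)
        rw [pow_two]
        exact mul_lt_of_lt_one_left (v.pos_iff.2 hXr0) hc
      have h2 : v ((Xp * Yr) ^ 2) < v Xp ^ 3 * v Xr := by
        rw [mul_pow, hM.std.eqn hr, map_mul, map_mul, map_mul, map_pow, hM.val_sub_u hc, mul_one,
          show v Xp ^ 3 * v Xr = v Xp ^ 2 * (v Xr * v Xp) by
            simp only [pow_succ, pow_zero, one_mul]; ac_rfl]
        refine mul_lt_mul_of_pos_left (mul_lt_mul_of_pos_left ?_ (v.pos_iff.2 hXr0))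
          (pow_pos (zero_lt_one.trans_le hXp) 2)
        exact lt_of_lt_of_le (v.map_sub_lt hc hM.vd) hXp
      have h3 : v ((Xr * Yp - Xp * -Yr) ^ 2) < v Xp ^ 3 * v Xr := by
        rw [mul_neg, sub_neg_eq_add, map_pow]
        rw [map_pow] at h1 h2
        rcases le_max_iff.1 (v.map_add (Xr * Yp) (Xp * Yr)) with hh | hh
        · exact lt_of_le_of_lt (pow_le_pow_left' hh 2) h1
        · exact lt_of_le_of_lt (pow_le_pow_left' hh 2) h2
      rw [← hf, map_mul, hval] at h3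
      exact absurd h3 (not_lt.2 (le_mul_of_one_le_left' hge))

/-- The subgroup of points not reducing to the node. -/
def E0 : AddSubgroup W.Point :=
  AddSubgroup.ofSub {P | InE0 v P} ⟨0, inE0_zero⟩ (fun _ hP _ hQ => by
    simpa [sub_eq_add_neg] using hM.inE0_sub hP hQ)

theorem mem_E0 {P : W.Point} : P ∈ hM.E0 ↔ InE0 v P := Iff.rfl

end IsMult

/-- The branch selected by a square root `c` of `-u`, above valuation `a`. -/
def IsPlus (v : Valuation L Γ) (d c : L) (P : W.Point) (a : Γ) : Prop :=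
  ∃ (X Y : L) (h : W.Nonsingular X Y), P = Point.some X Y h ∧ v d < v X ∧ v X < 1 ∧ v X = a ∧
    v (Y - c * X) < v X

namespace IsMult

variable (hM : IsMult v W d u) {c : L} (hc : c ^ 2 = -u)
include hM hc

omit [DecidableEq L] in
theorem val_c : v c = 1 := by
  refine (pow_eq_one_iff_of_nonneg zero_le two_ne_zero).1 ?_
  rw [← map_pow, hc, Valuation.map_neg, hM.vu]

omit [DecidableEq L] in
theorem val_Y_of_plus {X Y : L} (h : v (Y - c * X) < v X) : v Y = v X := by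
  have hcX : v (c * X) = v X := by rw [map_mul, hM.val_c hc, one_mul]
  have := v.map_add_eq_of_lt_right (x := Y - c * X) (y := c * X) (hcX.symm ▸ h)
  rwa [sub_add_cancel, hcX] at this

theorem plus_sub_same {P Q : W.Point} {a : Γ} (hP : IsPlus v d c P a) (hQ : IsPlus v d c Q a) :
    InE0 v (P - Q) := by
  obtain ⟨X₁, Y₁, h₁, rfl, hd₁, hl₁, ha₁, hs₁⟩ := hP
  obtain ⟨X₂, Y₂, h₂, rfl, hd₂, hl₂, ha₂, hs₂⟩ := hQ
  obtain ⟨h₂', hneg⟩ := hM.std.neg_coords h₂
  rw [sub_eq_add_neg, hneg]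
  have hX₁0 : X₁ ≠ 0 := fun hz => by simp [hz] at hd₁
  have hX₂0 : X₂ ≠ 0 := fun hz => by simp [hz] at hd₂
  have ha : v X₁ = v X₂ := ha₁.trans ha₂.symm
  by_cases hX : X₁ = X₂
  · subst hX
    rcases Y_eq_of_X_eq h₁.1 h₂.1 rfl with hY | hY
    · rw [Point.add_of_Y_eq rfl (by rw [hM.std.negY_eq, neg_neg]; exact hY)]
      exact inE0_zero
    · exfalso
      rw [hM.std.negY_eq] at hY
      have := v.map_add_lt hs₁ hs₂
      rw [show Y₁ - c * X₁ + (Y₂ - c * X₁) = -(2 * (c * X₁)) by rw [hY]; ring,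
        Valuation.map_neg, map_mul, map_mul, hM.two, hM.val_c hc, one_mul, one_mul] at this
      exact lt_irrefl _ this
  · obtain ⟨X₃, Y₃, s, h₃, he, -, -, -, hf⟩ := hM.std.add_coords h₁ h₂' hX
    rw [he, inE0_some]
    by_contra hlt
    push Not at hlt
    have hnum : v (X₂ * Y₁ - X₁ * -Y₂) = v X₁ * v X₂ := by
      have hbig : v (2 * c * (X₁ * X₂)) = v X₁ * v X₂ := by
        rw [map_mul, map_mul, hM.two, hM.val_c hc, one_mul, one_mul, map_mul]
      rw [show X₂ * Y₁ - X₁ * -Y₂ =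
        2 * c * (X₁ * X₂) + (X₂ * (Y₁ - c * X₁) + X₁ * (Y₂ - c * X₂)) by ring,
        v.map_add_eq_of_lt_left ?_, hbig]
      rw [hbig]
      refine v.map_add_lt ?_ ?_
      · rw [map_mul, mul_comm (v X₁)]
        exact mul_lt_mul_of_pos_left hs₁ (v.pos_iff.2 hX₂0)
      · rw [map_mul]
        exact mul_lt_mul_of_pos_left hs₂ (v.pos_iff.2 hX₁0)
    have hval := congrArg v hf
    rw [map_mul, map_pow, hnum, map_mul, map_mul, map_pow] at hval
    have hsub : v (X₁ - X₂) ≤ v X₁ := v.map_sub_le le_rfl ha.ge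
    have hle : v X₁ * v X₂ * v (X₁ - X₂) ^ 2 ≤ (v X₁ * v X₂) ^ 2 := by
      rw [pow_two (v X₁ * v X₂)]
      refine mul_le_mul' le_rfl ?_
      rw [← ha, ← pow_two]
      exact pow_le_pow_left' hsub 2
    have hpos : 0 < v X₁ * v X₂ * v (X₁ - X₂) ^ 2 :=
      mul_pos (mul_pos (v.pos_iff.2 hX₁0) (v.pos_iff.2 hX₂0))
        (pow_pos (v.pos_iff.2 (sub_ne_zero.2 hX)) 2)
    exact absurd (hval.symm.trans_lt (mul_lt_of_lt_one_left hpos hlt)) (not_lt.2 hle)

theorem plus_sub {P Q : W.Point} {a b e : Γ} (hP : IsPlus v d c P a) (hQ : IsPlus v d c Q b)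
    (hab : a < b) (he : e * b = a) : IsPlus v d c (P - Q) e := by
  obtain ⟨X₁, Y₁, h₁, rfl, hd₁, hl₁, rfl, hs₁⟩ := hP
  obtain ⟨X₂, Y₂, h₂, rfl, hd₂, hl₂, rfl, hs₂⟩ := hQ
  obtain ⟨h₂', hneg⟩ := hM.std.neg_coords h₂
  have hX₁0 : X₁ ≠ 0 := fun hz => by simp [hz] at hd₁
  have hX₂0 : X₂ ≠ 0 := fun hz => by simp [hz] at hd₂
  have hp₁ : 0 < v X₁ := v.pos_iff.2 hX₁0
  have hp₂ : 0 < v X₂ := v.pos_iff.2 hX₂0
  have hne : X₁ ≠ X₂ := fun hh => hab.ne (by rw [hh])
  obtain ⟨X₃, Y₃, s, h₃, hadd, hs, hX₃, hY₃, hf⟩ := hM.std.add_coords h₁ h₂' hne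
  have hdiff : v (X₁ - X₂) = v X₂ := v.map_sub_eq_of_lt_right hab
  have hnum : v (X₂ * Y₁ - X₁ * -Y₂) = v X₁ * v X₂ := by
    have hbig : v (2 * c * (X₁ * X₂)) = v X₁ * v X₂ := by
      rw [map_mul, map_mul, hM.two, hM.val_c hc, one_mul, one_mul, map_mul]
    rw [show X₂ * Y₁ - X₁ * -Y₂ =
      2 * c * (X₁ * X₂) + (X₂ * (Y₁ - c * X₁) + X₁ * (Y₂ - c * X₂)) by ring,
      v.map_add_eq_of_lt_left ?_, hbig]
    rw [hbig]
    refine v.map_add_lt ?_ ?_
    · rw [map_mul, mul_comm (v X₁)]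
      exact mul_lt_mul_of_pos_left hs₁ hp₂
    · rw [map_mul]
      exact mul_lt_mul_of_pos_left hs₂ hp₁
  have hvX₃ : v X₃ = e := by
    have hval := congrArg v hf
    rw [map_mul, map_pow, hnum, map_mul, map_mul, map_pow, hdiff] at hval
    refine mul_right_cancel₀ (mul_ne_zero (mul_ne_zero hp₁.ne' hp₂.ne') (pow_ne_zero 2 hp₂.ne'))
      (hval.trans ?_)
    rw [show e * (v X₁ * v X₂ * v X₂ ^ 2) = e * v X₂ * (v X₁ * (v X₂ * v X₂)) by
      simp only [pow_two]; ac_rfl, he]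
    simp only [pow_two]; ac_rfl
  have hlow : v X₁ < e := by
    rw [← he]
    refine mul_lt_of_lt_one_right ?_ hl₂
    exact lt_of_le_of_ne zero_le fun hz => hp₁.ne (by rw [← he, ← hz, zero_mul])
  have he1 : e < 1 := by
    by_contra hh
    push Not at hh
    exact absurd hab (not_lt.2 (he ▸ le_mul_of_one_le_left' hh))
  refine ⟨X₃, Y₃, h₃, by rw [sub_eq_add_neg, hneg, hadd], hvX₃.symm ▸ hd₁.trans hlow,
    hvX₃.symm ▸ he1, hvX₃, ?_⟩
  have hs' : v (s + c) < 1 := by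
    have hsmall : v ((s + c) * (X₁ - X₂)) < v X₂ := by
      rw [show (s + c) * (X₁ - X₂) = (Y₁ - c * X₁) + (Y₂ - c * X₂) + 2 * (c * X₁) by
        linear_combination hs]
      refine v.map_add_lt (v.map_add_lt (hs₁.trans hab) hs₂) ?_
      rw [map_mul, map_mul, hM.two, hM.val_c hc, one_mul, one_mul]
      exact hab
    rw [map_mul, hdiff] at hsmall
    by_contra hh
    push Not at hh
    exact absurd hsmall (not_lt.2 (le_mul_of_one_le_left' hh))
  have hsle : v s ≤ 1 := val_le_one_of_sub_lt (x := s) (y := -c) (by rwa [sub_neg_eq_add])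
    (by rw [Valuation.map_neg, hM.val_c hc])
  rw [hY₃, show -(s * (X₃ - X₁) + Y₁) - c * X₃ = -((s + c) * X₃ + (Y₁ - s * X₁)) by ring,
    Valuation.map_neg, hvX₃]
  refine v.map_add_lt ?_ ?_
  · rw [map_mul, hvX₃]
    refine mul_lt_of_lt_one_left ?_ hs'
    exact hp₁.trans hlow
  · refine lt_of_le_of_lt (v.map_sub_le (hM.val_Y_of_plus hc hs₁).le ?_) hlow
    rw [map_mul]
    exact mul_le_of_le_one_left' hsle

omit hc in
theorem plus_translate {P : W.Point} {a b : Γ} (hP : IsPlus v d c P a) (hab : b * a = v d) :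
    IsPlus v d c (-(P + Point.some 0 0 hM.nonsing00)) b := by
  obtain ⟨X, Y, h, rfl, hd, hl, rfl, hs⟩ := hP
  have hX0 : X ≠ 0 := fun hz => by simp [hz] at hd
  have hp : 0 < v X := v.pos_iff.2 hX0
  obtain ⟨h₃, he⟩ := hM.std.add_zeroRoot h hM.nonsing00 hX0
  obtain ⟨h₃', hneg⟩ := hM.std.neg_coords h₃
  have hvX₃ : v (d * u / X) = b := by
    refine mul_right_cancel₀ hp.ne' ?_
    rw [hab, ← map_mul, div_mul_cancel₀ _ hX0, map_mul, hM.vu, mul_one]
  have hb0 : 0 < b := by rw [← hvX₃]; exact v.pos_iff.2 (div_ne_zero (mul_ne_zero hM.d0 hM.u0) hX0)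
  have hb1 : b < 1 := by
    by_contra hh
    push Not at hh
    exact absurd hd (not_lt.2 (hab ▸ le_mul_of_one_le_left' hh))
  refine ⟨d * u / X, _, h₃', by rw [he, hneg], ?_, hvX₃.symm ▸ hb1, hvX₃, ?_⟩
  · rw [hvX₃, ← hab]
    exact mul_lt_of_lt_one_right hb0 hl
  · rw [show -(-(d * u * Y / X ^ 2)) - c * (d * u / X) = (d * u / X) * ((Y - c * X) / X) by
      field_simp, map_mul, map_div₀, map_div₀]
    refine mul_lt_of_lt_one_right ?_ ((div_lt_one₀ hp).2 hs)
    rw [← map_div₀, hvX₃]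
    exact hb0

theorem plus_dbl {P : W.Point} {a : Γ} (hP : IsPlus v d c P a) : ¬ InE0 v (P + P) := by
  obtain ⟨X, Y, h, rfl, hd, hl, rfl, hs⟩ := hP
  have hX0 : X ≠ 0 := fun hz => by simp [hz] at hd
  have hp : 0 < v X := v.pos_iff.2 hX0
  have hvY : v Y = v X := hM.val_Y_of_plus hc hs
  have hY0 : Y ≠ 0 := fun hz => by rw [hz, map_zero] at hvY; exact hp.ne hvY
  obtain ⟨X₃, Y₃, s, h₃, he, -, -, hf⟩ := hM.std.dbl_coords hM.two_ne h hY0
  rw [he, inE0_some, not_le]
  have hnum : v (X ^ 2 - d * u) < v X := v.map_sub_lt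
    (by rw [map_pow, pow_two]; exact mul_lt_of_lt_one_left hp hl)
    (by rw [map_mul, hM.vu, mul_one]; exact hd)
  have hval := congrArg v hf
  rw [map_mul, map_pow, show (4 : L) * Y ^ 2 = (2 * Y) ^ 2 by ring, map_pow, map_mul, hM.two,
    one_mul, hvY] at hval
  by_contra hh
  push Not at hh
  exact absurd (hval ▸ pow_lt_pow_left₀ hnum zero_le two_ne_zero)
    (not_lt.2 (le_mul_of_one_le_left' hh))

variable [IsAlgClosed L]

omit [DecidableEq L] in
theorem plus_exists {ξ : L} (hd : v d < v ξ) (hl : v ξ < 1) :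
    ∃ (Y : L) (h : W.Nonsingular ξ Y), IsPlus v d c (Point.some ξ Y h) (v ξ) := by
  have hξ : ξ ≠ 0 := fun hz => by simp [hz] at hd
  have hp : 0 < v ξ := v.pos_iff.2 hξ
  obtain ⟨s, hs⟩ := IsAlgClosed.exists_pow_nat_eq ((1 - d / ξ) * (ξ - u)) two_pos
  have hsmall : v ((s - c) * (s + c)) < 1 := by
    rw [show (s - c) * (s + c) = ξ - (d / ξ) * (ξ - u) by linear_combination hs - hc]
    refine v.map_sub_lt hl ?_
    rw [map_mul, hM.val_sub_u hl, mul_one, map_div₀]
    exact (div_lt_one₀ hp).2 hd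
  have hsign : ∃ t : L, t ^ 2 = s ^ 2 ∧ v (t - c) < 1 := by
    by_contra hcon
    push Not at hcon
    have h1 := hcon s rfl
    have h2 := hcon (-s) (by ring)
    rw [show -s - c = -(s + c) by ring, Valuation.map_neg] at h2
    rw [map_mul] at hsmall
    exact absurd hsmall (not_lt.2 (one_le_mul h1 h2))
  obtain ⟨t, ht, htc⟩ := hsign
  have heq : (t * ξ) ^ 2 = ξ * (ξ - d) * (ξ - u) := by
    rw [mul_pow, ht, hs]
    field_simp
  refine ⟨t * ξ, hM.nonsing heq, ξ, t * ξ, hM.nonsing heq, rfl, hd, hl, rfl, ?_⟩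
  rw [show t * ξ - c * ξ = (t - c) * ξ by ring, map_mul]
  exact mul_lt_of_lt_one_left hp htc

theorem plus_pow {ξ : L} {P : W.Point} (hP : IsPlus v d c P (v ξ)) :
    ∀ n : ℕ, 1 ≤ n → v d < v ξ ^ n →
      ∃ Q : W.Point, IsPlus v d c Q (v ξ ^ n) ∧ Q - n • P ∈ hM.E0 := by
  obtain ⟨X, Y, h, rfl, hd, hl, ha, hs⟩ := id hP
  rw [ha] at hd hl
  intro n hn
  induction n, hn using Nat.le_induction with
  | base => intro _; exact ⟨_, (pow_one (v ξ)).symm ▸ hP, by simp [hM.mem_E0, inE0_zero]⟩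
  | succ n hn ih =>
    intro hlt
    have hpos : 0 < v ξ := zero_le.trans_lt hd
    have hlt' : v d < v ξ ^ n := hlt.trans (by
      rw [pow_succ]; exact mul_lt_of_lt_one_right (pow_pos hpos n) hl)
    obtain ⟨Q, hQ, hQP⟩ := ih hlt'
    obtain ⟨Y', h', hR⟩ := hM.plus_exists hc (ξ := ξ ^ (n + 1)) (by rwa [map_pow])
      (by rw [map_pow]; exact pow_lt_one' hl (Nat.succ_ne_zero n))
    rw [map_pow] at hR
    refine ⟨_, hR, ?_⟩
    have hdiff := hM.plus_sub hc hR hQ
      (by rw [pow_succ]; exact mul_lt_of_lt_one_right (pow_pos hpos n) hl) (e := v ξ)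
      (by rw [pow_succ'])
    have hmem := hM.mem_E0.2 (hM.plus_sub_same hc hdiff hP)
    have := add_mem hmem hQP
    convert this using 1
    rw [succ_nsmul]; abel

/-- A point of odd prime order on a branch has `v X` a power of `v δ` when `v d = v δ ^ p`. -/
theorem plus_torsion {p : ℕ} (hp : 2 ≤ p) {δ : L} (hδ : v d = v δ ^ p) {T : W.Point} {a : Γ}
    (hT : IsPlus v d c T a) (hpT : p • T = 0) : ∃ j : ℕ, a = v δ ^ j := by
  obtain ⟨X, Y, h, rfl, hd, hl, rfl, hs⟩ := id hT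
  have hp0 : p ≠ 0 := by omega
  have hδ1 : v δ < 1 := by
    by_contra hh
    push Not at hh
    exact absurd hM.vd (not_lt.2 (hδ ▸ one_le_pow_of_one_le' hh p))
  have hδ0 : 0 < v δ := by
    rcases (zero_le (a := v δ)).lt_or_eq with h0 | h0
    · exact h0
    · exact absurd (v.pos_iff.2 hM.d0) (by rw [hδ, ← h0, zero_pow hp0]; exact lt_irrefl _)
  have hδd : v d < v δ := by
    rw [hδ]
    exact pow_lt_self_of_lt_one₀ hδ0 hδ1 (by omega)
  set j := Nat.findGreatest (fun j => v X ≤ v δ ^ j) p with hj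
  have hj1 : v X ≤ v δ ^ j := Nat.findGreatest_spec (P := fun j => v X ≤ v δ ^ j) (m := 0)
    (Nat.zero_le p) (by simp [hl.le])
  have hjp : j < p := lt_of_le_of_ne (Nat.findGreatest_le p) fun hh => by
    rw [hh, ← hδ] at hj1; exact absurd hd (not_lt.2 hj1)
  have hj2 : v δ ^ (j + 1) < v X := not_le.1 <| Nat.findGreatest_is_greatest
    (P := fun j => v X ≤ v δ ^ j) (n := p) (by omega) (by omega)
  rcases hj1.lt_or_eq with hjlt | hjeq
  swap
  · exact ⟨j, hjeq⟩
  exfalso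
  have hδne : δ ≠ 0 := v.pos_iff.1 hδ0
  set η := X / δ ^ j with hη
  have hvη : v η * v δ ^ j = v X := by
    rw [hη, map_div₀, map_pow, div_mul_cancel₀]; exact pow_ne_zero j hδ0.ne'
  have hη1 : v η < 1 := by
    rw [hη, map_div₀, map_pow]; exact (div_lt_one₀ (pow_pos hδ0 j)).2 hjlt
  have hηδ : v δ < v η := by
    by_contra hh
    push Not at hh
    have := mul_le_mul' hh (le_refl (v δ ^ j))
    rw [hvη, ← pow_succ'] at this
    exact absurd hj2 (not_lt.2 this)
  obtain ⟨Yδ, hδns, hPδ⟩ := hM.plus_exists hc hδd hδ1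
  obtain ⟨Yη, hηns, hPη⟩ := hM.plus_exists hc (hδd.trans hηδ) hη1
  set Pδ : W.Point := Point.some δ Yδ hδns
  set Pη : W.Point := Point.some η Yη hηns
  set O : W.Point := Point.some 0 0 hM.nonsing00
  -- `2 p` kills the class of `Pδ`
  have hO : O + O = 0 := Point.add_of_Y_eq rfl (by simp [negY, hM.std.a₁, hM.std.a₃])
  have h2δ : (p • Pδ) + (p • Pδ) ∈ hM.E0 := by
    obtain ⟨Q, hQ, hQP⟩ := hM.plus_pow hc hPδ (p - 1) (by omega) (by
      rw [hδ]; exact pow_lt_pow_right_of_lt_one₀ hδ0 hδ1 (by omega))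
    have hQ' := hM.plus_translate hQ (b := v δ)
      (by rw [hδ, ← pow_succ', Nat.sub_add_cancel (by omega)])
    have h1 := hM.mem_E0.2 (hM.plus_sub_same hc hQ' hPδ)
    have h2 : -(p • Pδ) - O ∈ hM.E0 := by
      have := add_mem h1 hQP
      convert this using 1
      rw [show p • Pδ = (p - 1) • Pδ + Pδ by rw [← succ_nsmul, Nat.sub_add_cancel (by omega)]]
      abel
    have := neg_mem (add_mem h2 h2)
    rw [show -(-(p • Pδ) - O + (-(p • Pδ) - O)) = p • Pδ + p • Pδ + (O + O) by abel, hO,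
      add_zero] at this
    exact this
  -- decomposition of `T`
  have hdec : Point.some X Y h - j • Pδ - Pη ∈ hM.E0 := by
    rcases Nat.eq_zero_or_pos j with hj0 | hjpos
    · rw [hj0, zero_nsmul, sub_zero]
      refine hM.mem_E0.2 (hM.plus_sub_same hc hT ?_)
      rw [hj0, pow_zero, mul_one] at hvη
      rwa [← hvη]
    · obtain ⟨Q, hQ, hQP⟩ := hM.plus_pow hc hPδ j hjpos (by
        rw [hδ]; exact pow_lt_pow_right_of_lt_one₀ hδ0 hδ1 hjp)
      have h1 := hM.mem_E0.2 (hM.plus_sub_same hc (hM.plus_sub hc hT hQ hjlt hvη) hPη)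
      have := add_mem h1 hQP
      convert this using 1
      abel
  -- conclusion
  obtain ⟨Q, hQ, hQP⟩ := hM.plus_pow hc hPη p (by omega)
    (by rw [hδ]; exact pow_lt_pow_left₀ hηδ zero_le hp0)
  refine hM.plus_dbl hc hQ (hM.mem_E0.1 ?_)
  have h1 := hM.E0.nsmul_mem hdec p
  have h2 := hM.E0.nsmul_mem h2δ j
  have h3 := neg_mem (add_mem (add_mem h1 h1) h2)
  have h4 := add_mem (add_mem hQP hQP) h3
  convert h4 using 1
  rw [nsmul_sub, nsmul_sub, hpT, nsmul_add, ← mul_nsmul', mul_comm p j, mul_nsmul']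
  abel

end IsMult

end FermatLib.EC.Frey05
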