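import Fermat.Agent.EC.Frey05Component

/-!
# Inertia fixes the `p`-torsion of `Y² = X (X - d) (X - u)`

Either in the good case `v d = v u = v (u - d) = 1`, or in the multiplicative case
`v u = 1 > v d` with `v d = v δ ^ p` for some fixed element `δ`.
-/

set_option autoImplicit false

open WeierstrassCurve WeierstrassCurve.Affine

namespace FermatLib.EC.Frey05

variable {L : Type*} [Field L] [DecidableEq L] {Γ : Type*} [LinearOrderedCommGroupWithZero Γ]
  {v : Valuation L Γ} {W : Affine L} {d u : L}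

omit [DecidableEq L] in
theorem val_three_sq_le_one {X : L} (h2 : v 2 ≤ 1) (hX : v X ≤ 1) {a b : L} (ha : v a ≤ 1)
    (hb : v b ≤ 1) : v (3 * X + a - 2 * b) ≤ 1 :=
  v.map_sub_le (v.map_add_le (val_mul_le_one (by simpa using val_natCast_le_one (v := v) 3) hX) ha)
    (val_mul_le_one h2 hb)

section Main

variable {σ : L →+* L} {φ : W.Point →+ W.Point} {p : ℕ}

/-- The shape of `φ (T) - T` forces it to vanish. -/
theorem sub_eq_zero_of_inE1 (hW : IsStd W d u) (hd : v d ≤ 1) (hu : v u ≤ 1) (h2 : v 2 = 1)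
    (hp : p.Prime) (hp2 : p ≠ 2) (hvp : v (p : L) = 1) {T : W.Point} (hpT : p • T = 0)
    (h : InE1 v (φ T - T)) : φ T = T :=
  sub_eq_zero.1 <| eq_zero_of_inE1 hW hd hu h2 hp hp2 hvp h
    (by rw [nsmul_sub, ← map_nsmul, hpT, map_zero, sub_zero])

/-- Good reduction. -/
theorem fixed_of_good (hW : IsStd W d u) (hd : v d = 1) (hu : v u = 1) (hud : v (u - d) = 1)
    (h2 : v 2 = 1) (hp : p.Prime) (hp2 : p ≠ 2) (hvp : v (p : L) = 1)
    (hσu : σ u = u) (hσ : ∀ x : L, v x ≤ 1 → v (σ x - x) < 1)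
    (hφ : ∀ (X Y : L) (h : W.Nonsingular X Y),
      ∃ h', φ (Point.some X Y h) = Point.some (σ X) (σ Y) h')
    {T : W.Point} (hpT : p • T = 0) : φ T = T := by
  have h2L : (2 : L) ≠ 0 := fun hz => by simp [hz] at h2
  have hd0 : d ≠ 0 := fun hz => by simp [hz] at hd
  have hu0 : u ≠ 0 := fun hz => by simp [hz] at hu
  have hdu0 : d ≠ u := fun hz => by simp [hz] at hud
  have hT : W.Nonsingular u 0 := hW.nonsingular hd0 hu0 hdu0 (by ring) h2L
  refine sub_eq_zero_of_inE1 hW hd.le hu.le h2 hp hp2 hvp hpT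
    (inE1_sub hW hd.le hu hud h2 hσu hσ hφ hT T fun X Y h _ => ?_)
  by_cases hX : 1 < v X
  · exact Or.inl hX
  push Not at hX
  right
  by_cases hY : v Y = 1
  · exact Or.inl hY
  right
  have e := hW.eqn h
  have hYle : v Y ≤ 1 := by
    refine (pow_le_one_iff_of_nonneg zero_le two_ne_zero).1 ?_
    rw [← map_pow, e]
    exact val_mul_le_one (val_mul_le_one hX (v.map_sub_le hX hd.le)) (v.map_sub_le hX hu.le)
  have hlt : v (X * (X - d) * (X - u)) < 1 := by
    rw [← e, map_pow]; exact pow_lt_one' (lt_of_le_of_ne hYle hY) two_ne_zero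
  rcases lt_or_ge (v X) 1 with h1 | h1
  · refine val_eq_one_of_sub_lt (y := d * u) ?_ (by rw [map_mul, hd, hu, one_mul])
    rw [show 3 * X ^ 2 - 2 * (d + u) * X + d * u - d * u = X * (3 * X + 0 - 2 * (d + u)) by ring]
    exact val_mul_lt_one' h1
      (val_three_sq_le_one h2.le hX (by simp) (v.map_add_le hd.le hu.le))
  rcases lt_or_ge (v (X - d)) 1 with h3 | h3
  · refine val_eq_one_of_sub_lt (y := d * (d - u)) ?_
      (by rw [map_mul, hd, v.map_sub_swap, hud, one_mul])
    rw [show 3 * X ^ 2 - 2 * (d + u) * X + d * u - d * (d - u) =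
      (X - d) * (3 * X + d - 2 * u) by ring]
    exact val_mul_lt_one' h3 (val_three_sq_le_one h2.le hX hd.le hu.le)
  rcases lt_or_ge (v (X - u)) 1 with h4 | h4
  · refine val_eq_one_of_sub_lt (y := u * (u - d)) ?_ (by rw [map_mul, hu, hud, one_mul])
    rw [show 3 * X ^ 2 - 2 * (d + u) * X + d * u - u * (u - d) =
      (X - u) * (3 * X + u - 2 * d) by ring]
    exact val_mul_lt_one' h4 (val_three_sq_le_one h2.le hX hu.le hd.le)
  rw [map_mul, map_mul] at hlt
  exact absurd hlt (not_lt.2 (one_le_mul (one_le_mul h1 h3) h4))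

variable [IsAlgClosed L]

/-- Multiplicative reduction with `v d` a `p`-th power. -/
theorem fixed_of_mult (hM : IsMult v W d u) {δ : L} (hδ : v d = v δ ^ p) (hσδ : σ δ = δ)
    (hp : p.Prime) (hp2 : p ≠ 2) (hvp : v (p : L) = 1)
    (hσd : σ d = d) (hσu : σ u = u) (hσ : ∀ x : L, v x ≤ 1 → v (σ x - x) < 1)
    (hφ : ∀ (X Y : L) (h : W.Nonsingular X Y),
      ∃ h', φ (Point.some X Y h) = Point.some (σ X) (σ Y) h')
    {T : W.Point} (hpT : p • T = 0) : φ T = T := by
  obtain ⟨c, hc⟩ := IsAlgClosed.exists_pow_nat_eq (-u) two_pos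
  have hE0 : ∀ U : W.Point, InE0 v U → InE1 v (φ U - U) := fun U hU =>
    inE1_sub hM.std hM.vd.le hM.vu hM.v_sub hM.two hσu hσ hφ hM.nonsing_u U fun X Y h hUe => by
      have hX : 1 ≤ v X := hU X Y h hUe
      rcases hX.lt_or_eq with hX | hX
      · exact Or.inl hX
      right
      have e := hM.std.eqn h
      have hXd : v (X - d) = 1 := by
        rw [v.map_sub_eq_of_lt_left (hX ▸ hM.vd), ← hX]
      rcases lt_or_ge (v (X - u)) 1 with h4 | h4
      · right
        refine val_eq_one_of_sub_lt (y := u * (u - d)) ?_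
          (by rw [map_mul, hM.vu, hM.v_sub, one_mul])
        rw [show 3 * X ^ 2 - 2 * (d + u) * X + d * u - u * (u - d) =
          (X - u) * (3 * X + u - 2 * d) by ring]
        exact val_mul_lt_one' h4 (val_three_sq_le_one hM.two.le hX.ge hM.vu.le hM.vd.le)
      · left
        refine (pow_eq_one_iff_of_nonneg zero_le two_ne_zero).1 ?_
        rw [← map_pow, e, map_mul, map_mul, ← hX, hXd, one_mul, one_mul]
        exact le_antisymm (v.map_sub_le hX.ge hM.vu.le) h4
  have hplus : ∀ (U : W.Point) (a : Γ), p • U = 0 → IsPlus v d c U a → φ U = U := by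
    intro U a hpU hU
    obtain ⟨j, rfl⟩ := hM.plus_torsion hc hp.two_le hδ hU hpU
    obtain ⟨Xu, Yu, hu', -, hlo, hhi, hval, -⟩ := id hU
    rw [hval, ← map_pow] at hlo hhi
    obtain ⟨Y, hns, hQ⟩ := hM.plus_exists hc hlo hhi
    rw [map_pow] at hQ
    have hQfix : φ (Point.some (δ ^ j) Y hns) = Point.some (δ ^ j) Y hns := by
      obtain ⟨h', he'⟩ := hφ (δ ^ j) Y hns
      have hσX : σ (δ ^ j) = δ ^ j := by rw [map_pow, hσδ]
      rw [he']
      suffices σ Y = Y by simp [hσX, this]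
      have hX0 : δ ^ j ≠ 0 := fun hz => by simp [hz] at hlo
      have e := hM.std.eqn hns
      have e' : σ Y ^ 2 = δ ^ j * (δ ^ j - d) * (δ ^ j - u) := by
        rw [← map_pow, e]
        simp only [map_mul, map_sub, hσX, hσd, hσu]
      rcases eq_or_eq_neg_of_sq_eq_sq (σ Y) Y (e'.trans e.symm) with hh | hh
      · exact hh
      exfalso
      obtain ⟨X', Y', h'', hQe, -, -, -, hsm⟩ := hQ
      simp only [Point.some.injEq] at hQe
      obtain ⟨rfl, rfl⟩ := hQe
      have hvY : v (Y / δ ^ j) = 1 := by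
        rw [map_div₀, hM.val_Y_of_plus hc hsm, div_self (v.ne_zero_iff.2 hX0)]
      have := hσ _ hvY.le
      rw [map_div₀, hσX, hh, show -Y / δ ^ j - Y / δ ^ j = -(2 * (Y / δ ^ j)) by ring,
        Valuation.map_neg, map_mul, hM.two, one_mul, hvY] at this
      exact lt_irrefl _ this
    refine sub_eq_zero_of_inE1 hM.std hM.vd.le hM.vu.le hM.two hp hp2 hvp hpU ?_
    have := hE0 _ (hM.plus_sub_same hc hU hQ)
    rw [map_sub, hQfix] at this
    simpa using this
  rcases T with _ | ⟨X, Y, h⟩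
  · exact map_zero φ
  rcases le_or_gt 1 (v X) with hX | hX
  · exact sub_eq_zero_of_inE1 hM.std hM.vd.le hM.vu.le hM.two hp hp2 hvp hpT
      (hE0 _ (inE0_some.2 hX))
  rcases le_or_gt (v X) (v d) with hXd | hXd
  · have hO : φ (Point.some 0 0 hM.nonsing00) = Point.some 0 0 hM.nonsing00 := by
      obtain ⟨h', he'⟩ := hφ 0 0 hM.nonsing00
      simp [he']
    rcases eq_or_ne X 0 with rfl | hX0
    · have hY : Y = 0 := by simpa using hM.std.eqn h
      subst hY
      exact hO
    obtain ⟨h₃, he⟩ := hM.std.add_zeroRoot h hM.nonsing00 hX0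
    refine sub_eq_zero_of_inE1 hM.std hM.vd.le hM.vu.le hM.two hp hp2 hvp hpT ?_
    have := hE0 (Point.some X Y h + Point.some 0 0 hM.nonsing00) (by
      rw [he, inE0_some, map_div₀, map_mul, hM.vu, mul_one]
      exact (one_le_div₀ (v.pos_iff.2 hX0)).2 hXd)
    rw [map_add, hO, add_sub_add_right_eq_sub] at this
    exact this
  have hX0 : X ≠ 0 := fun hz => by simp [hz] at hXd
  have hp' : 0 < v X := v.pos_iff.2 hX0
  have hsmall : v ((Y - c * X) * (Y + c * X)) < v X * v X := by
    rw [show (Y - c * X) * (Y + c * X) = X * (X * X - d * (X - u)) by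
      linear_combination hM.std.eqn h - X ^ 2 * hc, map_mul]
    refine mul_lt_mul_of_pos_left (v.map_sub_lt ?_ ?_) hp'
    · rw [map_mul]; exact mul_lt_of_lt_one_left hp' hX
    · rw [map_mul, hM.val_sub_u hX, mul_one]; exact hXd
  by_cases hs : v (Y - c * X) < v X
  · exact hplus _ _ hpT ⟨X, Y, h, rfl, hXd, hX, rfl, hs⟩
  · push Not at hs
    obtain ⟨h', hn⟩ := hM.std.neg_coords h
    have hs' : v (-Y - c * X) < v X := by
      rw [show -Y - c * X = -(Y + c * X) by ring, Valuation.map_neg]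
      by_contra hh
      push Not at hh
      rw [map_mul] at hsmall
      exact absurd hsmall (not_lt.2 (mul_le_mul' hs hh))
    have hneg := hplus (-Point.some X Y h) (v X) (by rw [smul_neg, hpT, neg_zero])
      (hn ▸ ⟨X, -Y, h', rfl, hXd, hX, rfl, hs'⟩)
    rwa [map_neg, neg_inj] at hneg

end Main

end FermatLib.EC.Frey05
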