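import Mathlib.AlgebraicGeometry.EllipticCurve.Affine.Point
import Mathlib.Tactic.LinearCombination
import Mathlib.Tactic.FieldSimp
import Mathlib.Tactic.Ring

/-!
# Formulas for the model `Y² = X (X - d) (X - u)`

Explicit addition, duplication and translation formulas used in the proof of S05.
-/

set_option autoImplicit false

open WeierstrassCurve WeierstrassCurve.Affine

namespace FermatLib.EC.Frey05

/-- The curve `W` is `Y² = X (X - d) (X - u)`. -/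
structure IsStd {L : Type*} [Field L] (W : Affine L) (d u : L) : Prop where
  a₁ : W.a₁ = 0
  a₂ : W.a₂ = -(d + u)
  a₃ : W.a₃ = 0
  a₄ : W.a₄ = d * u
  a₆ : W.a₆ = 0

variable {L : Type*} [Field L] {W : Affine L} {d u : L}

namespace IsStd

theorem eqn (hW : IsStd W d u) {X Y : L} (h : W.Nonsingular X Y) :
    Y ^ 2 = X * (X - d) * (X - u) := by
  have h' := (W.equation_iff X Y).1 h.1
  rw [hW.a₁, hW.a₂, hW.a₃, hW.a₄, hW.a₆] at h'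
  linear_combination h'

theorem negY_eq (hW : IsStd W d u) (X Y : L) : W.negY X Y = -Y := by
  simp [negY, hW.a₁, hW.a₃]

theorem nonsingular (hW : IsStd W d u) (h0 : d ≠ 0) (h1 : u ≠ 0) (h2 : d ≠ u) {X Y : L}
    (h : Y ^ 2 = X * (X - d) * (X - u)) (h2L : (2 : L) ≠ 0) : W.Nonsingular X Y := by
  refine (W.nonsingular_iff X Y).2 ⟨(W.equation_iff X Y).2 ?_, ?_⟩
  · rw [hW.a₁, hW.a₂, hW.a₃, hW.a₄, hW.a₆]
    linear_combination h
  · rw [hW.a₁, hW.a₂, hW.a₃, hW.a₄]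
    by_contra hcon
    push Not at hcon
    obtain ⟨hX, hY⟩ := hcon
    have hY0 : Y = 0 :=
      (mul_eq_zero.1 (by linear_combination hY : (2 : L) * Y = 0)).resolve_left h2L
    subst hY0
    have hX' : (0 : L) = (X - d) * (X - u) + X * (X - u) + X * (X - d) := by
      linear_combination hX
    have hroot : X * (X - d) * (X - u) = 0 := by linear_combination -h
    rcases mul_eq_zero.1 hroot with hc | hc
    · rcases mul_eq_zero.1 hc with hc | hc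
      · subst hc
        exact mul_ne_zero h0 h1 (by linear_combination -hX')
      · obtain rfl := sub_eq_zero.1 hc
        exact mul_ne_zero h0 (sub_ne_zero.2 h2) (by linear_combination -hX')
    · obtain rfl := sub_eq_zero.1 hc
      exact mul_ne_zero h1 (sub_ne_zero.2 (Ne.symm h2)) (by linear_combination -hX')

theorem neg_coords (hW : IsStd W d u) {X Y : L} (h : W.Nonsingular X Y) :
    ∃ h' : W.Nonsingular X (-Y), -Point.some X Y h = Point.some X (-Y) h' := by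
  have h' : W.Nonsingular X (-Y) := hW.negY_eq X Y ▸ (W.nonsingular_neg X Y).2 h
  refine ⟨h', ?_⟩
  rw [Point.neg_some]
  simp [negY, hW.a₁, hW.a₃]

variable [DecidableEq L]

/-- The chord formula. -/
theorem add_coords (hW : IsStd W d u) {X₁ Y₁ X₂ Y₂ : L} (h₁ : W.Nonsingular X₁ Y₁)
    (h₂ : W.Nonsingular X₂ Y₂) (hX : X₁ ≠ X₂) :
    ∃ (X₃ Y₃ s : L) (h₃ : W.Nonsingular X₃ Y₃),
      Point.some X₁ Y₁ h₁ + Point.some X₂ Y₂ h₂ = Point.some X₃ Y₃ h₃ ∧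
      s * (X₁ - X₂) = Y₁ - Y₂ ∧
      X₃ = s ^ 2 + (d + u) - X₁ - X₂ ∧
      Y₃ = -(s * (X₃ - X₁) + Y₁) ∧
      X₃ * (X₁ * X₂ * (X₁ - X₂) ^ 2) = (X₂ * Y₁ - X₁ * Y₂) ^ 2 := by
  refine ⟨_, _, W.slope X₁ X₂ Y₁ Y₂, _, Point.add_of_X_ne hX, ?_, ?_, ?_, ?_⟩
  · rw [slope_of_X_ne hX, div_mul_cancel₀ _ (sub_ne_zero.2 hX)]
  · rw [addX, hW.a₁, hW.a₂]; ring
  · rw [addY, hW.negY_eq, negAddY]
  · have hs : W.slope X₁ X₂ Y₁ Y₂ * (X₁ - X₂) = Y₁ - Y₂ := by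
      rw [slope_of_X_ne hX, div_mul_cancel₀ _ (sub_ne_zero.2 hX)]
    rw [addX, hW.a₁, hW.a₂]
    generalize W.slope X₁ X₂ Y₁ Y₂ = s at hs
    have e₁ := hW.eqn h₁
    have e₂ := hW.eqn h₂
    linear_combination (X₁ * X₂ * (s * (X₁ - X₂) + (Y₁ - Y₂))) * hs +
      (X₂ * (X₁ - X₂)) * e₁ - (X₁ * (X₁ - X₂)) * e₂

/-- The tangent formula. -/
theorem dbl_coords (hW : IsStd W d u) (h2L : (2 : L) ≠ 0) {X Y : L} (h : W.Nonsingular X Y)
    (hY : Y ≠ 0) :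
    ∃ (X₃ Y₃ s : L) (h₃ : W.Nonsingular X₃ Y₃),
      Point.some X Y h + Point.some X Y h = Point.some X₃ Y₃ h₃ ∧
      s * (2 * Y) = 3 * X ^ 2 - 2 * (d + u) * X + d * u ∧
      X₃ = s ^ 2 + (d + u) - X - X ∧
      X₃ * (4 * Y ^ 2) = (X ^ 2 - d * u) ^ 2 := by
  have h2Y : 2 * Y ≠ 0 := mul_ne_zero h2L hY
  have hne : Y ≠ W.negY X Y := by
    rw [hW.negY_eq]
    intro hh
    exact h2Y (by linear_combination hh)
  have hs : W.slope X X Y Y * (2 * Y) = 3 * X ^ 2 - 2 * (d + u) * X + d * u := by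
    rw [slope_of_Y_ne rfl hne, hW.negY_eq, hW.a₁, hW.a₂, hW.a₄]
    have : Y - -Y = 2 * Y := by ring
    rw [this, div_mul_cancel₀ _ h2Y]
    ring
  refine ⟨_, _, W.slope X X Y Y, _, Point.add_self_of_Y_ne hne, hs, ?_, ?_⟩
  · rw [addX, hW.a₁, hW.a₂]; ring
  · rw [addX, hW.a₁, hW.a₂]
    generalize W.slope X X Y Y = s at hs
    have e := hW.eqn h
    linear_combination (s * (2 * Y) + 3 * X ^ 2 - 2 * (d + u) * X + d * u) * hs +
      4 * ((d + u) - X - X) * e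

/-- Translation by `(0, 0)`. -/
theorem add_zeroRoot (hW : IsStd W d u) {X Y : L} (h : W.Nonsingular X Y)
    (h₀ : W.Nonsingular 0 0) (hX : X ≠ 0) :
    ∃ h₃ : W.Nonsingular (d * u / X) (-(d * u * Y / X ^ 2)),
      Point.some X Y h + Point.some 0 0 h₀ = Point.some _ _ h₃ := by
  obtain ⟨X₃, Y₃, s, h₃, he, hs, hX₃, hY₃, -⟩ := hW.add_coords h h₀ hX
  simp only [sub_zero] at hs
  have e := hW.eqn h
  have hX' : X₃ = d * u / X := by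
    rw [eq_div_iff hX]
    have hmul : X₃ * X * X = d * u * X := by
      rw [hX₃]
      linear_combination (s * X + Y) * hs + e
    exact mul_right_cancel₀ hX hmul
  have hY' : Y₃ = -(d * u * Y / X ^ 2) := by
    rw [hY₃, neg_inj, eq_div_iff (pow_ne_zero 2 hX), hX']
    field_simp
    linear_combination (d * u - X ^ 2) * hs
  subst hX' hY'
  exact ⟨h₃, he⟩

/-- Translation by `(u, 0)`. -/
theorem add_uRoot (hW : IsStd W d u) {X Y : L} (h : W.Nonsingular X Y)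
    (h₀ : W.Nonsingular u 0) (hX : X ≠ u) :
    ∃ (X₃ Y₃ : L) (h₃ : W.Nonsingular X₃ Y₃),
      Point.some X Y h + Point.some u 0 h₀ = Point.some X₃ Y₃ h₃ ∧
      (X₃ - u) * (X - u) = u * (u - d) := by
  obtain ⟨X₃, Y₃, s, h₃, he, hs, hX₃, -, -⟩ := hW.add_coords h h₀ hX
  simp only [sub_zero] at hs
  have e := hW.eqn h
  refine ⟨X₃, Y₃, h₃, he, mul_right_cancel₀ (sub_ne_zero.2 hX) ?_⟩
  rw [hX₃]
  linear_combination (s * (X - u) + Y) * hs + e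

/-- `x(P + Q) + x(P - Q)` and `x(P + Q) x(P - Q)`. -/
theorem sum_prod (hW : IsStd W d u) {X₁ Y₁ X₂ Y₂ : L} (h₁ : W.Nonsingular X₁ Y₁)
    (h₂ : W.Nonsingular X₂ Y₂) (hX : X₁ ≠ X₂) (hX₁ : X₁ ≠ 0) (hX₂ : X₂ ≠ 0) :
    ∃ (X₃ Y₃ X₄ Y₄ : L) (h₃ : W.Nonsingular X₃ Y₃) (h₄ : W.Nonsingular X₄ Y₄),
      Point.some X₁ Y₁ h₁ + Point.some X₂ Y₂ h₂ = Point.some X₃ Y₃ h₃ ∧
      Point.some X₁ Y₁ h₁ - Point.some X₂ Y₂ h₂ = Point.some X₄ Y₄ h₄ ∧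
      (X₃ + X₄) * (X₁ - X₂) ^ 2 =
        2 * ((X₁ + X₂) * (X₁ * X₂ + d * u) - 2 * (d + u) * X₁ * X₂) ∧
      X₃ * X₄ * (X₁ - X₂) ^ 2 = (X₁ * X₂ - d * u) ^ 2 := by
  obtain ⟨h₂', hn⟩ := hW.neg_coords h₂
  obtain ⟨X₃, Y₃, s, h₃, he₃, hs, hX₃, -, hf₃⟩ := hW.add_coords h₁ h₂ hX
  obtain ⟨X₄, Y₄, s', h₄, he₄, hs', hX₄, -, hf₄⟩ := hW.add_coords h₁ h₂' hX
  have e₁ := hW.eqn h₁
  have e₂ := hW.eqn h₂
  refine ⟨X₃, Y₃, X₄, Y₄, h₃, h₄, he₃, by rw [sub_eq_add_neg, hn, he₄], ?_, ?_⟩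
  · rw [hX₃, hX₄]
    linear_combination (s * (X₁ - X₂) + (Y₁ - Y₂)) * hs +
      (s' * (X₁ - X₂) + (Y₁ + Y₂)) * hs' + 2 * e₁ + 2 * e₂
  · have hne : (X₁ * X₂ * (X₁ - X₂)) ^ 2 ≠ 0 :=
      pow_ne_zero 2 (mul_ne_zero (mul_ne_zero hX₁ hX₂) (sub_ne_zero.2 hX))
    refine mul_right_cancel₀ hne ?_
    have hkey : (X₂ * Y₁ - X₁ * Y₂) * (X₂ * Y₁ + X₁ * Y₂) =
        X₁ * X₂ * (X₁ - X₂) * (X₁ * X₂ - d * u) := by
      linear_combination X₂ ^ 2 * e₁ - X₁ ^ 2 * e₂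
    linear_combination (X₄ * (X₁ * X₂ * (X₁ - X₂) ^ 2)) * hf₃ +
      (X₂ * Y₁ - X₁ * Y₂) ^ 2 * hf₄ +
      ((X₂ * Y₁ - X₁ * Y₂) * (X₂ * Y₁ + X₁ * Y₂) +
        X₁ * X₂ * (X₁ - X₂) * (X₁ * X₂ - d * u)) * hkey

end IsStd

end FermatLib.EC.Frey05
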