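import Fermat.Agent.EC.Frey05Formulas
import Mathlib.RingTheory.Valuation.Basic
import Mathlib.GroupTheory.OrderOfElement
import Mathlib.Tactic.NormNum

/-!
# Points with coordinates outside the valuation ring, inertia and reduction

For the model `Y² = X (X - d) (X - u)` over a valued field: the points with non-integral `X`
contain no torsion of order prime to the residue characteristic, and an automorphism acting
trivially on the residue field moves smoothly reducing points by such points only.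
-/

set_option autoImplicit false

open WeierstrassCurve WeierstrassCurve.Affine

namespace FermatLib.EC.Frey05

variable {L : Type*} [Field L] {Γ : Type*} [LinearOrderedCommGroupWithZero Γ]
  {v : Valuation L Γ}

section ValuationFacts

theorem val_mul_lt_one {x y : L} (hx : v x ≤ 1) (hy : v y < 1) : v (x * y) < 1 := by
  rw [map_mul]; exact lt_of_le_of_lt (mul_le_of_le_one_left' hx) hy

theorem val_mul_lt_one' {x y : L} (hx : v x < 1) (hy : v y ≤ 1) : v (x * y) < 1 := by
  rw [mul_comm]; exact val_mul_lt_one hy hx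

theorem val_mul_le_one {x y : L} (hx : v x ≤ 1) (hy : v y ≤ 1) : v (x * y) ≤ 1 := by
  rw [map_mul]; exact mul_le_one' hx hy

theorem val_natCast_le_one (n : ℕ) : v (n : L) ≤ 1 := by
  induction n with
  | zero => simp
  | succ n ih => push_cast; exact v.map_add_le ih (by simp)

theorem val_le_one_of_sub_lt {x y : L} (h : v (x - y) < 1) (hy : v y ≤ 1) : v x ≤ 1 := by
  have := v.map_add_le h.le hy
  rwa [sub_add_cancel] at this

theorem val_eq_one_of_sub_lt {x y : L} (h : v (x - y) < 1) (hy : v y = 1) : v x = 1 := by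
  have := v.map_add_eq_of_lt_right (x := x - y) (y := y) (hy ▸ h)
  rwa [sub_add_cancel, hy] at this

theorem one_lt_val_of_mul {s t : L} (h : v (s * t) = 1) (ht : v t < 1) : 1 < v s := by
  by_contra hs
  push Not at hs
  exact absurd h (ne_of_lt (val_mul_lt_one hs ht))

end ValuationFacts

variable {W : Affine L} {d u : L}

/-- The point does not reduce to a point with `X = 0`. -/
def InE0 (v : Valuation L Γ) (P : W.Point) : Prop :=
  ∀ (X Y : L) (h : W.Nonsingular X Y), P = Point.some X Y h → 1 ≤ v X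

/-- The point reduces to the point at infinity. -/
def InE1 (v : Valuation L Γ) (P : W.Point) : Prop :=
  ∀ (X Y : L) (h : W.Nonsingular X Y), P = Point.some X Y h → 1 < v X

theorem inE1_zero : InE1 v (0 : W.Point) :=
  fun _ _ h hP => absurd hP.symm (Point.some_ne_zero h)

theorem inE0_zero : InE0 v (0 : W.Point) :=
  fun X Y h hP => (inE1_zero (v := v) X Y h hP).le

theorem inE1_some {X Y : L} {h : W.Nonsingular X Y} :
    InE1 v (Point.some X Y h) ↔ 1 < v X := by
  refine ⟨fun hh => hh X Y h rfl, fun hh X' Y' h' he => ?_⟩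
  simp only [Point.some.injEq] at he
  exact he.1 ▸ hh

theorem inE0_some {X Y : L} {h : W.Nonsingular X Y} :
    InE0 v (Point.some X Y h) ↔ 1 ≤ v X := by
  refine ⟨fun hh => hh X Y h rfl, fun hh X' Y' h' he => ?_⟩
  simp only [Point.some.injEq] at he
  exact he.1 ▸ hh

/-- If the valuation of `s` is greater than one then so is the one of the new abscissa. -/
theorem one_lt_val_chord {s X₁ X₂ c : L} (hs : 1 < v s) (h₁ : v X₁ ≤ 1) (h₂ : v X₂ ≤ 1)
    (hc : v c ≤ 1) : 1 < v (s ^ 2 + c - X₁ - X₂) := by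
  have h : 1 < v (s ^ 2) := by rw [map_pow]; exact one_lt_pow₀ hs two_ne_zero
  have hr : v (c - X₁ - X₂) ≤ 1 := v.map_sub_le (v.map_sub_le hc h₁) h₂
  have := v.map_add_eq_of_lt_left (x := s ^ 2) (y := c - X₁ - X₂) (lt_of_le_of_lt hr h)
  rw [show s ^ 2 + c - X₁ - X₂ = s ^ 2 + (c - X₁ - X₂) by ring, this]
  exact h

variable [DecidableEq L]

section Inertia

variable {σ : L →+* L} {φ : W.Point →+ W.Point}

/-- An automorphism which is trivial on the residue field moves a smoothly reducing integral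
point by a point reducing to infinity. -/
theorem inE1_sub_of_smooth (hW : IsStd W d u) (hd : v d ≤ 1) (hu : v u ≤ 1) (h2 : v 2 = 1)
    (hσ : ∀ x : L, v x ≤ 1 → v (σ x - x) < 1)
    (hφ : ∀ (X Y : L) (h : W.Nonsingular X Y),
      ∃ h', φ (Point.some X Y h) = Point.some (σ X) (σ Y) h')
    {X Y : L} (h : W.Nonsingular X Y) (hX : v X ≤ 1)
    (hs : v Y = 1 ∨ v (3 * X ^ 2 - 2 * (d + u) * X + d * u) = 1) :
    InE1 v (φ (Point.some X Y h) - Point.some X Y h) := by
  have h2L : (2 : L) ≠ 0 := fun hz => by simp [hz] at h2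
  have hdu : v (d + u) ≤ 1 := v.map_add_le hd hu
  have e := hW.eqn h
  have hY : v Y ≤ 1 := by
    refine (pow_le_one_iff_of_nonneg zero_le two_ne_zero).1 ?_
    rw [← map_pow, e]
    exact val_mul_le_one (val_mul_le_one hX (v.map_sub_le hX hd)) (v.map_sub_le hX hu)
  obtain ⟨h', hφP⟩ := hφ X Y h
  obtain ⟨hn, hneg⟩ := hW.neg_coords h
  rw [hφP, sub_eq_add_neg, hneg]
  have hX' : v (σ X) ≤ 1 := val_le_one_of_sub_lt (hσ X hX) hX
  have e' : σ Y ^ 2 = σ X * (σ X - d) * (σ X - u) := hW.eqn h'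
  have hdX := hσ X hX
  have hdY := hσ Y hY
  by_cases hXX : σ X = X
  · rw [hXX] at e'
    have : (σ Y - Y) * (σ Y + Y) = 0 := by linear_combination e' - e
    rcases mul_eq_zero.1 this with hc | hc
    · rw [Point.add_of_Y_eq hXX (by rw [hW.negY_eq, neg_neg]; exact sub_eq_zero.1 hc)]
      exact inE1_zero
    · by_cases hY0 : Y = 0
      · rw [Point.add_of_Y_eq hXX (by rw [hW.negY_eq, neg_neg]; simp [hY0] at hc ⊢)]
        exact inE1_zero
      · have hYY : σ Y = -Y := eq_neg_of_add_eq_zero_left hc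
        have hsY : v Y < 1 := by
          rw [hYY, show -Y - Y = -(2 * Y) by ring, Valuation.map_neg, map_mul, h2, one_mul] at hdY
          exact hdY
        have hs' := hs.resolve_left hsY.ne
        have heq : (Point.some (σ X) (σ Y) h' : W.Point) = Point.some X (-Y) hn := by
          simp [hXX, hYY]
        rw [heq]
        obtain ⟨X₃, Y₃, s, h₃, he, hst, hX₃, -⟩ := hW.dbl_coords h2L hn (neg_ne_zero.2 hY0)
        rw [he, inE1_some, hX₃]
        refine one_lt_val_chord (one_lt_val_of_mul (t := 2 * -Y) (by rw [hst]; exact hs') ?_)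
          hX hX hdu
        rw [mul_neg, Valuation.map_neg, map_mul, h2, one_mul]
        exact hsY
  · obtain ⟨X₃, Y₃, s, h₃, he, hst, hX₃, -, -⟩ := hW.add_coords h' hn hXX
    rw [he, inE1_some, hX₃]
    rw [sub_neg_eq_add] at hst
    refine one_lt_val_chord ?_ hX' hX hdu
    rcases hs with hs | hs
    · refine one_lt_val_of_mul (t := σ X - X) ?_ hdX
      rw [hst]
      have h2Y : v (2 * Y) = 1 := by rw [map_mul, h2, hs, one_mul]
      refine val_eq_one_of_sub_lt ?_ h2Y
      rwa [show σ Y + Y - 2 * Y = σ Y - Y by ring]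
    · refine one_lt_val_of_mul (t := σ Y - Y) ?_ hdY
      have hg : s * (σ Y - Y) =
          σ X ^ 2 + σ X * X + X ^ 2 - (d + u) * (σ X + X) + d * u := by
        refine mul_right_cancel₀ (sub_ne_zero.2 hXX) ?_
        linear_combination (σ Y - Y) * hst + e' - e
      rw [hg]
      refine val_eq_one_of_sub_lt ?_ hs
      rw [show σ X ^ 2 + σ X * X + X ^ 2 - (d + u) * (σ X + X) + d * u -
          (3 * X ^ 2 - 2 * (d + u) * X + d * u) = (σ X - X) * (σ X + X + X - (d + u)) by ring]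
      exact val_mul_lt_one' hdX (v.map_sub_le (v.map_add_le (v.map_add_le hX' hX) hX) hdu)

/-- The same statement, including the points reducing to infinity. -/
theorem inE1_sub (hW : IsStd W d u) (hd : v d ≤ 1) (hu : v u = 1) (hud : v (u - d) = 1)
    (h2 : v 2 = 1)
    (hσu : σ u = u) (hσ : ∀ x : L, v x ≤ 1 → v (σ x - x) < 1)
    (hφ : ∀ (X Y : L) (h : W.Nonsingular X Y),
      ∃ h', φ (Point.some X Y h) = Point.some (σ X) (σ Y) h')
    (hT : W.Nonsingular u 0) (P : W.Point)
    (hP : ∀ (X Y : L) (h : W.Nonsingular X Y), P = Point.some X Y h →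
      1 < v X ∨ v Y = 1 ∨ v (3 * X ^ 2 - 2 * (d + u) * X + d * u) = 1) :
    InE1 v (φ P - P) := by
  rcases P with _ | ⟨X, Y, h⟩
  · rw [show (Point.zero : W.Point) = 0 from rfl, map_zero, sub_zero]
    exact inE1_zero
  · by_cases hX : 1 < v X
    · have hXu : X ≠ u := fun hh => by rw [hh, hu] at hX; exact lt_irrefl _ hX
      obtain ⟨X₃, Y₃, h₃, he, hX₃⟩ := hW.add_uRoot h hT hXu
      have hφT : φ (Point.some u 0 hT) = Point.some u 0 hT := by
        obtain ⟨h', he'⟩ := hφ u 0 hT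
        simp [he', hσu]
      have hkey : φ (Point.some X Y h) - Point.some X Y h =
          φ (Point.some X₃ Y₃ h₃) - Point.some X₃ Y₃ h₃ := by
        rw [← he, map_add, hφT]; abel
      rw [hkey]
      have hXu' : 1 < v (X - u) := by
        rw [v.map_sub_eq_of_lt_left (hu ▸ hX : v u < v X)]; exact hX
      have hsm : v (X₃ - u) < 1 := by
        have hm : v (X₃ - u) * v (X - u) = 1 := by
          rw [← map_mul, hX₃, map_mul, hu, hud, one_mul]
        by_contra hc
        push Not at hc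
        exact absurd hm (ne_of_gt (lt_of_lt_of_le hXu' (le_mul_of_one_le_left' hc)))
      have hX₃' : v X₃ ≤ 1 := val_le_one_of_sub_lt hsm hu.le
      refine inE1_sub_of_smooth hW hd hu.le h2 hσ hφ h₃ hX₃' (Or.inr ?_)
      refine val_eq_one_of_sub_lt (y := u * (u - d)) ?_ (by rw [map_mul, hu, hud, one_mul])
      rw [show 3 * X₃ ^ 2 - 2 * (d + u) * X₃ + d * u - u * (u - d) =
        (X₃ - u) * (3 * X₃ + u - 2 * d) by ring]
      refine val_mul_lt_one' hsm (v.map_sub_le (v.map_add_le ?_ hu.le) ?_)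
      · exact val_mul_le_one (by simpa using val_natCast_le_one (v := v) 3) hX₃'
      · exact val_mul_le_one h2.le hd
    · exact inE1_sub_of_smooth hW hd hu.le h2 hσ hφ h (le_of_not_gt hX)
        ((hP X Y h rfl).resolve_left hX)

end Inertia

section Torsion

/-- Auxiliary predicate: the abscissa of `n • R` is `X₁ / r` with `r` congruent to `n²`. -/
def HasSquareRatio (v : Valuation L Γ) (R : W.Point) (X₁ : L) (n : ℕ) : Prop :=
  ∃ (X Y : L) (h : W.Nonsingular X Y), n • R = Point.some X Y h ∧ X ≠ 0 ∧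
    v (X₁ / X - (n : L) ^ 2) < 1

/-- No torsion of order prime to the residue characteristic reduces to infinity. -/
theorem eq_zero_of_inE1 (hW : IsStd W d u) (hd : v d ≤ 1) (hu : v u ≤ 1) (h2 : v 2 = 1)
    {p : ℕ} (hp : p.Prime) (hp2 : p ≠ 2) (hvp : v (p : L) = 1)
    {R : W.Point} (hR : InE1 v R) (hpR : p • R = 0) : R = 0 := by
  rcases R with _ | ⟨X₁, Y₁, h₁⟩
  · rfl
  exfalso
  have := Fact.mk hp
  set R : W.Point := Point.some X₁ Y₁ h₁ with hRdef
  have hord : addOrderOf R = p := addOrderOf_eq_prime hpR (Point.some_ne_zero h₁)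
  have hne : ∀ n : ℕ, 0 < n → n < p → n • R ≠ 0 := fun n hn0 hnp hz => by
    have := addOrderOf_dvd_of_nsmul_eq_zero hz
    rw [hord] at this
    exact absurd (Nat.le_of_dvd hn0 this) (not_le.2 hnp)
  have hX₁ : 1 < v X₁ := hR X₁ Y₁ h₁ rfl
  have hX₁0 : X₁ ≠ 0 := fun hz => by simp [hz] at hX₁
  have hi₁ : v (1 / X₁) < 1 := by
    rw [map_div₀, map_one, one_div]
    exact inv_lt_one_of_one_lt₀ hX₁
  have h2L : (2 : L) ≠ 0 := fun hz => by simp [hz] at h2
  have hdu : v (d * u) ≤ 1 := val_mul_le_one hd hu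
  have hdu' : v (d + u) ≤ 1 := v.map_add_le hd hu
  have hne2 : 2 < p := lt_of_le_of_ne hp.two_le (Ne.symm hp2)
  have hr1 : HasSquareRatio v R X₁ 1 :=
    ⟨X₁, Y₁, h₁, by rw [one_nsmul], hX₁0, by simp [div_self hX₁0]⟩
  have hr2 : HasSquareRatio v R X₁ 2 := by
    have hY₁ : Y₁ ≠ 0 := fun hz => hne 2 two_pos hne2 (by
      rw [two_nsmul, hRdef]
      exact Point.add_of_Y_eq rfl (by simp [negY, hW.a₁, hW.a₃, hz]))
    obtain ⟨X₃, Y₃, s, h₃, he, -, -, hf⟩ := hW.dbl_coords h2L h₁ hY₁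
    set η := d * u * (1 / X₁) ^ 2 with hηdef
    have hη : v η < 1 := val_mul_lt_one hdu (by rw [map_pow]; exact pow_lt_one' hi₁ two_ne_zero)
    have hE : v (1 - η) = 1 := v.map_one_sub_of_lt hη
    have hnum : X₁ ^ 2 - d * u ≠ 0 := fun hz => by
      have : 1 - η = 0 := by
        rw [hηdef]; field_simp; linear_combination hz
      rw [this, map_zero] at hE
      exact zero_ne_one hE
    have hX₃0 : X₃ ≠ 0 := fun hz => by
      rw [hz, zero_mul] at hf; exact pow_ne_zero 2 hnum hf.symm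
    refine ⟨X₃, Y₃, h₃, by rw [two_nsmul, hRdef]; exact he, hX₃0, ?_⟩
    have hkey : X₁ / X₃ * (1 - η) ^ 2 = 4 * (1 - d * (1 / X₁)) * (1 - u * (1 / X₁)) := by
      rw [hηdef]
      field_simp
      linear_combination -hf + (4 * X₃) * hW.eqn h₁
    have hv : v (X₁ / X₃) = v (4 * (1 - d * (1 / X₁)) * (1 - u * (1 / X₁))) := by
      rw [← hkey, map_mul, map_pow, hE, one_pow, mul_one]
    have h4 : v (4 : L) = 1 := by
      rw [show (4 : L) = 2 * 2 by norm_num, map_mul, h2, one_mul]
    have hle : v (X₁ / X₃) = 1 := by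
      rw [hv, map_mul, map_mul, h4, v.map_one_sub_of_lt (val_mul_lt_one hd hi₁),
        v.map_one_sub_of_lt (val_mul_lt_one hu hi₁)]
      simp
    rw [show X₁ / X₃ - ((2 : ℕ) : L) ^ 2 = X₁ / X₃ * (η * (2 - η)) +
        (X₁ / X₃ * (1 - η) ^ 2 - 4) by push_cast; ring, hkey,
      show 4 * (1 - d * (1 / X₁)) * (1 - u * (1 / X₁)) - 4 =
        1 / X₁ * (4 * (d * u * (1 / X₁) - (d + u))) by ring]
    refine v.map_add_lt (val_mul_lt_one hle.le (val_mul_lt_one' hη ?_)) ?_
    · exact v.map_sub_le h2.le hη.le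
    · exact val_mul_lt_one' hi₁
        (val_mul_le_one h4.le (v.map_sub_le (val_mul_le_one hdu hi₁.le) hdu'))
  have key : ∀ n : ℕ, 1 ≤ n → n + 1 ≤ p / 2 + 1 →
      HasSquareRatio v R X₁ n ∧ HasSquareRatio v R X₁ (n + 1) := by
    intro n hn
    induction n, hn using Nat.le_induction with
    | base => intro _; exact ⟨hr1, hr2⟩
    | succ n hn ih =>
      intro hle
      obtain ⟨hA, hB⟩ := ih (by omega)
      refine ⟨hB, ?_⟩
      obtain ⟨Xa, Ya, ha, hea, hXa, hra⟩ := hA
      obtain ⟨Xb, Yb, hb, heb, hXb, hrb⟩ := hB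
      have hXX : Xb ≠ X₁ := by
        intro hh
        rcases (Point.X_eq_iff (h₁ := hb) (h₂ := h₁)).1 hh with hh | hh
        · rw [← heb, ← hRdef, succ_nsmul, add_eq_right] at hh
          exact hne n (by omega) (by omega) hh
        · rw [← heb, ← hRdef, ← add_eq_zero_iff_eq_neg, ← succ_nsmul] at hh
          exact hne (n + 1 + 1) (by omega) (by omega) hh
      obtain ⟨X₃, Y₃, X₄, Y₄, h₃, h₄, he₃, he₄, hsum, hprod⟩ :=
        hW.sum_prod hb h₁ hXX hXb hX₁0
      rw [← heb, ← hRdef] at he₃ he₄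
      rw [← succ_nsmul] at he₃
      rw [succ_nsmul, add_sub_cancel_right, hea] at he₄
      simp only [Point.some.injEq] at he₄
      obtain ⟨rfl, rfl⟩ := he₄
      set r := X₁ / Xb with hrdef
      have hr : v r ≤ 1 := val_le_one_of_sub_lt hrb
        (by rw [map_pow]; exact pow_le_one' (val_natCast_le_one _) 2)
      set η := d * u * (1 / X₁) ^ 2 * r with hηdef
      have hη : v η < 1 := val_mul_lt_one' (val_mul_lt_one hdu
        (by rw [map_pow]; exact pow_lt_one' hi₁ two_ne_zero)) hr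
      have hE : v (1 - η) = 1 := v.map_one_sub_of_lt hη
      have hnum : Xb * X₁ - d * u ≠ 0 := fun hz => by
        have : 1 - η = 0 := by
          rw [hηdef, hrdef]; field_simp; linear_combination hz
        rw [this, map_zero] at hE
        exact zero_ne_one hE
      have hX₃0 : X₃ ≠ 0 := fun hz => by
        rw [hz, zero_mul, zero_mul] at hprod; exact pow_ne_zero 2 hnum hprod.symm
      refine ⟨X₃, Y₃, h₃, he₃, hX₃0, ?_⟩
      have hkey : (X₁ / X₃ + X₁ / Xa) * (1 - η) ^ 2 =
          2 * ((r + 1) * (1 + η) - 2 * (d + u) * (1 / X₁) * r) := by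
        have hmain : (X₃ + Xa) * (Xb * X₁ - d * u) ^ 2 =
            2 * ((Xb + X₁) * (Xb * X₁ + d * u) - 2 * (d + u) * Xb * X₁) * (X₃ * Xa) := by
          refine mul_right_cancel₀ (pow_ne_zero 2 (sub_ne_zero.2 hXX)) ?_
          linear_combination (Xb * X₁ - d * u) ^ 2 * hsum -
            (2 * ((Xb + X₁) * (Xb * X₁ + d * u) - 2 * (d + u) * Xb * X₁)) * hprod
        rw [hηdef, hrdef]
        field_simp
        linear_combination hmain
      set R₀ := 2 * ((r + 1) * (1 + η) - 2 * (d + u) * (1 / X₁) * r) with hR₀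
      have hR₀le : v R₀ ≤ 1 := val_mul_le_one h2.le (v.map_sub_le
        (val_mul_le_one (v.map_add_le hr (by simp)) (v.map_add_le (by simp) hη.le))
        (val_mul_le_one (val_mul_le_one (val_mul_le_one h2.le hdu') hi₁.le) hr))
      have hv : v (X₁ / X₃ + X₁ / Xa) ≤ 1 := by
        have : v (X₁ / X₃ + X₁ / Xa) = v R₀ := by
          rw [← hkey, map_mul, map_pow, hE, one_pow, mul_one]
        rw [this]; exact hR₀le
      have hrw : X₁ / X₃ - ((n + 1 + 1 : ℕ) : L) ^ 2 =
          (X₁ / X₃ + X₁ / Xa) * (η * (2 - η))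
          + ((X₁ / X₃ + X₁ / Xa) * (1 - η) ^ 2 - 2 * (r + 1))
          + (2 * (r - ((n + 1 : ℕ) : L) ^ 2) - (X₁ / Xa - (n : L) ^ 2)) := by
        push_cast; ring
      rw [hrw, hkey, show R₀ - 2 * (r + 1) =
        2 * ((r + 1) * η - 2 * (d + u) * r * (1 / X₁)) by rw [hR₀]; ring]
      refine v.map_add_lt (v.map_add_lt ?_ ?_) ?_
      · exact val_mul_lt_one hv (val_mul_lt_one' hη (v.map_sub_le h2.le hη.le))
      · refine val_mul_lt_one h2.le (v.map_sub_lt ?_ ?_)
        · exact val_mul_lt_one (v.map_add_le hr (by simp)) hη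
        · exact val_mul_lt_one (val_mul_le_one (val_mul_le_one h2.le hdu') hr) hi₁
      · exact v.map_sub_lt (val_mul_lt_one h2.le hrb) hra
  obtain ⟨hA, hB⟩ := key (p / 2) (by omega) le_rfl
  obtain ⟨Xa, Ya, ha, hea, hXa, hra⟩ := hA
  obtain ⟨Xb, Yb, hb, heb, hXb, hrb⟩ := hB
  have hodd : p / 2 + 1 + p / 2 = p := by
    obtain ⟨k, hk⟩ := hp.odd_of_ne_two hp2
    omega
  have hsumzero : Point.some Xb Yb hb + Point.some Xa Ya ha = 0 := by
    rw [← hea, ← heb, ← add_nsmul, hodd, hpR]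
  have hXab : Xb = Xa := by
    refine (Point.X_eq_iff (h₁ := hb) (h₂ := ha)).2 (Or.inr ?_)
    exact add_eq_zero_iff_eq_neg.1 hsumzero
  subst hXab
  have hcon : v (((p / 2 + 1 : ℕ) : L) ^ 2 - ((p / 2 : ℕ) : L) ^ 2) < 1 := by
    have := v.map_sub_lt hra hrb
    rwa [show X₁ / Xb - ((p / 2 : ℕ) : L) ^ 2 - (X₁ / Xb - ((p / 2 + 1 : ℕ) : L) ^ 2) =
      ((p / 2 + 1 : ℕ) : L) ^ 2 - ((p / 2 : ℕ) : L) ^ 2 by ring] at this
  rw [show ((p / 2 + 1 : ℕ) : L) ^ 2 - ((p / 2 : ℕ) : L) ^ 2 =
    (((p / 2 + 1 + p / 2 : ℕ)) : L) by push_cast; ring, hodd, hvp] at hcon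
  exact lt_irrefl _ hcon

end Torsion

end FermatLib.EC.Frey05
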