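import Fermat.Agent.EC.Frey05Fixed
import Fermat.Prelude.Def_FLTPrelim_Ramification

/-!
# From `y² + x y = x³ + a₂ x² + a₄ x + a₆` to `Y² = X (X - d) (X - u)`

The change of coordinates `X = x - r`, `Y = y + x / 2` as a homomorphism of point groups, and
the elementary consequences of membership in an inertia group.
-/

set_option autoImplicit false

open WeierstrassCurve WeierstrassCurve.Affine

namespace FermatLib.EC.Frey05

section Hom

variable {L : Type*} [Field L] {W W' : Affine L} {d u r : L}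

/-- `W'` is `W` in the coordinates `X = x - r`, `Y = y + x / 2`. -/
structure IsShift (W W' : Affine L) (d u r : L) : Prop where
  std : IsStd W' d u
  a₁ : W.a₁ = 1
  a₃ : W.a₃ = 0
  e₂ : -(d + u) = W.a₂ + 1 / 4 + 3 * r
  e₄ : d * u = W.a₄ + 2 * r * (W.a₂ + 1 / 4) + 3 * r ^ 2
  e₆ : r ^ 3 + (W.a₂ + 1 / 4) * r ^ 2 + W.a₄ * r + W.a₆ = 0
  two : (2 : L) ≠ 0
  d0 : d ≠ 0
  u0 : u ≠ 0
  du : d ≠ u

namespace IsShift

variable (hS : IsShift W W' d u r)
include hS

theorem four : (4 : L) ≠ 0 := by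
  rw [show (4 : L) = 2 * 2 by norm_num]; exact mul_ne_zero hS.two hS.two

theorem nonsingular_map {x y : L} (h : W.Nonsingular x y) :
    W'.Nonsingular (x - r) (y + x / 2) := by
  refine hS.std.nonsingular hS.d0 hS.u0 hS.du ?_ hS.two
  have e := (W.equation_iff x y).1 h.1
  rw [hS.a₁, hS.a₃] at e
  have h4 := hS.four
  have h2 := hS.two
  have h4' : ((2 : L)⁻¹) ^ 2 = 1 / 4 := by field_simp; norm_num
  linear_combination e - ((x - r) ^ 2) * hS.e₂ - (x - r) * hS.e₄ + hS.e₆ +
    x ^ 2 * h4' + (x * y) * (mul_inv_cancel₀ hS.two)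

variable [DecidableEq L]

/-- The change of coordinates on points. -/
noncomputable def hom : W.Point →+ W'.Point where
  toFun P := match P with
    | 0 => 0
    | Point.some _ _ h => Point.some _ _ (hS.nonsingular_map h)
  map_zero' := rfl
  map_add' := by
    rintro (_ | ⟨x₁, y₁, h₁⟩) (_ | ⟨x₂, y₂, h₂⟩)
    any_goals rfl
    have hneg : W'.negY (x₂ - r) (y₂ + x₂ / 2) = W.negY x₂ y₂ + x₂ / 2 := by
      rw [hS.std.negY_eq, negY, hS.a₁, hS.a₃]
      linear_combination -(x₂ * (mul_inv_cancel₀ hS.two))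
    by_cases hxy : x₁ = x₂ ∧ y₁ = W.negY x₂ y₂
    · rw [Point.add_of_Y_eq hxy.1 hxy.2]
      exact (Point.add_of_Y_eq (by rw [hxy.1]) (by rw [hneg, hxy.2, hxy.1])).symm
    · have hxy' : ¬(x₁ - r = x₂ - r ∧ y₁ + x₁ / 2 = W'.negY (x₂ - r) (y₂ + x₂ / 2)) := by
        rintro ⟨hx, hy⟩
        have hx' : x₁ = x₂ := sub_left_injective hx
        rw [hneg, hx'] at hy
        exact hxy ⟨hx', add_right_cancel hy⟩
      rw [Point.add_some hxy]
      refine Eq.trans ?_ (Point.add_some hxy').symm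
      have hs : W'.slope (x₁ - r) (x₂ - r) (y₁ + x₁ / 2) (y₂ + x₂ / 2) =
          W.slope x₁ x₂ y₁ y₂ + 1 / 2 := by
        by_cases hx : x₁ = x₂
        · have hy : y₁ ≠ W.negY x₂ y₂ := fun h => hxy ⟨hx, h⟩
          have hy' : y₁ + x₁ / 2 ≠ W'.negY (x₂ - r) (y₂ + x₂ / 2) :=
            fun h => hxy' ⟨by rw [hx], h⟩
          rw [slope_of_Y_ne hx hy, slope_of_Y_ne (by rw [hx]) hy']
          have hY : y₁ = y₂ := Y_eq_of_Y_ne h₁.1 h₂.1 hx hy
          subst hx hY
          have hd' : y₁ + x₁ / 2 - W'.negY (x₁ - r) (y₁ + x₁ / 2) = y₁ - W.negY x₁ y₁ := by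
            rw [hS.std.negY_eq, negY, hS.a₁, hS.a₃]
            linear_combination x₁ * (mul_inv_cancel₀ hS.two)
          rw [hd', hS.std.a₁, hS.std.a₂, hS.std.a₄, hS.a₁, div_add' _ _ _ (sub_ne_zero.2 hy)]
          congr 1
          rw [negY, hS.a₁, hS.a₃]
          have h2 := hS.two
          have h4 := hS.four
          have h4' : (4 : L)⁻¹ * 2 = 2⁻¹ := by field_simp; norm_num
          linear_combination (2 * (x₁ - r)) * hS.e₂ + hS.e₄ + x₁ * h4' -
            y₁ * (mul_inv_cancel₀ hS.two)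
        · rw [slope_of_X_ne hx, slope_of_X_ne (fun h => hx (sub_left_injective h)),
            div_add' _ _ _ (sub_ne_zero.2 hx), show x₁ - r - (x₂ - r) = x₁ - x₂ by ring]
          congr 1
          ring
      have hadd : W.addX x₁ x₂ (W.slope x₁ x₂ y₁ y₂) - r =
          W'.addX (x₁ - r) (x₂ - r)
            (W'.slope (x₁ - r) (x₂ - r) (y₁ + x₁ / 2) (y₂ + x₂ / 2)) := by
        rw [hs, addX, addX, hS.std.a₁, hS.std.a₂, hS.a₁]
        have h2 := hS.two
        have h4 := hS.four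
        have h4' : ((2 : L)⁻¹) ^ 2 = 1 / 4 := by field_simp; norm_num
        linear_combination hS.e₂ - h4' -
          (W.slope x₁ x₂ y₁ y₂) * (mul_inv_cancel₀ hS.two)
      simp only [Point.some.injEq]
      refine ⟨hadd, ?_⟩
      rw [addY, addY, hS.std.negY_eq, negY, hS.a₁, hS.a₃, negAddY, negAddY, ← hadd, hs]
      linear_combination W.addX x₁ x₂ (W.slope x₁ x₂ y₁ y₂) * (mul_inv_cancel₀ hS.two)

omit [DecidableEq L] in
omit hS in
theorem coords_injective {x₁ y₁ x₂ y₂ : L} (hx : x₁ - r = x₂ - r)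
    (hy : y₁ + x₁ / 2 = y₂ + x₂ / 2) : x₁ = x₂ ∧ y₁ = y₂ := by
  obtain rfl : x₁ = x₂ := sub_left_injective hx
  exact ⟨rfl, add_right_cancel hy⟩

theorem hom_some {x y : L} (h : W.Nonsingular x y) :
    hS.hom (Point.some x y h) = Point.some _ _ (hS.nonsingular_map h) := rfl

theorem hom_injective : Function.Injective hS.hom := by
  rintro (_ | ⟨x₁, y₁, h₁⟩) (_ | ⟨x₂, y₂, h₂⟩) h
  · rfl
  · exact absurd h.symm (Point.some_ne_zero _)
  · exact absurd h (Point.some_ne_zero _)
  · rw [hS.hom_some, hS.hom_some, Point.some.injEq] at h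
    obtain ⟨rfl, rfl⟩ := coords_injective (r := r) h.1 h.2
    rfl

end IsShift

end Hom

section Places

variable {L : Type*} [Field L] [Algebra ℚ L] (A : ValuationSubring L)

/-- Elements of the inertia group are trivial modulo the maximal ideal. -/
theorem valuation_sub_lt_one_of_mem_inertia {σ : L ≃ₐ[ℚ] L} (hσ : σ ∈ A.inertiaSubgroupIn ℚ)
    (x : L) (hx : A.valuation x ≤ 1) : A.valuation (σ x - x) < 1 := by
  obtain ⟨g, hg, rfl⟩ := Subgroup.mem_map.1 hσ
  have hx' : x ∈ A := (A.valuation_le_one_iff x).1 hx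
  have hres : IsLocalRing.residue A (g • (⟨x, hx'⟩ : A)) = IsLocalRing.residue A ⟨x, hx'⟩ := by
    rw [IsLocalRing.ResidueField.residue_smul]
    exact RingEquiv.congr_fun (MonoidHom.mem_ker.1 hg) _
  rw [← sub_eq_zero, ← map_sub, IsLocalRing.residue_eq_zero_iff] at hres
  exact (A.valuation_lt_one_iff _).1 hres

omit [Algebra ℚ L] in
/-- An integer prime to `q` is a unit at a place over `q`. -/
theorem valuation_intCast_eq_one {q : ℕ} (hq : q.Prime) (hA : A.LiesOverPrime q) {n : ℤ}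
    (hn : ¬ (q : ℤ) ∣ n) : A.valuation (n : L) = 1 := by
  have hle : ∀ m : ℤ, A.valuation (m : L) ≤ 1 := fun m =>
    (A.valuation_le_one_iff _).2 (intCast_mem A m)
  refine le_antisymm (hle n) (not_lt.1 fun hlt => ?_)
  have hcop : IsCoprime (q : ℤ) n :=
    ((Nat.prime_iff_prime_int.1 hq).coprime_iff_not_dvd).2 hn
  obtain ⟨a, b, hab⟩ := hcop
  have hq' : A.valuation (q : L) < 1 := ValuationSubring.mem_nonunits_iff A |>.1 hA
  have h1 : ((a : L) * (q : L) + (b : L) * (n : L)) = 1 := by exact_mod_cast congrArg ((↑) : ℤ → L) hab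
  have := A.valuation.map_add_lt (val_mul_lt_one (hle a) hq') (val_mul_lt_one (hle b) hlt)
  rw [h1, map_one] at this
  exact lt_irrefl _ this

omit [Algebra ℚ L] in
theorem valuation_intCast_lt_one {q : ℕ} (hA : A.LiesOverPrime q) {n : ℤ} (hn : (q : ℤ) ∣ n) :
    A.valuation (n : L) < 1 := by
  obtain ⟨m, rfl⟩ := hn
  push_cast
  exact val_mul_lt_one' (ValuationSubring.mem_nonunits_iff A |>.1 hA)
    ((A.valuation_le_one_iff _).2 (intCast_mem A m))

end Places

end FermatLib.EC.Frey05
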