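import Fermat.Agent.EC.Torsion
import Fermat.Agent.EC.Weil.Pairing
import Fermat.Prelude.Def_FreyPackage_DetCyclotomic
import Fermat.Prelude.Def_ExtCitation_KummerBridge

/-!
# The Weil pairing and the determinant of the Galois action on `E[p]`
-/

open WeierstrassCurve WeierstrassCurve.Affine WeierstrassCurve.Affine.Point
open scoped WeierstrassCurve.Affine

namespace FermatLib.EC

variable {R : Type*} {S : Type*} {K : Type*} [CommRing R] [CommRing S] [Field K] [DecidableEq K]
  [Algebra R S] [Algebra R K] [Algebra S K] [IsScalarTower R S K]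

section Pairing

variable [IsAlgClosed K] (W : WeierstrassCurve R) [(W⁄K).IsElliptic] {n : ℕ}

variable (S) in
/-- Existence of the Weil pairing on `E[n]`: bimultiplicative, alternating, with values in the
`n`th roots of unity, Galois equivariant and nondegenerate. -/
theorem exists_weilPairing (hn : (n : K) ≠ 0) :
    ∃ e : Submodule.torsionBy ℤ (W⁄K).Point n → Submodule.torsionBy ℤ (W⁄K).Point n → K,
      (∀ P P' Q, e (P + P') Q = e P Q * e P' Q) ∧
      (∀ P Q Q', e P (Q + Q') = e P Q * e P Q') ∧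
      (∀ P, e P P = 1) ∧ (∀ P Q, e P Q ^ n = 1) ∧
      (∀ (σ : K ≃ₐ[S] K) (P Q), e (σ • P) (σ • Q) = σ (e P Q)) ∧
      ∀ Q, (∀ P, e P Q = 1) → Q = 0 := by
  classical
  have hn0 : n ≠ 0 := fun h => hn (by rw [h, Nat.cast_zero])
  have : Finite (Submodule.torsionBy ℤ (W⁄K).Point (n : ℤ)) :=
    finite_torsionBy (W⁄K).toAffine hn0
  have : Fintype (Submodule.torsionBy ℤ (W⁄K).Point (n : ℤ)) := Fintype.ofFinite _
  let tors : Finset (W⁄K).Point :=
    (Finset.univ : Finset (Submodule.torsionBy ℤ (W⁄K).Point (n : ℤ))).map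
      (Function.Embedding.subtype _)
  have hmem : ∀ P, P ∈ tors ↔ n • P = 0 := fun P => by
    simp only [tors, Finset.mem_map, Finset.mem_univ, true_and, Function.Embedding.coe_subtype]
    rw [← natCast_zsmul, ← Submodule.mem_torsionBy_iff]
    exact ⟨fun ⟨a, ha⟩ => ha ▸ a.2, fun h => ⟨⟨P, h⟩, rfl⟩⟩
  have hcard : tors.card = n ^ 2 := by
    rw [Finset.card_map, Finset.card_univ, ← Nat.card_eq_fintype_card]
    exact natCard_torsionBy (W⁄K).toAffine hn
  have hdiv : ∀ T : (W⁄K).Point, ∃ T', n • T' = T := fun T => by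
    obtain ⟨T', hT'⟩ := surjective_zsmul (W⁄K).toAffine (Int.natCast_ne_zero.mpr hn0) T
    exact ⟨T', by rw [← natCast_zsmul]; exact hT'⟩
  have htor : ∀ P : Submodule.torsionBy ℤ (W⁄K).Point (n : ℤ), n • (P : (W⁄K).Point) = 0 :=
    fun P => by rw [← natCast_zsmul]; exact (Submodule.mem_torsionBy_iff _ _).mp P.2
  refine ⟨fun P Q => Weil.weil n (P : (W⁄K).Point) Q,
    fun P P' Q => Weil.weil_add_left hmem hcard hdiv (htor P) (htor P') (htor Q),
    fun P Q Q' => Weil.weil_add_right hmem hcard hdiv (htor P) (htor Q) (htor Q'),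
    fun P => Weil.weil_self hmem hcard hdiv (htor P),
    fun P Q => Weil.weil_pow hmem hcard hdiv (htor P) (htor Q), fun σ P Q => ?_, fun Q hQ => ?_⟩
  · have h := Weil.weil_map hmem hcard hdiv (σ.restrictScalars R) (htor P) (htor Q)
    have e : ∀ X : (W⁄K).Point, Affine.Point.map (σ.restrictScalars R).toAlgHom X = σ • X :=
      fun X => by cases X <;> rfl
    rw [e, e] at h
    exact h
  · refine Subtype.ext (Weil.weil_nondegenerate hmem hcard hdiv (htor Q) fun X hX => ?_)
    exact hQ ⟨X, by rw [Submodule.mem_torsionBy_iff, natCast_zsmul]; exact hX⟩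

end Pairing

section Det

variable [IsAlgClosed K] (W : WeierstrassCurve R) [(W⁄K).IsElliptic] (p : ℕ) [Fact p.Prime]

variable (S) in
/-- The determinant of the Galois action on `E[p]` is the mod `p` cyclotomic character. -/
theorem galoisRepDetEqCyclotomic (hp : (p : K) ≠ 0)
    (hn : Nat.card (rootsOfUnity p K) = p) :
    GaloisRepDetEqCyclotomic S W p hn := by
  classical
  intro σ
  have hpp : p.Prime := Fact.out
  set G := Submodule.torsionBy ℤ (W⁄K).Point (p : ℤ)
  obtain ⟨e, hl, hr, halt, hpow, hgal, hnd⟩ :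
      ∃ e : G → G → K, (∀ P P' Q, e (P + P') Q = e P Q * e P' Q) ∧
        (∀ P Q Q', e P (Q + Q') = e P Q * e P Q') ∧
        (∀ P, e P P = 1) ∧ (∀ P Q, e P Q ^ p = 1) ∧
        (∀ (τ : K ≃ₐ[S] K) (P Q), e (τ • P) (τ • Q) = τ (e P Q)) ∧
        ∀ Q, (∀ P, e P Q = 1) → Q = 0 := exists_weilPairing S W (n := p) hp
  have hfin : Finite G := finite_torsionBy (W⁄K).toAffine hpp.ne_zero
  have hrank : Module.finrank (ZMod p) G = 2 := by
    have h := Module.natCard_eq_pow_finrank (K := ZMod p) (V := G)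
    rw [show Nat.card G = p ^ 2 from natCard_torsionBy (W⁄K).toAffine hp, Nat.card_zmod] at h
    exact (Nat.pow_right_injective hpp.two_le h).symm
  let b : Module.Basis (Fin 2) (ZMod p) G := Module.finBasisOfFinrankEq _ _ hrank
  have hne : ∀ P Q, e P Q ≠ 0 := fun P Q h => by
    have := hpow P Q
    rw [h, zero_pow hpp.ne_zero] at this
    exact zero_ne_one this
  have hl0 : ∀ Q, e 0 Q = 1 := fun Q =>
    mul_left_cancel₀ (hne 0 Q) (by rw [← hl, add_zero, mul_one])
  have hr0 : ∀ P, e P 0 = 1 := fun P =>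
    mul_left_cancel₀ (hne P 0) (by rw [← hr, add_zero, mul_one])
  have hsl : ∀ (c : ZMod p) P Q, e (c • P) Q = e P Q ^ c.val := fun c P Q => by
    conv_lhs => rw [← ZMod.natCast_zmod_val c, Nat.cast_smul_eq_nsmul]
    induction c.val with
    | zero => rw [zero_nsmul, hl0, pow_zero]
    | succ k ih => rw [succ_nsmul, hl, ih, pow_succ]
  have hsr : ∀ (c : ZMod p) P Q, e P (c • Q) = e P Q ^ c.val := fun c P Q => by
    conv_lhs => rw [← ZMod.natCast_zmod_val c, Nat.cast_smul_eq_nsmul]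
    induction c.val with
    | zero => rw [zero_nsmul, hr0, pow_zero]
    | succ k ih => rw [succ_nsmul, hr, ih, pow_succ]
  have hskew : ∀ P Q, e P Q * e Q P = 1 := fun P Q => by
    have := halt (P + Q)
    rw [hl, hr, hr, halt, halt, one_mul, mul_one] at this
    exact this
  set ζ := e (b 0) (b 1) with hζ
  have hζp : ζ ^ p = 1 := hpow _ _
  have hζ1 : ζ ≠ 1 := by
    intro h1
    apply b.ne_zero 1
    refine hnd _ fun P => ?_
    rw [← b.sum_repr P, Fin.sum_univ_two, hl, hsl, hsl, ← hζ, h1, halt, one_pow, one_pow,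
      one_mul]
  let ρ := galoisRep (S := S) (K := K) W p σ
  set M := LinearMap.toMatrix b b (ρ : G →ₗ[ZMod p] G) with hM
  have hcol : ∀ j, σ • b j = M 0 j • b 0 + M 1 j • b 1 := fun j => by
    rw [← galoisRep_apply σ (b j), hM, LinearMap.toMatrix_apply, LinearMap.toMatrix_apply,
      ← Fin.sum_univ_two (fun i => b.repr ((ρ : G →ₗ[ZMod p] G) (b j)) i • b i), b.sum_repr]
    rfl
  have hdet : ((galoisRepDet (S := S) (K := K) W p σ : (ZMod p)ˣ) : ZMod p) =
      M 0 0 * M 1 1 - M 0 1 * M 1 0 := by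
    rw [galoisRepDet_apply, LinearEquiv.coe_det, ← LinearMap.det_toMatrix b, ← hM,
      Matrix.det_fin_two]
  set χ : ZMod p := ((modularCyclotomicCharacter K hn (σ : K ≃+* K) : (ZMod p)ˣ) : ZMod p) with hχ
  have hspec : σ ζ = ζ ^ χ.val := by
    have hu : IsUnit ζ := (hne _ _).isUnit
    have := modularCyclotomicCharacter.spec (L := K) hn (σ : K ≃+* K) (t := hu.unit)
      ((mem_rootsOfUnity _ _).mpr (Units.ext (by simpa using hζp)))
    simpa using this
  have key : σ ζ * ζ ^ ((M 1 0).val * (M 0 1).val) = ζ ^ ((M 0 0).val * (M 1 1).val) := by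
    rw [hζ, ← hgal, hcol, hcol, hl, hr, hr, hsl, hsl, hsl, hsl, hsr, hsr, hsr, hsr, halt, halt,
      ← hζ]
    simp only [one_pow, one_mul, mul_one, ← pow_mul]
    rw [mul_assoc, mul_comm ((M 0 1).val) ((M 1 0).val), ← mul_pow, mul_comm (e (b 1) (b 0)),
      hskew, one_pow, mul_one, mul_comm]
  rw [hspec, ← pow_add] at key
  have hord : orderOf ζ = p := orderOf_eq_prime hζp hζ1
  have hfo : IsOfFinOrder ζ := isOfFinOrder_iff_pow_eq_one.mpr ⟨p, hpp.pos, hζp⟩
  rw [hfo.pow_eq_pow_iff_modEq, hord, ← ZMod.natCast_eq_natCast_iff, Nat.cast_add, Nat.cast_mul,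
    Nat.cast_mul] at key
  simp only [ZMod.natCast_zmod_val] at key
  refine Units.ext ?_
  rw [hdet, ← hχ]
  linear_combination -key

variable {p}

/-- The scalars on a stable line and on the quotient multiply to the cyclotomic character. -/
theorem mul_eq_cyclotomic_of_stable_line (hp : (p : K) ≠ 0)
    (hn : Nat.card (rootsOfUnity p K) = p) (σ : K ≃ₐ[S] K)
    {z : Submodule.torsionBy ℤ (W⁄K).Point p} (hz : z ≠ 0) {a b : ZMod p} (ha : σ • z = a • z)
    (hb : ∀ y : Submodule.torsionBy ℤ (W⁄K).Point p,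
      σ • y - b • y ∈ Submodule.span (ZMod p) {z}) :
    a * b = ((modularCyclotomicCharacter K hn (σ : K ≃+* K) : (ZMod p)ˣ) : ZMod p) := by
  classical
  have hpp : p.Prime := Fact.out
  rw [← galoisRepDetEqCyclotomic S W p hp hn σ]
  have hfin : Finite (Submodule.torsionBy ℤ (W⁄K).Point (p : ℤ)) := finite_torsionBy (W⁄K).toAffine hpp.ne_zero
  have hrank : Module.finrank (ZMod p) (Submodule.torsionBy ℤ (W⁄K).Point (p : ℤ)) = 2 := by
    have h := Module.natCard_eq_pow_finrank (K := ZMod p) (V := (Submodule.torsionBy ℤ (W⁄K).Point (p : ℤ)))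
    rw [show Nat.card (Submodule.torsionBy ℤ (W⁄K).Point (p : ℤ)) = p ^ 2 from natCard_torsionBy (W⁄K).toAffine hp, Nat.card_zmod] at h
    exact (Nat.pow_right_injective hpp.two_le h).symm
  obtain ⟨y, hli⟩ := exists_linearIndependent_pair_of_one_lt_finrank
    (by omega : 1 < Module.finrank (ZMod p) (Submodule.torsionBy ℤ (W⁄K).Point (p : ℤ))) hz
  let B : Module.Basis (Fin 2) (ZMod p) (Submodule.torsionBy ℤ (W⁄K).Point (p : ℤ)) :=
    basisOfLinearIndependentOfCardEqFinrank hli (by rw [Fintype.card_fin, hrank])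
  have hB : ⇑B = ![z, y] := coe_basisOfLinearIndependentOfCardEqFinrank hli _
  have hB0 : z = B 0 := by rw [hB]; rfl
  have hB1 : y = B 1 := by rw [hB]; rfl
  obtain ⟨k, hk⟩ := Submodule.mem_span_singleton.mp (hb y)
  let ρ := galoisRep (S := S) (K := K) W p σ
  have h0 : (ρ : (Submodule.torsionBy ℤ (W⁄K).Point (p : ℤ)) →ₗ[ZMod p] (Submodule.torsionBy ℤ (W⁄K).Point (p : ℤ))) (B 0) = a • B 0 := by rw [← hB0]; exact ha
  have h1 : (ρ : (Submodule.torsionBy ℤ (W⁄K).Point (p : ℤ)) →ₗ[ZMod p] (Submodule.torsionBy ℤ (W⁄K).Point (p : ℤ))) (B 1) = k • B 0 + b • B 1 := by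
    rw [← hB0, ← hB1, hk, sub_add_cancel]; rfl
  rw [galoisRepDet_apply, LinearEquiv.coe_det, ← LinearMap.det_toMatrix B, Matrix.det_fin_two]
  simp only [LinearMap.toMatrix_apply]
  rw [h0, h1]
  simp

end Det

section Rat

variable (W : WeierstrassCurve ℚ) [W.IsElliptic] (p : ℕ) [Fact p.Prime]

/-- `det` of the mod `p` representation in terms of `ExtCitation.cycloExp`. -/
theorem galoisRepDet_coe_eq_cycloExp (σ : AlgebraicClosure ℚ ≃ₐ[ℚ] AlgebraicClosure ℚ) :
    ((galoisRepDet (S := ℚ) (K := AlgebraicClosure ℚ) W p σ : (ZMod p)ˣ) : ZMod p) =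
      (ExtCitation.cycloExp p σ : ZMod p) := by
  rw [galoisRepDetEqCyclotomic ℚ W p (Nat.cast_ne_zero.mpr (Fact.out : p.Prime).ne_zero)
    (ExtCitation.card_rootsOfUnity_eq_self p) σ, ← ExtCitation.coe_cycloChar]
  rfl

end Rat

end FermatLib.EC
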