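import Fermat.Agent.EC.FrobeniusRelation
import Fermat.Agent.EC.WeilPairing
import Fermat.Agent.Galois.TransferCyclo

/-!
# Trace, determinant and characteristic polynomial of Frobenius on `E[p]`
-/

set_option autoImplicit false

noncomputable section

namespace FermatLib.EC

open WeierstrassCurve WeierstrassCurve.Affine.Point
open scoped WeierstrassCurve.Affine

variable {W : WeierstrassCurve ℤ} {l p : ℕ} [Fact p.Prime]
  {A : ValuationSubring (AlgebraicClosure ℚ)}
  {σ : AlgebraicClosure ℚ ≃ₐ[ℚ] AlgebraicClosure ℚ}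

/-- The mod `p` cyclotomic character at a Frobenius at `l ≠ p` is `l`. -/
theorem modularCyclotomicCharacter_frobenius (hl : l.Prime) (hA : A.LiesOverPrime l)
    (hσ : A.IsFrobeniusAt σ l) (hp : l ≠ p)
    (hn : Nat.card (rootsOfUnity p (AlgebraicClosure ℚ)) = p) :
    ((modularCyclotomicCharacter (AlgebraicClosure ℚ) hn
      (σ : AlgebraicClosure ℚ ≃+* AlgebraicClosure ℚ) : (ZMod p)ˣ) : ZMod p) = (l : ZMod p) := by
  have hpp : p.Prime := Fact.out
  have : NeZero p := ⟨hpp.ne_zero⟩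
  refine (modularCyclotomicCharacter.unique (L := AlgebraicClosure ℚ) hn
    (σ : AlgebraicClosure ℚ ≃+* AlgebraicClosure ℚ) fun t ht => ?_).symm
  rw [ZMod.val_natCast]
  have htp : (t : AlgebraicClosure ℚ) ^ p = 1 := by
    rw [← Units.val_pow_eq_pow_val, (mem_rootsOfUnity _ _).mp ht, Units.val_one]
  rw [← pow_eq_pow_mod l htp]
  rcases eq_or_ne (t : AlgebraicClosure ℚ) 1 with h1 | h1
  · simp [h1]
  · exact Galois.apply_eq_pow_of_isFrobeniusAt A hl hA
      (fun h => hp ((Nat.prime_dvd_prime_iff_eq hl hpp).mp h)) hσ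
      (IsPrimitiveRoot.iff_orderOf.mpr (orderOf_eq_prime htp h1))

/-- The determinant of Frobenius on `E[p]` is `l`. -/
theorem det_galoisRepModuleEnd_frobenius (hl : l.Prime) (hgood : W.IsGoodPrimeFor l)
    (hA : A.LiesOverPrime l) (hσ : A.IsFrobeniusAt σ l) (hp : l ≠ p) :
    LinearMap.det
      (galoisRepModuleEnd (K := AlgebraicClosure ℚ) ℚ (W.map (Int.castRingHom ℚ)) p σ) =
        (l : ZMod p) := by
  have : (W.map (Int.castRingHom ℚ)).IsElliptic := by
    refine ⟨isUnit_iff_ne_zero.mpr ?_⟩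
    rw [map_Δ, eq_intCast, Int.cast_ne_zero]
    intro h0
    exact hgood (h0 ▸ dvd_zero _)
  have hpp : p.Prime := Fact.out
  have hn := ExtCitation.card_rootsOfUnity_eq_self p
  have h := galoisRepDetEqCyclotomic ℚ (W.map (Int.castRingHom ℚ)) p
    (K := AlgebraicClosure ℚ) (Nat.cast_ne_zero.mpr hpp.ne_zero) hn σ
  rw [← modularCyclotomicCharacter_frobenius hl hA hσ hp hn, ← h, galoisRepDet_apply,
    LinearEquiv.coe_det]
  congr 1

/-- The trace of Frobenius on `E[p]` is `a_l`. -/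
theorem galoisTrace_frobenius (hl : l.Prime) (hgood : W.IsGoodPrimeFor l)
    (hA : A.LiesOverPrime l) (hσ : A.IsFrobeniusAt σ l) (hp : l ≠ p) :
    galoisTrace (K := AlgebraicClosure ℚ) ℚ (W.map (Int.castRingHom ℚ)) p σ =
      ((W.apOfModel l : ℤ) : ZMod p) :=
  galoisTrace_frobenius_of_det hl hgood hA hσ hp
    (det_galoisRepModuleEnd_frobenius hl hgood hA hσ hp)

/-- The characteristic polynomial of Frobenius on `E[p]` is `X² - a_l X + l`. -/
theorem charpoly_galoisRepModuleEnd_frobenius (hl : l.Prime) (hgood : W.IsGoodPrimeFor l)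
    (hA : A.LiesOverPrime l) (hσ : A.IsFrobeniusAt σ l) (hp : l ≠ p)
    [Module.Free (ZMod p) (Submodule.torsionBy ℤ
      ((W.map (Int.castRingHom ℚ))⁄(AlgebraicClosure ℚ)).Point (p : ℤ))]
    [Module.Finite (ZMod p) (Submodule.torsionBy ℤ
      ((W.map (Int.castRingHom ℚ))⁄(AlgebraicClosure ℚ)).Point (p : ℤ))] :
    LinearMap.charpoly
      (galoisRepModuleEnd (K := AlgebraicClosure ℚ) ℚ (W.map (Int.castRingHom ℚ)) p σ) =
      Polynomial.X ^ 2 - Polynomial.C ((W.apOfModel l : ℤ) : ZMod p) * Polynomial.X +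
        Polynomial.C (l : ZMod p) := by
  have : (W.map (Int.castRingHom ℚ)).IsElliptic := by
    refine ⟨isUnit_iff_ne_zero.mpr ?_⟩
    rw [map_Δ, eq_intCast, Int.cast_ne_zero]
    intro h0
    exact hgood (h0 ▸ dvd_zero _)
  have hrank := finrank_torsionBy_baseChange (K := AlgebraicClosure ℚ) (p := p)
    (W.map (Int.castRingHom ℚ)) (Nat.cast_ne_zero.mpr (Fact.out : p.Prime).ne_zero)
  let b := Module.finBasisOfFinrankEq _ _ hrank
  rw [← LinearMap.charpoly_toMatrix _ b, Matrix.charpoly_fin_two,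
    ← LinearMap.trace_eq_matrix_trace _ b, LinearMap.det_toMatrix,
    det_galoisRepModuleEnd_frobenius hl hgood hA hσ hp, ← galoisTrace_def,
    galoisTrace_frobenius hl hgood hA hσ hp]

end FermatLib.EC
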