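import Fermat.Agent.EC.AddSubMapSpec
import Mathlib.AlgebraicGeometry.EllipticCurve.DivisionPolynomial.Basic

/-!
# Multiples of a point with nonvanishing division values

If all values `ψₖ(P)`, `k ≠ 0`, are nonzero, then `x(mP) = x - ψₘ₊₁ ψₘ₋₁ / ψₘ²`.
-/

open WeierstrassCurve WeierstrassCurve.Affine Polynomial

namespace FermatLib.EC

variable {F : Type*} [Field F] [DecidableEq F]

/-- The value at `(x, y)` of the `n`-th division polynomial. -/
noncomputable def divVal (W : WeierstrassCurve.Affine F) (x y : F) (n : ℤ) : F :=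
  normEDS (y - W.negY x y) (W.Ψ₃.eval x) (W.preΨ₄.eval x) n

/-- `x(mP) = x(P) - ψₘ₊₁ ψₘ₋₁ / ψₘ²`. -/
def MultX {W : WeierstrassCurve.Affine F} {x y : F} (h : W.Nonsingular x y) (m : ℤ) : Prop :=
  ∃ X Y H, m • Point.some x y h = Point.some X Y H ∧
    (x - X) * divVal W x y m ^ 2 = divVal W x y (m + 1) * divVal W x y (m - 1)

/-- `ψ₂(mP) = ψ₂ₘ / ψₘ⁴`. -/
def MultY {W : WeierstrassCurve.Affine F} {x y : F} (h : W.Nonsingular x y) (m : ℤ) : Prop :=
  ∃ X Y H, m • Point.some x y h = Point.some X Y H ∧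
    (Y - W.negY X Y) * divVal W x y m ^ 4 = divVal W x y (2 * m)

variable {W : WeierstrassCurve.Affine F} {x y : F} (h : W.Nonsingular x y)

lemma divVal_two : divVal W x y 2 = y - W.negY x y := normEDS_two ..

lemma divVal_three : divVal W x y 3 = W.Ψ₃.eval x := normEDS_three ..

lemma multY_one : MultY h 1 := by
  refine ⟨x, y, h, one_smul .., ?_⟩
  simp [divVal]

lemma multX_one : MultX h 1 := by
  refine ⟨x, y, h, one_smul .., ?_⟩
  simp [divVal]

lemma divVal_even (n : ℤ) : divVal W x y (2 * n) * (y - W.negY x y) =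
    divVal W x y (n - 1) ^ 2 * divVal W x y n * divVal W x y (n + 2) -
      divVal W x y (n - 2) * divVal W x y n * divVal W x y (n + 1) ^ 2 :=
  normEDS_even ..

lemma divVal_odd (n : ℤ) : divVal W x y (2 * n + 1) =
    divVal W x y (n + 2) * divVal W x y n ^ 3 -
      divVal W x y (n - 1) * divVal W x y (n + 1) ^ 3 :=
  normEDS_odd ..

variable (hq : ∀ k : ℤ, k ≠ 0 → divVal W x y k ≠ 0)
include hq

lemma Y_ne_negY : y ≠ W.negY x y := fun hy =>
  hq 2 two_ne_zero <| by rw [divVal_two, ← hy, sub_self]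

omit hq in
lemma eval_preΨ₄_eq (h : W.Equation x y) :
    W.preΨ₄.eval x = -(y - W.negY x y) ^ 4 +
      (2 * (3 * x ^ 2 + 2 * W.a₂ * x + W.a₄ - W.a₁ * y) + W.a₁ * (y - W.negY x y)) *
        W.Ψ₃.eval x := by
  rw [equation_iff] at h
  simp [preΨ₄, Ψ₃, negY, b₂, b₄, b₆, b₈]
  linear_combination -(-16*W.a₆ - 8*W.a₃^2 - 16*y*W.a₃ - 16*y^2 - 16*x*W.a₄ - 16*x*W.a₁*W.a₃
    - 16*x*y*W.a₁ - 16*x^2*W.a₂ - 8*x^2*W.a₁^2 - 16*x^3) * h

omit hq in
lemma addX_self_sub_mul_sq (h : W.Equation x y) (hy : y ≠ W.negY x y) :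
    (x - W.addX x x (W.slope x x y y)) * (y - W.negY x y) ^ 2 = W.Ψ₃.eval x := by
  rw [sub_mul, addX_self_mul_sq h hy, sq_sub_negY h]
  simp [Ψ₃]
  ring

lemma multX_two : MultX h 2 := by
  have hy := Y_ne_negY hq
  refine ⟨_, _, _, (two_smul ℤ _).trans (Point.add_self_of_Y_ne hy), ?_⟩
  rw [show (2 : ℤ) + 1 = 3 by rfl, show (2 : ℤ) - 1 = 1 by rfl, divVal_two, divVal_three,
    addX_self_sub_mul_sq h.left hy, divVal, normEDS_one, mul_one]

lemma multY_two : MultY h 2 := by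
  have hy := Y_ne_negY hq
  refine ⟨_, _, _, (two_smul ℤ _).trans (Point.add_self_of_Y_ne hy), ?_⟩
  have hd : y - W.negY x y ≠ 0 := sub_ne_zero.mpr hy
  have hX := addX_self_sub_mul_sq h.left hy
  rw [divVal_two, show (2 : ℤ) * 2 = 4 by rfl, divVal, normEDS_four, eval_preΨ₄_eq h.left]
  have hL : W.slope x x y y * (y - W.negY x y) =
      3 * x ^ 2 + 2 * W.a₂ * x + W.a₄ - W.a₁ * y := by
    rw [slope_of_Y_ne rfl hy, div_mul_cancel₀ _ hd]
  simp only [addY, negAddY]
  generalize W.addX x x (W.slope x x y y) = X at hX ⊢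
  simp only [negY] at hd hL hX ⊢
  generalize W.slope x x y y = L at hL ⊢
  linear_combination
    ((y - (-y - W.a₁ * x - W.a₃)) ^ 2 * (2 * L + W.a₁)) * hX +
    (2 * (y - (-y - W.a₁ * x - W.a₃)) * W.Ψ₃.eval x) * hL

lemma X_ne_of_multX {m : ℤ} {X Y : F} (hm1 : m + 1 ≠ 0) (hm2 : m - 1 ≠ 0)
    (hX : (x - X) * divVal W x y m ^ 2 = divVal W x y (m + 1) * divVal W x y (m - 1)) :
    X ≠ x := by
  rintro rfl
  rw [sub_self, zero_mul] at hX
  exact mul_ne_zero (hq _ hm1) (hq _ hm2) hX.symm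

/-- The `y`-formula at `n` from the `x`-formula at `n - 1`, `n`, `n + 1`. -/
lemma multY_of_multX {n : ℤ} (hn : 2 ≤ n) (hm : MultX h (n - 1)) (h0 : MultX h n)
    (hp : MultX h (n + 1)) : MultY h n := by
  obtain ⟨Xm, Ym, Hm, em, fm⟩ := hm
  obtain ⟨X, Y, H, e, f⟩ := h0
  obtain ⟨Xp, Yp, Hp, ep, fp⟩ := hp
  refine ⟨X, Y, H, e, ?_⟩
  rw [show n + 1 + 1 = n + 2 by ring, show n + 1 - 1 = n by ring] at fp
  rw [show n - 1 + 1 = n by ring, show n - 1 - 1 = n - 2 by ring] at fm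
  have hne := X_ne_of_multX hq (Y := Y) (by lia) (by lia) f
  have e1 := (add_zsmul (Point.some x y h) n 1).symm
  have e2 := (sub_zsmul (Point.some x y h) n 1).symm
  rw [one_zsmul, e, ep, Point.add_of_X_ne hne] at e1
  rw [one_zsmul, e, em, Point.neg_some,
    Point.add_of_X_ne hne] at e2
  have hdiff := W.addX_eq_addX_negY_sub Y y hne
  rw [(Point.some.inj e1).1, (Point.some.inj e2).1] at hdiff
  have hD : (x - X) ^ 2 ≠ 0 := pow_ne_zero 2 (sub_ne_zero.mpr hne.symm)
  rw [eq_sub_iff_add_eq, ← eq_sub_iff_add_eq', div_eq_iff hD] at hdiff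
  have heven := divVal_even (W := W) (x := x) (y := y) n
  refine mul_right_cancel₀ (sub_ne_zero.mpr (Y_ne_negY hq)) ?_
  generalize divVal W x y (n - 1) = qm at *
  generalize divVal W x y (n + 1) = qp at *
  generalize divVal W x y n = q0 at *
  generalize divVal W x y (n + 2) = qpp at *
  generalize divVal W x y (n - 2) = qmm at *
  linear_combination q0 ^ 4 * hdiff - heven + (Xm - Xp) * ((x - X) * q0 ^ 2 + qp * qm) * f
    + qm ^ 2 * fp - qp ^ 2 * fm

/-- The `x`-formula at `2 n` from the one at `n - 1`, `n`, `n + 1`. -/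
lemma multX_two_mul {n : ℤ} (hn : 2 ≤ n) (hm : MultX h (n - 1)) (h0 : MultX h n)
    (hp : MultX h (n + 1)) : MultX h (2 * n) := by
  obtain ⟨Xy, Yy, Hy, ey, fy⟩ := multY_of_multX h hq hn hm h0 hp
  obtain ⟨Xm, Ym, Hm, em, fm⟩ := hm
  obtain ⟨X, Y, H, e, f⟩ := h0
  obtain ⟨Xp, Yp, Hp, ep, fp⟩ := hp
  obtain ⟨rfl, rfl⟩ := Point.some.inj (ey.symm.trans e)
  rw [show n + 1 + 1 = n + 2 by ring, show n + 1 - 1 = n by ring] at fp
  rw [show n - 1 + 1 = n by ring, show n - 1 - 1 = n - 2 by ring] at fm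
  have hY : Yy ≠ W.negY Xy Yy := fun hc => hq (2 * n) (by lia) <| by
    rw [← fy, ← hc, sub_self, zero_mul]
  have e2 : (2 * n) • Point.some x y h =
      Point.some _ _ (nonsingular_add H H fun hxy => hY hxy.right) := by
    rw [mul_smul, e, two_smul, Point.add_self_of_Y_ne hY]
  refine ⟨_, _, _, e2, ?_⟩
  have hne := X_ne_of_multX hq (Y := Yy) (by lia) (by lia) f
  have e3 := (add_zsmul (Point.some x y h) n 1).symm
  have e4 := (sub_zsmul (Point.some x y h) n 1).symm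
  rw [one_zsmul, e, ep, Point.add_of_X_ne hne] at e3
  rw [one_zsmul, e, em, Point.neg_some,
    Point.add_of_X_ne hne] at e4
  have hsum := addX_add_addX_negY H.left h.left hne
  have hprod := addX_mul_addX_negY H.left h.left hne
  rw [(Point.some.inj e3).1, (Point.some.inj e4).1] at hsum hprod
  have hdbl := addX_self_mul_sq H.left hY
  have hsq := sq_sub_negY H.left
  have hodd := divVal_odd (W := W) (x := x) (y := y) n
  have hodd' := divVal_odd (W := W) (x := x) (y := y) (n - 1)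
  rw [show n - 1 + 2 = n + 1 by ring, show n - 1 - 1 = n - 2 by ring, show n - 1 + 1 = n by ring,
    show 2 * (n - 1) + 1 = 2 * n - 1 by ring] at hodd'
  generalize W.addX Xy Xy (W.slope Xy Xy Yy Yy) = X2 at hdbl ⊢
  -- the value of `(x - x(2Q)) ψ₂(Q)²`
  have k1 : (x - X2) * (Yy - W.negY Xy Yy) ^ 2 = -((Xy - Xp) * (Xy - Xm) * (Xy - x) ^ 2) := by
    linear_combination x * hsq - hdbl - Xy * hsum + hprod
  generalize Yy - W.negY Xy Yy = e at *
  generalize divVal W x y (2 * n + 1) = r1 at *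
  generalize divVal W x y (2 * n - 1) = r2 at *
  generalize divVal W x y (2 * n) = r0 at *
  generalize divVal W x y (n - 1) = qm at *
  generalize divVal W x y (n + 1) = qp at *
  generalize divVal W x y n = q0 at *
  generalize divVal W x y (n + 2) = qpp at *
  generalize divVal W x y (n - 2) = qmm at *
  have k2 : r1 = q0 ^ 2 * qp ^ 2 * (Xy - Xp) := by
    linear_combination hodd - q0 ^ 2 * fp + qp ^ 2 * f
  have k3 : r2 = q0 ^ 2 * qm ^ 2 * (Xm - Xy) := by
    linear_combination hodd' - qm ^ 2 * f + q0 ^ 2 * fm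
  rw [k2, k3, ← fy]
  linear_combination q0 ^ 8 * k1 -
    q0 ^ 4 * (Xy - Xp) * (Xy - Xm) * ((x - Xy) * q0 ^ 2 + qp * qm) * f

/-- The `x`-formula at `2 n + 1` from the `x`- and `y`-formulae at `n`, `n + 1`. -/
lemma multX_two_mul_add_one {n : ℤ} (hn : 1 ≤ n) (h0 : MultX h n) (hp : MultX h (n + 1))
    (g0 : MultY h n) (gp : MultY h (n + 1)) : MultX h (2 * n + 1) := by
  obtain ⟨X, Y, H, e, f⟩ := h0
  obtain ⟨Xp, Yp, Hp, ep, fp⟩ := hp
  obtain ⟨X', Y', H', e', g0⟩ := g0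
  obtain ⟨rfl, rfl⟩ := Point.some.inj (e.symm.trans e')
  obtain ⟨X', Y', H', e', gp⟩ := gp
  obtain ⟨rfl, rfl⟩ := Point.some.inj (ep.symm.trans e')
  rw [show n + 1 + 1 = n + 2 by ring, show n + 1 - 1 = n by ring] at fp
  rw [show 2 * (n + 1) = 2 * n + 1 + 1 by ring] at gp
  have hodd := divVal_odd (W := W) (x := x) (y := y) n
  have k2 : divVal W x y (2 * n + 1) =
      divVal W x y n ^ 2 * divVal W x y (n + 1) ^ 2 * (X - Xp) := by
    linear_combination hodd - divVal W x y n ^ 2 * fp + divVal W x y (n + 1) ^ 2 * f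
  have hne : Xp ≠ X := fun hc => hq (2 * n + 1) (by lia) <| by rw [k2, hc, sub_self, mul_zero]
  have e1 : (2 * n + 1) • Point.some x y h =
      Point.some _ _ (nonsingular_add Hp H fun hxy => hne hxy.left) := by
    rw [show 2 * n + 1 = n + 1 + n by ring, add_zsmul, ep, e, Point.add_of_X_ne hne]
  refine ⟨_, _, _, e1, ?_⟩
  have e2 : Point.some Xp Yp Hp - Point.some X Y H = Point.some x y h := by
    rw [← e, ← ep, sub_eq_add_neg, ← sub_zsmul, add_sub_cancel_left, one_zsmul]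
  rw [sub_eq_add_neg (Point.some Xp Yp Hp), Point.neg_some, Point.add_of_X_ne hne] at e2
  have hdiff := W.addX_eq_addX_negY_sub Yp Y hne
  rw [(Point.some.inj e2).1, eq_sub_iff_add_eq, ← eq_sub_iff_add_eq',
    div_eq_iff (pow_ne_zero 2 (sub_ne_zero.mpr hne.symm))] at hdiff
  generalize W.addX Xp X (W.slope Xp X Yp Y) = X3 at hdiff ⊢
  rw [show 2 * n + 1 - 1 = 2 * n by ring, k2, ← g0, ← gp]
  linear_combination -(divVal W x y n ^ 4 * divVal W x y (n + 1) ^ 4) * hdiff

theorem multX_natCast : ∀ m : ℕ, m ≠ 0 → MultX h m := by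
  intro m
  induction m using Nat.strong_induction_on with
  | _ m ih =>
  intro hm
  have ihZ : ∀ k : ℤ, 1 ≤ k → k < m → MultX h k := fun k h1 h2 => by
    lift k to ℕ using (by lia)
    exact ih k (by lia) (by lia)
  obtain ⟨n, rfl | rfl⟩ := m.even_or_odd'
  · rcases eq_or_ne n 1 with rfl | hn
    · exact multX_two h hq
    push_cast
    exact multX_two_mul h hq (by lia) (ihZ _ (by lia) (by lia)) (ihZ _ (by lia) (by lia))
      (ihZ _ (by lia) (by lia))
  · rcases Nat.eq_zero_or_pos n with rfl | hn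
    · exact multX_one h
    have hY : ∀ k : ℤ, 1 ≤ k → k ≤ n + 1 → MultY h k := fun k hk hk' => by
      rcases (show k = 1 ∨ k = 2 ∨ 3 ≤ k by lia) with rfl | rfl | hk3
      · exact multY_one h
      · exact multY_two h hq
      · exact multY_of_multX h hq (by lia) (ihZ _ (by lia) (by lia)) (ihZ _ (by lia) (by lia))
          (ihZ _ (by lia) (by lia))
    push_cast
    exact multX_two_mul_add_one h hq (by lia) (ihZ _ (by lia) (by lia)) (ihZ _ (by lia) (by lia))
      (hY _ (by lia) (by lia)) (hY _ (by lia) (by lia))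

end FermatLib.EC
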