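import Fermat.Agent.EC.InertiaMinkowski

/-!
# Inertia subgroups over one prime are conjugate
-/

set_option autoImplicit false

noncomputable section

open scoped Pointwise

namespace FermatLib.EC

local notation "ℚbar" => AlgebraicClosure ℚ

local instance isAlgebraicQbarConjugate : Algebra.IsAlgebraic ℚ ℚbar :=
  AlgebraicClosure.isAlgebraic ℚ

local instance isGaloisQbarConjugate : IsGalois ℚ ℚbar :=
  have : IsAlgClosure ℚ ℚbar := ⟨inferInstance, inferInstance⟩
  have : Normal ℚ ℚbar := IsAlgClosure.normal ℚ ℚbar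
  { }

/-- The maximal ideal of `ℤ̄` under a valuation subring. -/
def placeIdeal (A : ValuationSubring ℚbar) : Ideal (integralClosure ℤ ℚbar) :=
  (IsLocalRing.maximalIdeal A).comap
    ((integralClosure ℤ ℚbar).val.toRingHom.codRestrict A.toSubring
      fun b => integral_mem_valuationSubring A b.2)

theorem mem_placeIdeal {A : ValuationSubring ℚbar} (b : integralClosure ℤ ℚbar) :
    b ∈ placeIdeal A ↔ (b : ℚbar) ∈ A.nonunits :=
  ValuationSubring.coe_mem_nonunits_iff.symm

theorem placeIdeal_under {A : ValuationSubring ℚbar} {q : ℕ} (hq : q.Prime)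
    (hA : A.LiesOverPrime q) : (placeIdeal A).under ℤ = Ideal.span {(q : ℤ)} := by
  have hP : (placeIdeal A).IsPrime := Ideal.IsPrime.comap _
  have hmax : (Ideal.span {(q : ℤ)}).IsMaximal :=
    PrincipalIdealRing.isMaximal_of_irreducible (Nat.prime_iff_prime_int.mp hq).irreducible
  refine (hmax.eq_of_le (Ideal.IsPrime.ne_top inferInstance) ?_).symm
  rw [Ideal.span_singleton_le_iff_mem]
  change algebraMap ℤ (integralClosure ℤ ℚbar) (q : ℤ) ∈ placeIdeal A
  rw [mem_placeIdeal]
  simpa [ValuationSubring.LiesOverPrime] using hA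

/-- Inertia subgroups of places over the same rational prime are conjugate. -/
theorem exists_conj_mem_inertia {q : ℕ} (hq : q.Prime) (A A' : ValuationSubring ℚbar)
    (hA : A.LiesOverPrime q) (hA' : A'.LiesOverPrime q) :
    ∃ g : ℚbar ≃ₐ[ℚ] ℚbar, ∀ σ ∈ A'.inertiaSubgroupIn ℚ,
      g⁻¹ * σ * g ∈ A.inertiaSubgroupIn ℚ := by
  let B := integralClosure ℤ ℚbar
  let : TopologicalSpace B := ⊥
  have : DiscreteTopology B := ⟨rfl⟩
  have : ContinuousSMul (ℚbar ≃ₐ[ℚ] ℚbar) B := by
    rw [continuousSMul_iff_stabilizer_isOpen]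
    intro b
    have heq : MulAction.stabilizer (ℚbar ≃ₐ[ℚ] ℚbar) b =
        MulAction.stabilizer (ℚbar ≃ₐ[ℚ] ℚbar) (b : ℚbar) := by
      ext g
      simp only [MulAction.mem_stabilizer_iff]
      exact ⟨fun h => congrArg Subtype.val h, fun h => Subtype.ext h⟩
    rw [heq]
    exact stabilizer_isOpen_of_isIntegral (b : ℚbar)
  have : Algebra.IsInvariant ℤ B (ℚbar ≃ₐ[ℚ] ℚbar) := ⟨fun b hb => by
    obtain ⟨r, hr⟩ := (InfiniteGalois.mem_range_algebraMap_iff_fixed (k := ℚ) (b : ℚbar)).mpr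
      fun f => congrArg Subtype.val (hb f)
    have hint : IsIntegral ℤ r :=
      (isIntegral_algHom_iff ((algebraMap ℚ ℚbar).toIntAlgHom) (algebraMap ℚ ℚbar).injective).mp
        (show IsIntegral ℤ (algebraMap ℚ ℚbar r) from hr ▸ b.2)
    obtain ⟨z, hz⟩ := IsIntegrallyClosed.isIntegral_iff.mp hint
    refine ⟨z, Subtype.ext ?_⟩
    change algebraMap ℤ ℚbar z = (b : ℚbar)
    rw [← hr, ← hz, ← IsScalarTower.algebraMap_apply]⟩
  have hP : (placeIdeal A).IsPrime := Ideal.IsPrime.comap _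
  have hP' : (placeIdeal A').IsPrime := Ideal.IsPrime.comap _
  obtain ⟨g, hg⟩ :=
    Algebra.IsInvariant.exists_smul_of_under_eq_of_profinite (A := ℤ)
      (G := ℚbar ≃ₐ[ℚ] ℚbar) (placeIdeal A) (placeIdeal A')
      ((placeIdeal_under hq hA).trans (placeIdeal_under hq hA').symm)
  refine ⟨g, fun σ hσ => mem_inertiaSubgroupIn_of_forall_isIntegral A hq hA fun b hb => ?_⟩
  let bB : B := ⟨b, hb⟩
  have h1 : σ • (g • bB) - g • bB ∈ placeIdeal A' := by
    rw [mem_placeIdeal]
    exact sub_mem_nonunits_of_mem_inertiaSubgroupIn A' hσ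
      (integral_mem_valuationSubring A' (g • bB).2)
  rw [hg, Ideal.mem_pointwise_smul_iff_inv_smul_mem, smul_sub,
    inv_smul_smul, smul_smul, smul_smul, mem_placeIdeal] at h1
  exact h1

end FermatLib.EC
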