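import Fermat.Agent.EC.DivisionIdentity
import Mathlib.FieldTheory.IsAlgClosed.AlgebraicClosure

/-!
# `x([n]P) = Φₙ(x) / ΨSqₙ(x)`
-/

open WeierstrassCurve WeierstrassCurve.Affine Polynomial
open scoped WeierstrassCurve.Affine

namespace FermatLib.EC

lemma symVec_left_inj {F : Type*} [Field F] {w u u' : Fin 2 → F} (hw : w ≠ 0)
    (h : symVec u w = symVec u' w) : u = u' := by
  have h0 := congrFun h 0
  have h1 := congrFun h 1
  have h2 := congrFun h 2
  simp [symVec] at h0 h1 h2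
  funext i
  rcases eq_or_ne (w 0) 0 with hw0 | hw0
  · have hw1 : w 1 ≠ 0 := fun hc => hw <| by funext j; fin_cases j <;> simp [hw0, hc]
    fin_cases i
    · simpa [hw0, hw1] using h1
    · simpa [hw1] using h2
  · obtain h0 := h0.resolve_right hw0
    rw [h0, add_right_inj] at h1
    fin_cases i
    · exact h0
    · exact mul_right_cancel₀ hw0 h1

variable {F : Type*} [Field F] [DecidableEq F]

/-- `(Φₙ(x) : ΨSqₙ(x))` represents `x(nP)`, for every point `P = (x, y)`. -/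
theorem exists_eval_eq_smul_xRep_natCast {W : WeierstrassCurve.Affine F} [W.IsElliptic] {x y : F}
    (h : W.Nonsingular x y) : ∀ n : ℕ, ∃ r : F, r ≠ 0 ∧
      ![(W.Φ n).eval x, (W.ΨSq n).eval x] = r • ((n : ℤ) • Point.some x y h).xRep
  | 0 => ⟨1, one_ne_zero, by simp⟩
  | 1 => ⟨1, one_ne_zero, by simp⟩
  | n + 2 => by
    obtain ⟨r₀, hr₀, e₀⟩ := exists_eval_eq_smul_xRep_natCast h n
    obtain ⟨r₁, hr₁, e₁⟩ := exists_eval_eq_smul_xRep_natCast h (n + 1)
    obtain ⟨c, hc, ec⟩ := addSubVec_sym2x (((n + 1 : ℕ) : ℤ) • Point.some x y h) (Point.some x y h)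
    have e := congrArg ((evalRingHom x : F[X] →+* F) ∘ ·) (divisionRec W (Nat.succ_ne_zero n))
    rw [comp_addSubVec, comp_symVec, comp_symVec, comp_vec_two, comp_vec_two, comp_vec_two,
      comp_vec_two, WeierstrassCurve.map_map, map_one] at e
    rw [show (evalRingHom x).comp C = RingHom.id F from RingHom.ext fun a => eval_C,
      WeierstrassCurve.map_id] at e
    rw [show (((n + 1 : ℕ) : ℤ) + 1) = ((n + 2 : ℕ) : ℤ) by lia,
      show (((n + 1 : ℕ) : ℤ) - 1) = (n : ℤ) by lia] at e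
    simp only [coe_evalRingHom, eval_X] at e
    rw [e₁, symVec_smul_left, addSubVec_smul, e₀, symVec_smul_right,
      show symVec (((n + 1 : ℕ) : ℤ) • Point.some x y h).xRep ![x, 1] =
        (((n + 1 : ℕ) : ℤ) • Point.some x y h).sym2x (Point.some x y h) from rfl, ec] at e
    refine ⟨r₁ ^ 2 * c / r₀, by positivity, ?_⟩
    refine symVec_left_inj ((((n : ℤ)) • Point.some x y h).xRep_ne_zero) ?_
    have e2 : ((n + 2 : ℕ) : ℤ) • Point.some x y h =
        ((n + 1 : ℕ) : ℤ) • Point.some x y h + Point.some x y h := by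
      rw [show ((n + 2 : ℕ) : ℤ) = ((n + 1 : ℕ) : ℤ) + 1 by lia, add_zsmul, one_zsmul]
    have e3 : (n : ℤ) • Point.some x y h =
        ((n + 1 : ℕ) : ℤ) • Point.some x y h - Point.some x y h := by
      rw [show (n : ℤ) = ((n + 1 : ℕ) : ℤ) - 1 by lia, sub_zsmul, one_zsmul, sub_eq_add_neg]
    refine smul_right_injective _ hr₀ ?_
    dsimp only
    rw [← e, symVec_smul_left, smul_smul, smul_smul, mul_div_cancel₀ _ hr₀, e2, e3]
    rfl

theorem exists_eval_eq_smul_xRep {W : WeierstrassCurve.Affine F} [W.IsElliptic] {x y : F}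
    (h : W.Nonsingular x y) (n : ℤ) : ∃ r : F, r ≠ 0 ∧
      ![(W.Φ n).eval x, (W.ΨSq n).eval x] = r • (n • Point.some x y h).xRep := by
  obtain ⟨m, rfl | rfl⟩ := n.eq_nat_or_neg
  · exact exists_eval_eq_smul_xRep_natCast h m
  · simpa [-ΨSq_ofNat] using exists_eval_eq_smul_xRep_natCast h m

section Formula

variable {W : WeierstrassCurve.Affine F} [W.IsElliptic]

theorem eval_Φ_ne_zero_of_eval_ΨSq_eq_zero {x y : F} (h : W.Nonsingular x y) {n : ℤ}
    (hn : (W.ΨSq n).eval x = 0) : (W.Φ n).eval x ≠ 0 := by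
  obtain ⟨r, hr, e⟩ := exists_eval_eq_smul_xRep h n
  intro hΦ
  rw [hn, hΦ] at e
  exact smul_ne_zero hr (n • Point.some x y h).xRep_ne_zero (e.symm.trans (by simp))

theorem zsmul_some_eq_zero_iff {x y : F} (h : W.Nonsingular x y) (n : ℤ) :
    n • Point.some x y h = 0 ↔ (W.ΨSq n).eval x = 0 := by
  obtain ⟨r, hr, e⟩ := exists_eval_eq_smul_xRep h n
  have e1 := congrFun e 1
  generalize n • Point.some x y h = Q at e1 ⊢
  rcases Q with _ | ⟨X', Y', H'⟩
  · rw [← Point.zero_def] at e1 ⊢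
    simp at e1
    simp [e1]
  · simp at e1
    simp [e1, hr, Point.some_ne_zero]

theorem exists_zsmul_some_eq {x y : F} (h : W.Nonsingular x y) {n : ℤ}
    (hn : (W.ΨSq n).eval x ≠ 0) :
    ∃ y' h', n • Point.some x y h =
      Point.some ((W.Φ n).eval x / (W.ΨSq n).eval x) y' h' := by
  obtain ⟨r, hr, e⟩ := exists_eval_eq_smul_xRep h n
  rcases hQ : n • Point.some x y h with _ | ⟨X', Y', H'⟩
  · exact absurd ((zsmul_some_eq_zero_iff h n).mp hQ) hn
  · rw [hQ, Point.xRep_some] at e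
    have e0 : (W.Φ n).eval x = r * X' := by simpa using congrFun e 0
    have e1 : (W.ΨSq n).eval x = r := by simpa using congrFun e 1
    have hX : (W.Φ n).eval x / (W.ΨSq n).eval x = X' := by
      rw [e0, e1, mul_div_cancel_left₀ _ hr]
    refine ⟨Y', hX ▸ H', ?_⟩
    simp [hX]

omit [DecidableEq F] in
lemma exists_nonsingular_of_isAlgClosed (W : WeierstrassCurve.Affine F) [W.IsElliptic]
    [IsAlgClosed F] (x : F) : ∃ y, W.Nonsingular x y := by
  obtain ⟨y, hy⟩ := IsAlgClosed.exists_eval₂_eq_zero (RingHom.id F)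
    (X ^ 2 + C (W.a₁ * x + W.a₃) * X + C (-(x ^ 3 + W.a₂ * x ^ 2 + W.a₄ * x + W.a₆)))
    (ne_of_eq_of_ne (b := (2 : WithBot ℕ)) (by compute_degree!) (by decide))
  refine ⟨y, equation_iff_nonsingular.mp ((equation_iff x y).mpr ?_)⟩
  simp at hy
  linear_combination hy

omit [DecidableEq F] in
theorem isCoprime_Φ_ΨSq (W : WeierstrassCurve F) [W.IsElliptic] (n : ℤ) :
    IsCoprime (W.Φ n) (W.ΨSq n) := by
  classical
  set K := AlgebraicClosure F
  rw [← isCoprime_map (algebraMap F K), ← map_Φ, ← map_ΨSq,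
    isCoprime_iff_aeval_ne_zero_of_isAlgClosed K K]
  intro a
  obtain ⟨b, hb⟩ := exists_nonsingular_of_isAlgClosed (W.map (algebraMap F K)).toAffine a
  simp only [coe_aeval_eq_eval]
  rcases ne_or_eq (eval a ((W.map (algebraMap F K)).ΨSq n)) 0 with h0 | h0
  · exact .inr h0
  · exact .inl (eval_Φ_ne_zero_of_eval_ΨSq_eq_zero hb h0)

omit [DecidableEq F] in
theorem ΨSq_ne_zero_of_isElliptic (W : WeierstrassCurve F) [W.IsElliptic] {n : ℤ} (hn : n ≠ 0) :
    W.ΨSq n ≠ 0 := fun h0 => by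
  have h := isCoprime_Φ_ΨSq W n
  rw [h0, isCoprime_zero_right] at h
  exact (W.natDegree_Φ_pos hn).ne' (natDegree_eq_zero_of_isUnit h)

end Formula

end FermatLib.EC
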