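import Fermat.Agent.EC.AtP
import Fermat.Agent.EC.RedBridge

/-!
# Inertia at a split node in residue characteristic `2`

On a curve `y² + xy = x³ + a₂x² + a₄x` with `a₄` in the maximal ideal of a place of residue
characteristic `2`, inertia moves a point by a point with nonsingular reduction, so it acts
unipotently on torsion of odd order.
-/

set_option autoImplicit false

noncomputable section

open WeierstrassCurve WeierstrassCurve.Affine WeierstrassCurve.Affine.Point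
open scoped WeierstrassCurve.Affine

namespace FermatLib.EC

local notation "ℚbar" => AlgebraicClosure ℚ

/-- The residual relations at the node force every scaled coordinate to vanish. -/
theorem node_two_residual {k : Type*} [Field k] (h2 : (2 : k) = 0) {ξ η ε β u a : k} (hu : u ≠ 0)
    (hβ : β ^ 2 + β = a) (hQ : η ^ 2 + ξ * η - a * ξ ^ 2 = ε * ξ)
    (h1 : β * ((u - 1) * ξ) = (u + 1) * η + ξ)
    (h3 : β * ((u - 1) * (η + ξ)) = a * (u + 1) * ξ + ε + η + ξ) :
    ξ = 0 ∧ η = 0 ∧ ε = 0 := by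
  obtain ⟨w, rfl⟩ : ∃ w, u = w + 1 := ⟨u - 1, by ring⟩
  have e1 : η * w = ξ * (w * β + 1) := by
    linear_combination -h1 - (η + ξ) * h2
  have e2 : η * (w * β + 1) = ξ * (a * w + 1 + w * β) + ε := by
    linear_combination h3 + (η + a * ξ - ξ * w * β) * h2
  have e3 : ξ * (1 + w) = w * ε := by
    linear_combination -(w * β + 1) * e1 + w * e2 +
      (ξ * w + ξ * w ^ 2 * β) * h2 - (ξ * w ^ 2) * hβ - (ξ * w * β) * h2
  have e4 : η = ξ * (1 + β) + ε := by
    linear_combination e2 - β * e1 - ξ * w * hβ + (ξ * w * β - ξ * β + ξ * w * a - ξ * w * a) * h2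
  have e5 : ε = 0 := by
    have : ε ^ 2 = 0 := by
      subst e4
      linear_combination hQ - ξ ^ 2 * hβ - (ξ ^ 2 + ξ ^ 2 * β + ξ * ε * β + ξ * ε) * h2
    exact eq_zero_of_pow_eq_zero this
  subst e5
  rw [mul_zero, mul_eq_zero, or_iff_left (by rwa [add_comm])] at e3
  subst e3
  exact ⟨rfl, by rw [e4]; ring, rfl⟩

/-- Coordinates of the sum of two points whose sum is not zero. -/
theorem exists_slope_relations {L : Type*} [Field L] [DecidableEq L] {W : WeierstrassCurve L}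
    (h1 : W.a₁ = 1) (h3 : W.a₃ = 0) (h6 : W.a₆ = 0)
    {x₁ y₁ x₂ y₂ : L} (hP : W.toAffine.Nonsingular x₁ y₁) (hQ : W.toAffine.Nonsingular x₂ y₂)
    (hne : Point.some x₁ y₁ hP + Point.some x₂ y₂ hQ ≠ 0) :
    ∃ ℓ y₃ h₃, Point.some x₁ y₁ hP + Point.some x₂ y₂ hQ =
        Point.some (ℓ ^ 2 + ℓ - W.a₂ - x₁ - x₂) y₃ h₃ ∧
      ℓ * (x₁ - x₂) = y₁ - y₂ ∧
      ℓ * (y₁ + y₂ + x₁) = x₁ ^ 2 + x₁ * x₂ + x₂ ^ 2 + W.a₂ * (x₁ + x₂) + W.a₄ - y₂ := by
  have q1 := (Affine.equation_iff _ _).1 hP.1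
  have q2 := (Affine.equation_iff _ _).1 hQ.1
  rw [h1, h3, h6] at q1 q2
  have hxy : ¬(x₁ = x₂ ∧ y₁ = W.toAffine.negY x₂ y₂) := fun h =>
    hne (Point.add_of_Y_eq h.1 h.2)
  have hx : W.toAffine.addX x₁ x₂ (W.toAffine.slope x₁ x₂ y₁ y₂) =
      W.toAffine.slope x₁ x₂ y₁ y₂ ^ 2 + W.toAffine.slope x₁ x₂ y₁ y₂ - W.a₂ - x₁ - x₂ := by
    simp [Affine.addX, h1]
  refine ⟨W.toAffine.slope x₁ x₂ y₁ y₂, W.toAffine.addY x₁ x₂ y₁ (W.toAffine.slope x₁ x₂ y₁ y₂),
    hx ▸ Affine.nonsingular_add hP hQ hxy, ?_, ?_⟩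
  · rw [Point.add_some hxy, Point.some.injEq]
    exact ⟨hx, rfl⟩
  by_cases he : x₁ = x₂
  · subst he
    have hy : y₁ ≠ W.toAffine.negY x₁ y₂ := fun h => hxy ⟨rfl, h⟩
    obtain rfl : y₁ = y₂ := (Affine.Y_eq_of_X_eq hP.1 hQ.1 rfl).resolve_right hy
    refine ⟨by ring, ?_⟩
    rw [Affine.slope_of_Y_ne rfl hy]
    simp only [Affine.negY, h1, h3] at hy ⊢
    have hne' : 2 * y₁ + x₁ ≠ 0 := fun e => hy (by linear_combination e)
    rw [show y₁ - (-y₁ - 1 * x₁ - 0) = 2 * y₁ + x₁ by ring, show y₁ + y₁ + x₁ = 2 * y₁ + x₁ by ring,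
      div_mul_cancel₀ _ hne']
    ring
  · rw [Affine.slope_of_X_ne he]
    have : x₁ - x₂ ≠ 0 := sub_ne_zero.2 he
    constructor
    · field_simp
    · field_simp
      linear_combination q1 - q2

/-- Inertia moves a point into the points with nonsingular reduction. -/
theorem inE0_sub_of_node_two (W : WeierstrassCurve ℚ) (h1 : W.a₁ = 1) (h3 : W.a₃ = 0)
    (h6 : W.a₆ = 0) (A : ValuationSubring ℚbar) (hA : A.LiesOverPrime 2)
    (hV : IntegralAt A (W⁄ℚbar)) (ha₄ : res A (W⁄ℚbar).a₄ = 0)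
    {σ : ℚbar ≃ₐ[ℚ] ℚbar} (hσ : σ ∈ A.inertiaSubgroupIn ℚ) (T : (W⁄ℚbar).Point) :
    InE0 A (σ • T - T) := by
  obtain ⟨e1, e3, e6⟩ : (W⁄ℚbar).a₁ = 1 ∧ (W⁄ℚbar).a₃ = 0 ∧ (W⁄ℚbar).a₆ = 0 := by
    simp [Affine.baseChange, WeierstrassCurve.baseChange, h1, h3, h6]
  set a₂ := (W⁄ℚbar).a₂ with hA2
  set a₄ := (W⁄ℚbar).a₄ with hA4
  have hfix := fixesResidues_of_mem_inertia hσ
  have hval := (AtP.isInertial_of_mem hσ).map_val
  have h2k : (2 : IsLocalRing.ResidueField A) = 0 := by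
    have := (mem_nonunits_iff_res.mp hA).2
    rwa [res_natCast] at this
  rcases T with _ | ⟨x, y, hT⟩
  · change InE0 A (σ • (0 : (W⁄ℚbar).Point) - (0 : (W⁄ℚbar).Point))
    rw [show σ • (0 : (W⁄ℚbar).Point) = 0 from rfl, sub_zero]
    trivial
  obtain ⟨hT', eT⟩ := algEquiv_smul_some (σ := σ) hT
  by_cases hT0 : InE0 A (Point.some x y hT)
  · exact (E0 hV).sub_mem (redPt_smul hV hfix hT0).1 hT0
  by_cases hD0 : σ • (Point.some x y hT) - Point.some x y hT = 0
  · rw [hD0]; trivial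
  rw [eT] at hD0 ⊢
  rw [sub_eq_add_neg, Point.neg_some] at hD0 ⊢
  obtain ⟨ℓ, y₃, h₃, eD, hl1, hl2⟩ := exists_slope_relations e1 e3 e6 hT' _ hD0
  rw [eD, inE0_some]
  by_contra hbad
  push Not at hbad
  obtain ⟨hx₃, hsing₃⟩ := hbad
  -- singular reduction means both coordinates vanish
  have hsing : ∀ {x y : ℚbar} (h : (W⁄ℚbar).Nonsingular x y), x ∈ A →
      ¬ (redCurve A (W⁄ℚbar)).toAffine.Nonsingular (res A x) (res A y) →
      res A x = 0 ∧ res A y = 0 := by
    intro x y h hx hs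
    rw [Affine.nonsingular_iff] at hs
    push Not at hs
    obtain ⟨hfx, hfy⟩ := hs (hV.equation_red h.1 hx)
    simp only [redCurve, e1, e3, res_one, res_zero, one_mul, ← hA4, ha₄] at hfx hfy
    have hx0 : res A x = 0 := by linear_combination hfy - res A y * h2k
    refine ⟨hx0, ?_⟩
    rw [hx0] at hfx
    linear_combination hfx
  rw [inE0_some] at hT0
  push Not at hT0
  obtain ⟨hx, hTs⟩ := hT0
  have hy : y ∈ A := hV.mem_y hT.1 hx
  obtain ⟨hx0, hy0⟩ := hsing hT hx (hTs hx hy)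
  obtain ⟨hσxA, hσx0⟩ := hfix x hx
  rw [hx0] at hσx0
  obtain ⟨hx₃0, -⟩ := hsing h₃ hx₃ (hsing₃ hx₃ (hV.mem_y h₃.1 hx₃))
  -- the slope is integral and residually a tangent slope
  have hl : ℓ ∈ A := by
    refine mem_of_quadratic (b := 1)
      (c := (ℓ ^ 2 + ℓ - a₂ - σ x - x) + a₂ + σ x + x) (by ring) A.one_mem ?_
    exact add_mem (add_mem (add_mem hx₃ hV.a₂) hσxA) hx
  have hβ : res A ℓ ^ 2 + res A ℓ = res A a₂ := by
    have := congrArg (res A) (show ℓ ^ 2 + ℓ - a₂ - σ x - x + (a₂ + σ x + x) = ℓ ^ 2 + ℓ by ring)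
    rw [res_add hx₃ (add_mem (add_mem hV.a₂ hσxA) hx), res_add (add_mem hV.a₂ hσxA) hx,
      res_add hV.a₂ hσxA, res_add (pow_mem hl 2) hl, res_pow hl, hx₃0, hσx0, hx0] at this
    linear_combination -this
  -- scaling
  obtain ⟨Z, hxZ, hyZ, haZ, hZ⟩ : ∃ Z, A.valuation x ≤ A.valuation Z ∧
      A.valuation y ≤ A.valuation Z ∧ A.valuation a₄ ≤ A.valuation Z ∧
      (Z = x ∨ Z = y ∨ Z = a₄) := by
    rcases le_total (A.valuation x) (A.valuation y) with hxy | hxy
    · rcases le_total (A.valuation y) (A.valuation a₄) with h | h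
      · exact ⟨a₄, hxy.trans h, h, le_rfl, by tauto⟩
      · exact ⟨y, hxy, le_rfl, h, by tauto⟩
    · rcases le_total (A.valuation x) (A.valuation a₄) with h | h
      · exact ⟨a₄, h, hxy.trans h, le_rfl, by tauto⟩
      · exact ⟨x, le_rfl, hxy, h, by tauto⟩
  have heq := (Affine.equation_iff _ _).1 hT.1
  rw [e1, e3, e6, ← hA2, ← hA4] at heq
  have hZ0 : Z ≠ 0 := by
    intro e
    rw [e, _root_.map_zero] at hxZ hyZ haZ
    have hx0' := A.valuation.zero_iff.1 (le_antisymm hxZ zero_le)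
    have hy0' := A.valuation.zero_iff.1 (le_antisymm hyZ zero_le)
    have ha0' := A.valuation.zero_iff.1 (le_antisymm haZ zero_le)
    have := (Affine.nonsingular_iff _ _).1 hT
    rw [e1, e3, ← hA2, ← hA4, hx0', hy0', ha0'] at this
    simp at this
  have hvZ : 0 < A.valuation Z := zero_lt_iff.2 (A.valuation.ne_zero_iff.2 hZ0)
  have scale : ∀ z, A.valuation z ≤ A.valuation Z → z / Z ∈ A := fun z hz => by
    rw [mem_iff_valuation, map_div₀]; exact (div_le_one₀ hvZ).2 hz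
  have hu : σ Z / Z ∈ A := scale _ (hval Z).le
  have hu1 : res A (σ Z / Z) ≠ 0 := by
    rw [res_ne_zero_iff hu, map_div₀]
    exact (congrArg (· / A.valuation Z) (hval Z)).trans (div_self hvZ.ne')
  have sσ : ∀ z, A.valuation z ≤ A.valuation Z →
      σ z / Z ∈ A ∧ res A (σ z / Z) = res A (σ Z / Z) * res A (z / Z) := fun z hz => by
    obtain ⟨m, e⟩ := hfix _ (scale z hz)
    have he : σ z / Z = σ Z / Z * σ (z / Z) := by
      rw [map_div₀]; field_simp [(map_ne_zero σ).2 hZ0]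
    exact he ▸ ⟨mul_mem hu m, by rw [res_mul hu m, e]⟩
  have mx := scale x hxZ
  have my := scale y hyZ
  have ma := scale a₄ haZ
  obtain ⟨msx, rsx⟩ := sσ x hxZ
  obtain ⟨msy, rsy⟩ := sσ y hyZ
  set ξ := res A (x / Z)
  set η := res A (y / Z)
  set ε := res A (a₄ / Z)
  have hQ : η ^ 2 + ξ * η - res A a₂ * ξ ^ 2 = ε * ξ := by
    have e : (y / Z) ^ 2 + (x / Z) * (y / Z) - a₂ * (x / Z) ^ 2 =
        (a₄ / Z) * (x / Z) + x * (x / Z) ^ 2 := by
      field_simp
      linear_combination heq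
    have := congrArg (res A) e
    rw [res_sub (add_mem (pow_mem my 2) (mul_mem mx my)) (mul_mem hV.a₂ (pow_mem mx 2)),
      res_add (pow_mem my 2) (mul_mem mx my), res_pow my, res_mul mx my,
      res_mul hV.a₂ (pow_mem mx 2), res_pow mx, res_add (mul_mem ma mx) (mul_mem hx (pow_mem mx 2)),
      res_mul ma mx, res_mul hx (pow_mem mx 2), res_pow mx, hx0] at this
    linear_combination this
  simp only [Affine.negY, e1, e3] at hl1 hl2
  have hR1 : res A ℓ * ((res A (σ Z / Z) - 1) * ξ) = (res A (σ Z / Z) + 1) * η + ξ := by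
    have e : ℓ * (σ x / Z - x / Z) = σ y / Z + y / Z + x / Z := by
      field_simp
      linear_combination hl1
    have := congrArg (res A) e
    rw [res_mul hl (sub_mem msx mx), res_sub msx mx, res_add (add_mem msy my) mx,
      res_add msy my, rsx, rsy] at this
    linear_combination this
  have hR2 : res A ℓ * ((res A (σ Z / Z) - 1) * (η + ξ)) =
      res A a₂ * (res A (σ Z / Z) + 1) * ξ + ε + η + ξ := by
    have e : ℓ * (σ y / Z - y / Z + (σ x / Z - x / Z)) =
        σ x * (σ x / Z) + σ x * (x / Z) + x * (x / Z) + a₂ * (σ x / Z + x / Z) + a₄ / Z + y / Z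
          + x / Z := by
      field_simp
      linear_combination hl2
    have := congrArg (res A) e
    have m1 := mul_mem hσxA msx
    have m2 := mul_mem hσxA mx
    have m3 := mul_mem hx mx
    have m4 := mul_mem hV.a₂ (add_mem msx mx)
    rw [res_mul hl (add_mem (sub_mem msy my) (sub_mem msx mx)),
      res_add (sub_mem msy my) (sub_mem msx mx), res_sub msy my, res_sub msx mx,
      res_add (add_mem (add_mem (add_mem (add_mem (add_mem m1 m2) m3) m4) ma) my) mx,
      res_add (add_mem (add_mem (add_mem (add_mem m1 m2) m3) m4) ma) my,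
      res_add (add_mem (add_mem (add_mem m1 m2) m3) m4) ma,
      res_add (add_mem (add_mem m1 m2) m3) m4, res_add (add_mem m1 m2) m3, res_add m1 m2,
      res_mul hσxA msx, res_mul hσxA mx, res_mul hx mx, res_mul hV.a₂ (add_mem msx mx),
      res_add msx mx, hσx0, hx0, rsx, rsy] at this
    linear_combination this
  obtain ⟨hξ, hη, hε⟩ := node_two_residual h2k hu1 hβ hQ hR1 hR2
  have hone : res A (Z / Z) = 1 := by rw [div_self hZ0, res_one]
  rcases hZ with e | e | e <;> subst e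
  · exact one_ne_zero (hone.symm.trans hξ)
  · exact one_ne_zero (hone.symm.trans hη)
  · exact one_ne_zero (hone.symm.trans hε)

end FermatLib.EC
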