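import Fermat.Agent.EC.VeluDescent

/-!
# Two-torsion roots and the square class of the discriminant
-/

set_option autoImplicit false

open Polynomial WeierstrassCurve
open scoped WeierstrassCurve.Affine

namespace FermatLib.EC.Velu

/-- The Vandermonde product of three elements. -/
def prodDiff {L : Type*} [CommRing L] (e : Fin 3 → L) : L :=
  (e 0 - e 1) * (e 0 - e 2) * (e 1 - e 2)

lemma prodDiff_perm {L : Type*} [CommRing L] (π : Fin 3 → Fin 3) (hπ : Function.Injective π) :
    ∃ c : L, ∀ g : Fin 3 → L, prodDiff (fun i => g (π i)) = c * prodDiff g := by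
  have key : ∀ a b c : Fin 3, a ≠ b → a ≠ c → b ≠ c → π 0 = a → π 1 = b → π 2 = c →
      ∃ n : L, ∀ g : Fin 3 → L, prodDiff (fun i => g (π i)) = n * prodDiff g := by
    intro a b c hab hac hbc h0 h1 h2
    fin_cases a <;> fin_cases b <;> fin_cases c <;>
      simp only [Fin.zero_eta, Fin.mk_one, Fin.reduceFinMk] at hab hac hbc h0 h1 h2 <;>
      first
        | exact absurd rfl hab
        | exact absurd rfl hac
        | exact absurd rfl hbc
        | (refine ⟨1, fun g => ?_⟩
           simp only [prodDiff, h0, h1, h2]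
           ring1)
        | (refine ⟨-1, fun g => ?_⟩
           simp only [prodDiff, h0, h1, h2]
           ring1)
  exact key _ _ _ (fun h => by simpa using hπ h) (fun h => by simpa using hπ h)
    (fun h => by simpa using hπ h) rfl rfl rfl

section discr

variable {F : Type*} [Field F] [CharZero F] (V : WeierstrassCurve F)

lemma roots_of_injective {e : Fin 3 → F} (he : Function.Injective e)
    (h : ∀ i, uCoef V (e i) = 0) :
    V.b₂ = -4 * (e 0 + e 1 + e 2) ∧ V.b₄ = 2 * (e 0 * e 1 + e 0 * e 2 + e 1 * e 2) ∧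
      V.b₆ = -4 * (e 0 * e 1 * e 2) := by
  have h0 := h 0
  have h1 := h 1
  have h2 := h 2
  simp only [uCoef] at h0 h1 h2
  have n01 : e 0 - e 1 ≠ 0 := sub_ne_zero.mpr fun hh => by simpa using he hh
  have n02 : e 0 - e 2 ≠ 0 := sub_ne_zero.mpr fun hh => by simpa using he hh
  have n12 : e 1 - e 2 ≠ 0 := sub_ne_zero.mpr fun hh => by simpa using he hh
  have a01 : 4 * (e 0 ^ 2 + e 0 * e 1 + e 1 ^ 2) + V.b₂ * (e 0 + e 1) + 2 * V.b₄ = 0 :=
    mul_left_cancel₀ n01 (by linear_combination h0 - h1)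
  have a02 : 4 * (e 0 ^ 2 + e 0 * e 2 + e 2 ^ 2) + V.b₂ * (e 0 + e 2) + 2 * V.b₄ = 0 :=
    mul_left_cancel₀ n02 (by linear_combination h0 - h2)
  have hb₂ : V.b₂ = -4 * (e 0 + e 1 + e 2) :=
    mul_left_cancel₀ n12 (by linear_combination a01 - a02)
  have hb₄ : V.b₄ = 2 * (e 0 * e 1 + e 0 * e 2 + e 1 * e 2) :=
    mul_left_cancel₀ (two_ne_zero (α := F)) (by linear_combination a01 - (e 0 + e 1) * hb₂)
  exact ⟨hb₂, hb₄, by linear_combination h0 - e 0 ^ 2 * hb₂ - 2 * e 0 * hb₄⟩

lemma Δ_eq_prodDiff {e : Fin 3 → F} (he : Function.Injective e) (h : ∀ i, uCoef V (e i) = 0) :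
    V.Δ = 16 * prodDiff e ^ 2 := by
  obtain ⟨h2, h4, h6⟩ := roots_of_injective V he h
  refine mul_left_cancel₀ (show (16 : F) ≠ 0 by norm_num) ?_
  rw [← WeierstrassCurve.twoTorsionPolynomial_discr]
  simp only [WeierstrassCurve.twoTorsionPolynomial, Cubic.discr, prodDiff, h2, h4, h6]
  ring

lemma eq_of_uCoef_eq_zero {e : Fin 3 → F} (he : Function.Injective e)
    (h : ∀ i, uCoef V (e i) = 0) {x : F} (hx : uCoef V x = 0) : ∃ i, e i = x := by
  obtain ⟨h2, h4, h6⟩ := roots_of_injective V he h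
  have hprod : (4 : F) * ((x - e 0) * (x - e 1) * (x - e 2)) = 0 := by
    rw [← hx, uCoef, h2, h4, h6]; ring
  simp only [mul_eq_zero, sub_eq_zero] at hprod
  rcases hprod with h | ⟨h | h⟩ | h
  · norm_num at h
  · exact ⟨0, h.symm⟩
  · exact ⟨1, h.symm⟩
  · exact ⟨2, h.symm⟩

lemma exists_three_roots [IsAlgClosed F] [V.IsElliptic] :
    ∃ e : Fin 3 → F, Function.Injective e ∧ ∀ i, uCoef V (e i) = 0 := by
  have ha : V.twoTorsionPolynomial.a ≠ 0 := by simp [WeierstrassCurve.twoTorsionPolynomial]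
  obtain ⟨x, y, z, hxyz⟩ := (Cubic.splits_iff_roots_eq_three (φ := RingHom.id F) ha).mp
    (IsAlgClosed.splits _)
  have hne := Cubic.discr_eq_prod_three_roots (φ := RingHom.id F) ha hxyz
  have hd : V.twoTorsionPolynomial.discr ≠ 0 := by
    rw [WeierstrassCurve.twoTorsionPolynomial_discr]
    exact mul_ne_zero (by norm_num) V.isUnit_Δ.ne_zero
  rw [RingHom.id_apply] at hne
  rw [hne] at hd
  simp only [ne_eq, pow_eq_zero_iff, OfNat.ofNat_ne_zero, not_false_eq_true, mul_eq_zero,
    sub_eq_zero, not_or] at hd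
  obtain ⟨⟨⟨-, hxy⟩, hxz⟩, hyz⟩ := hd
  refine ⟨![x, y, z], ?_, ?_⟩
  · intro i j hij
    fin_cases i <;> fin_cases j <;> simp_all [eq_comm]
  · intro i
    have hmem : ![x, y, z] i ∈ (V.twoTorsionPolynomial.map (RingHom.id F)).roots := by
      rw [hxyz]; fin_cases i <;> simp
    have hroot := (mem_roots'.mp hmem).2
    rw [Cubic.map_toPoly, Polynomial.map_id] at hroot
    simp [WeierstrassCurve.twoTorsionPolynomial, Cubic.toPoly] at hroot
    simpa [uCoef] using hroot

end discr

variable {K : Type*} [Field K] [CharZero K] {L : Type*} [Field L] [DecidableEq L] [Algebra K L]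
  [IsAlgClosed L] [CharZero L] {W : WeierstrassCurve K} [W.IsElliptic]
  {G : AddSubgroup ((overClosure W L)⁄L).Point} [Finite G] (hodd : OddKernel G)

omit [DecidableEq L] [IsAlgClosed L] [CharZero L] [CharZero K] [W.IsElliptic] in
lemma uCoef_algebraMap (V : WeierstrassCurve K) (r : K) :
    uCoef (overClosure V L) (algebraMap K L r) = algebraMap K L (uCoef V r) := by
  simp [uCoef, overClosure, WeierstrassCurve.toAffine, WeierstrassCurve.baseChange, map_ofNat]

omit [DecidableEq L] [IsAlgClosed L] [CharZero L] [CharZero K] [W.IsElliptic] in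
lemma map_uCoef_overClosure (V : WeierstrassCurve K) (σ : L ≃ₐ[K] L) (x : L) :
    σ (uCoef (overClosure V L) x) = uCoef (overClosure V L) (σ x) := by
  simp [uCoef, overClosure, WeierstrassCurve.toAffine, WeierstrassCurve.baseChange, map_ofNat]

include hodd in
/-- Vélu's map on the two-torsion roots. -/
theorem veluX_injOn_roots {x y : L} (hx : uCoef (overClosure W L) x = 0)
    (hy : uCoef (overClosure W L) y = 0) :
    uCoef (quotCurve G) (veluX (overClosure W L) (kerXs G) x) = 0 ∧
      (veluX (overClosure W L) (kerXs G) x = veluX (overClosure W L) (kerXs G) y → x = y) := by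
  have := isElliptic_baseChange (W := overClosure W L) L
  have mk : ∀ z : L, uCoef (overClosure W L) z = 0 → ∃ P : ((overClosure W L)⁄L).Point,
      P ∉ kerM G L ∧ xCo P = z ∧ psiCo P = 0 ∧ (2 : ℕ) • P = 0 := by
    intro z hz
    obtain ⟨P, hP, hPx, hPψ⟩ := exists_point (W := (overClosure W L)⁄L) (x := z) (s := 0) (by
      rw [zero_pow two_ne_zero, ← hz]; rfl)
    have h2 : (2 : ℕ) • P = 0 := by
      by_contra h
      exact psiCo_ne_zero_of_two_nsmul hP h hPψ
    exact ⟨P, fun h => hP (hodd P (mem_kerM_self.mp h) h2), hPx, hPψ, h2⟩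
  obtain ⟨P, hP, hPx, hPψ, hP2⟩ := mk x hx
  obtain ⟨Q, hQ, hQx, hQψ, hQ2⟩ := mk y hy
  have hfP : psiCo (veluMap hodd L P) = 0 := by rw [psiCo_veluMap hodd hP, hPψ, mul_zero]
  have hfQ : psiCo (veluMap hodd L Q) = 0 := by rw [psiCo_veluMap hodd hQ, hQψ, mul_zero]
  refine ⟨?_, fun h => ?_⟩
  · rw [← hPx, ← xCo_veluMap hodd hP,
      show uCoef (quotCurve G) (xCo (veluMap hodd L P)) = psiCo (veluMap hodd L P) ^ 2 from
        (psiCo_sq (veluMap_ne_zero hodd hP)).symm, hfP, zero_pow two_ne_zero]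
  · by_cases hG : ∃ R ∈ G, R ≠ 0
    · have heq : veluMap hodd L P = veluMap hodd L Q := by
        refine ext_xCo_psiCo (veluMap_ne_zero hodd hP) (veluMap_ne_zero hodd hQ) ?_
          (hfP.trans hfQ.symm)
        rw [xCo_veluMap hodd hP, xCo_veluMap hodd hQ, hPx, hQx, h]
      rw [veluMap_eq_veluHom hodd hG, veluMap_eq_veluHom hodd hG] at heq
      have hmem : P - Q ∈ G := by
        rw [← ker_veluHom hodd hG, AddMonoidHom.mem_ker, map_sub, heq, sub_self]
      have := hodd _ hmem (by rw [smul_sub, hP2, hQ2, sub_self])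
      rw [← hPx, ← hQx, sub_eq_zero.mp this]
    · push Not at hG
      have hrs : kerXs G = ∅ := Finset.eq_empty_of_forall_notMem fun r hr => by
        obtain ⟨R, hR, hR0, -⟩ := mem_kerXs.mp hr
        exact hR0 (hG R hR)
      simpa [veluX, hrs, veluN, veluD] using h

variable [IsGalois K L]

include hodd in
/-- Full rational 2-torsion and square discriminant pass to the quotient. -/
theorem quot_isSquare_Δ
    (hG : ∀ σ : L ≃ₐ[K] L, ∀ P : (W⁄L).toAffine.Point, P ∈ G → σ • P ∈ G)
    {W' : WeierstrassCurve K} (hW' : (W'⁄L).toAffine = (quotCurve G)⁄L) :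
    ((∃ e : Fin 3 → K, Function.Injective e ∧ ∀ i, uCoef W (e i) = 0) →
        ∃ e : Fin 3 → K, Function.Injective e ∧ ∀ i, uCoef W' (e i) = 0) ∧
      (IsSquare W.Δ → IsSquare W'.Δ) := by
  set X' := veluX (overClosure W L) (kerXs G) (M := L) with hX'
  have hu' : ∀ x : L, uCoef (overClosure W' L) x = uCoef (quotCurve G) x := fun x => by
    rw [show overClosure W' L = (quotCurve G)⁄L from hW']
    rfl
  have heqv : ∀ (σ : L ≃ₐ[K] L) (x : L), σ (X' x) = X' (σ x) := by
    intro σ x
    have he : ∀ (p : L[X]) (x : L), σ (p.eval x) = (p.map (σ : L →+* L)).eval (σ x) :=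
      fun p x => (Polynomial.eval_map_apply (σ : L →+* L) x).symm
    simp only [hX', veluX, coe_aeval_eq_eval, map_div₀, map_pow, he, map_veluN, map_veluD,
      kerXs_image hG, overClosure_map]
  refine ⟨?_, ?_⟩
  · rintro ⟨e, he, h⟩
    have hroot : ∀ i, uCoef (overClosure W L) (algebraMap K L (e i)) = 0 := fun i => by
      rw [uCoef_algebraMap, h, map_zero]
    have hfix : ∀ i, ∃ k : K, algebraMap K L k = X' (algebraMap K L (e i)) := fun i =>
      (InfiniteGalois.mem_range_algebraMap_iff_fixed _).mpr fun σ => by rw [heqv, σ.commutes]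
    choose e' he' using hfix
    refine ⟨e', fun i j hij => ?_, fun i => ?_⟩
    · apply he
      apply (algebraMap K L).injective
      exact (veluX_injOn_roots hodd (hroot i) (hroot j)).2 (by
        rw [← hX', ← he', ← he', hij])
    · apply (algebraMap K L).injective
      rw [map_zero, ← uCoef_algebraMap, he', hu']
      exact (veluX_injOn_roots hodd (hroot i) (hroot i)).1
  · rintro ⟨s, hs⟩
    obtain ⟨e, he, h⟩ := exists_three_roots (overClosure W L)
    have hΔ : algebraMap K L W.Δ = 16 * prodDiff e ^ 2 := by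
      rw [← Δ_eq_prodDiff _ he h]
      exact (WeierstrassCurve.map_Δ W (algebraMap K L)).symm
    set e' : Fin 3 → L := fun i => X' (e i)
    have he' : Function.Injective e' := fun i j hij =>
      he ((veluX_injOn_roots hodd (h i) (h j)).2 hij)
    have h' : ∀ i, uCoef (overClosure W' L) (e' i) = 0 := fun i => by
      rw [hu']; exact (veluX_injOn_roots hodd (h i) (h i)).1
    have hΔ' : algebraMap K L W'.Δ = 16 * prodDiff e' ^ 2 := by
      rw [← Δ_eq_prodDiff _ he' h']
      exact (WeierstrassCurve.map_Δ W' (algebraMap K L)).symm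
    have hfix : ∀ σ : L ≃ₐ[K] L, σ (prodDiff e') = prodDiff e' := by
      intro σ
      have hperm : ∀ i, ∃ j, e j = σ (e i) := fun i =>
        eq_of_uCoef_eq_zero _ he h (by rw [← map_uCoef_overClosure, h, map_zero])
      choose π hπ using hperm
      have hπinj : Function.Injective π := fun i j hij =>
        he (σ.injective (by rw [← hπ i, ← hπ j, hij]))
      obtain ⟨c, hc⟩ := prodDiff_perm (L := L) π hπinj
      have hne : prodDiff e ≠ 0 := fun h0 => (overClosure W L).isUnit_Δ.ne_zero (by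
        rw [Δ_eq_prodDiff _ he h, h0]; ring)
      have h1 : σ (prodDiff e) = c * prodDiff e := by
        rw [← hc e]; simp [prodDiff, hπ]
      have h2 : σ (prodDiff e') = c * prodDiff e' := by
        rw [← hc e']; simp [prodDiff, e', heqv, hπ]
      have h3 : σ (prodDiff e) = prodDiff e := by
        have hsq : (4 * prodDiff e) ^ 2 = algebraMap K L s ^ 2 := by
          rw [sq (algebraMap K L s), ← map_mul, ← hs, hΔ]; ring
        have hσ4 : σ (4 * prodDiff e) = 4 * prodDiff e := by
          rcases sq_eq_sq_iff_eq_or_eq_neg.mp hsq with h4 | h4 <;> rw [h4] <;>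
            simp [σ.commutes]
        rw [map_mul, map_ofNat] at hσ4
        exact mul_left_cancel₀ (by norm_num) hσ4
      have hc1 : c = 1 := mul_right_cancel₀ hne (by rw [← h1, h3, one_mul])
      rw [h2, hc1, one_mul]
    obtain ⟨k, hk⟩ := (InfiniteGalois.mem_range_algebraMap_iff_fixed _).mpr hfix
    refine ⟨4 * k, (algebraMap K L).injective ?_⟩
    rw [hΔ', map_mul, map_mul, map_ofNat, hk]
    ring

end FermatLib.EC.Velu
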