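import Mathlib
import Fermat.Prelude.Def_FLTPrelim_FreyPackage
import Fermat.Prelude.Def_FLTPrelim_GaloisRep
import Fermat.Prelude.Def_FLTPrelim_CofixedLine
import Fermat.Agent.EC.VeluTwoTorsion
import Fermat.Agent.EC.Torsion

/-!
# The quotient isogeny `E → E/G` by a finite Galois stable subgroup of odd order

Vélu's formulas, and the consequences used for the small cases of Mazur's theorem.
-/

set_option autoImplicit false

open WeierstrassCurve WeierstrassCurve.Affine WeierstrassCurve.Affine.Point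

namespace FermatLib.EC

section

variable {K : Type*} [Field K]

/-- The three roots of `4X³ + b₂X² + 2b₄X + b₆` are distinct and lie in `K`. -/
def HasRationalTwoTorsion (W : WeierstrassCurve K) : Prop :=
  ∃ e : Fin 3 → K, Function.Injective e ∧
    ∀ i, 4 * e i ^ 3 + W.b₂ * e i ^ 2 + 2 * W.b₄ * e i + W.b₆ = 0

theorem HasRationalTwoTorsion.isSquare_Δ [CharZero K] {W : WeierstrassCurve K}
    (h : HasRationalTwoTorsion W) : IsSquare W.Δ := by
  obtain ⟨e, he, hroot⟩ := h
  refine ⟨4 * Velu.prodDiff e, ?_⟩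
  rw [Velu.Δ_eq_prodDiff W he hroot]
  ring

end

/-- Vélu: quotient by a finite Galois stable subgroup of odd order. -/
theorem exists_quotientIsogeny {K : Type*} [Field K] [CharZero K] {L : Type*} [Field L]
    [DecidableEq L] [Algebra K L] [IsAlgClosed L] [IsGalois K L]
    (W : WeierstrassCurve K) [W.IsElliptic] (G : AddSubgroup (W⁄L).toAffine.Point) [Finite G]
    (hodd : ∀ P ∈ G, (2 : ℕ) • P = 0 → P = 0)
    (hG : ∀ σ : L ≃ₐ[K] L, ∀ P ∈ G, σ • P ∈ G) :
    ∃ W' : WeierstrassCurve K, W'.IsElliptic ∧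
      (HasRationalTwoTorsion W → HasRationalTwoTorsion W') ∧
      (IsSquare W.Δ → IsSquare W'.Δ) ∧
      ∃ φ : (W⁄L).toAffine.Point →+ (W'⁄L).toAffine.Point,
        Function.Surjective φ ∧ φ.ker = G ∧
          ∀ (σ : L ≃ₐ[K] L) (P : (W⁄L).toAffine.Point), φ (σ • P) = σ • φ P := by
  have hell : (W⁄L).toAffine.IsElliptic := inferInstanceAs (W.map (algebraMap K L)).IsElliptic
  have : CharZero L := charZero_of_injective_algebraMap (algebraMap K L).injective
  let G' : AddSubgroup ((Velu.overClosure W L)⁄L).Point := G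
  have : Finite G' := ‹Finite G›
  have hodd' : Velu.OddKernel G' := hodd
  by_cases hne : ∃ Q ∈ G', Q ≠ 0
  · obtain ⟨W', -, -, -, hW'⟩ := Velu.exists_model (W := W) (G := G') hG
    have hV := Velu.veluCurve_isElliptic hodd'
    have h0 : (W'⁄L).toAffine.Δ = (Velu.quotCurve G').Δ := by
      rw [hW']; rfl
    refine ⟨W', ⟨isUnit_iff_ne_zero.mpr fun h => hV.isUnit.ne_zero ?_⟩,
      (Velu.quot_isSquare_Δ hodd' hG hW').1, (Velu.quot_isSquare_Δ hodd' hG hW').2,
      (Velu.pointCast hW').symm.toAddMonoidHom.comp (Velu.veluHom hodd'), ?_, ?_, ?_⟩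
    · have h1 : (W'⁄L).toAffine.Δ = algebraMap K L W'.Δ :=
        WeierstrassCurve.map_Δ W' (algebraMap K L)
      rw [← h0, h1, h, _root_.map_zero]
    · exact (Velu.pointCast hW').symm.surjective.comp (Velu.veluHom_surjective hodd' hne)
    · refine SetLike.ext fun P => Iff.trans ?_ (SetLike.ext_iff.mp (Velu.ker_veluHom hodd' hne) P)
      exact (Velu.pointCast hW').symm.map_eq_zero_iff
    · intro σ P
      show (Velu.pointCast hW').symm (Velu.veluHom hodd' (σ • P)) =
        σ • (Velu.pointCast hW').symm (Velu.veluHom hodd' P)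
      erw [← Velu.veluMap_eq_veluHom hodd' hne, ← Velu.veluMap_eq_veluHom hodd' hne]
      exact Velu.veluMap_smul hodd' hG hW' σ P
  · push Not at hne
    refine ⟨W, inferInstance, id, id, AddMonoidHom.id _, Function.surjective_id, ?_, fun σ P => rfl⟩
    ext P
    exact ⟨fun h => by rw [show P = 0 from h]; exact zero_mem G, fun h => hne P h⟩

/-- A point fixed by the Galois group is rational. -/
theorem exists_rational_of_fixed {K : Type*} [Field K] [DecidableEq K] {L : Type*} [Field L]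
    [DecidableEq L] [Algebra K L] [IsGalois K L] (W : WeierstrassCurve K)
    (R : (W⁄L).toAffine.Point) (hR : ∀ σ : L ≃ₐ[K] L, σ • R = R) :
    ∃ T : (W⁄K).toAffine.Point, Point.map (W' := W.toAffine) (Algebra.ofId K L) T = R := by
  cases R with
  | zero => exact ⟨0, _root_.map_zero _⟩
  | some x y hxy =>
    obtain ⟨x₀, rfl⟩ := (InfiniteGalois.mem_range_algebraMap_iff_fixed x).mpr fun σ =>
      (Point.some.inj (hR σ)).1
    obtain ⟨y₀, rfl⟩ := (InfiniteGalois.mem_range_algebraMap_iff_fixed y).mpr fun σ =>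
      (Point.some.inj (hR σ)).2
    exact ⟨.some x₀ y₀ ((W.toAffine.map_nonsingular (algebraMap K L).injective x₀ y₀).mp hxy), rfl⟩

/-- A Galois stable cofixed line gives a quotient curve with a rational point of order `p`. -/
theorem exists_quotient_rational_point {K : Type*} [Field K] [CharZero K] [DecidableEq K]
    {L : Type*} [Field L] [DecidableEq L] [Algebra K L] [IsAlgClosed L] [IsGalois K L]
    (W : WeierstrassCurve K) [W.IsElliptic] (p : ℕ) (hp : p.Prime) (hp2 : p ≠ 2)
    (h : HasGaloisStableCofixedLine (K := L) K W.toAffine p) :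
    ∃ W' : WeierstrassCurve K, W'.IsElliptic ∧
      (HasRationalTwoTorsion W → HasRationalTwoTorsion W') ∧
      (IsSquare W.Δ → IsSquare W'.Δ) ∧
      ∃ T : W'.toAffine.Point, addOrderOf T = p := by
  obtain ⟨N, hstab, -, hNtop, hcof⟩ := h
  have hell : (W⁄L).toAffine.IsElliptic := inferInstanceAs (W.map (algebraMap K L)).IsElliptic
  have hfin : Finite (Submodule.torsionBy ℤ (W⁄L).toAffine.Point (p : ℤ)) :=
    finite_torsionBy _ hp.ne_zero
  set G : AddSubgroup (W⁄L).toAffine.Point :=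
    N.toAddSubgroup.map (Submodule.torsionBy ℤ (W⁄L).toAffine.Point (p : ℤ)).subtype.toAddMonoidHom
    with hG_def
  have hGfin : Finite G := by
    rw [hG_def]
    exact ((Set.toFinite (SetLike.coe N.toAddSubgroup)).image _).to_subtype
  have hpG : ∀ P ∈ G, p • P = 0 := by
    rintro P ⟨x, -, rfl⟩
    have := (Submodule.mem_torsionBy_iff _ _).mp x.2
    rwa [Nat.cast_smul_eq_nsmul] at this
  have hodd : ∀ P ∈ G, (2 : ℕ) • P = 0 → P = 0 := by
    intro P hP h2
    have hc : Nat.Coprime 2 p := (Nat.coprime_primes Nat.prime_two hp).mpr (Ne.symm hp2)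
    exact AddMonoid.addOrderOf_eq_one_iff.mp (Nat.eq_one_of_dvd_coprimes hc
      (addOrderOf_dvd_iff_nsmul_eq_zero.mpr h2) (addOrderOf_dvd_iff_nsmul_eq_zero.mpr (hpG P hP)))
  have hGstab : ∀ σ : L ≃ₐ[K] L, ∀ P ∈ G, σ • P ∈ G := by
    rintro σ P ⟨x, hx, rfl⟩
    exact ⟨σ • x, hstab σ x hx, rfl⟩
  obtain ⟨W', hW', h2, hsq, φ, -, hker, heq⟩ := exists_quotientIsogeny W G hodd hGstab
  refine ⟨W', hW', h2, hsq, ?_⟩
  obtain ⟨x, -, hxN⟩ := SetLike.exists_of_lt hNtop.lt_top
  set R := φ (x : (W⁄L).toAffine.Point) with hR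
  have hR0 : R ≠ 0 := fun h0 => by
    have hx : (x : (W⁄L).toAffine.Point) ∈ G := hker ▸ h0
    obtain ⟨y, hy, hyx⟩ := hx
    exact hxN ((Subtype.ext hyx : y = x) ▸ hy)
  have hpR : p • R = 0 := by
    have := (Submodule.mem_torsionBy_iff _ _).mp x.2
    rw [Nat.cast_smul_eq_nsmul] at this
    rw [hR, ← map_nsmul, this, _root_.map_zero]
  have hfix : ∀ σ : L ≃ₐ[K] L, σ • R = R := fun σ => by
    rw [hR, ← heq, ← sub_eq_zero, ← map_sub]
    have hmem : σ • (x : (W⁄L).toAffine.Point) - x ∈ G := ⟨σ • x - x, hcof σ x, rfl⟩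
    rwa [← hker] at hmem
  obtain ⟨T, hT⟩ := exists_rational_of_fixed W' R hfix
  refine ⟨T, ?_⟩
  have hp' := Fact.mk hp
  refine (addOrderOf_injective _ (Point.map_injective (W' := W'.toAffine) (Algebra.ofId K L))
    T).symm.trans ?_
  rw [hT]
  exact addOrderOf_eq_prime hpR hR0

theorem frey_hasRationalTwoTorsion (P : FreyPackage) : HasRationalTwoTorsion P.freyCurve := by
  have hA : ((P.a : ℚ)) ^ P.p ≠ 0 := pow_ne_zero _ (Int.cast_ne_zero.mpr P.ha0)
  have hB : ((P.b : ℚ)) ^ P.p ≠ 0 := pow_ne_zero _ (Int.cast_ne_zero.mpr P.hb0)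
  have hC : ((P.a : ℚ)) ^ P.p + (P.b : ℚ) ^ P.p ≠ 0 := by
    rw [show ((P.a : ℚ)) ^ P.p + (P.b : ℚ) ^ P.p = ((P.c : ℚ)) ^ P.p by exact_mod_cast P.hFLT]
    exact pow_ne_zero _ (Int.cast_ne_zero.mpr P.hc0)
  set e : Fin 3 → ℚ := ![0, (P.a : ℚ) ^ P.p / 4, -((P.b : ℚ) ^ P.p / 4)] with he
  have h01 : e 0 ≠ e 1 := fun h => hA (by
    have h' : (0 : ℚ) = (P.a : ℚ) ^ P.p / 4 := h
    linarith)
  have h02 : e 0 ≠ e 2 := fun h => hB (by
    have h' : (0 : ℚ) = -((P.b : ℚ) ^ P.p / 4) := h
    linarith)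
  have h12 : e 1 ≠ e 2 := fun h => hC (by simp [he] at h; linarith)
  refine ⟨e, fun i j hij => ?_, fun i => ?_⟩
  · fin_cases i <;> fin_cases j <;>
      first
        | rfl
        | exact absurd hij h01
        | exact absurd hij h02
        | exact absurd hij h12
        | exact absurd hij.symm h01
        | exact absurd hij.symm h02
        | exact absurd hij.symm h12
  · fin_cases i <;>
      simp [he, WeierstrassCurve.b₂, WeierstrassCurve.b₄, WeierstrassCurve.b₆,
        FreyPackage.freyCurve] <;> ring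

/-- The form used for S10 and S11: a cofixed line of the Frey curve gives an elliptic curve over
`ℚ` with all its 2-torsion rational (so with square discriminant) and a rational point of order
`p`. -/
theorem frey_exists_quotient (P : FreyPackage)
    (h : HasGaloisStableCofixedLine (K := AlgebraicClosure ℚ) ℚ P.freyCurve P.p) :
    ∃ W' : WeierstrassCurve ℚ, W'.IsElliptic ∧ HasRationalTwoTorsion W' ∧ IsSquare W'.Δ ∧
      ∃ T : W'.toAffine.Point, addOrderOf T = P.p := by
  have hΔ : P.freyCurve.IsElliptic := by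
    obtain ⟨e, he, hroot⟩ := frey_hasRationalTwoTorsion P
    refine ⟨isUnit_iff_ne_zero.mpr ?_⟩
    rw [Velu.Δ_eq_prodDiff _ he hroot]
    refine mul_ne_zero (by norm_num) (pow_ne_zero _ (mul_ne_zero (mul_ne_zero ?_ ?_) ?_)) <;>
      exact sub_ne_zero.mpr (he.ne (by decide))
  have hGal : IsGalois ℚ (AlgebraicClosure ℚ) := by
    have : Algebra.IsAlgebraic ℚ (AlgebraicClosure ℚ) := AlgebraicClosure.isAlgebraic ℚ
    have : Algebra.IsSeparable ℚ (AlgebraicClosure ℚ) :=
      Algebra.IsAlgebraic.isSeparable_of_perfectField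
    have : IsAlgClosure ℚ (AlgebraicClosure ℚ) := ⟨inferInstance, inferInstance⟩
    have : Normal ℚ (AlgebraicClosure ℚ) := IsAlgClosure.normal ℚ _
    exact ⟨⟩
  obtain ⟨W', hW', h2, -, T, hT⟩ := exists_quotient_rational_point (L := AlgebraicClosure ℚ)
    P.freyCurve P.p P.pp (by have := P.hp5; omega) h
  exact ⟨W', hW', h2 (frey_hasRationalTwoTorsion P),
    (h2 (frey_hasRationalTwoTorsion P)).isSquare_Δ, T, hT⟩

end FermatLib.EC
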