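import Mathlib.RingTheory.Valuation.ValuationSubring
import Mathlib.RingTheory.LocalRing.ResidueField.Basic
import Mathlib.Tactic

/-!
# The residue map of a valuation subring as a total function
-/

set_option autoImplicit false

noncomputable section

namespace FermatLib.EC

variable {L : Type*} [Field L] (A : ValuationSubring L)

/-- The residue map of a place, extended by `0` outside the valuation ring. -/
def res (x : L) : IsLocalRing.ResidueField A :=
  open Classical in if h : x ∈ A then IsLocalRing.residue A ⟨x, h⟩ else 0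

variable {A} {x y : L}

lemma res_of_mem (h : x ∈ A) : res A x = IsLocalRing.residue A ⟨x, h⟩ := dif_pos h

lemma res_coe (x : A) : res A (x : L) = IsLocalRing.residue A x := res_of_mem x.2

lemma res_eq_zero_of_not_mem (h : x ∉ A) : res A x = 0 := dif_neg h

lemma res_surjective : Function.Surjective (res A) := fun z => by
  obtain ⟨a, rfl⟩ := IsLocalRing.residue_surjective z
  exact ⟨a, res_coe a⟩

@[simp] lemma res_zero : res A 0 = 0 := by
  rw [res_of_mem A.zero_mem]; exact map_zero (IsLocalRing.residue A)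

@[simp] lemma res_one : res A 1 = 1 := by
  rw [res_of_mem A.one_mem]; exact map_one (IsLocalRing.residue A)

lemma natCast_mem_place (n : ℕ) : (n : L) ∈ A := natCast_mem A n

lemma intCast_mem_place (n : ℤ) : (n : L) ∈ A := intCast_mem A n

@[simp] lemma res_natCast (n : ℕ) : res A (n : L) = n := by
  rw [res_of_mem (natCast_mem_place n)]; exact map_natCast (IsLocalRing.residue A) n

@[simp] lemma res_intCast (n : ℤ) : res A (n : L) = n := by
  rw [res_of_mem (intCast_mem_place n)]; exact map_intCast (IsLocalRing.residue A) n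

lemma ofNat_mem_place (n : ℕ) [n.AtLeastTwo] : (OfNat.ofNat n : L) ∈ A := natCast_mem A n

@[simp] lemma res_ofNat (n : ℕ) [n.AtLeastTwo] : res A (OfNat.ofNat n : L) = OfNat.ofNat n :=
  res_natCast n

lemma res_add (hx : x ∈ A) (hy : y ∈ A) : res A (x + y) = res A x + res A y := by
  rw [res_of_mem hx, res_of_mem hy, res_of_mem (add_mem hx hy), ← map_add]; rfl

lemma res_mul (hx : x ∈ A) (hy : y ∈ A) : res A (x * y) = res A x * res A y := by
  rw [res_of_mem hx, res_of_mem hy, res_of_mem (mul_mem hx hy), ← map_mul]; rfl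

lemma res_neg (hx : x ∈ A) : res A (-x) = -res A x := by
  rw [res_of_mem hx, res_of_mem (neg_mem hx), ← map_neg]; rfl

lemma res_sub (hx : x ∈ A) (hy : y ∈ A) : res A (x - y) = res A x - res A y := by
  rw [sub_eq_add_neg, res_add hx (neg_mem hy), res_neg hy, sub_eq_add_neg]

lemma res_pow (hx : x ∈ A) (n : ℕ) : res A (x ^ n) = res A x ^ n := by
  induction n with
  | zero => simp
  | succ n ih => rw [pow_succ, pow_succ, res_mul (pow_mem hx n) hx, ih]

lemma mem_iff_valuation : x ∈ A ↔ A.valuation x ≤ 1 := (A.valuation_le_one_iff x).symm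

lemma not_mem_iff_valuation : x ∉ A ↔ 1 < A.valuation x := by
  rw [mem_iff_valuation, not_le]

lemma mem_nonunits_iff_res : x ∈ A.nonunits ↔ x ∈ A ∧ res A x = 0 := by
  rw [A.mem_nonunits_iff_exists_mem_maximalIdeal]
  constructor
  · rintro ⟨h, h'⟩
    exact ⟨h, by rw [res_of_mem h, IsLocalRing.residue_eq_zero_iff]; exact h'⟩
  · rintro ⟨h, h'⟩
    exact ⟨h, by rwa [res_of_mem h, IsLocalRing.residue_eq_zero_iff] at h'⟩

lemma res_eq_zero_iff (hx : x ∈ A) : res A x = 0 ↔ A.valuation x < 1 := by
  rw [← A.mem_nonunits_iff, mem_nonunits_iff_res]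
  exact (and_iff_right hx).symm

lemma res_eq_res_iff (hx : x ∈ A) (hy : y ∈ A) :
    res A x = res A y ↔ A.valuation (x - y) < 1 := by
  rw [← res_eq_zero_iff (sub_mem hx hy), res_sub hx hy, sub_eq_zero]

lemma res_ne_zero_iff (hx : x ∈ A) : res A x ≠ 0 ↔ A.valuation x = 1 := by
  rw [Ne, res_eq_zero_iff hx, not_lt]
  exact ⟨fun h => le_antisymm (mem_iff_valuation.mp hx) h, fun h => h.ge⟩

lemma inv_mem_of_res_ne_zero (h : res A x ≠ 0) : x⁻¹ ∈ A := by
  have hx : x ∈ A := by
    by_contra hx; exact h (res_eq_zero_of_not_mem hx)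
  rw [mem_iff_valuation, map_inv₀, (res_ne_zero_iff hx).mp h, inv_one]

lemma mem_of_res_ne_zero (h : res A x ≠ 0) : x ∈ A := by
  by_contra hx; exact h (res_eq_zero_of_not_mem hx)

lemma div_mem_of_res_ne_zero (hx : x ∈ A) (hy : res A y ≠ 0) : x / y ∈ A := by
  rw [div_eq_mul_inv]; exact mul_mem hx (inv_mem_of_res_ne_zero hy)

lemma res_div (hx : x ∈ A) (hy : res A y ≠ 0) : res A (x / y) = res A x / res A y := by
  have hy0 : y ≠ 0 := fun h => hy (by rw [h, res_zero])
  rw [eq_div_iff hy, ← res_mul (div_mem_of_res_ne_zero hx hy) (mem_of_res_ne_zero hy),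
    div_mul_cancel₀ x hy0]

/-- An element whose inverse is not integral lies in the maximal ideal. -/
lemma inv_of_not_mem (hx : x ∉ A) : x⁻¹ ∈ A ∧ res A x⁻¹ = 0 := by
  have h := (A.mem_or_inv_mem x).resolve_left hx
  refine ⟨h, ?_⟩
  by_contra h0
  exact hx (inv_inv x ▸ inv_mem_of_res_ne_zero h0)

/-- A root of a monic quadratic with integral coefficients is integral. -/
lemma mem_of_quadratic {b c : L} (h : x ^ 2 + b * x = c) (hb : b ∈ A) (hc : c ∈ A) : x ∈ A := by
  by_contra hx
  obtain ⟨hi, hi0⟩ := inv_of_not_mem hx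
  have hx0 : x ≠ 0 := fun h0 => hx (h0 ▸ A.zero_mem)
  have h1 : (1 : L) = c * x⁻¹ * x⁻¹ - b * x⁻¹ := by
    field_simp; linear_combination h
  have := congrArg (res A) h1
  rw [res_one, res_sub (mul_mem (mul_mem hc hi) hi) (mul_mem hb hi),
    res_mul (mul_mem hc hi) hi, res_mul hb hi, hi0] at this
  simp at this

end FermatLib.EC
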