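import Mathlib.AlgebraicGeometry.EllipticCurve.Affine.Point
import Fermat.Agent.EC.RedPlace

/-!
# Reduction of points of a Weierstrass curve modulo a valuation subring

For a Weierstrass curve `V` over a field `L` whose coefficients lie in a valuation subring `A`,
we define the reduced curve, the points with nonsingular reduction and the reduction map on them.
-/

set_option autoImplicit false
set_option linter.unusedSectionVars false

noncomputable section

namespace FermatLib.EC

open WeierstrassCurve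

variable {L : Type*} [Field L] (A : ValuationSubring L) (V : WeierstrassCurve L)

/-- All coefficients of `V` lie in `A`. -/
structure IntegralAt : Prop where
  a₁ : V.a₁ ∈ A
  a₂ : V.a₂ ∈ A
  a₃ : V.a₃ ∈ A
  a₄ : V.a₄ ∈ A
  a₆ : V.a₆ ∈ A

/-- The reduced curve. -/
def redCurve : WeierstrassCurve (IsLocalRing.ResidueField A) :=
  ⟨res A V.a₁, res A V.a₂, res A V.a₃, res A V.a₄, res A V.a₆⟩

variable {A V}

/-- A point has nonsingular reduction (the point at infinity included). -/
def InE0 (A : ValuationSubring L) : V.toAffine.Point → Prop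
  | .zero => True
  | .some x y _ =>
    x ∉ A ∨ (x ∈ A ∧ y ∈ A ∧ (redCurve A V).toAffine.Nonsingular (res A x) (res A y))

/-- A point reduces to the point at infinity. -/
def InE1 (A : ValuationSubring L) : V.toAffine.Point → Prop
  | .zero => True
  | .some x _ _ => x ∉ A

open Classical in
/-- The reduction of a point (junk value `0` at points with singular reduction). -/
def redPt (A : ValuationSubring L) : V.toAffine.Point → (redCurve A V).toAffine.Point
  | .zero => 0
  | .some x y _ =>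
    if h : x ∈ A ∧ (redCurve A V).toAffine.Nonsingular (res A x) (res A y) then
      .some _ _ h.2 else 0

lemma inE0_zero : InE0 A (0 : V.toAffine.Point) := trivial

lemma inE0_some {x y : L} {h : V.toAffine.Nonsingular x y} :
    InE0 A (Affine.Point.some x y h) ↔
      x ∉ A ∨ (x ∈ A ∧ y ∈ A ∧
        (redCurve A V).toAffine.Nonsingular (res A x) (res A y)) := Iff.rfl

lemma inE1_some {x y : L} {h : V.toAffine.Nonsingular x y} :
    InE1 A (Affine.Point.some x y h) ↔ x ∉ A := Iff.rfl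

lemma InE1.inE0 {P : V.toAffine.Point} (h : InE1 A P) : InE0 A P := by
  cases P with
  | zero => trivial
  | some x y hP => exact Or.inl h

@[simp] lemma redPt_zero : redPt A (0 : V.toAffine.Point) = 0 := rfl

lemma redPt_some {x y : L} {h : V.toAffine.Nonsingular x y} (hx : x ∈ A)
    (hns : (redCurve A V).toAffine.Nonsingular (res A x) (res A y)) :
    redPt A (Affine.Point.some x y h) = .some _ _ hns := dif_pos ⟨hx, hns⟩

lemma redPt_of_inE1 {P : V.toAffine.Point} (h : InE1 A P) : redPt A P = 0 := by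
  cases P with
  | zero => rfl
  | some x y hP => exact dif_neg fun h' => h h'.1

lemma redPt_eq_zero_iff {P : V.toAffine.Point} (h : InE0 A P) : redPt A P = 0 ↔ InE1 A P := by
  refine ⟨fun h0 => ?_, redPt_of_inE1⟩
  cases P with
  | zero => trivial
  | some x y hP =>
    rcases h with h | ⟨hx, hy, hns⟩
    · exact h
    · exact absurd (redPt_some hx hns ▸ h0) (Affine.Point.some_ne_zero hns)

namespace IntegralAt

variable (hV : IntegralAt A V) {x y : L}
include hV

lemma mem_negY (hx : x ∈ A) (hy : y ∈ A) : V.toAffine.negY x y ∈ A :=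
  sub_mem (sub_mem (neg_mem hy) (mul_mem hV.a₁ hx)) hV.a₃

lemma res_negY (hx : x ∈ A) (hy : y ∈ A) :
    res A (V.toAffine.negY x y) = (redCurve A V).toAffine.negY (res A x) (res A y) := by
  simp only [Affine.negY, redCurve]
  rw [res_sub (sub_mem (neg_mem hy) (mul_mem hV.a₁ hx)) hV.a₃,
    res_sub (neg_mem hy) (mul_mem hV.a₁ hx), res_neg hy, res_mul hV.a₁ hx]

lemma mem_y (h : V.toAffine.Equation x y) (hx : x ∈ A) : y ∈ A := by
  rw [Affine.equation_iff] at h
  refine mem_of_quadratic (b := V.a₁ * x + V.a₃)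
    (c := x ^ 3 + V.a₂ * x ^ 2 + V.a₄ * x + V.a₆) (by linear_combination h)
    (add_mem (mul_mem hV.a₁ hx) hV.a₃) ?_
  exact add_mem (add_mem (add_mem (pow_mem hx 3) (mul_mem hV.a₂ (pow_mem hx 2)))
    (mul_mem hV.a₄ hx)) hV.a₆

lemma equation_red (h : V.toAffine.Equation x y) (hx : x ∈ A) :
    (redCurve A V).toAffine.Equation (res A x) (res A y) := by
  have hy := hV.mem_y h hx
  rw [Affine.equation_iff] at h ⊢
  have h1 := congrArg (res A) h
  simp only [redCurve]
  rw [res_add (add_mem (pow_mem hy 2) (mul_mem (mul_mem hV.a₁ hx) hy)) (mul_mem hV.a₃ hy),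
    res_add (pow_mem hy 2) (mul_mem (mul_mem hV.a₁ hx) hy),
    res_add (add_mem (add_mem (pow_mem hx 3) (mul_mem hV.a₂ (pow_mem hx 2))) (mul_mem hV.a₄ hx))
      hV.a₆,
    res_add (add_mem (pow_mem hx 3) (mul_mem hV.a₂ (pow_mem hx 2))) (mul_mem hV.a₄ hx),
    res_add (pow_mem hx 3) (mul_mem hV.a₂ (pow_mem hx 2)),
    res_mul (mul_mem hV.a₁ hx) hy, res_mul hV.a₁ hx, res_mul hV.a₃ hy,
    res_mul hV.a₂ (pow_mem hx 2), res_mul hV.a₄ hx, res_pow hy, res_pow hx, res_pow hx] at h1
  exact h1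

/-- Invariants of a point reducing to infinity. -/
lemma inE1_aux (h : V.toAffine.Equation x y) (hx : x ∉ A) :
    y * x⁻¹ ^ 2 ∈ A ∧ res A (y * x⁻¹ ^ 2) = 0 ∧
      y ^ 2 * x⁻¹ ^ 3 ∈ A ∧ res A (y ^ 2 * x⁻¹ ^ 3) = 1 := by
  obtain ⟨hr, hr0⟩ := inv_of_not_mem hx
  have hx0 : x ≠ 0 := fun h' => hx (h' ▸ A.zero_mem)
  rw [Affine.equation_iff] at h
  set r := x⁻¹ with hrdef
  set η := y * r ^ 2 with hηdef
  -- the auxiliary quantity `y / x²` lies in the maximal ideal
  have hquad : η ^ 2 + r * (V.a₁ + V.a₃ * r) * η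
      = r * (1 + V.a₂ * r + V.a₄ * r ^ 2 + V.a₆ * r ^ 3) := by
    rw [hηdef, hrdef]; field_simp; linear_combination h
  have hin1 : 1 + V.a₂ * r + V.a₄ * r ^ 2 + V.a₆ * r ^ 3 ∈ A :=
    add_mem (add_mem (add_mem A.one_mem (mul_mem hV.a₂ hr)) (mul_mem hV.a₄ (pow_mem hr 2)))
      (mul_mem hV.a₆ (pow_mem hr 3))
  have hlin : r * (V.a₁ + V.a₃ * r) ∈ A := mul_mem hr (add_mem hV.a₁ (mul_mem hV.a₃ hr))
  have hη : η ∈ A := mem_of_quadratic hquad hlin (mul_mem hr hin1)
  have hη0 : res A η = 0 := by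
    have := congrArg (res A) hquad
    rw [res_add (pow_mem hη 2) (mul_mem hlin hη), res_mul hlin hη,
      res_mul hr (add_mem hV.a₁ (mul_mem hV.a₃ hr)), res_mul hr hin1, hr0, res_pow hη] at this
    simpa using this
  set ν := y ^ 2 * r ^ 3 with hνdef
  have hνeq : ν = 1 + V.a₂ * r + V.a₄ * r ^ 2 + V.a₆ * r ^ 3 - V.a₁ * η - V.a₃ * (η * r) := by
    rw [hνdef, hηdef, hrdef]; field_simp; linear_combination h
  have hν : ν ∈ A := hνeq ▸ sub_mem (sub_mem hin1 (mul_mem hV.a₁ hη)) (mul_mem hV.a₃ (mul_mem hη hr))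
  have hν1 : res A ν = 1 := by
    rw [hνeq, res_sub (sub_mem hin1 (mul_mem hV.a₁ hη)) (mul_mem hV.a₃ (mul_mem hη hr)),
      res_sub hin1 (mul_mem hV.a₁ hη), res_mul hV.a₁ hη, res_mul hV.a₃ (mul_mem hη hr),
      res_mul hη hr, hη0,
      res_add (add_mem (add_mem A.one_mem (mul_mem hV.a₂ hr)) (mul_mem hV.a₄ (pow_mem hr 2)))
        (mul_mem hV.a₆ (pow_mem hr 3)),
      res_add (add_mem A.one_mem (mul_mem hV.a₂ hr)) (mul_mem hV.a₄ (pow_mem hr 2)),
      res_add A.one_mem (mul_mem hV.a₂ hr), res_mul hV.a₂ hr, res_mul hV.a₄ (pow_mem hr 2),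
      res_mul hV.a₆ (pow_mem hr 3), res_pow hr, res_pow hr, hr0]
    simp
  exact ⟨hη, hη0, hν, hν1⟩

lemma inE0_neg {P : V.toAffine.Point} (h : InE0 A P) : InE0 A (-P) := by
  cases P with
  | zero => trivial
  | some x y hP =>
    rw [Affine.Point.neg_some, inE0_some]
    rcases h with h | ⟨hx, hy, hns⟩
    · exact Or.inl h
    · exact Or.inr ⟨hx, hV.mem_negY hx hy,
        (hV.res_negY hx hy) ▸ (Affine.nonsingular_neg _ _).mpr hns⟩

lemma inE1_neg {P : V.toAffine.Point} (h : InE1 A P) : InE1 A (-P) := by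
  cases P with
  | zero => trivial
  | some x y hP => exact h

lemma redPt_neg {P : V.toAffine.Point} (h : InE0 A P) : redPt A (-P) = -redPt A P := by
  cases P with
  | zero => rfl
  | some x y hP =>
    rcases h with h | ⟨hx, hy, hns⟩
    · rw [redPt_of_inE1 (P := Affine.Point.some x y hP) h,
        redPt_of_inE1 (hV.inE1_neg (P := Affine.Point.some x y hP) h)]
      rfl
    · rw [Affine.Point.neg_some, redPt_some hx hns, Affine.Point.neg_some]
      have hns' : (redCurve A V).toAffine.Nonsingular (res A x) (res A (V.toAffine.negY x y)) :=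
        (hV.res_negY hx hy) ▸ (Affine.nonsingular_neg _ _).mpr hns
      rw [redPt_some hx hns', Affine.Point.some.injEq]
      exact ⟨rfl, hV.res_negY hx hy⟩

end IntegralAt

end FermatLib.EC
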