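import Fermat.Agent.EC.RedMultUnramified
import Fermat.Agent.EC.RedBridge
import Fermat.Agent.Galois.FrobeniusElement
import Fermat.Agent.Galois.Flat.Ramification
import Mathlib.NumberTheory.Padics.PadicVal.Basic

/-!
# Integer curves at primes of multiplicative reduction
-/

set_option autoImplicit false
set_option linter.all false

noncomputable section

namespace FermatLib.EC

open WeierstrassCurve
open scoped WeierstrassCurve.Affine Pointwise

/-- The inertia subgroup consists of the automorphisms fixing all residues. -/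
theorem mem_inertia_of_fixesResidues {S L : Type*} [Field S] [Field L] [Algebra S L]
    {A : ValuationSubring L} {σ : L ≃ₐ[S] L} (hσ : FixesResidues A σ) :
    σ ∈ A.inertiaSubgroupIn S := by
  rw [FermatLib.Galois.mem_inertiaSubgroupIn_iff_forall_mem]
  refine ⟨?_, fun x hx => ?_⟩
  · rw [ValuationSubring.decompositionSubgroup, MulAction.mem_stabilizer_iff]
    ext x
    rw [ValuationSubring.mem_pointwise_smul_iff_inv_smul_mem]
    show σ⁻¹ x ∈ A ↔ x ∈ A
    rw [← hσ.mem_iff]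
    show σ (σ.symm x) ∈ A ↔ x ∈ A
    rw [σ.apply_symm_apply]
  · rw [mem_nonunits_iff_res]
    refine ⟨sub_mem (hσ x hx).1 hx, ?_⟩
    rw [res_sub (hσ x hx).1 hx, (hσ x hx).2, sub_self]

variable {W : WeierstrassCurve ℤ} {q : ℕ} (hq : q.Prime)
  {A : ValuationSubring (AlgebraicClosure ℚ)} (hA : A.LiesOverPrime q) (hΔ0 : W.Δ ≠ 0)
  (hdvd : (q : ℤ) ∣ W.Δ) (hc₄ : ¬(q : ℤ) ∣ W.c₄)

local notation "Qbar" => AlgebraicClosure ℚ

local instance isAlgebraicQbarRed : Algebra.IsAlgebraic ℚ Qbar := AlgebraicClosure.isAlgebraic ℚ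

include hq hA hdvd hΔ0 hc₄

lemma intCurve_mult :
    res A ((W.map (Int.castRingHom ℚ))⁄Qbar).c₄ ≠ 0 ∧
      res A ((W.map (Int.castRingHom ℚ))⁄Qbar).Δ = 0 ∧
      ((W.map (Int.castRingHom ℚ))⁄Qbar).Δ ≠ 0 := by
  rw [res_c₄_intCurve, res_Δ_intCurve]
  refine ⟨(res_intCast_ne_zero_iff A hq hA W.c₄).mpr hc₄, ?_, Int.cast_ne_zero.mpr hΔ0⟩
  exact not_not.mp fun h => (res_intCast_ne_zero_iff A hq hA W.Δ).mp h hdvd

/-- Inertia at a multiplicative prime is unipotent on torsion of order prime to the prime. -/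
theorem smul_smul_sub_eq_int {σ τ : Qbar ≃ₐ[ℚ] Qbar} (hσ : σ ∈ A.inertiaSubgroupIn ℚ)
    (hτ : τ ∈ A.inertiaSubgroupIn ℚ) {n : ℕ} (hn : ¬q ∣ n)
    {P : ((W.map (Int.castRingHom ℚ))⁄Qbar).Point} (hP : n • P = 0) :
    τ • (σ • P - P) = σ • P - P := by
  obtain ⟨h1, h2, h3⟩ := intCurve_mult hq hA hΔ0 hdvd hc₄
  exact smul_smul_sub_eq (integralAt_intCurve W A) h1 h2 h3 (fixesResidues_of_mem_inertia hσ)
    (fixesResidues_of_mem_inertia hτ) (res_natCast_ne_zero A hq hA hn) hP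

lemma valuation_Δ_eq :
    A.valuation ((W.map (Int.castRingHom ℚ))⁄Qbar).Δ =
      A.valuation (q : Qbar) ^ padicValInt q W.Δ := by
  rw [res_Δ_intCurve]
  haveI : Fact q.Prime := ⟨hq⟩
  obtain ⟨m, hm⟩ := padicValInt_dvd (p := q) W.Δ
  conv_lhs => rw [hm]
  push_cast
  rw [map_mul, map_pow]
  have hqm : ¬(q : ℤ) ∣ m := by
    intro hd
    have h2 : (q : ℤ) ^ (padicValInt q W.Δ + 1) ∣ W.Δ := by
      conv_rhs => rw [hm]
      rw [pow_succ]
      exact mul_dvd_mul_left _ hd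
    rcases padicValInt_dvd_iff (p := q) (padicValInt q W.Δ + 1) W.Δ |>.mp h2 with h | h
    · exact hΔ0 h
    · omega
  rw [(res_ne_zero_iff (intCast_mem_place m)).mp ((res_intCast_ne_zero_iff A hq hA m).mpr hqm),
    mul_one]

/-- At a multiplicative prime `q ≠ p`, if `p ∣ v_q(Δ)` inertia fixes the `p`-torsion. -/
theorem smul_eq_self_of_dvd_padicValInt {p : ℕ} (hp : p.Prime) (hpq : p ≠ q)
    (hv : p ∣ padicValInt q W.Δ) {σ : Qbar ≃ₐ[ℚ] Qbar} (hσ : σ ∈ A.inertiaSubgroupIn ℚ)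
    {T : ((W.map (Int.castRingHom ℚ))⁄Qbar).Point} (hT : p • T = 0) : σ • T = T := by
  obtain ⟨h1, h2, h3⟩ := intCurve_mult hq hA hΔ0 hdvd hc₄
  obtain ⟨j, hj⟩ := hv
  refine smul_eq_self_of_valuation_pow (π := (q : Qbar) ^ j) (integralAt_intCurve W A) h1 h2 h3
    (fixesResidues_of_mem_inertia hσ) hp
    (res_natCast_ne_zero A hq hA fun h => hpq ((Nat.prime_dvd_prime_iff_eq hq hp).mp h).symm)
    ?_ (by rw [map_pow, map_natCast]) hT
  rw [valuation_Δ_eq hq hA hΔ0 hdvd hc₄, hj, map_pow, ← pow_mul, mul_comm]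

/-- At a multiplicative prime `q ≠ p`, if inertia fixes the `p`-torsion then `p ∣ v_q(Δ)`. -/
theorem dvd_padicValInt_of_unramified {p : ℕ} (hp : p.Prime) (hpq : p ≠ q)
    (hall : ∀ σ ∈ A.inertiaSubgroupIn ℚ, ∀ T : ((W.map (Int.castRingHom ℚ))⁄Qbar).Point,
      p • T = 0 → σ • T = T) : p ∣ padicValInt q W.Δ := by
  obtain ⟨h1, h2, h3⟩ := intCurve_mult hq hA hΔ0 hdvd hc₄
  obtain ⟨π, hπ0, hπ, hfix⟩ := exists_fixed_valuation_pow (S := ℚ) (integralAt_intCurve W A)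
    h1 h2 h3 hp
    (res_natCast_ne_zero A hq hA fun h => hpq ((Nat.prime_dvd_prime_iff_eq hq hp).mp h).symm)
    fun σ hσ => hall σ (mem_inertia_of_fixesResidues hσ)
  obtain ⟨k, hk⟩ := FermatLib.Galois.Flat.exists_valuation_eq_zpow hq hA hπ0
    fun σ hσ => hfix σ (fixesResidues_of_mem_inertia hσ)
  rw [valuation_Δ_eq hq hA hΔ0 hdvd hc₄, hk, ← zpow_natCast, ← zpow_mul, ← zpow_natCast] at hπ
  have hlt : A.valuation (q : Qbar) < 1 := A.mem_nonunits_iff.mp hA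
  have hpos : 0 < A.valuation (q : Qbar) :=
    zero_lt_iff.mpr ((map_ne_zero A.valuation).mpr (Nat.cast_ne_zero.mpr hq.ne_zero))
  have he : k * (p : ℤ) = (padicValInt q W.Δ : ℤ) :=
    (zpow_right_strictAnti₀ hpos hlt).injective hπ
  exact Int.natCast_dvd_natCast.mp ⟨k, by rw [← he, mul_comm]⟩

end FermatLib.EC
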