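import Fermat.Agent.EC.RedNormalForm
import Fermat.Agent.EC.RedSingular

/-!
# The component map of the curve `y² + xy = x³ + w²`

With `v` the valuation of `A` and `v w < 1`, a point with singular reduction gets the class of
`x`, `x⁻¹` or `w` in `Lˣ / {z | v z ∈ v(w²)^ℤ}`.
-/

set_option autoImplicit false
set_option linter.all false

noncomputable section

namespace FermatLib.EC

open WeierstrassCurve

variable {L : Type*} [Field L] (A : ValuationSubring L)

/-- Units whose valuation is a power of the valuation of `d`. -/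
def compSubgroup (d : L) : Subgroup Lˣ where
  carrier := {z | ∃ k : ℤ, A.valuation d ≠ 0 ∧ A.valuation (z : L) = A.valuation d ^ k} ∪
    {z | A.valuation (z : L) = 1}
  one_mem' := Or.inr (by simp)
  mul_mem' := by
    rintro a b (⟨k, hd, hk⟩ | ha) (⟨m, hd', hm⟩ | hb)
    · exact Or.inl ⟨k + m, hd, by rw [Units.val_mul, map_mul, hk, hm, zpow_add₀ hd]⟩
    · exact Or.inl ⟨k, hd, by rw [Units.val_mul, map_mul, hk, hb, mul_one]⟩
    · exact Or.inl ⟨m, hd', by rw [Units.val_mul, map_mul, ha, hm, one_mul]⟩
    · exact Or.inr (by simp only [Set.mem_setOf_eq, Units.val_mul, map_mul] at *; rw [ha, hb, one_mul])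
  inv_mem' := by
    rintro a (⟨k, hd, hk⟩ | ha)
    · exact Or.inl ⟨-k, hd, by rw [Units.val_inv_eq_inv_val, map_inv₀, hk, zpow_neg]⟩
    · exact Or.inr (by simp only [Set.mem_setOf_eq, Units.val_inv_eq_inv_val, map_inv₀] at *; rw [ha, inv_one])

/-- The component group: the value group modulo the valuation of `d`. -/
def CompGroup (d : L) : Type _ := Lˣ ⧸ compSubgroup A d

instance (d : L) : CommGroup (CompGroup A d) :=
  inferInstanceAs (CommGroup (Lˣ ⧸ compSubgroup A d))

/-- The projection to the component group. -/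
def compMk (d : L) : Lˣ →* CompGroup A d := QuotientGroup.mk' (compSubgroup A d)

lemma compMk_eq_one_iff {d : L} {u : Lˣ} : compMk A d u = 1 ↔ u ∈ compSubgroup A d :=
  QuotientGroup.eq_one_iff u

/-- The class of an element. -/
def cls (d z : L) : CompGroup A d :=
  open Classical in if h : z = 0 then 1 else compMk A d (Units.mk0 z h)

variable {A} {d z z' : L}

lemma cls_one : cls A d 1 = 1 := by
  rw [cls, dif_neg one_ne_zero]
  exact (compMk_eq_one_iff A).mpr (Or.inr (by simp))

lemma cls_mul (h : z ≠ 0) (h' : z' ≠ 0) : cls A d (z * z') = cls A d z * cls A d z' := by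
  rw [cls, cls, cls, dif_neg h, dif_neg h', dif_neg (mul_ne_zero h h'), ← map_mul]
  congr 1
  ext; rfl

lemma cls_inv (h : z ≠ 0) : cls A d z⁻¹ = (cls A d z)⁻¹ := by
  refine eq_inv_of_mul_eq_one_left ?_
  rw [← cls_mul (inv_ne_zero h) h, inv_mul_cancel₀ h, cls_one]

lemma cls_eq_one_of_valuation_eq_one (h : A.valuation z = 1) : cls A d z = 1 := by
  have hz : z ≠ 0 := fun h0 => by simp [h0] at h
  rw [cls, dif_neg hz]
  exact (compMk_eq_one_iff A).mpr (Or.inr h)

lemma cls_eq_one_of_valuation_eq_zpow (hz : z ≠ 0) (hd : d ≠ 0) {k : ℤ}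
    (h : A.valuation z = A.valuation d ^ k) : cls A d z = 1 := by
  rw [cls, dif_neg hz]
  exact (compMk_eq_one_iff A).mpr (Or.inl ⟨k, by simpa using hd, h⟩)

lemma exists_zpow_of_cls_eq_one (hz : z ≠ 0) (h : cls A d z = 1) :
    ∃ k : ℤ, A.valuation z = A.valuation d ^ k := by
  rw [cls, dif_neg hz, compMk_eq_one_iff] at h
  rcases h with ⟨k, -, hk⟩ | h
  · exact ⟨k, hk⟩
  · exact ⟨0, by rw [zpow_zero]; exact h⟩

lemma cls_eq_of_valuation_eq (hz : z ≠ 0) (h : A.valuation z = A.valuation z') :
    cls A d z = cls A d z' := by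
  have hz' : z' ≠ 0 := fun h0 => by simp [h0, hz] at h
  have h1 : cls A d (z * z'⁻¹) = 1 := cls_eq_one_of_valuation_eq_one (by
    rw [map_mul, map_inv₀, h, mul_inv_cancel₀ (by simpa using hz')])
  rwa [cls_mul hz (inv_ne_zero hz'), cls_inv hz', mul_inv_eq_one] at h1

variable (A)

/-- The component of the point with coordinates `(x, y)`. -/
def pval (w x y : L) : CompGroup A (w ^ 2) :=
  open Classical in
  if A.valuation x < 1 then
    if A.valuation w < A.valuation x then
      if A.valuation y < A.valuation x then cls A (w ^ 2) x else cls A (w ^ 2) x⁻¹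
    else cls A (w ^ 2) w
  else 1

variable {A} {w : L}

lemma pval_of_le {x y : L} (h : 1 ≤ A.valuation x) : pval A w x y = 1 := by
  rw [pval, if_neg (not_lt.mpr h)]

lemma pval_middle {x y : L} (h : A.valuation x < 1) (h' : A.valuation x ≤ A.valuation w) :
    pval A w x y = cls A (w ^ 2) w := by
  rw [pval, if_pos h, if_neg (not_lt.mpr h')]

lemma pval_plus {x y : L} (h : A.valuation x < 1) (h' : A.valuation w < A.valuation x)
    (hy : A.valuation y < A.valuation x) : pval A w x y = cls A (w ^ 2) x := by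
  rw [pval, if_pos h, if_pos h', if_pos hy]

lemma pval_minus {x y : L} (h : A.valuation x < 1) (h' : A.valuation w < A.valuation x)
    (hy : A.valuation x ≤ A.valuation y) : pval A w x y = cls A (w ^ 2) x⁻¹ := by
  rw [pval, if_pos h, if_pos h', if_neg (not_lt.mpr hy)]

/-- A point on a small branch lies on exactly one of the two tangents. -/
lemma branch_cases {x y : L} (he : y * (y + x) = x ^ 3 + w ^ 2) (hx : A.valuation x < 1)
    (hwx : A.valuation w < A.valuation x) :
    (A.valuation y < A.valuation x ∧ A.valuation (y + x) = A.valuation x) ∨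
      (A.valuation y = A.valuation x ∧ A.valuation (y + x) < A.valuation x) := by
  have hx0 : 0 < A.valuation x := lt_of_le_of_lt (zero_le) hwx
  have hlt : A.valuation y * A.valuation (y + x) < A.valuation x ^ 2 := by
    rw [← map_mul, he]
    refine A.valuation.map_add_lt ?_ ?_
    · rw [map_pow]; exact pow_lt_pow_right_of_lt_one₀ hx0 hx (by norm_num)
    · rw [map_pow]; exact pow_lt_pow_left₀ hwx zero_le two_ne_zero
  by_cases hy : A.valuation y < A.valuation x
  · exact Or.inl ⟨hy, A.valuation.map_add_eq_of_lt_right hy⟩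
  · rcases eq_or_lt_of_le (not_lt.mp hy) with h | h
    · refine Or.inr ⟨h.symm, ?_⟩
      rw [← h, sq] at hlt
      exact lt_of_mul_lt_mul_left' hlt
    · exfalso
      rw [A.valuation.map_add_eq_of_lt_left h, ← sq] at hlt
      exact not_le_of_gt hlt (pow_le_pow_left₀ zero_le h.le 2)

/-- At the middle component the ordinate is small. -/
lemma middle_bound {x y : L} (he : y * (y + x) = x ^ 3 + w ^ 2) (hx : A.valuation x < 1)
    (hxw : A.valuation x ≤ A.valuation w) : A.valuation y ≤ A.valuation w := by
  by_contra hy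
  rw [not_le] at hy
  have h1 : A.valuation y ^ 2 ≤ A.valuation w ^ 2 := by
    rw [sq]
    conv_lhs => arg 2; rw [← A.valuation.map_add_eq_of_lt_left (lt_of_le_of_lt hxw hy)]
    rw [← map_mul, he, ← map_pow]
    refine A.valuation.map_add_le ?_ le_rfl
    rw [map_pow, map_pow]
    calc A.valuation x ^ 3 ≤ A.valuation x ^ 2 := by
          exact pow_le_pow_right_of_le_one' hx.le (by norm_num)
      _ ≤ A.valuation w ^ 2 := pow_le_pow_left₀ zero_le hxw 2
  exact not_le_of_gt (pow_lt_pow_left₀ hy zero_le two_ne_zero) h1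

/-- Negation inverts the component. -/
lemma pval_neg {x y : L} (hw : w ≠ 0) (he : y * (y + x) = x ^ 3 + w ^ 2) :
    pval A w x (-y - x) = (pval A w x y)⁻¹ := by
  by_cases hx : A.valuation x < 1
  swap
  · rw [pval_of_le (not_lt.mp hx), pval_of_le (not_lt.mp hx), inv_one]
  by_cases hwx : A.valuation w < A.valuation x
  swap
  · rw [pval_middle hx (not_lt.mp hwx), pval_middle hx (not_lt.mp hwx), eq_inv_iff_mul_eq_one,
      ← cls_mul hw hw, ← sq]
    exact cls_eq_one_of_valuation_eq_zpow (pow_ne_zero 2 hw) (pow_ne_zero 2 hw) (k := 1)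
      (zpow_one _).symm
  have hx0 : x ≠ 0 := fun h => by simp [h] at hwx
  have hn : A.valuation (-y - x) = A.valuation (y + x) := by
    rw [show -y - x = -(y + x) by ring, Valuation.map_neg]
  rcases branch_cases he hx hwx with ⟨h1, h2⟩ | ⟨h1, h2⟩
  · rw [pval_plus hx hwx h1, pval_minus hx hwx (by rw [hn, h2]), cls_inv hx0]
  · rw [pval_minus hx hwx h1.ge, pval_plus hx hwx (by rwa [hn]), cls_inv hx0, inv_inv]

/-- A non-vertical line meets `y² + xy = x³ + w²` at three abscissae. -/
structure LineData (w x₁ x₂ x₃ ℓ c : L) : Prop where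
  e1 : x₁ + x₂ + x₃ = ℓ * (ℓ + 1)
  e2 : x₁ * x₂ + x₁ * x₃ + x₂ * x₃ = -c * (2 * ℓ + 1)
  e3 : x₁ * x₂ * x₃ = c ^ 2 - w ^ 2

namespace LineData

variable {x₁ x₂ x₃ ℓ c : L} (h : LineData w x₁ x₂ x₃ ℓ c)
include h

lemma swap₁₂ : LineData w x₂ x₁ x₃ ℓ c :=
  ⟨by linear_combination h.e1, by linear_combination h.e2, by linear_combination h.e3⟩

lemma swap₂₃ : LineData w x₁ x₃ x₂ ℓ c :=
  ⟨by linear_combination h.e1, by linear_combination h.e2, by linear_combination h.e3⟩

lemma neg : LineData w x₁ x₂ x₃ (-1 - ℓ) (-c) :=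
  ⟨by linear_combination h.e1, by linear_combination h.e2, by linear_combination h.e3⟩

lemma on_curve : (ℓ * x₁ + c) * (ℓ * x₁ + c + x₁) = x₁ ^ 3 + w ^ 2 := by
  linear_combination (-x₁ ^ 2) * h.e1 + x₁ * h.e2 - h.e3

/-- All three intersections singular, slope in the maximal ideal, `c` large. -/
lemma prod_large (hw : w ≠ 0) (hℓ : A.valuation ℓ < 1) (hd : A.valuation (2 * ℓ + 1) = 1)
    (hc : A.valuation w < A.valuation c) (hc1 : A.valuation c < 1)
    (h₁ : A.valuation x₁ < 1) (h₂ : A.valuation x₂ < 1) (h₃ : A.valuation x₃ < 1)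
    (heq : A.valuation x₃ = A.valuation c) :
    pval A w x₁ (ℓ * x₁ + c) * pval A w x₂ (ℓ * x₂ + c) * pval A w x₃ (ℓ * x₃ + c) = 1 := by
  have hc0 : 0 < A.valuation c := lt_of_le_of_lt zero_le hc
  have he3 : A.valuation (x₁ * x₂ * x₃) = A.valuation c ^ 2 := by
    rw [h.e3, A.valuation.map_sub_eq_of_lt_left, map_pow]
    rw [map_pow, map_pow]; exact pow_lt_pow_left₀ hc zero_le two_ne_zero
  rw [map_mul, map_mul, heq, sq] at he3
  have he12 : A.valuation x₁ * A.valuation x₂ = A.valuation c :=
    mul_right_cancel₀ hc0.ne' he3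
  have hb : ∀ {a b : L}, A.valuation a * A.valuation b = A.valuation c → A.valuation b < 1 →
      A.valuation c < A.valuation a := by
    intro a b hab hb
    by_contra hle
    rw [not_lt] at hle
    have : A.valuation a * A.valuation b < A.valuation c := by
      calc A.valuation a * A.valuation b ≤ A.valuation c * A.valuation b := by gcongr
        _ < A.valuation c * 1 := mul_lt_mul_of_pos_left hb hc0
        _ = A.valuation c := mul_one _
    exact this.ne hab
  have hl1 := hb he12 h₂
  have hl2 := hb (mul_comm (A.valuation x₁) _ ▸ he12) h₁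
  have hy : ∀ {x : L}, A.valuation c < A.valuation x →
      A.valuation (ℓ * x + c) < A.valuation x := by
    intro x hx
    refine A.valuation.map_add_lt ?_ hx
    rw [map_mul]
    exact mul_lt_of_lt_one_left (lt_trans hc0 hx) hℓ
  have hy3 : A.valuation x₃ ≤ A.valuation (ℓ * x₃ + c) := by
    rw [A.valuation.map_add_eq_of_lt_right, heq]
    rw [map_mul, heq]
    exact mul_lt_of_lt_one_left hc0 hℓ
  rw [pval_plus h₁ (hc.trans hl1) (hy hl1), pval_plus h₂ (hc.trans hl2) (hy hl2),
    pval_minus h₃ (heq ▸ hc) hy3]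
  have n1 : x₁ ≠ 0 := fun e => by simp [e] at hl1
  have n2 : x₂ ≠ 0 := fun e => by simp [e] at hl2
  have n3 : x₃ ≠ 0 := fun e => by
    rw [e, map_zero] at heq
    exact hc0.ne heq
  rw [← cls_mul n1 n2, ← cls_mul (mul_ne_zero n1 n2) (inv_ne_zero n3)]
  refine cls_eq_one_of_valuation_eq_one ?_
  rw [map_mul, map_mul, map_inv₀, he12, heq, mul_inv_cancel₀ hc0.ne']

/-- All three intersections singular, slope in the maximal ideal. -/
lemma prod_eq_one_of_small_slope (hw : w ≠ 0) (hw1 : A.valuation w < 1) (hℓ : A.valuation ℓ < 1)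
    (h₁ : A.valuation x₁ < 1) (h₂ : A.valuation x₂ < 1) (h₃ : A.valuation x₃ < 1) :
    pval A w x₁ (ℓ * x₁ + c) * pval A w x₂ (ℓ * x₂ + c) * pval A w x₃ (ℓ * x₃ + c) = 1 := by
  have hw0 : 0 < A.valuation w := zero_lt_iff.mpr (by simpa using hw)
  have hd : A.valuation (2 * ℓ + 1) = 1 := by
    rw [A.valuation.map_add_eq_of_lt_right, map_one]
    rw [map_one, map_mul]
    exact lt_of_le_of_lt (mul_le_of_le_one_left' (mem_iff_valuation.mp (ofNat_mem_place 2))) hℓ
  have he2 : A.valuation c = A.valuation (x₁ * x₂ + x₁ * x₃ + x₂ * x₃) := by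
    rw [h.e2, map_mul, Valuation.map_neg, hd, mul_one]
  have hm : ∀ {a b : L}, A.valuation a < 1 → A.valuation b < 1 → A.valuation (a * b) < 1 :=
    fun ha hb => by rw [map_mul]; exact lt_of_le_of_lt (mul_le_of_le_one_left' ha.le) hb
  have hc1 : A.valuation c < 1 := he2 ▸
    A.valuation.map_add_lt (A.valuation.map_add_lt (hm h₁ h₂) (hm h₁ h₃)) (hm h₂ h₃)
  by_cases hc : A.valuation w < A.valuation c
  · -- some abscissa has the valuation of `c`
    have hge : ∀ {x : L}, A.valuation x < 1 →
        (ℓ * x + c) * (ℓ * x + c + x) = x ^ 3 + w ^ 2 → A.valuation c ≤ A.valuation x := by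
      intro x hx he
      by_contra hlt
      rw [not_le] at hlt
      have hy : A.valuation (ℓ * x + c) = A.valuation c := by
        refine A.valuation.map_add_eq_of_lt_right ?_
        rw [map_mul]
        exact lt_of_le_of_lt (mul_le_of_le_one_left' hℓ.le) hlt
      by_cases hwx : A.valuation w < A.valuation x
      · rcases branch_cases he hx hwx with ⟨h1, -⟩ | ⟨h1, -⟩
        · exact not_lt_of_gt hlt (hy ▸ h1)
        · exact hlt.ne (hy ▸ h1).symm
      · exact not_lt_of_ge (hy ▸ middle_bound he hx (not_lt.mp hwx)) hc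
    by_cases h3 : A.valuation x₃ = A.valuation c
    · exact h.prod_large hw hℓ hd hc hc1 h₁ h₂ h₃ h3
    by_cases h2 : A.valuation x₂ = A.valuation c
    · rw [mul_right_comm]; exact h.swap₂₃.prod_large hw hℓ hd hc hc1 h₁ h₃ h₂ h2
    by_cases h1 : A.valuation x₁ = A.valuation c
    · rw [mul_comm (pval A w x₁ _), mul_right_comm]
      exact h.swap₁₂.swap₂₃.prod_large hw hℓ hd hc hc1 h₂ h₃ h₁ h1
    exfalso
    have g1 := lt_of_le_of_ne (hge h₁ h.on_curve) (Ne.symm h1)
    have g2 := lt_of_le_of_ne (hge h₂ h.swap₁₂.on_curve) (Ne.symm h2)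
    have g3 := lt_of_le_of_ne (hge h₃ h.swap₂₃.swap₁₂.on_curve) (Ne.symm h3)
    have hc0 : 0 < A.valuation c := hw0.trans hc
    have hp : A.valuation x₁ * A.valuation x₂ * A.valuation x₃ = A.valuation c ^ 2 := by
      rw [← map_mul, ← map_mul, h.e3, A.valuation.map_sub_eq_of_lt_left, map_pow]
      rw [map_pow, map_pow]; exact pow_lt_pow_left₀ hc zero_le two_ne_zero
    have key : ∀ {a b e : L}, A.valuation a * A.valuation b * A.valuation e = A.valuation c ^ 2 →
        A.valuation c < A.valuation e → A.valuation (a * b) < A.valuation c := by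
      intro a b e hab he
      rw [map_mul]
      by_contra hle
      rw [not_lt] at hle
      have : A.valuation c ^ 2 < A.valuation a * A.valuation b * A.valuation e := by
        calc A.valuation c ^ 2 = A.valuation c * A.valuation c := sq _
          _ < A.valuation c * A.valuation e := mul_lt_mul_of_pos_left he hc0
          _ ≤ _ := by gcongr
      exact this.ne hab.symm
    refine (A.valuation.map_add_lt (A.valuation.map_add_lt (key hp g3)
      (key (a := x₁) (b := x₃) (e := x₂) (by rw [← hp]; ac_rfl) g2))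
      (key (a := x₂) (b := x₃) (e := x₁) (by rw [← hp]; ac_rfl) g1)).ne ?_
    exact he2.symm
  · rw [not_lt] at hc
    have hplus : ∀ {x : L}, A.valuation x < 1 → A.valuation w < A.valuation x →
        pval A w x (ℓ * x + c) = cls A (w ^ 2) x := by
      intro x hx hwx
      refine pval_plus hx hwx (A.valuation.map_add_lt ?_ (lt_of_le_of_lt hc hwx))
      rw [map_mul]
      exact mul_lt_of_lt_one_left (hw0.trans hwx) hℓ
    have hwcls : cls A (w ^ 2) w * cls A (w ^ 2) w = 1 := by
      rw [← cls_mul hw hw, ← sq]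
      exact cls_eq_one_of_valuation_eq_zpow (pow_ne_zero 2 hw) (pow_ne_zero 2 hw) (k := 1)
        (zpow_one _).symm
    -- one middle abscissa
    have one_mid : ∀ {a b e : L}, LineData w a b e ℓ c → A.valuation a < 1 → A.valuation b < 1 →
        A.valuation e < 1 → A.valuation w < A.valuation a → A.valuation w < A.valuation b →
        A.valuation e ≤ A.valuation w →
        pval A w a (ℓ * a + c) * pval A w b (ℓ * b + c) * pval A w e (ℓ * e + c) = 1 := by
      intro a b e hl ha hb he hwa hwb hew
      rw [hplus ha hwa, hplus hb hwb, pval_middle he hew]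
      have n1 : a ≠ 0 := fun h0 => by simp [h0] at hwa
      have n2 : b ≠ 0 := fun h0 => by simp [h0] at hwb
      have cr : ∀ {x : L}, A.valuation x < 1 → A.valuation (x * e) < A.valuation w := by
        intro x hx
        rw [map_mul]
        rcases hew.lt_or_eq with hl | hl
        · exact lt_of_le_of_lt (mul_le_of_le_one_left' hx.le) hl
        · rw [hl]; exact mul_lt_of_lt_one_left hw0 hx
      have hev : A.valuation c = A.valuation (a * b + a * e + b * e) := by
        rw [hl.e2, map_mul, Valuation.map_neg, hd, mul_one]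
      have hab : A.valuation (a * b) = A.valuation w := by
        rcases hc.lt_or_eq with hcw | hcw
        · exfalso
          have h3 : A.valuation a * A.valuation b * A.valuation e = A.valuation w ^ 2 := by
            rw [← map_mul, ← map_mul, hl.e3, A.valuation.map_sub_eq_of_lt_right, map_pow]
            rw [map_pow, map_pow]; exact pow_lt_pow_left₀ hcw zero_le two_ne_zero
          have h4 : A.valuation (a * b) < A.valuation w := by
            have e' : a * b = (a * b + a * e + b * e) - (a * e + b * e) := by ring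
            rw [e']
            exact A.valuation.map_sub_lt (hev ▸ hcw) (A.valuation.map_add_lt (cr ha) (cr hb))
          rw [map_mul] at h4
          have : A.valuation a * A.valuation b * A.valuation e < A.valuation w ^ 2 := by
            calc _ ≤ A.valuation a * A.valuation b * A.valuation w := by gcongr
              _ < A.valuation w * A.valuation w := mul_lt_mul_of_pos_right h4 hw0
              _ = _ := (sq _).symm
          exact this.ne h3
        · have e' : a * b + a * e + b * e = a * b + (a * e + b * e) := by ring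
          rw [e'] at hev
          have hsm := A.valuation.map_add_lt (cr ha) (cr hb)
          rw [← hcw, hev, A.valuation.map_add_eq_of_lt_left]
          refine lt_of_lt_of_le hsm ?_
          by_contra hlt
          rw [not_le] at hlt
          exact (A.valuation.map_add_lt hlt hsm).ne (by rw [← hev, hcw])
      rw [← cls_mul n1 n2, cls_eq_of_valuation_eq (mul_ne_zero n1 n2) hab, hwcls]
    -- two middle abscissae are impossible
    have two_mid : ∀ {a b e : L}, LineData w a b e ℓ c → A.valuation a < 1 → A.valuation b < 1 →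
        A.valuation e < 1 → A.valuation b ≤ A.valuation w → A.valuation e ≤ A.valuation w →
        False := by
      intro a b e hl ha hb he hbw hew
      have cr : ∀ {x y : L}, A.valuation x < 1 → A.valuation y ≤ A.valuation w →
          A.valuation (x * y) < A.valuation w := by
        intro x y hx hy
        rw [map_mul]
        calc A.valuation x * A.valuation y ≤ A.valuation x * A.valuation w := by gcongr
          _ < _ := mul_lt_of_lt_one_left hw0 hx
      have hev : A.valuation c = A.valuation (a * b + a * e + b * e) := by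
        rw [hl.e2, map_mul, Valuation.map_neg, hd, mul_one]
      have hcw : A.valuation c < A.valuation w :=
        hev ▸ A.valuation.map_add_lt (A.valuation.map_add_lt (cr ha hbw) (cr ha hew)) (cr hb hew)
      have h3 : A.valuation a * A.valuation b * A.valuation e = A.valuation w ^ 2 := by
        rw [← map_mul, ← map_mul, hl.e3, A.valuation.map_sub_eq_of_lt_right, map_pow]
        rw [map_pow, map_pow]; exact pow_lt_pow_left₀ hcw zero_le two_ne_zero
      have : A.valuation a * A.valuation b * A.valuation e < A.valuation w ^ 2 := by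
        calc _ ≤ A.valuation a * (A.valuation w * A.valuation w) := by rw [mul_assoc]; gcongr
          _ < A.valuation w * A.valuation w := mul_lt_of_lt_one_left (mul_pos hw0 hw0) ha
          _ = _ := (sq _).symm
      exact this.ne h3
    rcases lt_or_ge (A.valuation w) (A.valuation x₁) with s1 | s1 <;>
      rcases lt_or_ge (A.valuation w) (A.valuation x₂) with s2 | s2 <;>
      rcases lt_or_ge (A.valuation w) (A.valuation x₃) with s3 | s3
    · -- no middle abscissa
      rw [hplus h₁ s1, hplus h₂ s2, hplus h₃ s3]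
      have n1 : x₁ ≠ 0 := fun h0 => by simp [h0] at s1
      have n2 : x₂ ≠ 0 := fun h0 => by simp [h0] at s2
      have n3 : x₃ ≠ 0 := fun h0 => by simp [h0] at s3
      rw [← cls_mul n1 n2, ← cls_mul (mul_ne_zero n1 n2) n3]
      refine cls_eq_one_of_valuation_eq_zpow (mul_ne_zero (mul_ne_zero n1 n2) n3)
        (pow_ne_zero 2 hw) (k := 1) ?_
      rcases hc.lt_or_eq with hcw | hcw
      · rw [zpow_one, h.e3, A.valuation.map_sub_eq_of_lt_right]
        rw [map_pow, map_pow]; exact pow_lt_pow_left₀ hcw zero_le two_ne_zero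
      · exfalso
        have hp : A.valuation x₁ * A.valuation x₂ * A.valuation x₃ ≤ A.valuation w ^ 2 := by
          rw [← map_mul, ← map_mul, h.e3]
          exact A.valuation.map_sub_le (by rw [map_pow, hcw]) (by rw [map_pow])
        have key : ∀ {a b e : L},
            A.valuation a * A.valuation b * A.valuation e ≤ A.valuation w ^ 2 →
            A.valuation w < A.valuation e → A.valuation (a * b) < A.valuation w := by
          intro a b e hab he
          rw [map_mul]
          by_contra hle
          rw [not_lt] at hle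
          have : A.valuation w ^ 2 < A.valuation a * A.valuation b * A.valuation e := by
            calc A.valuation w ^ 2 = A.valuation w * A.valuation w := sq _
              _ < A.valuation w * A.valuation e := mul_lt_mul_of_pos_left he hw0
              _ ≤ _ := by gcongr
          exact not_le_of_gt this hab
        refine (A.valuation.map_add_lt (A.valuation.map_add_lt (key hp s3)
          (key (a := x₁) (b := x₃) (e := x₂) (le_of_eq_of_le (by ac_rfl) hp) s2))
          (key (a := x₂) (b := x₃) (e := x₁) (le_of_eq_of_le (by ac_rfl) hp) s1)).ne ?_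
        rw [← he2, hcw]
    · exact one_mid h h₁ h₂ h₃ s1 s2 s3
    · rw [mul_right_comm]; exact one_mid h.swap₂₃ h₁ h₃ h₂ s1 s3 s2
    · exact (two_mid h h₁ h₂ h₃ s2 s3).elim
    · rw [mul_comm (pval A w x₁ _), mul_right_comm]
      exact one_mid h.swap₁₂.swap₂₃ h₂ h₃ h₁ s2 s3 s1
    · exact (two_mid h.swap₁₂ h₂ h₁ h₃ s1 s3).elim
    · exact (two_mid h.swap₂₃.swap₁₂ h₃ h₁ h₂ s1 s2).elim
    · exact (two_mid h h₁ h₂ h₃ s2 s3).elim

/-- If the first abscissa reduces away from the node, a `+` branch meets a `-` branch. -/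
lemma opposite (hw : w ≠ 0) (h₁ : 1 ≤ A.valuation x₁) (h₂ : A.valuation x₂ < 1)
    (h₃ : A.valuation x₃ < 1) (hwx : A.valuation w < A.valuation x₂)
    (hy : A.valuation (ℓ * x₂ + c) < A.valuation x₂) :
    A.valuation x₃ = A.valuation x₂ ∧ A.valuation x₃ ≤ A.valuation (ℓ * x₃ + c) := by
  have hs : A.valuation (x₂ + x₃) < 1 := A.valuation.map_add_lt h₂ h₃
  have he : A.valuation x₁ = A.valuation ℓ * A.valuation (ℓ + 1) := by
    rw [← map_mul, ← h.e1, show x₁ + x₂ + x₃ = x₁ + (x₂ + x₃) by ring,
      A.valuation.map_add_eq_of_lt_left (lt_of_lt_of_le hs h₁)]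
  have hℓ : 1 ≤ A.valuation ℓ := by
    by_contra hl
    rw [not_le] at hl
    have h1 : A.valuation (ℓ + 1) = 1 := by
      rw [A.valuation.map_add_eq_of_lt_right (by rwa [map_one]), map_one]
    rw [h1, mul_one] at he
    exact not_le_of_gt (he ▸ hl) h₁
  have hl0 : 0 < A.valuation ℓ := lt_of_lt_of_le zero_lt_one hℓ
  have hx20 : 0 < A.valuation x₂ := lt_of_le_of_lt zero_le hwx
  have hc : A.valuation c = A.valuation ℓ * A.valuation x₂ := by
    rw [← map_mul, show c = (ℓ * x₂ + c) - ℓ * x₂ by ring,
      A.valuation.map_sub_eq_of_lt_right]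
    rw [map_mul]
    calc A.valuation (ℓ * x₂ + c) < A.valuation x₂ := hy
      _ ≤ _ := le_mul_of_one_le_left' hℓ
  have hwc : A.valuation w < A.valuation c :=
    lt_of_lt_of_le hwx (hc ▸ le_mul_of_one_le_left' hℓ)
  have hc0 : c ≠ 0 := fun h0 => by simp [h0] at hwc
  have he3 : A.valuation x₁ * A.valuation x₂ * A.valuation x₃ = A.valuation c ^ 2 := by
    rw [← map_mul, ← map_mul, h.e3, A.valuation.map_sub_eq_of_lt_left, map_pow]
    rw [map_pow, map_pow]; exact pow_lt_pow_left₀ hwc zero_le two_ne_zero
  have hl1 : A.valuation (ℓ + 1) = A.valuation ℓ := by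
    rcases hℓ.lt_or_eq with hl | hl
    · rw [A.valuation.map_add_eq_of_lt_left (by rwa [map_one])]
    · refine le_antisymm (A.valuation.map_add_le le_rfl (by rw [map_one, ← hl])) ?_
      by_contra hlt
      rw [not_le, ← hl] at hlt
      rw [← hl, one_mul] at he
      exact not_le_of_gt (he ▸ hlt) h₁
  have heq : A.valuation x₃ = A.valuation x₂ := by
    rw [he, hl1, hc] at he3
    refine mul_left_cancel₀ (mul_pos (mul_pos hl0 hl0) hx20).ne' ?_
    rw [he3]; rw [sq]; ac_rfl
  refine ⟨heq, ?_⟩
  by_contra hlt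
  rw [not_le] at hlt
  have hx2 : x₂ ≠ 0 := fun h0 => by simp [h0] at hx20
  have hx3 : x₃ ≠ 0 := fun h0 => by rw [h0, map_zero] at heq; exact hx20.ne heq
  set δ := (ℓ * x₂ + c) / x₂ with hδ
  set δ' := (ℓ * x₃ + c) / x₃ with hδ'
  set ε := w ^ 2 / c ^ 2 with hε
  have hd : A.valuation δ < 1 := by
    rw [hδ, map_div₀]; exact (div_lt_one₀ hx20).mpr hy
  have hd' : A.valuation δ' < 1 := by
    rw [hδ', map_div₀]; exact (div_lt_one₀ (heq ▸ hx20)).mpr hlt
  have hid : ℓ * (1 + δ + δ') = δ * δ' + (x₂ + x₃) - (c / x₂) * (c / x₃) * ε := by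
    rw [hδ, hδ', hε]
    field_simp
    linear_combination h.e3 - x₂ * x₃ * h.e1
  have hsmall : A.valuation (δ * δ' + (x₂ + x₃) - (c / x₂) * (c / x₃) * ε) < 1 := by
    refine A.valuation.map_sub_lt (A.valuation.map_add_lt ?_ hs) ?_
    · rw [map_mul]; exact lt_of_le_of_lt (mul_le_of_le_one_left' hd.le) hd'
    · have : c / x₂ * (c / x₃) * ε = w / x₂ * (w / x₃) := by
        rw [hε]; field_simp
      rw [this, map_mul]
      refine lt_of_le_of_lt (mul_le_of_le_one_left' ?_) ?_
      · rw [map_div₀]; exact ((div_lt_one₀ hx20).mpr hwx).le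
      · rw [map_div₀]; exact (div_lt_one₀ (heq ▸ hx20)).mpr (heq ▸ hwx)
  rw [← hid, map_mul, A.valuation.map_add_eq_of_lt_left, A.valuation.map_add_eq_of_lt_left,
    map_one, mul_one] at hsmall
  · exact not_le_of_gt hsmall hℓ
  · rw [map_one]; exact hd
  · rw [A.valuation.map_add_eq_of_lt_left (by rw [map_one]; exact hd), map_one]; exact hd'

/-- If exactly one abscissa reduces away from the node, the components of the others cancel. -/
lemma prod_eq_one_of_one_unit (hw : w ≠ 0) (h₁ : 1 ≤ A.valuation x₁) (h₂ : A.valuation x₂ < 1)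
    (h₃ : A.valuation x₃ < 1) :
    pval A w x₁ (ℓ * x₁ + c) * pval A w x₂ (ℓ * x₂ + c) * pval A w x₃ (ℓ * x₃ + c) = 1 := by
  rw [pval_of_le h₁, one_mul]
  have main : ∀ {a b l d : L}, LineData w x₁ a b l d → A.valuation a < 1 → A.valuation b < 1 →
      A.valuation w < A.valuation a → A.valuation (l * a + d) < A.valuation a →
      A.valuation w < A.valuation b ∧
        pval A w a (l * a + d) * pval A w b (l * b + d) = 1 := by
    intro a b l d hl ha hb hwa hy
    obtain ⟨he, hle⟩ := hl.opposite hw h₁ ha hb hwa hy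
    have hwb : A.valuation w < A.valuation b := he ▸ hwa
    have na : a ≠ 0 := fun h0 => by simp [h0] at hwa
    have nb : b ≠ 0 := fun h0 => by simp [h0] at hwb
    refine ⟨hwb, ?_⟩
    rw [pval_plus ha hwa hy, pval_minus hb hwb hle, ← cls_mul na (inv_ne_zero nb)]
    refine cls_eq_one_of_valuation_eq_one ?_
    rw [map_mul, map_inv₀, he, mul_inv_cancel₀ (by simpa using na)]
  have negd : ∀ {x : L}, -(ℓ * x + c) - x = (-1 - ℓ) * x + -c := fun {x} => by ring
  have both : ∀ {a b : L}, LineData w x₁ a b ℓ c → A.valuation a < 1 → A.valuation b < 1 →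
      A.valuation w < A.valuation a →
      A.valuation w < A.valuation b ∧
        pval A w a (ℓ * a + c) * pval A w b (ℓ * b + c) = 1 := by
    intro a b hl ha hb hwa
    rcases branch_cases hl.swap₁₂.on_curve ha hwa with ⟨hy, -⟩ | ⟨-, hy⟩
    · exact main hl ha hb hwa hy
    · have hy' : A.valuation ((-1 - ℓ) * a + -c) < A.valuation a := by
        rwa [← negd, show -(ℓ * a + c) - a = -(ℓ * a + c + a) by ring, Valuation.map_neg]
      obtain ⟨h1, h2⟩ := main hl.neg ha hb hwa hy'
      rw [← negd, ← negd, pval_neg hw hl.swap₁₂.on_curve,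
        pval_neg hw hl.swap₂₃.swap₁₂.on_curve, ← mul_inv, inv_eq_one] at h2
      exact ⟨h1, h2⟩
  by_cases hwa : A.valuation w < A.valuation x₂
  · exact (both h h₂ h₃ hwa).2
  · have hwb : ¬A.valuation w < A.valuation x₃ := fun hb => hwa (both h.swap₂₃ h₃ h₂ hb).1
    rw [pval_middle h₂ (not_lt.mp hwa), pval_middle h₃ (not_lt.mp hwb), ← cls_mul hw hw, ← sq]
    exact cls_eq_one_of_valuation_eq_zpow (pow_ne_zero 2 hw) (pow_ne_zero 2 hw) (k := 1)
      (zpow_one _).symm

/-- The components along a line cancel as soon as two of the intersections are singular. -/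
lemma prod_eq_one (hw : w ≠ 0) (hw1 : A.valuation w < 1) (h₂ : A.valuation x₂ < 1)
    (h₃ : A.valuation x₃ < 1) :
    pval A w x₁ (ℓ * x₁ + c) * pval A w x₂ (ℓ * x₂ + c) * pval A w x₃ (ℓ * x₃ + c) = 1 := by
  by_cases h₁ : A.valuation x₁ < 1
  swap
  · exact h.prod_eq_one_of_one_unit hw (not_lt.mp h₁) h₂ h₃
  by_cases hℓ : A.valuation ℓ < 1
  · exact h.prod_eq_one_of_small_slope hw hw1 hℓ h₁ h₂ h₃
  have hℓ1 : A.valuation (-1 - ℓ) < 1 := by
    rw [show -1 - ℓ = -(ℓ + 1) by ring, Valuation.map_neg]
    by_contra hn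
    rw [not_lt] at hn hℓ
    have : 1 ≤ A.valuation (ℓ * (ℓ + 1)) := by rw [map_mul]; exact one_le_mul hℓ hn
    rw [← h.e1] at this
    exact not_le_of_gt (A.valuation.map_add_lt (A.valuation.map_add_lt h₁ h₂) h₃) this
  have := h.neg.prod_eq_one_of_small_slope hw hw1 hℓ1 h₁ h₂ h₃
  have negd : ∀ {x : L}, -(ℓ * x + c) - x = (-1 - ℓ) * x + -c := fun {x} => by ring
  rw [← negd, ← negd, ← negd, pval_neg hw h.on_curve, pval_neg hw h.swap₁₂.on_curve,
    pval_neg hw h.swap₂₃.swap₁₂.on_curve, ← mul_inv, ← mul_inv, inv_eq_one] at this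
  exact this

end LineData

end FermatLib.EC
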