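import Fermat.Agent.EC.RedComponent

/-!
# The component homomorphism
-/

set_option autoImplicit false
set_option linter.all false

noncomputable section

namespace FermatLib.EC

open WeierstrassCurve

variable {L : Type*} [Field L]

/-- The model `y² + xy = x³ + w²`. -/
def nodeModel (w : L) : WeierstrassCurve L := ⟨1, 0, 0, 0, w ^ 2⟩

lemma nodeModel_eq {w x y : L} (h : (nodeModel w).toAffine.Equation x y) :
    y * (y + x) = x ^ 3 + w ^ 2 := by
  rw [Affine.equation_iff] at h
  simp only [nodeModel] at h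
  linear_combination h

lemma nodeModel_Δ (w : L) : (nodeModel w).Δ = -(w ^ 2) * (1 + 432 * w ^ 2) := by
  simp only [nodeModel, WeierstrassCurve.Δ, WeierstrassCurve.b₂, WeierstrassCurve.b₄,
    WeierstrassCurve.b₆, WeierstrassCurve.b₈]
  ring

variable {A : ValuationSubring L} {w : L}

lemma integralAt_nodeModel (hw : A.valuation w < 1) : IntegralAt A (nodeModel w) :=
  ⟨A.one_mem, A.zero_mem, A.zero_mem, A.zero_mem, pow_mem (mem_iff_valuation.mpr hw.le) 2⟩

lemma redCurve_nodeModel (hw : A.valuation w < 1) :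
    redCurve A (nodeModel w) = ⟨1, 0, 0, 0, 0⟩ := by
  have hwA := mem_iff_valuation.mpr hw.le
  have h0 : res A w = 0 := (res_eq_zero_iff hwA).mpr hw
  ext <;> simp [redCurve, nodeModel, res_pow hwA, h0]

lemma isTangentModel_nodeModel (hw : A.valuation w < 1) :
    IsTangentModel (redCurve A (nodeModel w)) 0 (-1) := by
  rw [redCurve_nodeModel hw]
  exact ⟨by simp, by simp, rfl, rfl, rfl⟩

lemma inE0_nodeModel_iff (hw : A.valuation w < 1) {x y : L}
    {h : (nodeModel w).toAffine.Nonsingular x y} :
    InE0 A (Affine.Point.some x y h) ↔ 1 ≤ A.valuation x := by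
  have hV := integralAt_nodeModel hw
  rw [inE0_some, not_mem_iff_valuation]
  constructor
  · rintro (hx | ⟨hx, hy, hns⟩)
    · exact hx.le
    · rw [← not_lt, ← res_eq_zero_iff hx]
      exact (isTangentModel_nodeModel hw).x_ne_zero hns
  · intro hle
    rcases hle.lt_or_eq with hlt | heq
    · exact Or.inl hlt
    · have hx : x ∈ A := mem_iff_valuation.mpr heq.ge
      refine Or.inr ⟨hx, hV.mem_y h.1 hx, ?_⟩
      have hx0 : res A x ≠ 0 := (res_ne_zero_iff hx).mpr heq.symm
      have he := hV.equation_red h.1 hx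
      rw [redCurve_nodeModel hw] at he ⊢
      rw [Affine.nonsingular_iff', and_iff_right he]
      rw [Affine.equation_iff] at he
      simp only at he ⊢
      by_contra hc
      rw [not_or, not_not, not_not] at hc
      obtain ⟨c1, c2⟩ := hc
      have k1 : res A x * (1 + 6 * res A x) = 0 := by linear_combination c2 - 2 * c1
      have k1' := (mul_eq_zero.mp k1).resolve_left hx0
      have k2 : res A x ^ 3 * (9 * res A x + 2) = 0 := by
        linear_combination he - (res A y + 3 * res A x ^ 2 + res A x) * c1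
      have k2' := (mul_eq_zero.mp k2).resolve_left (pow_ne_zero 3 hx0)
      exact one_ne_zero (α := IsLocalRing.ResidueField A) (by linear_combination -3 * k1' + 2 * k2')

/-- The component of a point of the node model. -/
def compVal (A : ValuationSubring L) (w : L) :
    (nodeModel w).toAffine.Point → CompGroup A (w ^ 2)
  | .zero => 1
  | .some x y _ => pval A w x y

lemma compVal_of_inE0 (hw : A.valuation w < 1) {P : (nodeModel w).toAffine.Point}
    (h : InE0 A P) : compVal A w P = 1 := by
  rcases P with _ | ⟨x, y, hP⟩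
  · rfl
  · exact pval_of_le ((inE0_nodeModel_iff hw).mp h)

lemma compVal_neg (hw0 : w ≠ 0) (P : (nodeModel w).toAffine.Point) :
    compVal A w (-P) = (compVal A w P)⁻¹ := by
  rcases P with _ | ⟨x, y, h⟩
  · exact inv_one.symm
  · show pval A w x ((nodeModel w).toAffine.negY x y) = _
    rw [show (nodeModel w).toAffine.negY x y = -y - x by simp [Affine.negY, nodeModel]]
    exact pval_neg hw0 (nodeModel_eq h.1)

lemma inE0_of_compVal_eq_one (hw : A.valuation w < 1) (hw0 : w ≠ 0)
    {P : (nodeModel w).toAffine.Point} (h : compVal A w P = 1) : InE0 A P := by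
  rcases P with _ | ⟨x, y, hP⟩
  · trivial
  rw [inE0_nodeModel_iff hw]
  by_contra hx
  rw [not_le] at hx
  have hv : 0 < A.valuation w := zero_lt_iff.mpr (by simpa using hw0)
  have hw2 : A.valuation (w ^ 2) < 1 := by
    rw [map_pow]; exact pow_lt_one₀ zero_le hw two_ne_zero
  have hp : 0 < A.valuation (w ^ 2) := by rw [map_pow]; exact pow_pos hv 2
  -- an element strictly between `w²` and `1` has nontrivial class
  have key : ∀ {z : L}, z ≠ 0 → cls A (w ^ 2) z = 1 → A.valuation z < 1 →
      A.valuation z ≤ A.valuation (w ^ 2) := by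
    intro z hz hcls hz1
    obtain ⟨k, hk⟩ := exists_zpow_of_cls_eq_one hz hcls
    rw [hk] at hz1 ⊢
    have hk1 : 1 ≤ k := by
      by_contra hk0
      rw [not_le] at hk0
      exact not_le_of_gt hz1 (one_le_zpow_of_nonpos₀ hp hw2.le (by omega))
    calc A.valuation (w ^ 2) ^ k ≤ A.valuation (w ^ 2) ^ (1 : ℤ) :=
          zpow_le_zpow_right_of_le_one₀ hp hw2.le hk1
      _ = _ := zpow_one _
  change pval A w x y = 1 at h
  by_cases hwx : A.valuation w < A.valuation x
  · have hx0 : x ≠ 0 := fun h0 => by simp [h0] at hwx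
    have hlt : A.valuation (w ^ 2) < A.valuation x := by
      rw [map_pow, sq]
      exact lt_of_le_of_lt (mul_le_of_le_one_left' hw.le) hwx
    rcases branch_cases (nodeModel_eq hP.1) hx hwx with ⟨hy, -⟩ | ⟨hy, -⟩
    · rw [pval_plus hx hwx hy] at h
      exact not_le_of_gt hlt (key hx0 h hx)
    · rw [pval_minus hx hwx hy.ge, cls_inv hx0, inv_eq_one] at h
      exact not_le_of_gt hlt (key hx0 h hx)
  · rw [pval_middle hx (not_lt.mp hwx)] at h
    have := key hw0 h hw
    rw [map_pow, sq] at this
    exact not_le_of_gt (mul_lt_of_lt_one_left hv hw) this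

variable [DecidableEq L]

lemma compVal_add (hw : A.valuation w < 1) (hw0 : w ≠ 0) (P Q : (nodeModel w).toAffine.Point) :
    compVal A w (P + Q) = compVal A w P * compVal A w Q := by
  classical
  have hV := integralAt_nodeModel hw
  by_cases hPQ : InE0 A P ∧ InE0 A Q
  · rw [compVal_of_inE0 hw hPQ.1, compVal_of_inE0 hw hPQ.2,
      compVal_of_inE0 hw ((E0 hV).add_mem hPQ.1 hPQ.2), one_mul]
  · clear hPQ
    rcases P with _ | ⟨x₁, y₁, h₁⟩
    · show compVal A w (0 + Q) = 1 * _
      rw [zero_add, one_mul]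
    rcases Q with _ | ⟨x₂, y₂, h₂⟩
    · show compVal A w (_ + 0) = _ * 1
      rw [add_zero, mul_one]
    by_cases hxy : x₁ = x₂ ∧ y₁ = (nodeModel w).toAffine.negY x₂ y₂
    · have hneg : (Affine.Point.some x₁ y₁ h₁) = -(Affine.Point.some x₂ y₂ h₂) := by
        rw [Affine.Point.neg_some, Affine.Point.some.injEq]; exact hxy
      rw [hneg, neg_add_cancel, compVal_neg hw0, inv_mul_cancel]
      rfl
    obtain ⟨e1, e2, e3, hy₂, hy₃⟩ := line_vieta (nodeModel w) h₁.1 h₂.1 hxy
    set ℓ := (nodeModel w).toAffine.slope x₁ x₂ y₁ y₂ with hℓ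
    set x₃ := (nodeModel w).toAffine.addX x₁ x₂ ℓ with hx₃
    set c := y₁ - ℓ * x₁ with hc
    simp only [nodeModel] at e1 e2 e3
    have hl : LineData w x₁ x₂ x₃ ℓ c :=
      ⟨by linear_combination e1, by linear_combination e2, by linear_combination e3⟩
    have h3 := Affine.nonsingular_negAdd h₁ h₂ hxy
    have hR : Affine.Point.some x₁ y₁ h₁ + Affine.Point.some x₂ y₂ h₂ =
        -Affine.Point.some _ _ h3 := by
      rw [Affine.Point.add_some hxy]; rfl
    have hprod : pval A w x₁ y₁ * pval A w x₂ y₂ *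
        pval A w x₃ ((nodeModel w).toAffine.negAddY x₁ x₂ y₁ ℓ) = 1 := by
      have hy₁ : y₁ = ℓ * x₁ + c := by rw [hc]; ring
      rw [hy₁, hy₂, ← hy₁, hy₃, hy₁]
      rcases lt_or_ge (A.valuation x₁) 1 with v1 | v1 <;>
        rcases lt_or_ge (A.valuation x₂) 1 with v2 | v2 <;>
        rcases lt_or_ge (A.valuation x₃) 1 with v3 | v3
      · exact hl.prod_eq_one hw0 hw v2 v3
      · rw [mul_right_comm, mul_comm (pval A w x₁ _)]
        exact hl.swap₂₃.swap₁₂.prod_eq_one hw0 hw v1 v2
      · rw [mul_comm (pval A w x₁ _)]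
        exact hl.swap₁₂.prod_eq_one hw0 hw v1 v3
      · exfalso
        refine not_le_of_gt v1 ((inE0_nodeModel_iff hw (h := h₁)).mp ?_)
        have e : Affine.Point.some x₁ y₁ h₁ =
            -Affine.Point.some _ _ h3 - Affine.Point.some x₂ y₂ h₂ := by rw [← hR]; abel
        rw [e]
        exact (E0 hV).sub_mem ((E0 hV).neg_mem ((inE0_nodeModel_iff hw (h := h3)).mpr v3))
          ((inE0_nodeModel_iff hw (h := h₂)).mpr v2)
      · exact hl.prod_eq_one hw0 hw v2 v3
      · exfalso
        refine not_le_of_gt v2 ((inE0_nodeModel_iff hw (h := h₂)).mp ?_)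
        have e : Affine.Point.some x₂ y₂ h₂ =
            -Affine.Point.some _ _ h3 - Affine.Point.some x₁ y₁ h₁ := by rw [← hR]; abel
        rw [e]
        exact (E0 hV).sub_mem ((E0 hV).neg_mem ((inE0_nodeModel_iff hw (h := h3)).mpr v3))
          ((inE0_nodeModel_iff hw (h := h₁)).mpr v1)
      · exfalso
        refine not_le_of_gt v3 ((inE0_nodeModel_iff hw (h := h3)).mp ?_)
        have e : Affine.Point.some _ _ h3 =
            -(Affine.Point.some x₁ y₁ h₁ + Affine.Point.some x₂ y₂ h₂) := by rw [hR, neg_neg]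
        rw [e]
        exact (E0 hV).neg_mem ((E0 hV).add_mem ((inE0_nodeModel_iff hw (h := h₁)).mpr v1)
          ((inE0_nodeModel_iff hw (h := h₂)).mpr v2))
      · rw [pval_of_le v1, pval_of_le v2, pval_of_le v3, one_mul, one_mul]
    rw [hR, compVal_neg hw0]
    exact (eq_inv_of_mul_eq_one_left hprod).symm

/-- The component homomorphism of the node model. -/
def compHom (hw : A.valuation w < 1) (hw0 : w ≠ 0) :
    (nodeModel w).toAffine.Point →+ Additive (CompGroup A (w ^ 2)) where
  toFun P := Additive.ofMul (compVal A w P)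
  map_zero' := rfl
  map_add' P Q := congrArg Additive.ofMul (compVal_add hw hw0 P Q)

lemma compHom_eq_zero_iff (hw : A.valuation w < 1) (hw0 : w ≠ 0)
    {P : (nodeModel w).toAffine.Point} : compHom hw hw0 P = 0 ↔ InE0 A P :=
  ⟨fun h => inE0_of_compVal_eq_one hw hw0 h, fun h => compVal_of_inE0 hw h⟩

end FermatLib.EC
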