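import Fermat.Agent.EC.RedComponentHom
import Mathlib.RingTheory.RootsOfUnity.Basic

/-!
# Torsion at a place of multiplicative reduction

Consequences of the normal form and of the component homomorphism for an arbitrary integral
curve with multiplicative reduction.
-/

set_option autoImplicit false
set_option linter.all false

noncomputable section

namespace FermatLib.EC

open WeierstrassCurve
open scoped WeierstrassCurve.Affine

variable {L : Type*} [Field L] {A : ValuationSubring L}

/-- A normal form `y² + xy = x³ + w²` of `V` at `A`. -/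
structure MultModel (A : ValuationSubring L) (V : WeierstrassCurve L) where
  C : WeierstrassCurve.VariableChange L
  w : L
  unit_u : res A (C.u : L) ≠ 0
  mem_r : C.r ∈ A
  mem_s : C.s ∈ A
  mem_t : C.t ∈ A
  small : A.valuation w < 1
  ne_zero : w ≠ 0
  eq : C • V = nodeModel w
  fix : ∀ σ : L →+* L, FixesResidues A σ → V.map σ = V → C.map σ = C ∧ σ (w ^ 2) = w ^ 2

/-- An integral curve with nonzero discriminant and multiplicative reduction has a normal form. -/
theorem exists_multModel [IsAlgClosed L] {V : WeierstrassCurve L} (hV : IntegralAt A V)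
    (hc₄ : res A V.c₄ ≠ 0) (hΔ : res A V.Δ = 0) (hΔ0 : V.Δ ≠ 0) : Nonempty (MultModel A V) := by
  obtain ⟨C, q, hu, hr, hs, ht, hq, hq0, hCV, hfix⟩ := exists_normalForm hV hc₄ hΔ
  obtain ⟨w, rfl⟩ := IsAlgClosed.exists_pow_nat_eq q two_pos
  have hw : A.valuation w < 1 := by
    rw [← not_le]; intro hle
    have h1 := (res_eq_zero_iff hq).mp hq0
    rw [map_pow] at h1
    exact not_le_of_gt h1 (one_le_pow₀ hle)
  refine ⟨C, w, hu, hr, hs, ht, hw, fun h0 => hΔ0 ?_, hCV, fun σ hσ hVσ => ?_⟩
  · have h := congrArg WeierstrassCurve.Δ hCV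
    rw [variableChange_Δ] at h
    have h2 : ((C.u⁻¹ : Lˣ) : L) ^ 12 * V.Δ = 0 := by
      rw [h]
      change (nodeModel w).Δ = 0
      rw [nodeModel_Δ, h0]
      ring
    exact (mul_eq_zero.mp h2).resolve_left (pow_ne_zero _ (Units.ne_zero _))
  · refine ⟨hfix σ hσ hVσ, ?_⟩
    have h := map_variableChange V C σ
    rw [hfix σ hσ hVσ, hVσ, hCV] at h
    exact (congrArg WeierstrassCurve.a₆ h).symm

/-- Transport of points along an equality of curves. -/
def eqEquiv [DecidableEq L] {V V' : WeierstrassCurve L} (h : V = V') :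
    V.toAffine.Point ≃+ V'.toAffine.Point := by
  subst h; exact AddEquiv.refl _

lemma eqEquiv_some [DecidableEq L] {V V' : WeierstrassCurve L} (h : V = V') {x y : L}
    (hP : V.toAffine.Nonsingular x y) :
    eqEquiv h (.some x y hP) = .some x y (h ▸ hP) := by
  subst h; rfl

lemma inE0_eqEquiv [DecidableEq L] {V V' : WeierstrassCurve L} (h : V = V')
    (P : V.toAffine.Point) : InE0 A (eqEquiv h P) ↔ InE0 A P := by
  subst h; rfl

namespace MultModel

variable {V : WeierstrassCurve L} (M : MultModel A V)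

lemma integralAt_nodeModel' : IntegralAt A (M.C • V) := M.eq ▸ integralAt_nodeModel M.small

lemma valuation_u : A.valuation (M.C.u : L) = 1 :=
  (res_ne_zero_iff (mem_of_res_ne_zero M.unit_u)).mp M.unit_u

lemma valuation_Δ : A.valuation V.Δ = A.valuation (M.w ^ 2) := by
  have h := congrArg (fun W : WeierstrassCurve L => A.valuation W.Δ) M.eq
  simp only [variableChange_Δ, nodeModel_Δ, map_mul, map_pow, Units.val_inv_eq_inv_val, map_inv₀,
    M.valuation_u, inv_one, one_pow, one_mul, Valuation.map_neg] at h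
  rw [h, map_pow]
  have h432 : A.valuation (1 + 432 * M.w ^ 2) = 1 := by
    rw [A.valuation.map_add_eq_of_lt_left, map_one]
    rw [map_one, map_mul, map_pow]
    refine lt_of_le_of_lt (mul_le_of_le_one_left' (mem_iff_valuation.mp (ofNat_mem_place 432))) ?_
    exact pow_lt_one₀ zero_le M.small two_ne_zero
  rw [h432, mul_one]

variable [DecidableEq L]

/-- The isomorphism from the points of the normal form. -/
def iso : (nodeModel M.w).toAffine.Point ≃+ V.toAffine.Point :=
  (eqEquiv M.eq.symm).trans (vcEquiv V M.C)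

lemma iso_some {x y : L} (h : (nodeModel M.w).toAffine.Nonsingular x y) :
    ∃ h', M.iso (.some x y h) = .some (vcX M.C x) (vcY M.C x y) h' := by
  refine ⟨(vc_nonsingular_iff V M.C x y).mpr (M.eq ▸ h), ?_⟩
  rw [iso, AddEquiv.trans_apply, eqEquiv_some]
  rfl

lemma inE0_iso (hV : IntegralAt A V) (P : (nodeModel M.w).toAffine.Point) :
    InE0 A (M.iso P) ↔ InE0 A P := by
  rw [iso, AddEquiv.trans_apply,
    inE0_vcEquiv hV M.integralAt_nodeModel' M.unit_u M.mem_r M.mem_s M.mem_t, inE0_eqEquiv]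

/-- The component homomorphism of the curve. -/
def comp : V.toAffine.Point →+ Additive (CompGroup A (M.w ^ 2)) :=
  (compHom M.small M.ne_zero).comp M.iso.symm.toAddMonoidHom

lemma comp_apply_iso (P : (nodeModel M.w).toAffine.Point) :
    M.comp (M.iso P) = Additive.ofMul (compVal A M.w P) := by
  show compHom M.small M.ne_zero (M.iso.symm (M.iso P)) = _
  rw [AddEquiv.symm_apply_apply]; rfl

theorem comp_eq_zero_iff (hV : IntegralAt A V) {P : V.toAffine.Point} :
    M.comp P = 0 ↔ InE0 A P := by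
  obtain ⟨P, rfl⟩ := M.iso.surjective P
  rw [M.inE0_iso hV, ← compHom_eq_zero_iff M.small M.ne_zero, M.comp_apply_iso]
  rfl

theorem sub_mem_iff_comp_eq (hV : IntegralAt A V) {P Q : V.toAffine.Point} :
    InE0 A (P - Q) ↔ M.comp P = M.comp Q := by
  rw [← M.comp_eq_zero_iff hV, map_sub, sub_eq_zero]

/-- The torsion of the component group is generated by the class of a root of `w²`. -/
theorem exists_zsmul_eq_comp {p : ℕ} (hp : p ≠ 0) {π : L}
    (hπ : A.valuation π ^ p = A.valuation (M.w ^ 2)) {T : V.toAffine.Point} (hT : p • T = 0) :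
    ∃ k : ℤ, M.comp T = k • Additive.ofMul (cls A (M.w ^ 2) π) := by
  obtain ⟨u, hu⟩ : ∃ u, compMk A (M.w ^ 2) u = Additive.toMul (M.comp T) :=
    QuotientGroup.mk'_surjective _ _
  have hw2 : (M.w ^ 2) ≠ 0 := pow_ne_zero 2 M.ne_zero
  have hπ0 : π ≠ 0 := fun h0 => by
    rw [h0, map_zero, zero_pow hp] at hπ
    exact hw2 ((map_eq_zero A.valuation).mp hπ.symm)
  have hcu : cls A (M.w ^ 2) (u : L) = Additive.toMul (M.comp T) := by
    rw [cls, dif_neg u.ne_zero, ← hu]; congr 1; ext; rfl
  have h1 : cls A (M.w ^ 2) ((u : L) ^ p) = 1 := by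
    have h2 : Additive.toMul (M.comp T) ^ p = 1 := by
      rw [← toMul_nsmul, ← map_nsmul, hT, map_zero]; rfl
    rw [← h2, ← hcu]
    have : ∀ n : ℕ, cls A (M.w ^ 2) ((u : L) ^ n) = cls A (M.w ^ 2) (u : L) ^ n := by
      intro n
      induction n with
      | zero => simp [cls_one]
      | succ n ih =>
        rw [pow_succ (u : L) n, pow_succ (cls A (M.w ^ 2) (u : L)) n, cls_mul (pow_ne_zero n u.ne_zero) u.ne_zero, ih]
    exact this p
  obtain ⟨k, hk⟩ := exists_zpow_of_cls_eq_one (pow_ne_zero p u.ne_zero) h1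
  refine ⟨k, ?_⟩
  have hv : A.valuation (u : L) = A.valuation (π ^ k) := by
    rw [map_zpow₀]
    refine (pow_left_inj₀ zero_le zero_le hp).mp ?_
    rw [← map_pow, hk, ← hπ, ← zpow_natCast (A.valuation π ^ k), ← zpow_natCast (A.valuation π),
      ← zpow_mul, ← zpow_mul, mul_comm]
  apply Additive.toMul.injective
  rw [← hcu, cls_eq_of_valuation_eq u.ne_zero hv, toMul_zsmul, toMul_ofMul]
  rw [cls, dif_neg (zpow_ne_zero k hπ0), cls, dif_neg hπ0, ← map_zpow]
  congr 1
  ext
  simp

/-- A point in a given torsion component, with coordinates fixed by the automorphisms that fix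
the root. -/
theorem exists_point_comp [IsAlgClosed L] {p : ℕ} (hp : 3 ≤ p) {π : L}
    (hπ : A.valuation π ^ p = A.valuation (M.w ^ 2)) :
    ∃ (x y : L) (h : (nodeModel M.w).toAffine.Nonsingular x y),
      M.comp (M.iso (.some x y h)) = Additive.ofMul (cls A (M.w ^ 2) π) ∧
      ∀ σ : L →+* L, FixesResidues A σ → σ π = π → σ (M.w ^ 2) = M.w ^ 2 →
        σ x = x ∧ σ y = y := by
  have hwv : 0 < A.valuation M.w := zero_lt_iff.mpr (by simpa using M.ne_zero)
  have hπ1 : A.valuation π < 1 := by
    rw [← not_le]; intro hle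
    have h1 : A.valuation (M.w ^ 2) < 1 := by
      rw [map_pow]; exact pow_lt_one₀ zero_le M.small two_ne_zero
    exact not_le_of_gt h1 (hπ ▸ one_le_pow₀ hle)
  have hπ0 : π ≠ 0 := fun h0 => by
    rw [h0, map_zero, zero_pow (by omega)] at hπ
    exact pow_ne_zero 2 M.ne_zero ((map_eq_zero A.valuation).mp hπ.symm)
  have hπpos : 0 < A.valuation π := zero_lt_iff.mpr (by simpa using hπ0)
  have hlt : A.valuation (M.w ^ 2) < A.valuation π ^ 2 :=
    hπ ▸ pow_lt_pow_right_of_lt_one₀ hπpos hπ1 (by omega)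
  have hwπ : A.valuation M.w < A.valuation π := by
    refine lt_of_pow_lt_pow_left₀ 2 zero_le ?_
    rwa [← map_pow]
  set c := π + M.w ^ 2 / π ^ 2 with hc
  have hc1 : A.valuation c < 1 := by
    refine A.valuation.map_add_lt hπ1 ?_
    rw [map_div₀]
    exact (div_lt_one₀ (by rw [map_pow]; exact pow_pos hπpos 2)).mpr (by rwa [map_pow _ π 2])
  have hcA : c ∈ A := mem_iff_valuation.mpr hc1.le
  obtain ⟨ω, hω, hω0, hωeq, hωu⟩ := exists_small_root (A := A) (a := (1 : L)) (b := 1) (c := -c)
    A.one_mem (by simp) (neg_mem hcA) (by rw [res_neg hcA, (res_eq_zero_iff hcA).mpr hc1, neg_zero])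
  have he : (nodeModel M.w).toAffine.Equation π (π * ω) := by
    rw [Affine.equation_iff]
    simp only [nodeModel]
    have : π ^ 2 * c = π ^ 3 + M.w ^ 2 := by rw [hc]; field_simp
    linear_combination π ^ 2 * hωeq + this
  have hΔ : (nodeModel M.w).Δ ≠ 0 := by
    rw [nodeModel_Δ]
    refine mul_ne_zero (neg_ne_zero.mpr (pow_ne_zero 2 M.ne_zero)) fun h0 => ?_
    have h1 : A.valuation (1 + 432 * M.w ^ 2) = 1 := by
      rw [A.valuation.map_add_eq_of_lt_left, map_one]
      rw [map_one, map_mul, map_pow]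
      exact lt_of_le_of_lt (mul_le_of_le_one_left' (mem_iff_valuation.mp (ofNat_mem_place 432)))
        (pow_lt_one₀ zero_le M.small two_ne_zero)
    rw [h0, map_zero] at h1
    exact zero_ne_one h1
  refine ⟨π, π * ω, (Affine.equation_iff_nonsingular_of_Δ_ne_zero hΔ).mp he, ?_, ?_⟩
  · rw [M.comp_apply_iso]
    refine congrArg Additive.ofMul (pval_plus hπ1 hwπ ?_)
    rw [map_mul]
    exact mul_lt_of_lt_one_right hπpos ((res_eq_zero_iff hω).mp hω0)
  · intro σ hσ hπσ hwσ
    refine ⟨hπσ, ?_⟩
    have hω' : σ ω = ω := by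
      refine hωu _ (hσ ω hω).1 (by rw [(hσ ω hω).2, hω0]) ?_
      have h1 := congrArg σ hωeq
      simp only [hc, map_add, map_mul, map_pow, map_one, map_neg, map_div₀, map_zero, hπσ] at h1
      rw [← map_pow σ M.w, hwσ] at h1
      rw [hc]
      exact h1
    rw [map_mul, hπσ, hω']

end MultModel

end FermatLib.EC
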