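import Fermat.Agent.EC.RedBridgeMult

/-!
# `p`-power torsion is ramified at a multiplicative prime
-/

set_option autoImplicit false
set_option linter.all false

noncomputable section

namespace FermatLib.EC

open WeierstrassCurve
open scoped WeierstrassCurve.Affine Pointwise

local notation "Qbar" => AlgebraicClosure ℚ

attribute [local instance] isAlgebraicQbarRed

/-- Powers commute with the class map. -/
lemma cls_pow {L : Type*} [Field L] {A : ValuationSubring L} {d z : L} (hz : z ≠ 0) (n : ℕ) :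
    cls A d (z ^ n) = cls A d z ^ n := by
  induction n with
  | zero => simp [cls_one]
  | succ n ih => rw [pow_succ z n, pow_succ (cls A d z) n, cls_mul (pow_ne_zero n hz) hz, ih]

/-- `V ∣ p ^ n k` and `V < p ^ n` give `V ∣ p ^ (n - 1) k`. -/
lemma dvd_pow_pred_mul {p n V : ℕ} (hp : p.Prime) (hV : V < p ^ n) (hV0 : V ≠ 0) {k : ℤ}
    (h : (V : ℤ) ∣ (p : ℤ) ^ n * k) : (V : ℤ) ∣ (p : ℤ) ^ (n - 1) * k := by
  obtain ⟨a, ha, hga⟩ := (Nat.dvd_prime_pow hp).mp (Nat.gcd_dvd_right V (p ^ n))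
  have han : a ≤ n - 1 := by
    by_contra hlt
    have : a = n := by omega
    rw [this] at hga
    have := Nat.le_of_dvd (Nat.pos_of_ne_zero hV0) (hga ▸ Nat.gcd_dvd_left V (p ^ n))
    omega
  have hVk : (V : ℤ) ∣ ((V.gcd (p ^ n) : ℕ) : ℤ) * k := by
    rw [Nat.gcd_eq_gcd_ab, add_mul, mul_assoc, mul_assoc]
    refine dvd_add (dvd_mul_right _ _) ?_
    rw [mul_left_comm, Nat.cast_pow]
    exact dvd_mul_of_dvd_right h _
  refine hVk.trans (mul_dvd_mul_right ?_ k)
  rw [hga, Nat.cast_pow]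
  exact pow_dvd_pow _ han

/-- A point of `p ^ n` torsion whose `p ^ (n - 1)` multiple is singular mod `q` is moved by inertia
at `q`, if `v_q(Δ) < p ^ n`. -/
theorem exists_inertia_smul_ne_int {W : WeierstrassCurve ℤ} {q : ℕ} (hq : q.Prime)
    {A : ValuationSubring Qbar} (hA : A.LiesOverPrime q) (hΔ0 : W.Δ ≠ 0)
    (hdvd : (q : ℤ) ∣ W.Δ) (hc₄ : ¬(q : ℤ) ∣ W.c₄) {p : ℕ} (hp : p.Prime) (hp2 : p ≠ 2)
    {n : ℕ} (hn : padicValInt q W.Δ < p ^ n)
    {T : ((W.map (Int.castRingHom ℚ))⁄Qbar).Point} (hT : p ^ n • T = 0)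
    (hT' : ¬ InE0 A (p ^ (n - 1) • T)) :
    ∃ σ ∈ A.inertiaSubgroupIn ℚ, σ • T ≠ T := by
  classical
  by_contra hall
  push Not at hall
  obtain ⟨h1, h2, h3⟩ := intCurve_mult hq hA hΔ0 hdvd hc₄
  have hV := integralAt_intCurve W A
  obtain ⟨M⟩ := exists_multModel hV h1 h2 h3
  obtain ⟨c, hc⟩ : ∃ c, c = Additive.toMul (M.comp T) := ⟨_, rfl⟩
  have hcn : c ^ p ^ n = 1 := by
    rw [hc, ← toMul_nsmul, ← map_nsmul, hT, map_zero]; rfl
  have hcn' : c ^ p ^ (n - 1) ≠ 1 := by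
    rw [hc, ← toMul_nsmul, ← map_nsmul]
    exact fun e => hT' ((M.comp_eq_zero_iff hV).mp (Additive.toMul.injective e))
  obtain ⟨P, rfl⟩ := M.iso.surjective T
  rw [M.comp_apply_iso, toMul_ofMul] at hc
  rcases P with _ | ⟨x, y, h⟩
  · exact hcn' (by rw [hc]; exact one_pow _)
  change c = pval A M.w x y at hc
  have hfix : ∀ σ ∈ A.inertiaSubgroupIn ℚ, σ x = x := by
    intro σ hσ
    obtain ⟨h', e⟩ := smul_iso_some M (fixesResidues_of_mem_inertia hσ) h
    have e2 := hall σ hσ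
    rw [e] at e2
    exact (Affine.Point.some.inj (M.iso.injective e2)).1
  have hx : A.valuation x < 1 := by
    by_contra hle
    exact hcn' (by rw [hc, pval_of_le (not_lt.mp hle), one_pow])
  have hw2 : M.w ^ 2 ≠ 0 := pow_ne_zero 2 M.ne_zero
  by_cases hwx : A.valuation M.w < A.valuation x
  · have hx0 : x ≠ 0 := fun e => by simp [e] at hwx
    have hcls : cls A (M.w ^ 2) x ^ p ^ n = 1 ∧ cls A (M.w ^ 2) x ^ p ^ (n - 1) ≠ 1 := by
      rcases branch_cases (nodeModel_eq h.1) hx hwx with ⟨hy, -⟩ | ⟨hy, -⟩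
      · rw [pval_plus hx hwx hy] at hc
        exact ⟨hc ▸ hcn, hc ▸ hcn'⟩
      · rw [pval_minus hx hwx hy.ge, cls_inv hx0] at hc
        rw [hc, inv_pow, inv_eq_one] at hcn
        exact ⟨hcn, fun e => hcn' (by rw [hc, inv_pow, e, inv_one])⟩
    obtain ⟨j, hj⟩ := exists_zpow_of_cls_eq_one (pow_ne_zero (p ^ n) hx0)
      ((cls_pow hx0 _).trans hcls.1)
    obtain ⟨k, hk⟩ := FermatLib.Galois.Flat.exists_valuation_eq_zpow hq hA hx0 hfix
    have hw := (M.valuation_Δ).symm.trans (valuation_Δ_eq hq hA hΔ0 hdvd hc₄)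
    rw [map_pow, hk, hw, ← zpow_natCast, ← zpow_mul, ← zpow_natCast, ← zpow_mul] at hj
    have hlt : A.valuation (q : Qbar) < 1 := A.mem_nonunits_iff.mp hA
    have hpos : 0 < A.valuation (q : Qbar) :=
      zero_lt_iff.mpr ((map_ne_zero A.valuation).mpr (Nat.cast_ne_zero.mpr hq.ne_zero))
    have he := (zpow_right_strictAnti₀ hpos hlt).injective hj
    have hV0 : padicValInt q W.Δ ≠ 0 := by
      haveI : Fact q.Prime := ⟨hq⟩
      intro h0
      rcases (padicValInt_dvd_iff (p := q) 1 W.Δ).mp (by simpa using hdvd) with h | h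
      · exact hΔ0 h
      · omega
    obtain ⟨i, hi⟩ := dvd_pow_pred_mul hp hn hV0 (k := k)
      ⟨j, by rw [mul_comm ((p : ℤ) ^ n) k]; exact_mod_cast he⟩
    refine hcls.2 ((cls_pow hx0 _).symm.trans
      (cls_eq_one_of_valuation_eq_zpow (pow_ne_zero _ hx0) hw2 (k := i) ?_))
    rw [map_pow, hk, hw, ← zpow_natCast, ← zpow_mul, ← zpow_natCast, ← zpow_mul]
    refine congrArg _ ?_
    rw [← hi]
    push_cast
    ring
  · rw [pval_middle hx (not_lt.mp hwx)] at hc
    have hsq : c ^ 2 = 1 := by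
      rw [hc, ← cls_pow M.ne_zero]
      exact cls_eq_one_of_valuation_eq_zpow hw2 hw2 (k := 1) (zpow_one _).symm
    obtain ⟨m, hm⟩ := (hp.odd_of_ne_two hp2).pow (n := n)
    have hc1 : c = 1 := by
      rw [hm, pow_succ c (2 * m), pow_mul, hsq, one_pow, one_mul] at hcn
      exact hcn
    exact hcn' (by rw [hc1, one_pow])

end FermatLib.EC
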