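import Fermat.Agent.EC.RedMultGalois
import Fermat.Agent.EC.RedBridge
import Mathlib.GroupTheory.OrderOfElement

/-!
# The torus of nonsingular points at a multiplicative place
-/

set_option autoImplicit false
set_option linter.all false

noncomputable section

namespace FermatLib.EC

open WeierstrassCurve
open scoped WeierstrassCurve.Affine

variable {L : Type*} [Field L] [DecidableEq L] {A : ValuationSubring L}
  [DecidableEq (IsLocalRing.ResidueField A)] {V : WeierstrassCurve L}

namespace MultModel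

/-- The reduction of the points with nonsingular reduction in the multiplicative group. -/
def torus (M : MultModel A V) (hV : IntegralAt A V) :
    E0 hV →+ Additive (IsLocalRing.ResidueField A)ˣ :=
  (((isTangentModel_nodeModel M.small).nodeHom).comp
    (redHom (integralAt_nodeModel M.small))).comp
    { toFun := fun P => ⟨M.iso.symm P.1, by
        rw [mem_E0, ← M.inE0_iso hV, AddEquiv.apply_symm_apply]; exact P.2⟩
      map_zero' := Subtype.ext (map_zero M.iso.symm)
      map_add' := fun P Q => Subtype.ext (map_add M.iso.symm P.1 Q.1) }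

/-- Torsion prime to the residue characteristic embeds in the torus. -/
theorem torus_eq_zero (M : MultModel A V) (hV : IntegralAt A V) {n : ℕ} (hn : res A (n : L) ≠ 0)
    {P : E0 hV} (hnP : n • P = 0) (h : M.torus hV P = 0) : P = 0 := by
  have hN := integralAt_nodeModel (A := A) M.small
  apply Subtype.ext
  apply M.iso.symm.injective
  show M.iso.symm P.1 = M.iso.symm 0
  have hP0 : InE0 A (M.iso.symm P.1) := by
    rw [← M.inE0_iso hV, AddEquiv.apply_symm_apply]; exact P.2
  rw [map_zero]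
  refine inE1_eq_zero_of_nsmul_eq_zero hN hn ((redPt_eq_zero_iff hP0).mp ?_) ?_
  · refine (isTangentModel_nodeModel M.small).nodeHom_injective ?_ ?_
    · intro h0
      exact one_ne_zero (α := IsLocalRing.ResidueField A) (by linear_combination h0)
    · rw [map_zero]; exact h
  · rw [← map_nsmul]
    have : n • P.1 = 0 := congrArg Subtype.val hnP
    rw [this, map_zero]

end MultModel

variable [IsAlgClosed L] (hV : IntegralAt A V) (hc₄ : res A V.c₄ ≠ 0) (hΔ : res A V.Δ = 0)
  (hΔ0 : V.Δ ≠ 0)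
include hV hc₄ hΔ hΔ0

/-- At a multiplicative place the `p`-torsion with nonsingular reduction is generated by any
nonzero element. -/
theorem exists_zsmul_eq_of_inE0 {p : ℕ} (hp : p.Prime) (hn : res A (p : L) ≠ 0)
    {T₁ T₂ : V.toAffine.Point} (h₁ : InE0 A T₁) (h₂ : InE0 A T₂) (hT₁ : p • T₁ = 0)
    (hT₂ : p • T₂ = 0) (hne : T₁ ≠ 0) : ∃ k : ℤ, T₂ = k • T₁ := by
  obtain ⟨M⟩ := exists_multModel hV hc₄ hΔ hΔ0
  haveI : NeZero p := ⟨hp.ne_zero⟩
  let S₁ : E0 hV := ⟨T₁, h₁⟩
  let S₂ : E0 hV := ⟨T₂, h₂⟩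
  have hS₁ : p • S₁ = 0 := Subtype.ext hT₁
  have hS₂ : p • S₂ = 0 := Subtype.ext hT₂
  set u₁ := Additive.toMul (M.torus hV S₁) with hu₁
  set u₂ := Additive.toMul (M.torus hV S₂) with hu₂
  have hm₁ : u₁ ∈ rootsOfUnity p (IsLocalRing.ResidueField A) := by
    rw [mem_rootsOfUnity, hu₁, ← toMul_nsmul, ← map_nsmul, hS₁, map_zero]; rfl
  have hm₂ : u₂ ∈ rootsOfUnity p (IsLocalRing.ResidueField A) := by
    rw [mem_rootsOfUnity, hu₂, ← toMul_nsmul, ← map_nsmul, hS₂, map_zero]; rfl
  have hu1 : u₁ ≠ 1 := fun h => hne (congrArg Subtype.val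
    (M.torus_eq_zero hV hn hS₁ (Additive.toMul.injective h)))
  have hprim : IsPrimitiveRoot (u₁ : (IsLocalRing.ResidueField A)) p := by
    rw [IsPrimitiveRoot.coe_units_iff]
    have := orderOf_eq_prime (p := p) (hp := ⟨hp⟩) ((mem_rootsOfUnity _ _).mp hm₁) hu1
    exact this ▸ IsPrimitiveRoot.orderOf u₁
  have hz : ((u₂ : IsLocalRing.ResidueField A)) ^ p = 1 := by
    rw [← Units.val_pow_eq_pow_val, (mem_rootsOfUnity _ _).mp hm₂, Units.val_one]
  obtain ⟨i, -, hi⟩ := hprim.eq_pow_of_pow_eq_one hz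
  refine ⟨i, ?_⟩
  have hzero : M.torus hV (S₂ - (i : ℤ) • S₁) = 0 := by
    rw [map_sub, map_zsmul, sub_eq_zero]
    apply Additive.toMul.injective
    rw [toMul_zsmul, zpow_natCast, ← hu₁, ← hu₂]
    ext
    rw [Units.val_pow_eq_pow_val]
    exact hi.symm
  have hp0 : p • (S₂ - (i : ℤ) • S₁) = 0 := by
    rw [smul_sub, hS₂, smul_comm, hS₁, smul_zero, sub_zero]
  have h0 := congrArg Subtype.val (M.torus_eq_zero hV hn hp0 hzero)
  exact sub_eq_zero.mp h0

end FermatLib.EC
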