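import Fermat.Agent.EC.RedMultTorus
import Fermat.Agent.EC.Torsion

/-!
# When is the `p`-torsion unramified at a multiplicative place?
-/

set_option autoImplicit false
set_option linter.all false

noncomputable section

namespace FermatLib.EC

open WeierstrassCurve
open scoped WeierstrassCurve.Affine

section Count

variable {L : Type*} [Field L] [DecidableEq L] [IsAlgClosed L] {A : ValuationSubring L}
  {V : WeierstrassCurve L} (hV : IntegralAt A V) (hc₄ : res A V.c₄ ≠ 0) (hΔ : res A V.Δ = 0)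
  (hΔ0 : V.Δ ≠ 0) {p : ℕ}
include hV hc₄ hΔ hΔ0

lemma not_forall_zmultiples (hp : p.Prime) (hn : res A (p : L) ≠ 0) (T₁ : V.toAffine.Point)
    (hT₁ : p • T₁ = 0) :
    ∃ T, p • T = 0 ∧ ¬∃ k : ℤ, T = k • T₁ := by
  by_contra hall
  push Not at hall
  haveI : V.toAffine.IsElliptic := ⟨isUnit_iff_ne_zero.mpr hΔ0⟩
  have hpL : (p : L) ≠ 0 := fun h => hn (by rw [h, res_zero])
  haveI : Finite (Submodule.torsionBy ℤ V.toAffine.Point p) := by
    exact finite_torsionBy V.toAffine hp.ne_zero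
  have hcard := natCard_torsionBy (W := V.toAffine) hpL
  have hfin : IsOfFinAddOrder T₁ := isOfFinAddOrder_iff_nsmul_eq_zero.mpr ⟨p, hp.pos, hT₁⟩
  haveI : Finite (AddSubgroup.zmultiples T₁) :=
    Nat.finite_of_card_ne_zero (by rw [Nat.card_zmultiples]; exact hfin.addOrderOf_pos.ne')
  have hle : Nat.card (Submodule.torsionBy ℤ V.toAffine.Point p) ≤
      Nat.card (AddSubgroup.zmultiples T₁) := by
    refine Nat.card_le_card_of_injective (fun T => ⟨T.1, ?_⟩) fun a b h =>
      Subtype.ext (congrArg (fun z : AddSubgroup.zmultiples T₁ => (z : V.toAffine.Point)) h)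
    obtain ⟨k, hk⟩ := hall T.1 (by
      rw [← natCast_zsmul]; exact (Submodule.mem_torsionBy_iff _ _).mp T.2)
    exact ⟨k, hk.symm⟩
  rw [hcard, Nat.card_zmultiples] at hle
  have h1 : addOrderOf T₁ ≤ p := Nat.le_of_dvd hp.pos (addOrderOf_dvd_of_nsmul_eq_zero hT₁)
  have h2 : p * 1 < p ^ 2 := by rw [sq]; exact Nat.mul_lt_mul_of_pos_left hp.one_lt hp.pos
  omega

/-- Some `p`-torsion point has singular reduction. -/
theorem exists_torsion_not_inE0 (hp : p.Prime) (hn : res A (p : L) ≠ 0) :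
    ∃ T : V.toAffine.Point, p • T = 0 ∧ ¬InE0 A T := by
  classical
  by_contra hall
  push Not at hall
  by_cases h : ∃ T₁ : V.toAffine.Point, p • T₁ = 0 ∧ T₁ ≠ 0
  · obtain ⟨T₁, hT₁, hne⟩ := h
    obtain ⟨T, hT, hk⟩ := not_forall_zmultiples hV hc₄ hΔ hΔ0 hp hn T₁ hT₁
    exact hk (exists_zsmul_eq_of_inE0 hV hc₄ hΔ hΔ0 hp hn (hall T₁ hT₁) (hall T hT) hT₁ hT hne)
  · push Not at h
    obtain ⟨T, hT, hk⟩ := not_forall_zmultiples hV hc₄ hΔ hΔ0 hp hn 0 (nsmul_zero p)
    exact hk ⟨0, by rw [h T hT, zero_smul]⟩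

end Count

variable {R : Type*} [CommRing R] {S : Type*} [Field S] {L : Type*} [Field L] [DecidableEq L]
  [IsAlgClosed L] [Algebra R S] [Algebra R L] [Algebra S L] [IsScalarTower R S L]
  [Algebra.IsAlgebraic S L] {W : WeierstrassCurve.Affine R} {A : ValuationSubring L}
  {σ : L ≃ₐ[S] L}

/-- A two-torsion point off the nonsingular locus has middle component. -/
lemma two_torsion_coords {w x y : L} (hw : w ≠ 0) (h2 : res A (2 : L) ≠ 0)
    (h : (nodeModel w).toAffine.Nonsingular x y) (hx : A.valuation x < 1)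
    (hy : 2 * y + x = 0) :
    A.valuation x = A.valuation w ∧ x ^ 2 * (1 + 4 * x) = -4 * w ^ 2 := by
  have he := nodeModel_eq h.1
  have h20 : (2 : L) ≠ 0 := fun e => h2 (by rw [e, res_zero])
  have hy' : y = -x / 2 := by field_simp; linear_combination hy
  have hid : x ^ 2 * (1 + 4 * x) = -4 * w ^ 2 := by
    rw [hy'] at he
    field_simp at he
    linear_combination -he
  refine ⟨?_, hid⟩
  have hv2 : A.valuation (2 : L) = 1 := (res_ne_zero_iff (ofNat_mem_place 2)).mp h2
  have hv4 : A.valuation (4 : L) = 1 := by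
    rw [show (4 : L) = 2 * 2 by norm_num, map_mul, hv2, one_mul]
  have h1 : A.valuation (1 + 4 * x) = 1 := by
    rw [A.valuation.map_add_eq_of_lt_left, map_one]
    rw [map_one, map_mul, hv4, one_mul]; exact hx
  have h3 := congrArg A.valuation hid
  rw [map_mul, h1, mul_one, map_mul, Valuation.map_neg, hv4, one_mul, map_pow, map_pow] at h3
  exact (pow_left_inj₀ zero_le zero_le two_ne_zero).mp h3

/-- A two-torsion point of the node model satisfies `2y + x = 0`. -/
lemma two_torsion_eq {w x y : L} {h : (nodeModel w).toAffine.Nonsingular x y}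
    (hT : 2 • (Affine.Point.some x y h) = 0) : 2 * y + x = 0 := by
  rw [two_nsmul, add_eq_zero_iff_eq_neg, Affine.Point.neg_some, Affine.Point.some.injEq] at hT
  have := hT.2
  simp only [Affine.negY, nodeModel] at this
  linear_combination this

/-- The case `p = 2` of the unramifiedness criterion. -/
theorem smul_eq_self_of_multiplicative_two (hV : IntegralAt A (W⁄L))
    (hc₄ : res A (W⁄L).c₄ ≠ 0) (hΔ : res A (W⁄L).Δ = 0) (hΔ0 : (W⁄L).Δ ≠ 0)
    (hσ : FixesResidues A σ) (hn : res A (2 : L) ≠ 0) {π : L}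
    (hπ : A.valuation π ^ 2 = A.valuation (W⁄L).Δ) (hfix : σ π = π) {T : (W⁄L).Point}
    (hT : 2 • T = 0) : σ • T = T := by
  classical
  have hn' : res A ((2 : ℕ) : L) ≠ 0 := by exact_mod_cast hn
  by_cases h0 : InE0 A T
  · exact smul_eq_self_of_inE0 hV hσ hn' h0 hT
  obtain ⟨M⟩ := exists_multModel hV hc₄ hΔ hΔ0
  rw [M.valuation_Δ, map_pow] at hπ
  have hπw : A.valuation π = A.valuation M.w := (pow_left_inj₀ zero_le zero_le two_ne_zero).mp hπ
  obtain ⟨P, rfl⟩ := M.iso.surjective T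
  rw [M.inE0_iso hV] at h0
  rcases P with _ | ⟨x, y, h⟩
  · exact absurd trivial h0
  have hx : A.valuation x < 1 := not_le.mp fun hle => h0 ((inE0_nodeModel_iff M.small).mpr hle)
  have hy : 2 * y + x = 0 := two_torsion_eq (h := h) (M.iso.injective (by
    rw [map_nsmul, hT, map_zero]))
  obtain ⟨hvx, hid⟩ := two_torsion_coords M.ne_zero hn h hx hy
  obtain ⟨h', e⟩ := smul_iso_some M hσ h
  rw [e]
  congr 1
  rw [Affine.Point.some.injEq]
  obtain ⟨-, hw⟩ := M.fix ((σ : L →ₐ[S] L) : L →+* L) hσ map_baseChange_algEquiv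
  have hw' : σ (M.w ^ 2) = M.w ^ 2 := hw
  have hπ0 : π ≠ 0 := fun e0 => M.ne_zero ((map_eq_zero A.valuation).mp (by
    rw [← hπw, e0, map_zero]))
  have hvz : A.valuation (x / π) = 1 := by
    rw [map_div₀, hvx, hπw, div_self (by simpa using M.ne_zero)]
  have hzA : x / π ∈ A := mem_iff_valuation.mpr hvz.le
  obtain ⟨hzσ, hzr⟩ := hσ _ hzA
  rw [map_div₀, hfix] at hzσ hzr
  have hxA : x ∈ A := mem_iff_valuation.mpr hx.le
  have hxσA := (hσ x hxA).1
  have hfac : (σ x - x) * ((σ x + x) + 4 * (σ x ^ 2 + σ x * x + x ^ 2)) = 0 := by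
    have h1 := congrArg σ hid
    simp only [map_mul, map_add, map_pow, map_neg, map_ofNat, map_one] at h1
    rw [← map_pow σ M.w, hw'] at h1
    linear_combination h1 - hid
  have hx2 : σ x = x := by
    rcases mul_eq_zero.mp hfac with h1 | h1
    · exact sub_eq_zero.mp h1
    · exfalso
      have h2 : (σ x / π + x / π) + 4 * (σ x / π * σ x + σ x / π * x + x / π * x) = 0 := by
        field_simp
        linear_combination h1
      have h3 := congrArg (res A) h2
      have hx0 : res A x = 0 := (res_eq_zero_iff hxA).mpr hx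
      have hsum : σ x / π * σ x + σ x / π * x + x / π * x ∈ A :=
        add_mem (add_mem (mul_mem hzσ hxσA) (mul_mem hzσ hxA)) (mul_mem hzA hxA)
      rw [res_add (add_mem hzσ hzA) (mul_mem (ofNat_mem_place 4) hsum), res_add hzσ hzA,
        res_mul (ofNat_mem_place 4) hsum,
        res_add (add_mem (mul_mem hzσ hxσA) (mul_mem hzσ hxA)) (mul_mem hzA hxA),
        res_add (mul_mem hzσ hxσA) (mul_mem hzσ hxA), res_mul hzσ hxσA, res_mul hzσ hxA,
        res_mul hzA hxA, hzr, (hσ x hxA).2, hx0, res_zero] at h3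
      have h4 : res A (2 : L) * res A (x / π) = 0 := by
        rw [res_ofNat]; linear_combination h3
      exact mul_ne_zero hn ((res_ne_zero_iff hzA).mpr hvz) h4
  refine ⟨hx2, ?_⟩
  have h20 : (2 : L) ≠ 0 := fun e0 => hn (by rw [e0, res_zero])
  have hy' : y = -x / 2 := by field_simp; linear_combination hy
  rw [hy', map_div₀, map_neg, map_ofNat, hx2]

/-- If the discriminant's valuation is divisible by the prime `p` (witnessed by an element fixed
by `σ`), inertia fixes the `p`-torsion. -/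
theorem smul_eq_self_of_valuation_pow (hV : IntegralAt A (W⁄L)) (hc₄ : res A (W⁄L).c₄ ≠ 0)
    (hΔ : res A (W⁄L).Δ = 0) (hΔ0 : (W⁄L).Δ ≠ 0) (hσ : FixesResidues A σ) {p : ℕ}
    (hp : p.Prime) (hn : res A (p : L) ≠ 0) {π : L}
    (hπ : A.valuation π ^ p = A.valuation (W⁄L).Δ) (hfix : σ π = π) {T : (W⁄L).Point}
    (hT : p • T = 0) : σ • T = T := by
  rcases hp.two_le.lt_or_eq with h | h
  · exact smul_eq_self_of_multiplicative hV hc₄ hΔ hΔ0 hσ h hn hπ hfix hT
  · subst h
    exact smul_eq_self_of_multiplicative_two hV hc₄ hΔ hΔ0 hσ (by exact_mod_cast hn) hπ hfix hT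

/-- If inertia fixes the `p`-torsion, the valuation of the discriminant is divisible by `p`
through an element fixed by inertia. -/
theorem exists_fixed_valuation_pow (hV : IntegralAt A (W⁄L)) (hc₄ : res A (W⁄L).c₄ ≠ 0)
    (hΔ : res A (W⁄L).Δ = 0) (hΔ0 : (W⁄L).Δ ≠ 0) {p : ℕ} (hp : p.Prime)
    (hn : res A (p : L) ≠ 0)
    (hall : ∀ σ : L ≃ₐ[S] L, FixesResidues A σ → ∀ T : (W⁄L).Point, p • T = 0 → σ • T = T) :
    ∃ π : L, π ≠ 0 ∧ A.valuation π ^ p = A.valuation (W⁄L).Δ ∧
      ∀ σ : L ≃ₐ[S] L, FixesResidues A σ → σ π = π := by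
  obtain ⟨T, hT, hT0⟩ := exists_torsion_not_inE0 hV hc₄ hΔ hΔ0 hp hn
  obtain ⟨M⟩ := exists_multModel hV hc₄ hΔ hΔ0
  obtain ⟨P, rfl⟩ := M.iso.surjective T
  have h0 : ¬InE0 A P := fun h => hT0 ((M.inE0_iso hV P).mpr h)
  rcases P with _ | ⟨x, y, h⟩
  · exact absurd trivial h0
  have hx : A.valuation x < 1 := not_le.mp fun hle => h0 ((inE0_nodeModel_iff M.small).mpr hle)
  have hfix : ∀ σ : L ≃ₐ[S] L, FixesResidues A σ → σ x = x ∧ σ (M.w ^ 2) = M.w ^ 2 := by
    intro σ hσ
    obtain ⟨h', e⟩ := smul_iso_some M hσ h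
    have e2 := hall σ hσ _ hT
    rw [e] at e2
    exact ⟨(Affine.Point.some.inj (M.iso.injective e2)).1,
      (M.fix ((σ : L →ₐ[S] L) : L →+* L) hσ map_baseChange_algEquiv).2⟩
  have hw2 : M.w ^ 2 ≠ 0 := pow_ne_zero 2 M.ne_zero
  have hcomp : Additive.toMul (M.comp (M.iso (.some x y h))) ^ p = 1 := by
    rw [← toMul_nsmul, ← map_nsmul, hT, map_zero]; rfl
  rw [M.comp_apply_iso, toMul_ofMul] at hcomp
  have hne : compVal A M.w (.some x y h) ≠ 1 := fun e =>
    h0 (inE0_of_compVal_eq_one M.small M.ne_zero e)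
  change pval A M.w x y ≠ 1 at hne
  change pval A M.w x y ^ p = 1 at hcomp
  rw [M.valuation_Δ]
  by_cases hwx : A.valuation M.w < A.valuation x
  · -- the class of `x` has order `p`
    have hx0 : x ≠ 0 := fun e => by simp [e] at hwx
    have hcls : cls A (M.w ^ 2) x ≠ 1 ∧ cls A (M.w ^ 2) x ^ p = 1 := by
      rcases branch_cases (nodeModel_eq h.1) hx hwx with ⟨hy, -⟩ | ⟨hy, -⟩
      · rw [pval_plus hx hwx hy] at hne hcomp
        exact ⟨hne, hcomp⟩
      · rw [pval_minus hx hwx hy.ge, cls_inv hx0] at hne hcomp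
        exact ⟨fun e => hne (by rw [e, inv_one]), by rwa [inv_pow, inv_eq_one] at hcomp⟩
    have hpow : cls A (M.w ^ 2) (x ^ p) = 1 := by
      have key : ∀ n : ℕ, cls A (M.w ^ 2) (x ^ n) = cls A (M.w ^ 2) x ^ n := by
        intro n
        induction n with
        | zero => simp [cls_one]
        | succ n ih =>
          rw [pow_succ x n, pow_succ (cls A (M.w ^ 2) x) n, cls_mul (pow_ne_zero n hx0) hx0, ih]
      rw [key]; exact hcls.2
    obtain ⟨k, hk⟩ := exists_zpow_of_cls_eq_one (pow_ne_zero p hx0) hpow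
    rw [map_pow] at hk
    have hco : IsCoprime k (p : ℤ) := by
      rw [Int.isCoprime_iff_gcd_eq_one]
      refine Nat.Coprime.symm (hp.coprime_iff_not_dvd.mpr fun hd => hcls.1 ?_)
      obtain ⟨c, hc⟩ := Int.natCast_dvd.mpr hd
      refine cls_eq_one_of_valuation_eq_zpow hx0 hw2 (k := c) ?_
      refine (pow_left_inj₀ zero_le zero_le hp.ne_zero).mp ?_
      rw [hk, hc, ← zpow_natCast (A.valuation (M.w ^ 2) ^ c), ← zpow_mul, mul_comm]
    obtain ⟨a, b, hab⟩ := hco
    refine ⟨x ^ a * (M.w ^ 2) ^ b, mul_ne_zero (zpow_ne_zero a hx0) (zpow_ne_zero b hw2), ?_, ?_⟩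
    · have hv : A.valuation (M.w ^ 2) ≠ 0 := (map_ne_zero A.valuation).mpr hw2
      rw [map_mul, map_zpow₀, map_zpow₀, mul_pow, ← zpow_natCast (A.valuation x ^ a),
        ← zpow_mul, mul_comm a, zpow_mul, zpow_natCast, hk,
        ← zpow_natCast (A.valuation (M.w ^ 2) ^ b), ← zpow_mul, ← zpow_mul,
        ← zpow_add₀ hv, mul_comm k a, hab, zpow_one]
    · intro σ hσ
      obtain ⟨e1, e2⟩ := hfix σ hσ
      rw [map_mul, map_zpow₀, map_zpow₀, e1, e2]
  · -- the middle component forces `p = 2`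
    rw [pval_middle hx (not_lt.mp hwx)] at hne hcomp
    have hsq : cls A (M.w ^ 2) M.w ^ 2 = 1 := by
      rw [pow_two (cls A (M.w ^ 2) M.w), ← cls_mul M.ne_zero M.ne_zero, ← sq]
      exact cls_eq_one_of_valuation_eq_zpow hw2 hw2 (k := 1) (zpow_one _).symm
    have hp2 : p = 2 := by
      by_contra hne2
      obtain ⟨m, hm⟩ := hp.odd_of_ne_two hne2
      rw [hm, pow_succ (cls A (M.w ^ 2) M.w) (2 * m), pow_mul, hsq, one_pow, one_mul] at hcomp
      exact hne hcomp
    subst hp2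
    have hy : 2 * y + x = 0 := two_torsion_eq (h := h) (M.iso.injective (by
      rw [map_nsmul, hT, map_zero]))
    have h2 : res A (2 : L) ≠ 0 := by exact_mod_cast hn
    obtain ⟨hvx, -⟩ := two_torsion_coords M.ne_zero h2 h hx hy
    refine ⟨x, fun e => M.ne_zero ((map_eq_zero A.valuation).mp (by rw [← hvx, e, map_zero])),
      by rw [hvx, map_pow], fun σ hσ => (hfix σ hσ).1⟩

end FermatLib.EC
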