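import Fermat.Agent.EC.RedModel
import Fermat.Agent.EC.RedVarChange
import Fermat.Agent.EC.RedGalois
import Mathlib.FieldTheory.IsAlgClosed.Basic

/-!
# Normal form `y² + xy = x³ + a₆` at a multiplicative place
-/

set_option autoImplicit false
set_option linter.all false

noncomputable section

namespace FermatLib.EC

open WeierstrassCurve

variable {L : Type*} [Field L] {A : ValuationSubring L}

/-- A quadratic with unit linear coefficient and small constant has exactly one small root. -/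
lemma exists_small_root [IsAlgClosed L] {a b c : L} (ha : a ∈ A) (hb : res A b ≠ 0) (hc : c ∈ A)
    (hc0 : res A c = 0) :
    ∃ e, e ∈ A ∧ res A e = 0 ∧ a * e ^ 2 + b * e + c = 0 ∧
      ∀ e', e' ∈ A → res A e' = 0 → a * e' ^ 2 + b * e' + c = 0 → e' = e := by
  have hbA := mem_of_res_ne_zero hb
  have key : ∃ e, e ∈ A ∧ res A e = 0 ∧ a * e ^ 2 + b * e + c = 0 := by
    by_cases ha0 : a = 0
    · refine ⟨-c / b, div_mem_of_res_ne_zero (neg_mem hc) hb, ?_, ?_⟩
      · rw [res_div (neg_mem hc) hb, res_neg hc, hc0, neg_zero, zero_div]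
      · have : b ≠ 0 := fun h => hb (by rw [h, res_zero])
        rw [ha0]; field_simp; ring
    · obtain ⟨E, hE⟩ : ∃ E, a * E ^ 2 + b * E + c = 0 := by
        obtain ⟨E, hE⟩ := IsAlgClosed.exists_root
          (Polynomial.C a * Polynomial.X ^ 2 + Polynomial.C b * Polynomial.X + Polynomial.C c)
          (by rw [Polynomial.degree_quadratic ha0]; decide)
        exact ⟨E, by simpa [Polynomial.IsRoot] using hE⟩
      -- one of the two roots satisfies `res (a * E) = 0`
      obtain ⟨E, hE, hEA, hE0⟩ : ∃ E, a * E ^ 2 + b * E + c = 0 ∧ a * E ∈ A ∧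
          res A (a * E) = 0 := by
        have hg : (a * E) ∈ A := by
          refine mem_of_quadratic (x := a * E) (b := b) (c := -(a * c)) ?_ hbA
            (neg_mem (mul_mem ha hc))
          linear_combination a * hE
        have hprod : res A (a * E) * (res A (a * E) + res A b) = 0 := by
          rw [← res_add hg hbA, ← res_mul hg (add_mem hg hbA)]
          have : a * E * (a * E + b) = -(a * c) := by linear_combination a * hE
          rw [this, res_neg (mul_mem ha hc), res_mul ha hc, hc0]; simp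
        rcases mul_eq_zero.mp hprod with h | h
        · exact ⟨E, hE, hg, h⟩
        · refine ⟨-b / a - E, ?_, ?_, ?_⟩
          · have : a * (-b / a - E) ^ 2 + b * (-b / a - E) + c = a * E ^ 2 + b * E + c := by
              field_simp; ring
            rw [this, hE]
          · have : a * (-b / a - E) = -(b + a * E) := by field_simp; ring
            rw [this]; exact neg_mem (add_mem hbA hg)
          · have : a * (-b / a - E) = -(a * E + b) := by field_simp; ring
            rw [this, res_neg (add_mem hg hbA), res_add hg hbA, h, neg_zero]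
      have hd : res A (a * E + b) ≠ 0 := by rw [res_add hEA hbA, hE0, zero_add]; exact hb
      have hEe : E = -c / (a * E + b) := by
        rw [eq_div_iff fun h => hd (by rw [h, res_zero])]; linear_combination hE
      refine ⟨E, hEe ▸ div_mem_of_res_ne_zero (neg_mem hc) hd, ?_, hE⟩
      rw [hEe, res_div (neg_mem hc) hd, res_neg hc, hc0, neg_zero, zero_div]
  obtain ⟨e, he, he0, heq⟩ := key
  refine ⟨e, he, he0, heq, fun e' he' he'0 he'q => ?_⟩
  have h : (e' - e) * (a * (e' + e) + b) = 0 := by linear_combination he'q - heq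
  rcases mul_eq_zero.mp h with h | h
  · exact sub_eq_zero.mp h
  · refine absurd ?_ hb
    have h2 := congrArg (res A) h
    rw [res_add (mul_mem ha (add_mem he' he)) hbA, res_mul ha (add_mem he' he), res_add he' he,
      he0, he'0, res_zero] at h2
    simpa using h2

/-- Normal form at a place of multiplicative reduction; the change of variables is fixed by
every automorphism which fixes the residues and the coefficients. -/
theorem exists_normalForm [IsAlgClosed L] {V : WeierstrassCurve L} (hV : IntegralAt A V)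
    (hc₄ : res A V.c₄ ≠ 0) (hΔ : res A V.Δ = 0) :
    ∃ (C : WeierstrassCurve.VariableChange L) (q : L),
      res A (C.u : L) ≠ 0 ∧ C.r ∈ A ∧ C.s ∈ A ∧ C.t ∈ A ∧ q ∈ A ∧ res A q = 0 ∧
      C • V = ⟨1, 0, 0, 0, q⟩ ∧
      ∀ σ : L →+* L, FixesResidues A σ → V.map σ = V → C.map σ = C := by
  set n := 18 * V.b₆ - V.b₂ * V.b₄ with hn
  set r₀ := n / V.c₄ with hr₀
  have hc0 : V.c₄ ≠ 0 := fun h => hc₄ (by rw [h, res_zero])
  have hb₂ := hV.b₂_mem
  have hb₄ : V.b₄ ∈ A :=
    add_mem (mul_mem (ofNat_mem_place 2) hV.a₄) (mul_mem hV.a₁ hV.a₃)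
  have hb₆ : V.b₆ ∈ A := add_mem (pow_mem hV.a₃ 2) (mul_mem (ofNat_mem_place 4) hV.a₆)
  have hnA : n ∈ A := sub_mem (mul_mem (ofNat_mem_place 18) hb₆) (mul_mem hb₂ hb₄)
  have hr₀A : r₀ ∈ A := div_mem_of_res_ne_zero hnA hc₄
  set f₀ := 6 * r₀ ^ 2 + V.b₂ * r₀ + V.b₄ with hf₀
  have hf₀A : f₀ ∈ A :=
    add_mem (add_mem (mul_mem (ofNat_mem_place 6) (pow_mem hr₀A 2)) (mul_mem hb₂ hr₀A)) hb₄
  have hfid : f₀ * V.c₄ ^ 2 = -72 * V.Δ := by
    have h1 : r₀ * V.c₄ = n := div_mul_cancel₀ n hc0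
    have hb8 := V.b_relation
    calc f₀ * V.c₄ ^ 2
        = 6 * (r₀ * V.c₄) ^ 2 + V.b₂ * (r₀ * V.c₄) * V.c₄ + V.b₄ * V.c₄ ^ 2 := by
          rw [hf₀]; ring
      _ = -72 * V.Δ := by
          rw [h1, hn]; simp only [WeierstrassCurve.c₄, WeierstrassCurve.Δ]
          linear_combination (-18 * V.b₂ ^ 2) * hb8
  have hΔA := hV.Δ_mem
  have hf₀0 : res A f₀ = 0 := by
    have h := congrArg (res A) hfid
    rw [res_mul hf₀A (pow_mem hV.c₄_mem 2), res_mul (neg_mem (ofNat_mem_place 72)) hΔA, hΔ,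
      mul_zero, res_pow hV.c₄_mem] at h
    exact (mul_eq_zero.mp h).resolve_right (pow_ne_zero 2 hc₄)
  set d := 12 * r₀ + V.b₂ with hd
  have hdA : d ∈ A := add_mem (mul_mem (ofNat_mem_place 12) hr₀A) hb₂
  have hdid : d * V.c₄ = -V.c₆ := by
    have h1 : r₀ * V.c₄ = n := div_mul_cancel₀ n hc0
    calc d * V.c₄ = 12 * (r₀ * V.c₄) + V.b₂ * V.c₄ := by rw [hd]; ring
      _ = -V.c₆ := by
        rw [h1, hn]; simp only [WeierstrassCurve.c₄, WeierstrassCurve.c₆]; ring
  have hd0 : res A d ≠ 0 := by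
    intro h
    have h1 : d ^ 2 = V.c₄ + 24 * f₀ := by
      rw [hd, hf₀]; simp only [WeierstrassCurve.c₄]; ring
    have h2 := congrArg (res A) h1
    rw [res_pow hdA, h, res_add hV.c₄_mem (mul_mem (ofNat_mem_place 24) hf₀A),
      res_mul (ofNat_mem_place 24) hf₀A, hf₀0, mul_zero, add_zero,
      zero_pow two_ne_zero] at h2
    exact hc₄ h2.symm
  obtain ⟨e, he, he0, heq, heu⟩ :=
    exists_small_root (a := (6 : L)) (ofNat_mem_place 6) hd0 hf₀A hf₀0
  set r := r₀ + e with hr
  have hrA : r ∈ A := add_mem hr₀A he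
  have hrr : res A r = res A r₀ := by rw [hr, res_add hr₀A he, he0, add_zero]
  have hreq : 6 * r ^ 2 + V.b₂ * r + V.b₄ = 0 := by
    rw [hr]; linear_combination heq
  -- `t`
  obtain ⟨t, ht, ht₁, ht₂, htfix⟩ : ∃ t, t ∈ A ∧ 2 * t + V.a₁ * r + V.a₃ = 0 ∧
      3 * r ^ 2 + 2 * V.a₂ * r + V.a₄ - V.a₁ * t = 0 ∧
      ∀ σ : L →+* L, V.map σ = V → σ r = r → σ t = t := by
    have hreq' := hreq
    simp only [WeierstrassCurve.b₂, WeierstrassCurve.b₄] at hreq'
    by_cases h2 : res A (2 : L) = 0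
    · have ha₁ : res A V.a₁ ≠ 0 := by
        intro h
        refine hc₄ ?_
        rw [← hV.res_c₄]
        rw [res_ofNat] at h2
        simp only [WeierstrassCurve.c₄, WeierstrassCurve.b₂, WeierstrassCurve.b₄, redCurve, h]
        linear_combination (8 * res A V.a₂ ^ 2 - 24 * res A V.a₄) * h2
      have ha0 : V.a₁ ≠ 0 := fun h => ha₁ (by rw [h, res_zero])
      refine ⟨(3 * r ^ 2 + 2 * V.a₂ * r + V.a₄) / V.a₁,
        div_mem_of_res_ne_zero (add_mem (add_mem (mul_mem (ofNat_mem_place 3) (pow_mem hrA 2))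
          (mul_mem (mul_mem (ofNat_mem_place 2) hV.a₂) hrA)) hV.a₄) ha₁, ?_, ?_,
        fun σ hσ hσr => ?_⟩
      · field_simp; linear_combination hreq'
      · field_simp; ring
      · rw [map_div₀, map_add, map_add, map_mul, map_mul, map_mul, map_pow, map_ofNat,
          map_ofNat, hσr, ← map_a₁ V σ, ← map_a₂ V σ, ← map_a₄ V σ, hσ]
    · have h20 : (2 : L) ≠ 0 := fun h => h2 (by rw [h, res_zero])
      refine ⟨-(V.a₁ * r + V.a₃) / 2,
        div_mem_of_res_ne_zero (neg_mem (add_mem (mul_mem hV.a₁ hrA) hV.a₃)) h2, ?_, ?_,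
        fun σ hσ hσr => ?_⟩
      · field_simp; ring
      · field_simp; linear_combination hreq'
      · rw [map_div₀, map_neg, map_add, map_mul, map_ofNat, hσr, ← map_a₁ V σ, ← map_a₃ V σ, hσ]
  -- `s`
  obtain ⟨s, hs⟩ : ∃ s, s ^ 2 + V.a₁ * s - (V.a₂ + 3 * r) = 0 := by
    obtain ⟨s, hs⟩ := IsAlgClosed.exists_root
      (Polynomial.C (1 : L) * Polynomial.X ^ 2 + Polynomial.C V.a₁ * Polynomial.X +
        Polynomial.C (-(V.a₂ + 3 * r)))
      (by rw [Polynomial.degree_quadratic one_ne_zero]; decide)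
    refine ⟨s, ?_⟩
    simp [Polynomial.IsRoot] at hs
    linear_combination hs
  have h3r : V.a₂ + 3 * r ∈ A := add_mem hV.a₂ (mul_mem (ofNat_mem_place 3) hrA)
  have hsA : s ∈ A := mem_of_quadratic (x := s) (b := V.a₁) (c := V.a₂ + 3 * r)
    (by linear_combination hs) hV.a₁ h3r
  set w := V.a₁ + 2 * s with hw
  have hwA : w ∈ A := add_mem hV.a₁ (mul_mem (ofNat_mem_place 2) hsA)
  have hw2 : w ^ 2 = d + 12 * e := by
    rw [hw, hd, WeierstrassCurve.b₂]; linear_combination 4 * hs + (12 : L) * hr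
  have hres_w2 : res A w ^ 2 = res A d := by
    rw [← res_pow hwA, hw2, res_add hdA (mul_mem (ofNat_mem_place 12) he),
      res_mul (ofNat_mem_place 12) he, he0, mul_zero, add_zero]
  have hw0 : res A w ≠ 0 := fun h => hd0 (by rw [← hres_w2, h]; simp)
  have hwne : w ≠ 0 := fun h => hw0 (by rw [h, res_zero])
  let C : WeierstrassCurve.VariableChange L := ⟨Units.mk0 w hwne, r, s, t⟩
  set a₆' := V.a₆ + r * V.a₄ + r ^ 2 * V.a₂ + r ^ 3 - t * V.a₃ - t ^ 2 - r * t * V.a₁ with ha₆'
  have ha₆A : a₆' ∈ A :=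
    sub_mem (sub_mem (sub_mem (add_mem (add_mem (add_mem hV.a₆ (mul_mem hrA hV.a₄))
      (mul_mem (pow_mem hrA 2) hV.a₂)) (pow_mem hrA 3)) (mul_mem ht hV.a₃)) (pow_mem ht 2))
      (mul_mem (mul_mem hrA ht) hV.a₁)
  set q := a₆' / w ^ 6 with hq
  have hCV : C • V = ⟨1, 0, 0, 0, q⟩ := by
    ext <;> simp only [variableChange_def, C, Units.val_inv_eq_inv_val, Units.val_mk0]
    · rw [← hw, inv_mul_cancel₀ hwne]
    · rw [mul_eq_zero]; right; linear_combination -hs
    · rw [mul_eq_zero]; right; linear_combination ht₁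
    · rw [mul_eq_zero]; right; linear_combination ht₂ - s * ht₁
    · rw [hq, ha₆', inv_pow, inv_mul_eq_div]
  have hw6 : res A (w ^ 6) ≠ 0 := by rw [res_pow hwA]; exact pow_ne_zero 6 hw0
  have hqA : q ∈ A := div_mem_of_res_ne_zero ha₆A hw6
  have hq0 : res A q = 0 := by
    have hΔ' : -q * (1 + 432 * q) * w ^ 12 = V.Δ := by
      have h1 := variableChange_Δ V C
      rw [hCV, Units.val_inv_eq_inv_val] at h1
      simp only [WeierstrassCurve.Δ, WeierstrassCurve.b₂, WeierstrassCurve.b₄,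
        WeierstrassCurve.b₆, WeierstrassCurve.b₈, C, Units.val_mk0] at h1
      simp only [WeierstrassCurve.Δ, WeierstrassCurve.b₂, WeierstrassCurve.b₄,
        WeierstrassCurve.b₆, WeierstrassCurve.b₈]
      field_simp at h1
      linear_combination h1
    have hc6 : -1 - 864 * q = V.c₆ / w ^ 6 := by
      have h1 := variableChange_c₆ V C
      rw [hCV, Units.val_inv_eq_inv_val] at h1
      simp only [WeierstrassCurve.c₆, WeierstrassCurve.b₂, WeierstrassCurve.b₄,
        WeierstrassCurve.b₆, C, Units.val_mk0] at h1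
      simp only [WeierstrassCurve.c₆, WeierstrassCurve.b₂, WeierstrassCurve.b₄,
        WeierstrassCurve.b₆]
      field_simp at h1 ⊢
      linear_combination h1
    have hc4w : V.c₄ = w ^ 4 := by
      have h1 := variableChange_c₄ V C
      rw [hCV, Units.val_inv_eq_inv_val] at h1
      simp only [WeierstrassCurve.c₄, WeierstrassCurve.b₂, WeierstrassCurve.b₄, C,
        Units.val_mk0] at h1
      simp only [WeierstrassCurve.c₄, WeierstrassCurve.b₂, WeierstrassCurve.b₄]
      field_simp at h1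
      linear_combination -h1
    have h864 : (864 : L) * q * w ^ 6 = d * w ^ 4 - w ^ 6 := by
      have h1 : (-1 - 864 * q) * w ^ 6 = V.c₆ := by
        rw [hc6, div_mul_cancel₀ _ (pow_ne_zero 6 hwne)]
      rw [hc4w] at hdid
      linear_combination -h1 - hdid
    have e1 := congrArg (res A) h864
    rw [res_sub (mul_mem hdA (pow_mem hwA 4)) (pow_mem hwA 6), res_mul hdA (pow_mem hwA 4),
      res_pow hwA, res_pow hwA,
      res_mul (mul_mem (ofNat_mem_place 864) hqA) (pow_mem hwA 6),
      res_mul (ofNat_mem_place 864) hqA, res_pow hwA, res_ofNat, ← hres_w2] at e1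
    have e2 := congrArg (res A) hΔ'
    have h432 : 1 + 432 * q ∈ A := add_mem A.one_mem (mul_mem (ofNat_mem_place 432) hqA)
    rw [hΔ, res_mul (mul_mem (neg_mem hqA) h432) (pow_mem hwA 12),
      res_mul (neg_mem hqA) h432, res_neg hqA,
      res_add A.one_mem (mul_mem (ofNat_mem_place 432) hqA), res_mul (ofNat_mem_place 432) hqA,
      res_one, res_ofNat, mul_eq_zero, or_iff_left (by rw [res_pow hwA]; exact pow_ne_zero 12 hw0),
      mul_eq_zero, neg_eq_zero] at e2
    rcases e2 with h | h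
    · exact h
    · exfalso
      have e3 : (864 : IsLocalRing.ResidueField A) * res A q = 0 := by
        apply mul_right_cancel₀ (pow_ne_zero 6 hw0)
        linear_combination e1
      have h2 : (2 : IsLocalRing.ResidueField A) = 0 := by linear_combination 2 * h - e3
      exact one_ne_zero (α := IsLocalRing.ResidueField A)
        (by linear_combination h - 216 * res A q * h2)
  refine ⟨C, q, hw0, hrA, hsA, ht, hqA, hq0, hCV, fun σ hσ hVσ => ?_⟩
  have ha₁ : σ V.a₁ = V.a₁ := by rw [← map_a₁ V σ, hVσ]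
  have ha₂ : σ V.a₂ = V.a₂ := by rw [← map_a₂ V σ, hVσ]
  have hb₂' : σ V.b₂ = V.b₂ := by rw [← map_b₂ V σ, hVσ]
  have hb₄' : σ V.b₄ = V.b₄ := by rw [← map_b₄ V σ, hVσ]
  have hb₆' : σ V.b₆ = V.b₆ := by rw [← map_b₆ V σ, hVσ]
  have hc₄' : σ V.c₄ = V.c₄ := by rw [← map_c₄ V σ, hVσ]
  have hr₀' : σ r₀ = r₀ := by
    rw [hr₀, hn, map_div₀, map_sub, map_mul, map_mul, map_ofNat, hb₆', hb₂', hb₄', hc₄']
  have he' : σ e = e := by
    refine heu _ (hσ e he).1 (by rw [(hσ e he).2, he0]) ?_
    have := congrArg σ heq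
    simp only [hd, hf₀, map_add, map_mul, map_pow, map_ofNat, map_zero, hr₀', hb₂', hb₄'] at this
    exact this
  have hr' : σ r = r := by rw [hr, map_add, hr₀', he']
  have hs' : σ s = s := by
    have h1 := congrArg σ hs
    simp only [map_sub, map_add, map_mul, map_pow, map_ofNat, map_zero, ha₁, ha₂, hr'] at h1
    have h2 : (σ s - s) * (σ s + s + V.a₁) = 0 := by linear_combination h1 - hs
    rcases mul_eq_zero.mp h2 with h | h
    · exact sub_eq_zero.mp h
    · refine absurd ?_ hw0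
      have h3 := congrArg (res A) h
      rw [res_add (add_mem (hσ s hsA).1 hsA) hV.a₁, res_add (hσ s hsA).1 hsA, (hσ s hsA).2,
        res_zero] at h3
      rw [hw, res_add hV.a₁ (mul_mem (ofNat_mem_place 2) hsA),
        res_mul (ofNat_mem_place 2) hsA, res_ofNat]
      linear_combination h3
  ext <;> simp only [WeierstrassCurve.VariableChange.map, C]
  · simp [hw, ha₁, hs', map_ofNat]
  · exact hr'
  · exact hs'
  · exact htfix σ hVσ hr'

/-- A change of variables with integral entries and unit scaling preserves nonsingular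
reduction. -/
theorem inE0_vcEquiv [DecidableEq L] {V : WeierstrassCurve L}
    {C : WeierstrassCurve.VariableChange L} (hV : IntegralAt A V) (hCV : IntegralAt A (C • V))
    (hu : res A (C.u : L) ≠ 0) (hr : C.r ∈ A) (hs : C.s ∈ A) (ht : C.t ∈ A)
    (P : (C • V).toAffine.Point) : InE0 A (vcEquiv V C P) ↔ InE0 A P := by
  rcases P with _ | ⟨x, y, h⟩
  · exact Iff.rfl
  have huA := mem_of_res_ne_zero hu
  have hu0 : (C.u : L) ≠ 0 := C.u.ne_zero
  have hu2 : res A ((C.u : L) ^ 2) ≠ 0 := by rw [res_pow huA]; exact pow_ne_zero 2 hu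
  have hX : vcX C x ∈ A ↔ x ∈ A := by
    refine ⟨fun hX => ?_, fun hx => add_mem (mul_mem (pow_mem huA 2) hx) hr⟩
    have : x = (vcX C x - C.r) / (C.u : L) ^ 2 := by simp only [vcX]; field_simp; ring
    rw [this]; exact div_mem_of_res_ne_zero (sub_mem hX hr) hu2
  rw [vcEquiv_some, inE0_some, inE0_some, hX]
  refine or_congr Iff.rfl (and_congr_right fun hx => ?_)
  have hy : y ∈ A := hCV.mem_y h.1 hx
  have hY : vcY C x y ∈ A :=
    add_mem (add_mem (mul_mem (pow_mem huA 3) hy) (mul_mem (mul_mem (pow_mem huA 2) hs) hx)) ht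
  rw [and_iff_right hY, and_iff_right hy,
    hV.nonsingular_red_iff ((vc_equation_iff V C x y).mpr h.1) (hX.mpr hx),
    hCV.nonsingular_red_iff h.1 hx,
    ← res_ne_zero_iff (hV.mem_polynomialX (hX.mpr hx) hY),
    ← res_ne_zero_iff (hV.mem_polynomialY (hX.mpr hx) hY),
    ← res_ne_zero_iff (hCV.mem_polynomialX hx hy), ← res_ne_zero_iff (hCV.mem_polynomialY hx hy)]
  have e1 := vc_polynomialX V C x y
  have e2 := vc_polynomialY V C x y
  rw [Affine.evalEval_polynomialX, Affine.evalEval_polynomialX,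
    Affine.evalEval_polynomialY] at e1
  rw [Affine.evalEval_polynomialY, Affine.evalEval_polynomialY] at e2
  have hPX := hCV.mem_polynomialX hx hy
  have hPY := hCV.mem_polynomialY hx hy
  rw [e1, e2, res_sub (mul_mem (pow_mem huA 4) hPX) (mul_mem (mul_mem hs (pow_mem huA 3)) hPY),
    res_mul (pow_mem huA 4) hPX, res_mul (mul_mem hs (pow_mem huA 3)) hPY,
    res_mul (pow_mem huA 3) hPY, res_mul hs (pow_mem huA 3), res_pow huA, res_pow huA]
  by_cases hp : res A (2 * y + (C • V).a₁ * x + (C • V).a₃) = 0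
  · simp [hp, hu]
  · simp [hp, hu]

end FermatLib.EC
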