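import Fermat.Agent.EC.CofixedLine
import Fermat.Agent.EC.NodeTwo

/-!
# A reducible Frey representation has a cofixed line
-/

set_option autoImplicit false

noncomputable section

open WeierstrassCurve WeierstrassCurve.Affine WeierstrassCurve.Affine.Point
open scoped WeierstrassCurve.Affine

namespace FermatLib.EC

local notation "ℚbar" => AlgebraicClosure ℚ

/-- Inertia at `2` acts unipotently on the `p`-torsion of the Frey curve. -/
theorem frey_inertia_two (P : FreyPackage) (A : ValuationSubring ℚbar) (hA : A.LiesOverPrime 2)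
    {σ : ℚbar ≃ₐ[ℚ] ℚbar} (hσ : σ ∈ A.inertiaSubgroupIn ℚ)
    (x : Submodule.torsionBy ℤ (P.freyCurve⁄ℚbar).Point P.p) :
    σ • (σ • x - x) = σ • x - x := by
  have hV : IntegralAt A (P.freyCurve⁄ℚbar) := by
    have := integralAt_intCurve P.freyCurveInt A
    rwa [Basic.Frey.map_freyCurveInt] at this
  have ha₄ : (P.freyCurve⁄ℚbar).a₄ = ((P.freyCurveInt.a₄ : ℤ) : ℚbar) := by
    rw [← Basic.Frey.map_freyCurveInt P]
    simp [Affine.baseChange, WeierstrassCurve.baseChange]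
  have h2 : (2 : ℤ) ∣ P.freyCurveInt.a₄ := by
    have hb : (2 : ℤ) ∣ P.b := (ZMod.intCast_zmod_eq_zero_iff_dvd P.b 2).1 P.hb2
    have h32 : (32 : ℤ) ∣ 16 * P.freyCurveInt.a₄ := by
      rw [Basic.Frey.sixteen_mul_a₄]
      exact dvd_mul_of_dvd_right ((show (32 : ℤ) = 2 ^ 5 by norm_num) ▸
        ((pow_dvd_pow 2 P.hp5).trans (pow_dvd_pow_of_dvd hb P.p))) _
    omega
  have ha₄0 : res A (P.freyCurve⁄ℚbar).a₄ = 0 := by
    rw [ha₄]
    by_contra h
    exact ((res_intCast_ne_zero_iff A Nat.prime_two hA _).mp h) h2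
  have hE := inE0_sub_of_node_two P.freyCurve rfl rfl rfl A hA hV ha₄0 hσ
    (x : (P.freyCurve⁄ℚbar).Point)
  have hp2 : res A (P.p : ℚbar) ≠ 0 := res_natCast_ne_zero A Nat.prime_two hA fun h => by
    have := (Nat.prime_dvd_prime_iff_eq Nat.prime_two P.pp).1 h
    have := P.hp5
    omega
  have htor : ∀ y : Submodule.torsionBy ℤ (P.freyCurve⁄ℚbar).Point P.p,
      P.p • (y : (P.freyCurve⁄ℚbar).Point) = 0 := fun y => by
    rw [← natCast_zsmul]; exact (Submodule.mem_torsionBy_iff _ _).1 y.2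
  exact Subtype.ext
    (smul_eq_self_of_inE0 hV (fixesResidues_of_mem_inertia hσ) hp2 hE (htor (σ • x - x)))

/-- Inertia dichotomy at `p` for a model over `ℤ` of a curve over `ℚ`. -/
theorem inertia_dichotomy_of_model (W : WeierstrassCurve ℤ) (E : WeierstrassCurve ℚ)
    (hWE : W.map (Int.castRingHom ℚ) = E) (hΔ : W.Δ ≠ 0) (hW : W.IsSemistableModel) {p : ℕ}
    [Fact p.Prime] (N : Submodule (ZMod p) (Submodule.torsionBy ℤ (E⁄ℚbar).Point p))
    (hN : IsGaloisStable ℚ N) (h0 : N ≠ ⊥) (h1 : N ≠ ⊤) (A : ValuationSubring ℚbar)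
    (hA : A.LiesOverPrime p) :
    (∀ σ ∈ A.inertiaSubgroupIn ℚ, ∀ x ∈ N, σ • x = x) ∨
      (∀ σ ∈ A.inertiaSubgroupIn ℚ, ∀ x, σ • x - x ∈ N) := by
  subst hWE
  exact AtP.inertia_dichotomy_of_isSemistableModel W hΔ hW hA N hN h0 h1

/-- **S13.** A reducible Frey representation has a Galois stable cofixed line. -/
theorem frey_reducible_hasCofixedLine (P : FreyPackage)
    (hred : ¬ GaloisRepIsIrreducible (K := ℚbar) ℚ P.freyCurve P.p) :
    HasGaloisStableCofixedLine (K := ℚbar) ℚ P.freyCurve P.p :=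
  have : Fact P.p.Prime := ⟨P.pp⟩
  frey_hasCofixedLine_of P hred (fun A hA _ hσ x => frey_inertia_two P A hA hσ x)
    fun N hN h0 h1 A hA => inertia_dichotomy_of_model P.freyCurveInt P.freyCurve
      (Basic.Frey.map_freyCurveInt P) (Basic.Frey.freyCurveInt_Δ_ne_zero P)
      (Basic.Frey.freyCurveInt_isSemistableModel P) N hN h0 h1 A hA

end FermatLib.EC
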