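import Mathlib.AlgebraicGeometry.EllipticCurve.Affine.Point
import Mathlib.NumberTheory.Padics.PadicVal.Basic
import Mathlib.Tactic.LinearCombination
import Mathlib.Tactic.FieldSimp

/-!
# `x`-coordinates on curves `y² + xy = x³ + a₂x² + a₄x`

Differential addition and doubling formulas for the `x`-coordinate, and elementary facts about
the `2`-adic valuation used together with them.
-/

set_option autoImplicit false
set_option linter.unusedSectionVars false

namespace FermatLib.EC.TwoTorsion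

open WeierstrassCurve WeierstrassCurve.Affine

variable {F : Type*} [Field F] [DecidableEq F] {W : WeierstrassCurve F}

/-- The `x`-coordinate of a point (`0` for the point at infinity). -/
def xOf : W.toAffine.Point → F
  | .zero => 0
  | .some x _ _ => x

@[simp] theorem xOf_zero : xOf (0 : W.toAffine.Point) = 0 := rfl

@[simp] theorem xOf_some {x y : F} (h : W.toAffine.Nonsingular x y) :
    xOf (Point.some x y h) = x := rfl

theorem xOf_neg (Q : W.toAffine.Point) : xOf (-Q) = xOf Q := by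
  cases Q with
  | zero => rfl
  | some x y h => rfl

theorem exists_eq_some_of_ne_zero {Q : W.toAffine.Point} (hQ : Q ≠ 0) :
    ∃ x y h, Q = Point.some x y h := by
  cases Q with
  | zero => exact absurd rfl hQ
  | some x y h => exact ⟨x, y, h, rfl⟩

theorem eq_or_eq_neg_of_xOf_eq {Q R : W.toAffine.Point} (hQ : Q ≠ 0) (hR : R ≠ 0)
    (h : xOf Q = xOf R) : Q = R ∨ Q = -R := by
  obtain ⟨x₁, y₁, h₁, rfl⟩ := exists_eq_some_of_ne_zero hQ
  obtain ⟨x₂, y₂, h₂, rfl⟩ := exists_eq_some_of_ne_zero hR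
  rw [xOf_some, xOf_some] at h
  subst h
  rcases Affine.Y_eq_of_X_eq h₁.1 h₂.1 rfl with hy | hy
  · left; subst hy; rfl
  · right; subst hy; rfl

/-- The shape of curves with `(0,0)` a two-torsion point and `a₁ = 1`. -/
def HasShape (W : WeierstrassCurve F) : Prop := W.a₁ = 1 ∧ W.a₃ = 0 ∧ W.a₆ = 0

theorem equation_of_shape (hW : HasShape W) {x y : F} (h : W.toAffine.Equation x y) :
    y ^ 2 + x * y = x ^ 3 + W.a₂ * x ^ 2 + W.a₄ * x := by
  rw [Affine.equation_iff] at h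
  obtain ⟨h1, h3, h6⟩ := hW
  rw [h1, h3, h6] at h
  linear_combination h

theorem xOf_ne_zero (hW : HasShape W) {Q : W.toAffine.Point} (hQ : Q ≠ 0)
    (h2 : Q + Q ≠ 0) : xOf Q ≠ 0 := by
  obtain ⟨x, y, h, rfl⟩ := exists_eq_some_of_ne_zero hQ
  intro hx
  rw [xOf_some] at hx
  subst hx
  apply h2
  refine Point.add_self_of_Y_eq ?_
  have he := equation_of_shape hW h.1
  simp at he
  obtain ⟨h1, h3, -⟩ := hW
  simp [Affine.negY, h1, h3, he]

/-- Differential addition. -/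
theorem xOf_add_mul_xOf_sub [CharZero F] (hW : HasShape W) {Q R : W.toAffine.Point} (hQ : Q ≠ 0) (hR : R ≠ 0)
    (hne : xOf Q ≠ xOf R) :
    xOf (Q + R) * xOf (Q - R) * (xOf Q - xOf R) ^ 2 = (xOf Q * xOf R - W.a₄) ^ 2 := by
  obtain ⟨x₁, y₁, h₁, rfl⟩ := exists_eq_some_of_ne_zero hQ
  obtain ⟨x₂, y₂, h₂, rfl⟩ := exists_eq_some_of_ne_zero hR
  rw [xOf_some, xOf_some] at hne
  have e₁ := equation_of_shape hW h₁.1
  have e₂ := equation_of_shape hW h₂.1
  obtain ⟨ha1, ha3, -⟩ := hW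
  rw [sub_eq_add_neg, Point.neg_some, Point.add_of_X_ne hne, Point.add_of_X_ne hne,
    xOf_some, xOf_some, xOf_some, xOf_some, Affine.slope_of_X_ne hne, Affine.slope_of_X_ne hne]
  simp only [Affine.addX, Affine.negY, ha1, ha3, one_mul, sub_zero]
  have hd : x₁ - x₂ ≠ 0 := sub_ne_zero.mpr hne
  have key : ((y₁ - y₂) ^ 2 + (y₁ - y₂) * (x₁ - x₂) - (W.a₂ + x₁ + x₂) * (x₁ - x₂) ^ 2) *
      ((y₁ + y₂ + x₂) ^ 2 + (y₁ + y₂ + x₂) * (x₁ - x₂) - (W.a₂ + x₁ + x₂) * (x₁ - x₂) ^ 2) =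
      (x₁ - x₂) ^ 2 * (x₁ * x₂ - W.a₄) ^ 2 := by
    linear_combination
      ((y₁ ^ 2 + x₁ * y₁) - (y₂ ^ 2 + x₂ * y₂) + (x₁ ^ 3 + W.a₂ * x₁ ^ 2 + W.a₄ * x₁)
          - (x₂ ^ 3 + W.a₂ * x₂ ^ 2 + W.a₄ * x₂)
          + (x₁ ^ 2 - x₂ ^ 2) / 2 - (1 + 4 * W.a₂ + 4 * x₁ + 4 * x₂) * (x₁ - x₂) ^ 2 / 2) * e₁ +
      (-((y₁ ^ 2 + x₁ * y₁) - (y₂ ^ 2 + x₂ * y₂) + (x₁ ^ 3 + W.a₂ * x₁ ^ 2 + W.a₄ * x₁)
          - (x₂ ^ 3 + W.a₂ * x₂ ^ 2 + W.a₄ * x₂))
          - (x₁ ^ 2 - x₂ ^ 2) / 2 - (1 + 4 * W.a₂ + 4 * x₁ + 4 * x₂) * (x₁ - x₂) ^ 2 / 2) * e₂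
  field_simp
  linear_combination key

/-- Doubling. -/
theorem xOf_add_self_mul (hW : HasShape W) {Q : W.toAffine.Point} (h2 : Q + Q ≠ 0) :
    xOf (Q + Q) * (xOf Q * (4 * xOf Q ^ 2 + (1 + 4 * W.a₂) * xOf Q + 4 * W.a₄)) =
      (xOf Q ^ 2 - W.a₄) ^ 2 := by
  have hQ : Q ≠ 0 := fun h => h2 (by rw [h, add_zero])
  obtain ⟨x, y, h, rfl⟩ := exists_eq_some_of_ne_zero hQ
  have hy : y ≠ W.toAffine.negY x y := fun hy => h2 (Point.add_self_of_Y_eq hy)
  have e := equation_of_shape hW h.1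
  obtain ⟨ha1, ha3, -⟩ := hW
  have hy' : 2 * y + x ≠ 0 := by
    intro hz
    apply hy
    simp only [Affine.negY, ha1, ha3]
    linear_combination hz
  rw [Point.add_self_of_Y_ne hy, xOf_some, xOf_some, Affine.slope_of_Y_ne rfl hy]
  simp only [Affine.addX, Affine.negY, ha1, ha3, one_mul, sub_zero]
  have key : (((3 * x ^ 2 + 2 * W.a₂ * x + W.a₄ - y) ^ 2 + (3 * x ^ 2 + 2 * W.a₂ * x + W.a₄ - y)
      * (2 * y + x)) - (W.a₂ + 2 * x) * (2 * y + x) ^ 2)
      = (x ^ 2 - W.a₄) ^ 2 := by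
    linear_combination -(1 + 4 * W.a₂ + 8 * x) * e
  have hden : x * (4 * x ^ 2 + (1 + 4 * W.a₂) * x + 4 * W.a₄) = (2 * y + x) ^ 2 := by
    linear_combination -4 * e
  rw [hden]
  have hd : y - (-y - x) ≠ 0 := by
    rwa [show y - (-y - x) = 2 * y + x by ring]
  field_simp
  linear_combination (2 * y + x) ^ 2 * key

section padic

/-- If `a, b` are nonzero with `v a < v b`, then `v (a - b) = v a`. -/
theorem v_sub_eq {p : ℕ} [hp : Fact p.Prime] {a b : ℚ} (ha : a ≠ 0) (hb : b ≠ 0)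
    (h : padicValRat p a < padicValRat p b) :
    a - b ≠ 0 ∧ padicValRat p (a - b) = padicValRat p a := by
  have hne : a - b ≠ 0 := by
    intro e; rw [sub_eq_zero.mp e] at h; exact lt_irrefl _ h
  refine ⟨hne, ?_⟩
  rw [sub_eq_add_neg] at hne ⊢
  exact padicValRat.add_eq_of_lt hne ha (neg_ne_zero.mpr hb) (by rwa [padicValRat.neg])

theorem v_sub_eq' {p : ℕ} [hp : Fact p.Prime] {a b : ℚ} (ha : a ≠ 0) (hb : b ≠ 0)
    (h : padicValRat p b < padicValRat p a) :
    a - b ≠ 0 ∧ padicValRat p (a - b) = padicValRat p b := by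
  obtain ⟨h1, h2⟩ := v_sub_eq hb ha h
  refine ⟨fun e => h1 (by linear_combination -e), ?_⟩
  rw [← neg_sub, padicValRat.neg, h2]

theorem le_v_sub {p : ℕ} [hp : Fact p.Prime] {a b : ℚ} {c : ℤ} (hne : a - b ≠ 0)
    (ha : c ≤ padicValRat p a) (hb : c ≤ padicValRat p b) : c ≤ padicValRat p (a - b) := by
  rw [sub_eq_add_neg] at hne ⊢
  refine le_trans ?_ (padicValRat.min_le_padicValRat_add hne)
  exact le_min ha (by rwa [padicValRat.neg])

/-- A rational with valuation zero at `2` is odd over odd. -/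
theorem odd_num_den_of_v_eq_zero {a : ℚ} (ha : a ≠ 0) (h : padicValRat 2 a = 0) :
    ¬ (2 : ℤ) ∣ a.num ∧ ¬ (2 : ℤ) ∣ (a.den : ℤ) := by
  rw [padicValRat_def, sub_eq_zero] at h
  have hh : padicValInt 2 a.num = padicValNat 2 a.den := by exact_mod_cast h
  have hco := a.reduced
  have h1 : ¬ 2 ∣ a.den := by
    intro hd
    have hpos : 1 ≤ padicValNat 2 a.den := one_le_padicValNat_of_dvd a.den_nz hd
    have hn : (2 : ℤ) ∣ a.num := by
      by_contra hc
      rw [padicValInt.eq_zero_of_not_dvd (by exact_mod_cast hc)] at hh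
      omega
    exact Nat.not_coprime_of_dvd_of_dvd (by norm_num) (Int.natCast_dvd.mp hn) hd hco
  refine ⟨fun hc => ?_, by exact_mod_cast h1⟩
  rw [padicValNat.eq_zero_of_not_dvd h1] at hh
  rcases (padicValInt.eq_zero_iff.mp hh) with h0 | h0 | h0
  · norm_num at h0
  · exact ha (Rat.zero_of_num_zero h0)
  · exact h0 (by exact_mod_cast hc)

theorem one_le_v_sub_of_units {a b : ℚ} (ha : a ≠ 0) (hb : b ≠ 0) (hne : a - b ≠ 0)
    (hva : padicValRat 2 a = 0) (hvb : padicValRat 2 b = 0) :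
    1 ≤ padicValRat 2 (a - b) := by
  obtain ⟨ha1, ha2⟩ := odd_num_den_of_v_eq_zero ha hva
  obtain ⟨hb1, hb2⟩ := odd_num_den_of_v_eq_zero hb hvb
  have : Fact (Nat.Prime 2) := ⟨Nat.prime_two⟩
  have hmul : (a - b) * ((a.den : ℚ) * b.den) =
      ((a.num * b.den - b.num * a.den : ℤ) : ℚ) := by
    push_cast
    linear_combination (b.den : ℚ) * Rat.mul_den_eq_num a - (a.den : ℚ) * Rat.mul_den_eq_num b
  have hz : a.num * b.den - b.num * a.den ≠ 0 := by
    intro e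
    rw [e, Int.cast_zero, mul_eq_zero] at hmul
    rcases hmul with h | h
    · exact hne h
    · simp [a.den_nz, b.den_nz] at h
  have heven : (2 : ℤ) ∣ a.num * b.den - b.num * a.den := by
    have o1 : Odd (a.num * b.den) :=
      (Int.not_even_iff_odd.mp (by rwa [even_iff_two_dvd])).mul
        (Int.not_even_iff_odd.mp (by rwa [even_iff_two_dvd]))
    have o2 : Odd (b.num * a.den) :=
      (Int.not_even_iff_odd.mp (by rwa [even_iff_two_dvd])).mul
        (Int.not_even_iff_odd.mp (by rwa [even_iff_two_dvd]))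
    exact even_iff_two_dvd.mp (o1.sub_odd o2)
  have h1 : 1 ≤ padicValRat 2 ((a.num * b.den - b.num * a.den : ℤ) : ℚ) := by
    rw [padicValRat.of_int]
    have : 1 ≤ padicValInt 2 (a.num * b.den - b.num * a.den) := by
      rw [Nat.one_le_iff_ne_zero]
      intro e
      rcases padicValInt.eq_zero_iff.mp e with h | h | h
      · norm_num at h
      · exact hz h
      · exact h (by exact_mod_cast heven)
    exact_mod_cast this
  rw [← hmul, padicValRat.mul hne (by simp [a.den_nz, b.den_nz]),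
    padicValRat.mul (by simp [a.den_nz]) (by simp [b.den_nz]), padicValRat.of_nat,
    padicValRat.of_nat, padicValNat.eq_zero_of_not_dvd (by exact_mod_cast ha2),
    padicValNat.eq_zero_of_not_dvd (by exact_mod_cast hb2)] at h1
  simpa using h1

end padic

end FermatLib.EC.TwoTorsion
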