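import Fermat.Agent.EC.VeluHom
import Fermat.Prelude.Def_FLTPrelim_GaloisRep

/-!
# Descent of Vélu's isogeny to the base field
-/

set_option autoImplicit false

open Polynomial WeierstrassCurve
open scoped WeierstrassCurve.Affine

namespace FermatLib.EC.Velu

section transport

variable {L : Type*} [Field L] [DecidableEq L] {V V' : WeierstrassCurve.Affine L}

/-- Transport of points along an equality of curves. -/
def pointCast (h : V = V') : V.Point ≃+ V'.Point := by
  subst h; exact AddEquiv.refl _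

lemma xCo_pointCast (h : V = V') (P : V.Point) : xCo (pointCast h P) = xCo P := by
  subst h; rfl

lemma psiCo_pointCast (h : V = V') (P : V.Point) : psiCo (pointCast h P) = psiCo P := by
  subst h; rfl

end transport

section mapPoly

variable {L : Type*} [Field L] [DecidableEq L] (f : L →+* L) (W : WeierstrassCurve L)
  (rs : Finset L)

lemma map_vCoef (r : L) : f (vCoef W r) = vCoef (W.map f) (f r) := by
  simp [vCoef, map_ofNat]

lemma map_uCoef (r : L) : f (uCoef W r) = uCoef (W.map f) (f r) := by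
  simp [uCoef, map_ofNat]

lemma map_sumV : f (sumV W rs) = sumV (W.map f) (rs.image f) := by
  rw [sumV, sumV, map_sum, Finset.sum_image f.injective.injOn]
  exact Finset.sum_congr rfl fun r _ => map_vCoef f W r

lemma map_sumW : f (sumW W rs) = sumW (W.map f) (rs.image f) := by
  rw [sumW, sumW, map_sum, Finset.sum_image f.injective.injOn]
  exact Finset.sum_congr rfl fun r _ => by rw [map_add, map_mul, map_vCoef, map_uCoef]

lemma map_veluD : (veluD rs).map f = veluD (rs.image f) := by
  simp [veluD, Polynomial.map_prod, Finset.prod_image f.injective.injOn]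

lemma map_veluD' (r : L) : (veluD' rs r).map f = veluD' (rs.image f) (f r) := by
  rw [veluD', veluD', ← Finset.image_erase f.injective, Finset.prod_image f.injective.injOn,
    Polynomial.map_prod]
  simp

lemma map_veluN : (veluN W rs).map f = veluN (W.map f) (rs.image f) := by
  rw [veluN, veluN, Polynomial.map_add, Polynomial.map_mul, map_X, Polynomial.map_pow, map_veluD,
    Polynomial.map_sum, Finset.sum_image f.injective.injOn]
  congr 1
  refine Finset.sum_congr rfl fun r _ => ?_
  simp [map_veluD', map_vCoef, map_uCoef]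

lemma map_veluOmega : (veluOmega W rs).map f = veluOmega (W.map f) (rs.image f) := by
  simp [veluOmega, map_veluN, map_veluD, ← Polynomial.derivative_map]

end mapPoly

variable {K : Type*} [Field K] [CharZero K] {L : Type*} [Field L] [DecidableEq L] [Algebra K L]
  {W : WeierstrassCurve K}

omit [CharZero K] in
lemma xCo_smul (σ : L ≃ₐ[K] L) (P : (W⁄L).toAffine.Point) : xCo (σ • P) = σ (xCo P) := by
  cases P with
  | zero => exact (map_zero σ).symm
  | some x y h => rfl

omit [CharZero K] in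
lemma psiCo_smul (σ : L ≃ₐ[K] L) (P : (W⁄L).toAffine.Point) :
    psiCo (σ • P) = σ (psiCo P) := by
  cases P with
  | zero => exact (map_zero σ).symm
  | some x y h =>
    show psiOf (W⁄L).toAffine (σ x) (σ y) = σ (psiOf (W⁄L).toAffine x y)
    simp [psiOf, WeierstrassCurve.baseChange, map_ofNat]

/-- The curve over `L` as an affine curve. -/
abbrev overClosure (W : WeierstrassCurve K) (L : Type*) [Field L] [Algebra K L] :
    WeierstrassCurve.Affine L :=
  (W⁄L).toAffine

omit [CharZero K] [DecidableEq L] in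
lemma overClosure_map (W : WeierstrassCurve K) (σ : L ≃ₐ[K] L) :
    WeierstrassCurve.map (overClosure W L) (σ : L →+* L) = overClosure W L := by
  ext <;> simp [overClosure, WeierstrassCurve.toAffine, WeierstrassCurve.baseChange]

variable [IsAlgClosed L] [CharZero L] [W.IsElliptic]

instance instIsEllipticOverClosure {K : Type*} [Field K] {L : Type*} [Field L] [Algebra K L]
    (W : WeierstrassCurve K) [W.IsElliptic] : (overClosure W L).IsElliptic :=
  inferInstanceAs (W.map (algebraMap K L)).IsElliptic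

variable {G : AddSubgroup ((overClosure W L)⁄L).Point} [Finite G]

omit [CharZero K] [IsAlgClosed L] [CharZero L] [W.IsElliptic] in
lemma kerXs_image (hG : ∀ σ : L ≃ₐ[K] L, ∀ P : (W⁄L).toAffine.Point, P ∈ G → σ • P ∈ G)
    (σ : L ≃ₐ[K] L) : (kerXs G).image (σ : L →+* L) = kerXs G := by
  refine Finset.eq_of_subset_of_card_le (fun x hx => ?_)
    (by rw [Finset.card_image_of_injective _ (σ : L →+* L).injective])
  obtain ⟨r, hr, rfl⟩ := Finset.mem_image.mp hx
  obtain ⟨Q, hQ, hQ0, rfl⟩ := mem_kerXs.mp hr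
  refine mem_kerXs.mpr ⟨_, hG σ Q hQ, ?_, xCo_smul (W := W) σ Q⟩
  intro h
  have h' := congrArg (fun P : (W⁄L).toAffine.Point => σ⁻¹ • P) h
  refine hQ0 ((inv_smul_smul (α := (W⁄L).toAffine.Point) σ Q).symm.trans (h'.trans ?_))
  exact smul_zero (A := (W⁄L).toAffine.Point) σ⁻¹

omit [CharZero K] [IsAlgClosed L] [CharZero L] [W.IsElliptic] in
lemma sumV_fixed (hG : ∀ σ : L ≃ₐ[K] L, ∀ P : (W⁄L).toAffine.Point, P ∈ G → σ • P ∈ G)
    (σ : L ≃ₐ[K] L) :
    σ (sumV (overClosure W L) (kerXs G)) = sumV (overClosure W L) (kerXs G) := by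
  have h := map_sumV (σ : L →+* L) (overClosure W L) (kerXs G)
  rwa [overClosure_map, kerXs_image hG] at h

omit [CharZero K] [IsAlgClosed L] [CharZero L] [W.IsElliptic] in
lemma sumW_fixed (hG : ∀ σ : L ≃ₐ[K] L, ∀ P : (W⁄L).toAffine.Point, P ∈ G → σ • P ∈ G)
    (σ : L ≃ₐ[K] L) :
    σ (sumW (overClosure W L) (kerXs G)) = sumW (overClosure W L) (kerXs G) := by
  have h := map_sumW (σ : L →+* L) (overClosure W L) (kerXs G)
  rwa [overClosure_map, kerXs_image hG] at h

variable [IsGalois K L]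

omit [IsAlgClosed L] in
/-- A model over `K` of the quotient curve. -/
theorem exists_model (hG : ∀ σ : L ≃ₐ[K] L, ∀ P : (W⁄L).toAffine.Point, P ∈ G → σ • P ∈ G) :
    ∃ W' : WeierstrassCurve K, W'.a₁ = W.a₁ ∧ W'.a₂ = W.a₂ ∧ W'.a₃ = W.a₃ ∧
      (W'⁄L).toAffine = (quotCurve G)⁄L := by
  obtain ⟨v, hv⟩ := (InfiniteGalois.mem_range_algebraMap_iff_fixed _).mpr (sumV_fixed hG)
  obtain ⟨w, hw⟩ := (InfiniteGalois.mem_range_algebraMap_iff_fixed _).mpr (sumW_fixed hG)
  refine ⟨⟨W.a₁, W.a₂, W.a₃, W.a₄ - 5 * v, W.a₆ - W.b₂ * v - 7 * w⟩, rfl, rfl, rfl, ?_⟩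
  ext <;> simp [WeierstrassCurve.baseChange, WeierstrassCurve.toAffine, quotCurve, veluCurve,
    overClosure, hv, hw, map_ofNat]

omit [IsGalois K L] [CharZero K] in
lemma smul_mem_kerM_iff (hG : ∀ σ : L ≃ₐ[K] L, ∀ P : (W⁄L).toAffine.Point, P ∈ G → σ • P ∈ G)
    (σ : L ≃ₐ[K] L) (P : (W⁄L).toAffine.Point) :
    σ • P ∈ kerM G L ↔ P ∈ kerM G L := by
  refine mem_kerM_self.trans (Iff.trans ⟨fun h => ?_, hG σ P⟩ mem_kerM_self.symm)
  have := hG σ⁻¹ _ h
  rwa [inv_smul_smul] at this

omit [IsGalois K L] [CharZero K] in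
/-- Equivariance of Vélu's isogeny. -/
theorem veluMap_smul (hodd : OddKernel G)
    (hG : ∀ σ : L ≃ₐ[K] L, ∀ P : (W⁄L).toAffine.Point, P ∈ G → σ • P ∈ G)
    {W' : WeierstrassCurve K} (hW' : (W'⁄L).toAffine = (quotCurve G)⁄L)
    (σ : L ≃ₐ[K] L) (P : (W⁄L).toAffine.Point) :
    (pointCast hW').symm (veluMap hodd L (σ • P)) =
      σ • (pointCast hW').symm (veluMap hodd L P) := by
  have hx : ∀ Z, xCo ((pointCast hW').symm Z) = xCo Z := fun Z => by
    rw [← xCo_pointCast hW', AddEquiv.apply_symm_apply]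
  have hψ : ∀ Z, psiCo ((pointCast hW').symm Z) = psiCo Z := fun Z => by
    rw [← psiCo_pointCast hW', AddEquiv.apply_symm_apply]
  by_cases hP : P ∈ kerM G L
  · rw [veluMap_of_mem hodd hP, veluMap_of_mem hodd ((smul_mem_kerM_iff hG σ P).mpr hP), map_zero,
      smul_zero]
  have hP' := (smul_mem_kerM_iff hG σ P).not.mpr hP
  have hne := (map_ne_zero_iff _ (pointCast hW').symm.injective).mpr (veluMap_ne_zero hodd hP)
  have he : ∀ (p : L[X]) (x : L), σ (p.eval x) = (p.map (σ : L →+* L)).eval (σ x) := fun p x =>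
    (Polynomial.eval_map_apply (σ : L →+* L) x).symm
  refine ext_xCo_psiCo
    ((map_ne_zero_iff _ (pointCast hW').symm.injective).mpr (veluMap_ne_zero hodd hP'))
    (fun h => hne (by simpa using congrArg (fun Q => σ⁻¹ • Q) h)) ?_ ?_
  · rw [xCo_smul, hx, hx, xCo_veluMap hodd hP', xCo_veluMap hodd hP, veluX, veluX]
    erw [xCo_smul]
    rw [
      coe_aeval_eq_eval, coe_aeval_eq_eval, map_div₀, map_pow]
    simp only [he, map_veluN, map_veluD, kerXs_image hG, overClosure_map]
    rfl
  · rw [psiCo_smul, hψ, hψ, psiCo_veluMap hodd hP', psiCo_veluMap hodd hP, veluX₁, veluX₁]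
    erw [xCo_smul, psiCo_smul]
    rw [ coe_aeval_eq_eval, coe_aeval_eq_eval, map_mul, map_div₀, map_pow]
    simp only [he, map_veluOmega, map_veluD, kerXs_image hG, overClosure_map]
    rfl

end FermatLib.EC.Velu
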