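import Fermat.Agent.EC.VeluSeries

/-!
# The curve equation of the quotient, and the map on points
-/

set_option autoImplicit false

open Polynomial WeierstrassCurve
open scoped WeierstrassCurve.Affine

namespace FermatLib.EC.Velu

variable {L : Type*} [Field L] [CharZero L] [IsAlgClosed L] [DecidableEq L]
  {W : WeierstrassCurve.Affine L} [W.IsElliptic]

omit [IsAlgClosed L] [DecidableEq L] in
variable (L) in
lemma neZero_two (M : Type*) [Field M] [Algebra L M] : NeZero (2 : M) :=
  ⟨by rw [← map_ofNat (algebraMap L M)]; exact (_root_.map_ne_zero _).mpr two_ne_zero⟩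

omit [CharZero L] [IsAlgClosed L] [DecidableEq L] in
lemma isElliptic_baseChange (M : Type*) [Field M] [Algebra L M] : (W⁄M).IsElliptic :=
  inferInstanceAs (WeierstrassCurve.map W (algebraMap L M)).IsElliptic

lemma psiCo_ne_zero_of_two_nsmul {P : (W⁄L).Point} (hP : P ≠ 0) (h : (2 : ℕ) • P ≠ 0) :
    psiCo P ≠ 0 := fun hψ => h (by
  rw [two_nsmul, add_eq_zero_iff_eq_neg]
  exact ext_xCo_psiCo hP (neg_ne_zero.mpr hP) (xCo_neg P).symm (by rw [psiCo_neg, hψ, neg_zero]))

omit [IsAlgClosed L] in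
/-- A power series point specialising to `S`, with parameter `x - x(S)`. -/
lemma exists_series_point {S : (W⁄L).Point} (hS : S ≠ 0) (hψ : psiCo S ≠ 0) :
    ∃ (s : PowerSeries L) (P : (W⁄(SerField L)).Point), P ≠ 0 ∧
      PowerSeries.constantCoeff s = psiCo S ∧
      s ^ 2 = aeval (serX (xCo S)) (psiSq W) ∧
      xCo P = algebraMap _ _ (serX (xCo S)) ∧ psiCo P = algebraMap _ _ s := by
  have := neZero_two L (SerField L)
  have := isElliptic_baseChange (W := W) (SerField L)
  obtain ⟨s, hs0, hs⟩ := exists_sqrt_series W (xCo S) (psiCo S) hψ (psiCo_sq hS)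
  obtain ⟨P, hP, hx, hp⟩ := exists_point (W := W⁄(SerField L))
    (x := algebraMap _ _ (serX (xCo S))) (s := algebraMap _ _ s) (by
      rw [← map_pow, hs, uCoef_baseChange', aeval_algebraMap_apply])
  exact ⟨s, P, hP, hs0, hs, hx, hp⟩

variable (G : AddSubgroup (W⁄L).Point) [Finite G]

variable {G} (hodd : OddKernel G)
include hodd

lemma X_sub_C_pow_six_dvd {r : L} (hr : r ∈ kerXs G) :
    (X - C r) ^ 6 ∣ veluDefect W (kerXs G) := by
  obtain ⟨Q, hQG, hQ0, rfl⟩ := mem_kerXs.mp hr
  set n := (kerXs G).card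
  set δ := veluDefect W (kerXs G) with hδ
  set D := veluD (kerXs G) with hD
  have hψQ : psiCo Q ≠ 0 :=
    psiCo_ne_zero_of_two_nsmul hQ0 fun h => hQ0 (hodd Q hQG h)
  have := neZero_two L (SerField L)
  obtain ⟨s, P, hP0, hs0, -, hx, hψ⟩ := exists_series_point hQ0 hψQ
  set z := serX (xCo Q)
  have hPK : P ∉ kerM G (SerField L) := by
    refine notMem_kerM_iff.mpr ⟨hP0, fun t _ ht => ?_⟩
    rw [hx, ← serField_algebraMap_C] at ht
    simpa [z] using congrArg (PowerSeries.derivative L) (serField_algebraMap_injective ht)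
  set t : PowerSeries L := PowerSeries.X with ht
  set q : PowerSeries L := PowerSeries.C (psiCo Q)
  set ω : PowerSeries L := PowerSeries.C (1 / 4) *
    ((s + q) ^ 2 - (PowerSeries.C W.b₂ + 4 * z + 4 * PowerSeries.C (xCo Q)) * t ^ 2)
  have hω : PowerSeries.constantCoeff ω ≠ 0 := by
    simp only [ω, q, map_mul, map_sub, map_pow, map_add, PowerSeries.constantCoeff_C, hs0, ht,
      PowerSeries.constantCoeff_X, zero_pow two_ne_zero, mul_zero, sub_zero]
    exact mul_ne_zero (by norm_num) (pow_ne_zero _ (by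
      rw [← two_mul]; exact mul_ne_zero two_ne_zero hψQ))
  set ι := algebraMap (PowerSeries L) (SerField L)
  have htne : ι t ≠ 0 := (map_ne_zero_iff _ serField_algebraMap_injective).mpr
    PowerSeries.X_ne_zero
  -- the translated point
  set Z := xCo (P + bc (SerField L) (-Q))
  have hZ : Z * ι t ^ 2 = ι ω := by
    have hne : bc (SerField L) (-Q) ≠ 0 :=
      (map_ne_zero_iff _ bc_injective).mpr (neg_ne_zero.mpr hQ0)
    have hdx : xCo P - xCo (bc (SerField L) (-Q)) = ι t := by
      rw [hx, xCo_bc, xCo_neg, ← serField_algebraMap_C, ← map_sub]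
      congr 1
      simp [z, serX, ht]
    have hne' : xCo P ≠ xCo (bc (SerField L) (-Q)) := sub_ne_zero.mp (hdx ▸ htne)
    obtain ⟨-, h, -⟩ := add_coords hP0 hne hne'
    rw [hdx, hψ, psiCo_bc, psiCo_neg, hx, xCo_bc, xCo_neg, ← serField_algebraMap_C,
      ← serField_algebraMap_C] at h
    simp only [map_neg, sub_neg_eq_add] at h
    have hb₂ : (W⁄(SerField L)).b₂ = ι (PowerSeries.C W.b₂) := by
      rw [serField_algebraMap_C]; simp [WeierstrassCurve.baseChange]
    rw [hb₂] at h
    simp only [ω, q, Z, map_neg, map_mul, map_sub, map_pow, map_add, map_ofNat]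
    have h4 : ι (PowerSeries.C (1 / 4)) * 4 = 1 := by
      rw [← map_ofNat ι, ← map_mul, ← map_ofNat PowerSeries.C, ← map_mul,
        show (1 / 4 : L) * OfNat.ofNat 4 = 1 by norm_num, map_one, map_one]
    linear_combination (ι (PowerSeries.C (1 / 4))) * h -
      xCo (P + -bc (SerField L) Q) * ι t ^ 2 * h4
  -- clearing denominators at the translated point
  clear_value ω
  have hδdeg : δ.natDegree ≤ 6 * n := by
    rcases natDegree_veluDefect_lt W (kerXs G) with h | h
    · rw [hδ, h, natDegree_zero]; omega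
    · exact h.le
  set U : PowerSeries L := ∏ t' ∈ kerXs G, (ω - PowerSeries.C t' * t ^ 2) with hU
  have hU' : aeval Z D * ι t ^ (2 * n) = ι U := by
    rw [hU, map_prod, hD, veluD, map_prod, pow_mul, ← Finset.prod_const, ← Finset.prod_mul_distrib]
    refine Finset.prod_congr rfl fun t' _ => ?_
    rw [map_sub, aeval_X, aeval_C, sub_mul, hZ, map_sub, map_mul, map_pow, serField_algebraMap_C]
  set N : PowerSeries L := ∑ j ∈ Finset.range (6 * n + 1),
    PowerSeries.C (δ.coeff j) * ω ^ j * t ^ (2 * (6 * n - j)) with hN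
  have hN' : aeval Z δ * ι t ^ (12 * n) = ι N := by
    rw [aeval_eq_sum_range' (Nat.lt_succ_of_le hδdeg), Finset.sum_mul, hN, map_sum]
    refine Finset.sum_congr rfl fun j hj => ?_
    rw [Finset.mem_range] at hj
    rw [Algebra.smul_def, map_mul, map_mul, map_pow, map_pow, serField_algebraMap_C, ← hZ,
      show 12 * n = 2 * j + 2 * (6 * n - j) by omega, mul_pow, ← pow_mul, pow_add]
    ring
  have hinv := veluDefect_translate hodd hPK (T := -Q) (neg_mem hQG)
  rw [hx, aeval_algebraMap_apply, aeval_algebraMap_apply] at hinv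
  have heq : N * aeval z D ^ 6 = aeval z δ * U ^ 6 := by
    refine serField_algebraMap_injective ?_
    simp only [map_mul, map_pow]
    rw [← hN', ← hU', mul_pow, ← pow_mul, show 2 * n * 6 = 12 * n by ring]
    linear_combination (ι t ^ (12 * n)) * hinv
  obtain ⟨K, hK⟩ : t ∣ aeval z D := by
    rw [ht, PowerSeries.X_dvd_iff, constantCoeff_aeval, constantCoeff_serX, hD,
      eval_veluD_eq_zero_iff]
    exact hr
  have hUu : IsUnit U := by
    rw [PowerSeries.isUnit_iff_constantCoeff, hU, map_prod, isUnit_iff_ne_zero,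
      Finset.prod_ne_zero_iff]
    intro t' _
    simpa [ht] using hω
  have hdvd : t ^ 6 ∣ aeval z δ := by
    rw [← (hUu.pow 6).dvd_mul_right, ← heq, hK, mul_pow]
    exact dvd_mul_of_dvd_right (dvd_mul_right _ _) _
  rw [ht, PowerSeries.X_pow_dvd_iff] at hdvd
  have htay : X ^ 6 ∣ taylor (xCo Q) δ := by
    rw [Polynomial.X_pow_dvd_iff]
    intro d hd
    rw [← Polynomial.coeff_coe, ← aeval_serX]
    exact hdvd d hd
  rw [taylor_apply] at htay
  have := map_dvd (compRingHom (X - C (xCo Q))) htay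
  simp only [coe_compRingHom_apply, comp_assoc, pow_comp, X_comp, add_comp, C_comp,
    sub_add_cancel, comp_X] at this
  exact this

/-- The key identity behind Vélu's formulas. -/
theorem veluDefect_eq_zero : veluDefect W (kerXs G) = 0 := by
  rcases natDegree_veluDefect_lt W (kerXs G) with h | h
  · exact h
  by_contra hne
  have hdvd : veluD (kerXs G) ^ 6 ∣ veluDefect W (kerXs G) := by
    rw [veluD, ← Finset.prod_pow]
    refine Finset.prod_dvd_of_coprime (fun a _ b _ hab => ?_) fun r hr =>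
      X_sub_C_pow_six_dvd hodd hr
    exact (pairwise_coprime_X_sub_C Function.injective_id hab).pow
  have := natDegree_le_of_dvd hdvd hne
  rw [natDegree_pow, natDegree_veluD] at this
  omega

lemma eval_veluN_ne_zero {r : L} (hr : r ∈ kerXs G) : (veluN W (kerXs G)).eval r ≠ 0 := by
  obtain ⟨Q, hQG, hQ0, rfl⟩ := mem_kerXs.mp hr
  have hu : uCoef W (xCo Q) ≠ 0 := by
    rw [show uCoef W (xCo Q) = psiCo Q ^ 2 from (psiCo_sq hQ0).symm]
    exact pow_ne_zero _ (psiCo_ne_zero_of_two_nsmul hQ0 fun h => hQ0 (hodd Q hQG h))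
  rw [veluN, eval_add, eval_mul, eval_pow, (eval_veluD_eq_zero_iff _).mpr hr,
    zero_pow two_ne_zero, mul_zero, zero_add, eval_finsetSum, Finset.sum_eq_single_of_mem _ hr]
  · simp only [veluD', eval_mul, eval_add, eval_C, eval_sub, eval_X, sub_self, mul_zero, zero_add,
      eval_pow, eval_prod]
    refine mul_ne_zero hu (pow_ne_zero _ (Finset.prod_ne_zero_iff.mpr fun t ht => ?_))
    exact sub_ne_zero.mpr (Finset.ne_of_mem_erase ht).symm
  · intro b _ hb
    simp [veluD', eval_prod, Finset.prod_eq_zero_iff, hr, Ne.symm hb, sub_eq_zero]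

omit hodd [W.IsElliptic] [IsAlgClosed L] in
lemma natDegree_veluN : (veluN W (kerXs G)).natDegree = 2 * (kerXs G).card + 1 := by
  rw [veluN, natDegree_add_eq_left_of_natDegree_lt]
  · rw [natDegree_mul X_ne_zero (pow_ne_zero _ (veluD_ne_zero _)), natDegree_X, natDegree_pow,
      natDegree_veluD]
    ring
  · rw [natDegree_mul X_ne_zero (pow_ne_zero _ (veluD_ne_zero _)), natDegree_X, natDegree_pow,
      natDegree_veluD]
    refine lt_of_le_of_lt (b := 2 * (kerXs G).card) ?_ (by omega)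
    refine natDegree_sum_le_of_forall_le _ _ fun r hr => ?_
    have h1 := natDegree_veluD'_le (kerXs G) hr
    have h2 : 1 ≤ (kerXs G).card := Finset.card_pos.mpr ⟨r, hr⟩
    calc _ ≤ _ + _ := natDegree_mul_le
      _ ≤ 1 + 2 * ((kerXs G).card - 1) := by
        gcongr
        · compute_degree
        · exact natDegree_pow_le.trans (by omega)
      _ ≤ _ := by omega

/-- `N - c D²`, whose roots are the `x` with `X(x) = c`. -/
lemma exists_fibre_poly (c : L) :
    ∃ p : L[X], p = veluN W (kerXs G) - C c * veluD (kerXs G) ^ 2 ∧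
      p.natDegree = 2 * (kerXs G).card + 1 ∧ p ≠ 0 ∧ ∀ x ∈ kerXs G, p.eval x ≠ 0 := by
  have hdeg : (veluN W (kerXs G) - C c * veluD (kerXs G) ^ 2).natDegree =
      2 * (kerXs G).card + 1 := by
    rw [natDegree_sub_eq_left_of_natDegree_lt, natDegree_veluN]
    refine (natDegree_C_mul_le _ _).trans_lt ?_
    rw [natDegree_pow, natDegree_veluD, natDegree_veluN]
    omega
  refine ⟨_, rfl, hdeg, fun h => ?_, fun x hx => ?_⟩
  · simp [h] at hdeg
  · simpa [(eval_veluD_eq_zero_iff _).mpr hx] using eval_veluN_ne_zero hodd hx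

/-- The quotient curve is nonsingular. -/
theorem veluCurve_isElliptic : (veluCurve W (kerXs G)).IsElliptic := by
  set W' := veluCurve W (kerXs G) with hW'
  constructor
  rw [isUnit_iff_ne_zero]
  intro hΔ
  set T : L[X] := 4 * X ^ 3 + C W'.b₂ * X ^ 2 + 2 * C W'.b₄ * X + C W'.b₆ with hT
  have hTdeg : T.natDegree = 3 := by rw [hT]; compute_degree!
  have hT0 : T ≠ 0 := fun h => by simp [h] at hTdeg
  have hpoly : T = W'.twoTorsionPolynomial.toPoly := by
    simp [hT, WeierstrassCurve.twoTorsionPolynomial, Cubic.toPoly, map_ofNat, map_mul]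
  -- a singular cubic has a multiple root
  obtain ⟨e, he⟩ : ∃ e, 2 ≤ T.rootMultiplicity e := by
    by_contra hcon
    push Not at hcon
    have h4 : W'.twoTorsionPolynomial.a ≠ 0 := by
      simp [WeierstrassCurve.twoTorsionPolynomial]
    have hsplit : (W'.twoTorsionPolynomial.toPoly.map (RingHom.id L)).Splits :=
      IsAlgClosed.splits _
    obtain ⟨x, y, z, hxyz⟩ := (Cubic.splits_iff_roots_eq_three (φ := RingHom.id L) h4).mp hsplit
    have hnodup : T.roots.Nodup := Multiset.nodup_iff_count_le_one.mpr fun a => by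
      rw [count_roots]; exact Nat.le_of_lt_succ (hcon a)
    have hroots : T.roots = {x, y, z} := by
      rw [hpoly, ← hxyz, Cubic.roots, Cubic.map_toPoly, Polynomial.map_id]
    rw [hroots] at hnodup
    have hne := Cubic.discr_eq_prod_three_roots (φ := RingHom.id L) h4 hxyz
    simp [WeierstrassCurve.twoTorsionPolynomial_discr, hΔ] at hne
    simp at hnodup
    refine pow_ne_zero 2 ?_ hne.symm
    simp [sub_ne_zero.mpr hnodup.1.1, sub_ne_zero.mpr hnodup.1.2, sub_ne_zero.mpr hnodup.2, h4]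
  obtain ⟨p, hp, hpdeg, hp0, hpev⟩ := exists_fibre_poly (W := W) hodd e
  obtain ⟨x₀, hx₀⟩ := IsAlgClosed.exists_root p (by
    rw [degree_eq_natDegree hp0, hpdeg]
    exact_mod_cast Nat.succ_ne_zero (2 * (kerXs G).card))
  have hD0 : (veluD (kerXs G)).eval x₀ ≠ 0 := fun h =>
    hpev x₀ ((eval_veluD_eq_zero_iff _).mp h) hx₀
  obtain ⟨k, hk⟩ : ∃ k, p.rootMultiplicity x₀ = k + 1 :=
    Nat.exists_eq_succ_of_ne_zero (Nat.pos_iff_ne_zero.mp ((rootMultiplicity_pos hp0).mpr hx₀))
  -- factor `T` at `e`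
  obtain ⟨q, hq⟩ : (X - C e) ^ 2 ∣ T := (pow_dvd_pow _ he).trans (pow_rootMultiplicity_dvd T e)
  have hqdeg : q.natDegree ≤ 1 := by
    rcases eq_or_ne q 0 with h | h
    · simp [h]
    · have := congrArg natDegree hq
      rw [hTdeg, natDegree_mul (pow_ne_zero _ (X_sub_C_ne_zero _)) h, natDegree_pow,
        natDegree_X_sub_C] at this
      omega
  obtain ⟨q₀, q₁, rfl⟩ := exists_eq_X_add_C_of_natDegree_le_one hqdeg
  -- homogenise
  have hb : C W'.b₂ = (C q₀ * (-2 * C e) + C q₁) ∧ (4 : L[X]) = C q₀ ∧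
      2 * C W'.b₄ = C q₀ * C e ^ 2 - 2 * C e * C q₁ ∧ C W'.b₆ = C e ^ 2 * C q₁ := by
    have hc := fun i => congrArg (fun f : L[X] => f.coeff i) hq
    simp only [hT] at hc
    have e0 := hc 0
    have e1 := hc 1
    have e2 := hc 2
    have e3 := hc 3
    ring_nf at e0 e1 e2 e3
    simp [coeff_X, coeff_C, coeff_X_pow, ← map_pow, ← map_ofNat (C : L →+* L[X]),
      mul_assoc, ← map_mul] at e0 e1 e2 e3
    refine ⟨?_, ?_, ?_, ?_⟩
    · rw [e2]; simp [map_ofNat]; ring
    · rw [← e3]; simp [map_ofNat]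
    · rw [← map_ofNat (C : L →+* L[X]), ← map_mul,
        show (OfNat.ofNat 2 : L) * W'.b₄ = q₀ * e ^ 2 - 2 * e * q₁ by
          linear_combination e1]
      simp [map_ofNat]
    · rw [e0]; simp
  obtain ⟨hb2, h4', hb4, hb6⟩ := hb
  have hid := veluDefect_eq_zero hodd
  rw [veluDefect, sub_eq_zero, ← hW', hb2, h4', hb4, hb6] at hid
  have hΩ : veluOmega W (kerXs G) =
      derivative p * veluD (kerXs G) - 2 * p * derivative (veluD (kerXs G)) := by
    rw [veluOmega, hp, derivative_sub, derivative_C_mul, derivative_sq, map_ofNat]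
    ring
  have hid' : psiSq W * veluOmega W (kerXs G) ^ 2 =
      p ^ 2 * (C q₀ * veluN W (kerXs G) + C q₁ * veluD (kerXs G) ^ 2) := by
    rw [hid, hp]; ring
  -- compare multiplicities at `x₀`
  obtain ⟨m, hm, hm0⟩ := exists_eq_pow_rootMultiplicity_mul_and_not_dvd p hp0 x₀
  rw [hk] at hm
  rw [dvd_iff_isRoot, IsRoot] at hm0
  set Ω' := ((k + 1 : ℕ) : L[X]) * m * veluD (kerXs G) + (X - C x₀) *
    (derivative m * veluD (kerXs G) - 2 * m * derivative (veluD (kerXs G))) with hΩ'
  have hΩ2 : veluOmega W (kerXs G) = (X - C x₀) ^ k * Ω' := by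
    rw [hΩ, hm, hΩ', derivative_mul, derivative_pow_succ, derivative_sub, derivative_X,
      derivative_C, map_add, map_natCast, map_one]
    push_cast
    ring
  rw [hΩ2, hm] at hid'
  have h2 : psiSq W * Ω' ^ 2 = (X - C x₀) ^ 2 *
      (m ^ 2 * (C q₀ * veluN W (kerXs G) + C q₁ * veluD (kerXs G) ^ 2)) := by
    refine mul_left_cancel₀ (pow_ne_zero (2 * k) (X_sub_C_ne_zero x₀)) ?_
    linear_combination hid'
  have hΩ0 : Ω'.eval x₀ ≠ 0 := by
    simp only [hΩ', eval_add, eval_mul, eval_natCast, eval_sub, eval_X, eval_C, sub_self,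
      zero_mul, add_zero]
    exact mul_ne_zero (mul_ne_zero (Nat.cast_ne_zero.mpr (Nat.succ_ne_zero k)) hm0) hD0
  have hcop : IsCoprime ((X - C x₀) ^ 2) (Ω' ^ 2) :=
    (((irreducible_X_sub_C x₀).coprime_iff_not_dvd.mpr
      (by rwa [dvd_iff_isRoot])).pow_left.pow_right)
  obtain ⟨g, hg⟩ := hcop.dvd_of_dvd_mul_right ⟨_, h2⟩
  -- so `f` has a double root, contradicting `Δ ≠ 0`
  have hev : uCoef W x₀ = 0 := by
    have := congrArg (eval x₀) hg
    simpa [psiSq, uCoef] using this
  have hev' : vCoef W x₀ = 0 := by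
    have h : (derivative (psiSq W)).eval x₀ = 0 := by
      rw [hg]; simp [derivative_mul, derivative_sq]
    simp [psiSq, derivative_mul] at h
    refine mul_left_cancel₀ (two_ne_zero (α := L)) ?_
    rw [mul_zero, vCoef]
    linear_combination h
  have hW0 : W.Δ ≠ 0 := W.isUnit_Δ.ne_zero
  apply hW0
  refine mul_left_cancel₀ (show (16 : L) ≠ 0 by norm_num) ?_
  rw [mul_zero, ← WeierstrassCurve.twoTorsionPolynomial_discr]
  simp only [uCoef, vCoef] at hev hev'
  simp only [WeierstrassCurve.twoTorsionPolynomial, Cubic.discr]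
  have hd : W.b₄ = -6 * x₀ ^ 2 - W.b₂ * x₀ := by linear_combination hev'
  have hd' : W.b₆ = 8 * x₀ ^ 3 + W.b₂ * x₀ ^ 2 := by
    linear_combination hev - 2 * x₀ * hev'
  rw [hd, hd']
  ring

end FermatLib.EC.Velu
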