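import Fermat.Agent.EC.VeluMap

/-!
# The generic point and its specialisations
-/

set_option autoImplicit false

open Polynomial WeierstrassCurve
open scoped WeierstrassCurve.Affine

namespace FermatLib.EC.Velu

variable {L : Type*} [Field L] [CharZero L] [IsAlgClosed L] [DecidableEq L]
  {W : WeierstrassCurve.Affine L} [W.IsElliptic]

noncomputable instance instDecidableEqFunctionField {F : Type*} [Field F]
    (V : WeierstrassCurve.Affine F) : DecidableEq V.FunctionField :=
  Classical.decEq _

variable (W) in
/-- The image of a bivariate polynomial in the function field. -/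
noncomputable def toFunField : L[X][X] →+* W.FunctionField :=
  (algebraMap W.CoordinateRing W.FunctionField).comp (Affine.CoordinateRing.mk W)

omit [CharZero L] [IsAlgClosed L] [DecidableEq L] [W.IsElliptic] in
lemma toFunField_CC (a : L) : toFunField W (C (C a)) = algebraMap L W.FunctionField a := by
  rw [IsScalarTower.algebraMap_apply L W.CoordinateRing W.FunctionField]
  rfl

omit [IsAlgClosed L] [DecidableEq L] in
/-- The generic point exists. -/
lemma exists_genericPoint : ∃ η : (W⁄W.FunctionField).Point, η ≠ 0 ∧
    xCo η = toFunField W (C X) ∧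
    psiCo η = toFunField W (2 * X + C (C W.a₁ * X + C W.a₃)) := by
  have h0 : toFunField W W.polynomial = 0 := by
    simp [toFunField, AdjoinRoot.mk_self]
  replace h0 : toFunField W (X ^ 2 + C (C W.a₁ * X + C W.a₃) * X -
      C (X ^ 3 + C W.a₂ * X ^ 2 + C W.a₄ * X + C W.a₆)) = 0 := h0
  simp only [map_sub, map_add, map_mul, map_pow, toFunField_CC] at h0
  have he : (W⁄W.FunctionField).Equation (toFunField W (C X)) (toFunField W X) := by
    rw [Affine.equation_iff]
    simp only [WeierstrassCurve.baseChange, WeierstrassCurve.map_a₁, WeierstrassCurve.map_a₂,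
      WeierstrassCurve.map_a₃, WeierstrassCurve.map_a₄, WeierstrassCurve.map_a₆]
    linear_combination h0
  have := isElliptic_baseChange (W := W) W.FunctionField
  refine ⟨.mk he, Affine.Point.some_ne_zero _, rfl, ?_⟩
  show psiOf (W⁄W.FunctionField) _ _ = _
  simp only [psiOf, WeierstrassCurve.baseChange, WeierstrassCurve.map_a₁,
    WeierstrassCurve.map_a₃, map_add, map_mul, map_ofNat, toFunField_CC]
  ring

variable (W) in
/-- The generic point of `W`, over its function field. -/
noncomputable def genericPoint : (W⁄W.FunctionField).Point := exists_genericPoint.choose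

/-- Specialisation of the function field at a power series point. -/
lemma exists_specialization {S : (W⁄L).Point} (hS : S ≠ 0) (hψ : psiCo S ≠ 0) :
    ∃ (g : W.FunctionField →ₐ[L] SerField L) (P : (W⁄(SerField L)).Point) (s : PowerSeries L),
      Affine.Point.map g (genericPoint W) = P ∧ P ≠ 0 ∧
      PowerSeries.constantCoeff s = psiCo S ∧ s ^ 2 = aeval (serX (xCo S)) (psiSq W) ∧
      xCo P = algebraMap _ _ (serX (xCo S)) ∧ psiCo P = algebraMap _ _ s := by
  obtain ⟨s, P, hP0, hs0, hs, hx, hp⟩ := exists_series_point hS hψ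
  have := neZero_two L (SerField L)
  set z := serX (xCo S) with hz
  set y : PowerSeries L := PowerSeries.C (1 / 2) *
    (s - PowerSeries.C W.a₁ * z - PowerSeries.C W.a₃) with hy
  have hhalf : (2 : PowerSeries L) * PowerSeries.C (1 / 2) = 1 := by
    rw [← map_ofNat PowerSeries.C, ← map_mul,
      show (OfNat.ofNat 2 : L) * (1 / 2) = 1 by norm_num, map_one]
  have h2y : 2 * y + PowerSeries.C W.a₁ * z + PowerSeries.C W.a₃ = s := by
    rw [hy, ← mul_assoc, hhalf]; ring
  have heq : W.polynomial.eval₂ (aeval (R := L) z : L[X] →ₐ[L] PowerSeries L) y = 0 := by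
    have h4 : (4 : PowerSeries L) ≠ 0 := by
      rw [← map_ofNat PowerSeries.C, map_ne_zero_iff _ PowerSeries.C_injective]
      norm_num
    refine mul_left_cancel₀ h4 ?_
    simp only [Affine.polynomial, eval₂_sub, eval₂_add, eval₂_mul, eval₂_pow, eval₂_X, eval₂_C,
      RingHom.coe_coe, map_add, map_mul, map_pow, aeval_X, aeval_C, PowerSeries.algebraMap_eq]
    rw [← h2y] at hs
    simp only [psiSq, map_add, map_mul, map_pow, map_ofNat, aeval_X, aeval_C,
      PowerSeries.algebraMap_eq, WeierstrassCurve.b₂, WeierstrassCurve.b₄,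
      WeierstrassCurve.b₆] at hs
    linear_combination hs
  let g₀ : W.CoordinateRing →ₐ[L] PowerSeries L :=
    AdjoinRoot.liftAlgHom W.polynomial (aeval z) y heq
  have hg₀ : ∀ f : L[X][X], g₀ (Affine.CoordinateRing.mk W f) =
      f.eval₂ (aeval (R := L) z : L[X] →ₐ[L] PowerSeries L) y :=
    AdjoinRoot.liftAlgHom_mk _ _ _ _
  have hinj : Function.Injective ((IsScalarTower.toAlgHom L (PowerSeries L) (SerField L)).comp g₀) := by
    refine serField_algebraMap_injective.comp ((injective_iff_map_eq_zero _).mpr fun c hc => ?_)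
    obtain ⟨p, q, rfl⟩ := Affine.CoordinateRing.exists_smul_basis_eq c
    have hnorm := congrArg g₀ (Affine.CoordinateRing.coe_norm_smul_basis (W' := W) p q)
    have hmk : p • (1 : W.CoordinateRing) + q • Affine.CoordinateRing.mk W X =
        Affine.CoordinateRing.mk W (C p + C q * X) := by
      simp [Affine.CoordinateRing.smul]
    rw [hmk] at hc
    rw [map_mul (Affine.CoordinateRing.mk W), map_mul g₀, hc, zero_mul] at hnorm
    change g₀ (Affine.CoordinateRing.mk W (C _)) = 0 at hnorm
    rw [hg₀, eval₂_C] at hnorm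
    have hN := by_contra fun h => aeval_serX_ne_zero (L := L) (xCo S) h hnorm
    have := congrArg degree hN
    rw [Affine.CoordinateRing.degree_norm_smul_basis, degree_zero, max_eq_bot] at this
    obtain ⟨hp', hq'⟩ := this
    have hp0 : p = 0 := by
      by_contra h
      rw [degree_eq_natDegree h] at hp'
      exact WithBot.coe_ne_bot hp'
    have hq0 : q = 0 := by
      by_contra h
      rw [degree_eq_natDegree h] at hq'
      exact WithBot.coe_ne_bot hq'
    simp [hp0, hq0]
  let g : W.FunctionField →ₐ[L] SerField L := IsFractionRing.liftAlgHom hinj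
  have hg : ∀ f : L[X][X], g (toFunField W f) = algebraMap (PowerSeries L) (SerField L)
      (f.eval₂ (aeval (R := L) z : L[X] →ₐ[L] PowerSeries L) y) := fun f => by
    rw [← hg₀]
    exact IsFractionRing.lift_algebraMap hinj _
  obtain ⟨hη0, hηx, hηψ⟩ := (exists_genericPoint (W := W)).choose_spec
  refine ⟨g, P, s, ?_, hP0, hs0, hs, hx, hp⟩
  refine ext_xCo_psiCo ((map_ne_zero_iff _ (Affine.Point.map_injective g)).mpr hη0) hP0 ?_ ?_
  · rw [xCo_map, genericPoint, hηx, hg, hx, eval₂_C, RingHom.coe_coe, aeval_X]
  · rw [psiCo_map, genericPoint, hηψ, hg, hp, ← h2y]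
    simp [eval₂_add, eval₂_mul, PowerSeries.algebraMap_eq, ← add_assoc]

end FermatLib.EC.Velu
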