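import Mathlib

/-!
# Vélu's formulas as polynomials in the `x`-coordinate

For a Weierstrass curve `W` over a field and a finite set `rs` of `x`-coordinates we define
polynomials `veluD`, `veluN`, `veluOmega` with `X = N / D²` and `dX/dx = Ω / D³`, the curve
`veluCurve`, and prove the degree bound for the defect of the curve equation.
-/

set_option autoImplicit false

open Polynomial

namespace FermatLib.EC.Velu

variable {L : Type*} [Field L] (W : WeierstrassCurve L) (rs : Finset L)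

/-- `4X³ + b₂X² + 2b₄X + b₆`. -/
noncomputable def psiSq : L[X] :=
  4 * X ^ 3 + C W.b₂ * X ^ 2 + 2 * C W.b₄ * X + C W.b₆

/-- `v = f'(r)/2`. -/
def vCoef (r : L) : L := 6 * r ^ 2 + W.b₂ * r + W.b₄

/-- `u = f(r)`. -/
def uCoef (r : L) : L := 4 * r ^ 3 + W.b₂ * r ^ 2 + 2 * W.b₄ * r + W.b₆

def sumV : L := ∑ r ∈ rs, vCoef W r

def sumW : L := ∑ r ∈ rs, (uCoef W r + r * vCoef W r)

/-- Vélu's quotient curve. -/
def veluCurve : WeierstrassCurve L where
  a₁ := W.a₁
  a₂ := W.a₂
  a₃ := W.a₃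
  a₄ := W.a₄ - 5 * sumV W rs
  a₆ := W.a₆ - W.b₂ * sumV W rs - 7 * sumW W rs

lemma veluCurve_b₂ : (veluCurve W rs).b₂ = W.b₂ := rfl

lemma veluCurve_b₄ : (veluCurve W rs).b₄ = W.b₄ - 10 * sumV W rs := by
  simp only [WeierstrassCurve.b₄, veluCurve]
  ring

lemma veluCurve_b₆ :
    (veluCurve W rs).b₆ = W.b₆ - 4 * W.b₂ * sumV W rs - 28 * sumW W rs := by
  simp only [WeierstrassCurve.b₆, veluCurve]
  ring

noncomputable def veluD : L[X] := ∏ r ∈ rs, (X - C r)

section
variable [DecidableEq L]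

noncomputable def veluD' (r : L) : L[X] := ∏ s ∈ rs.erase r, (X - C s)

lemma veluD_eq_mul {r : L} (hr : r ∈ rs) : veluD rs = (X - C r) * veluD' rs r :=
  (Finset.mul_prod_erase rs _ hr).symm

noncomputable def veluN : L[X] :=
  X * veluD rs ^ 2 +
    ∑ r ∈ rs, (C (vCoef W r) * (X - C r) + C (uCoef W r)) * veluD' rs r ^ 2

noncomputable def veluOmega : L[X] :=
  derivative (veluN W rs) * veluD rs - 2 * veluN W rs * derivative (veluD rs)

lemma veluOmega_eq : veluOmega W rs = veluD rs ^ 3 +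
    ∑ r ∈ rs, (-(C (vCoef W r) * (X - C r)) - 2 * C (uCoef W r)) * veluD' rs r ^ 3 := by
  rw [veluOmega, veluN, derivative_add, derivative_sum, add_mul, Finset.sum_mul, mul_add,
    add_mul, Finset.mul_sum, Finset.sum_mul]
  have h0 : derivative (X * veluD rs ^ 2) * veluD rs - 2 * (X * veluD rs ^ 2) *
      derivative (veluD rs) = veluD rs ^ 3 := by
    rw [derivative_mul, derivative_X, derivative_sq]
    simp only [map_ofNat]
    ring
  rw [add_sub_add_comm, h0, ← Finset.sum_sub_distrib]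
  congr 1
  refine Finset.sum_congr rfl fun r hr => ?_
  rw [veluD_eq_mul rs hr]
  simp only [derivative_mul, derivative_add, derivative_C, derivative_sq,
    derivative_sub, derivative_X, map_ofNat]
  ring

omit [DecidableEq L] in
lemma natDegree_veluD : (veluD rs).natDegree = rs.card := by
  rw [veluD, natDegree_prod_of_monic _ _ fun r _ => monic_X_sub_C r]
  simp

omit [DecidableEq L] in
lemma monic_veluD : (veluD rs).Monic := monic_prod_of_monic _ _ fun r _ => monic_X_sub_C r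

omit [DecidableEq L] in
lemma veluD_ne_zero : veluD rs ≠ 0 := (monic_veluD rs).ne_zero

lemma natDegree_veluD'_le {r : L} (hr : r ∈ rs) : (veluD' rs r).natDegree ≤ rs.card - 1 := by
  rw [veluD', natDegree_prod_of_monic _ _ fun r _ => monic_X_sub_C r]
  simp [Finset.card_erase_of_mem hr]

omit [DecidableEq L] in
lemma eval_veluD_eq_zero_iff {x : L} : (veluD rs).eval x = 0 ↔ x ∈ rs := by
  simp [veluD, eval_prod, Finset.prod_eq_zero_iff, sub_eq_zero]

/-- The defect `f Ω² - F'(N, D²)` of the curve equation, homogenised. -/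
noncomputable def veluDefect : L[X] :=
  psiSq W * veluOmega W rs ^ 2 -
    (4 * veluN W rs ^ 3 + C (veluCurve W rs).b₂ * veluN W rs ^ 2 * veluD rs ^ 2 +
      2 * C (veluCurve W rs).b₄ * veluN W rs * veluD rs ^ 4 +
      C (veluCurve W rs).b₆ * veluD rs ^ 6)

lemma X_sq_mul_veluN : ∃ E : L[X], E.natDegree ≤ 2 * rs.card - 1 ∧
    X ^ 2 * veluN W rs =
      (X ^ 3 + C (sumV W rs) * X + C (sumW W rs)) * veluD rs ^ 2 + E := by
  refine ⟨∑ r ∈ rs, (C (r * r * vCoef W r + 2 * r * uCoef W r) * X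
      - C (r * r * (uCoef W r + r * vCoef W r))) * veluD' rs r ^ 2, ?_, ?_⟩
  · refine natDegree_sum_le_of_forall_le _ _ fun r hr => ?_
    have := natDegree_veluD'_le rs hr
    have h1 : 1 ≤ rs.card := Finset.card_pos.mpr ⟨r, hr⟩
    calc _ ≤ _ + _ := natDegree_mul_le
      _ ≤ 1 + 2 * (rs.card - 1) := by
        gcongr
        · compute_degree
        · exact natDegree_pow_le.trans (by omega)
      _ ≤ _ := by omega
  · rw [veluN, mul_add, Finset.mul_sum, sumV, sumW, map_sum, map_sum, Finset.sum_mul,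
      add_mul, add_mul, Finset.sum_mul, Finset.sum_mul, add_assoc (X ^ 3 * veluD rs ^ 2),
      add_assoc (X ^ 3 * veluD rs ^ 2), ← Finset.sum_add_distrib, ← Finset.sum_add_distrib]
    congr 1
    · ring
    refine Finset.sum_congr rfl fun r hr => ?_
    rw [veluD_eq_mul rs hr]
    simp only [map_add, map_mul, map_ofNat]
    ring

lemma X_cube_mul_veluOmega : ∃ E : L[X], E.natDegree ≤ 3 * rs.card - 1 ∧
    X ^ 3 * veluOmega W rs =
      (X ^ 3 - C (sumV W rs) * X - 2 * C (sumW W rs)) * veluD rs ^ 3 + E := by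
  refine ⟨∑ r ∈ rs, (-(C (3 * r ^ 2 * vCoef W r + 6 * r * uCoef W r + 0)) * X ^ 2
      + C (6 * r ^ 2 * uCoef W r + 5 * r ^ 3 * vCoef W r) * X
      - C (2 * r ^ 3 * (uCoef W r + r * vCoef W r))) * veluD' rs r ^ 3, ?_, ?_⟩
  · refine natDegree_sum_le_of_forall_le _ _ fun r hr => ?_
    have := natDegree_veluD'_le rs hr
    have h1 : 1 ≤ rs.card := Finset.card_pos.mpr ⟨r, hr⟩
    calc _ ≤ _ + _ := natDegree_mul_le
      _ ≤ 2 + 3 * (rs.card - 1) := by
        gcongr
        · compute_degree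
        · exact natDegree_pow_le.trans (by omega)
      _ ≤ _ := by omega
  · rw [veluOmega_eq, mul_add, Finset.mul_sum, sumV, sumW, map_sum, map_sum, Finset.sum_mul,
      sub_mul, sub_mul, Finset.mul_sum, Finset.sum_mul, Finset.sum_mul,
      sub_sub (X ^ 3 * veluD rs ^ 3), sub_add_eq_add_sub, add_sub_assoc,
      ← Finset.sum_add_distrib, ← Finset.sum_sub_distrib]
    congr 1
    refine Finset.sum_congr rfl fun r hr => ?_
    rw [veluD_eq_mul rs hr]
    simp only [map_add, map_mul, map_ofNat, map_pow, map_zero]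
    ring

lemma natDegree_veluDefect_lt : veluDefect W rs = 0 ∨
    (veluDefect W rs).natDegree < 6 * rs.card := by
  rcases Nat.eq_zero_or_pos rs.card with h0 | hn
  · left
    rw [Finset.card_eq_zero] at h0
    subst h0
    simp only [veluDefect, veluOmega, veluN, veluD, Finset.prod_empty, Finset.sum_empty,
      veluCurve_b₂, veluCurve_b₄, veluCurve_b₆, sumV, sumW, one_pow, mul_one, add_zero,
      derivative_X, derivative_one, mul_zero, sub_zero, psiSq]
    ring
  · rcases eq_or_ne (veluDefect W rs) 0 with hz | hz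
    · exact Or.inl hz
    right
    obtain ⟨E₁, hE₁, h₁⟩ := X_sq_mul_veluN W rs
    obtain ⟨E₂, hE₂, h₂⟩ := X_cube_mul_veluOmega W rs
    set v := sumV W rs
    set w := sumW W rs
    set D := veluD rs
    set f := psiSq W with hf
    set A : L[X] := X ^ 3 + C v * X + C w
    set B : L[X] := X ^ 3 - C v * X - 2 * C w
    set b₄' := (veluCurve W rs).b₄ with hb₄
    set b₆' := (veluCurve W rs).b₆ with hb₆
    set g : L[X] := f * B ^ 2 -
      (4 * A ^ 3 + C W.b₂ * X ^ 2 * A ^ 2 + 2 * C b₄' * X ^ 4 * A + C b₆' * X ^ 6) with hg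
    have key : X ^ 6 * veluDefect W rs = g * D ^ 6 + 2 * f * B * E₂ * D ^ 3 + f * E₂ ^ 2 -
        (4 * (3 * A ^ 2 * E₁ * D ^ 4 + 3 * A * E₁ ^ 2 * D ^ 2 + E₁ ^ 3) +
          C W.b₂ * X ^ 2 * (2 * A * E₁ * D ^ 4 + E₁ ^ 2 * D ^ 2) +
          2 * C b₄' * X ^ 4 * E₁ * D ^ 4) := by
      calc X ^ 6 * veluDefect W rs = f * (X ^ 3 * veluOmega W rs) ^ 2 -
          (4 * (X ^ 2 * veluN W rs) ^ 3 + C W.b₂ * X ^ 2 * (X ^ 2 * veluN W rs) ^ 2 * D ^ 2 +
            2 * C b₄' * X ^ 4 * (X ^ 2 * veluN W rs) * D ^ 4 + C b₆' * X ^ 6 * D ^ 6) := by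
            rw [veluDefect, veluCurve_b₂, ← hb₄, ← hb₆]
            ring
        _ = _ := by
            rw [h₁, h₂]
            ring
    have hD : D.natDegree ≤ rs.card := (natDegree_veluD rs).le
    have hf' : f.natDegree ≤ 3 := by
      rw [hf, psiSq]
      compute_degree
    have hA : A.natDegree ≤ 3 := by
      simp only [A]
      compute_degree
    have hB : B.natDegree ≤ 3 := by
      simp only [B]
      compute_degree
    have hg' : g.natDegree ≤ 5 := by
      have hg_eq : g = C (12 * v ^ 2 - 6 * W.b₂ * w - 6 * W.b₄ * v) * X ^ 5 +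
          C (12 * v * w - 10 * W.b₄ * w - 2 * W.b₆ * v) * X ^ 4 +
          C (4 * w ^ 2 + 2 * W.b₂ * v * w + 2 * W.b₄ * v ^ 2 - 4 * W.b₆ * w - 4 * v ^ 3) * X ^ 3 +
          C (3 * W.b₂ * w ^ 2 + 8 * W.b₄ * v * w + W.b₆ * v ^ 2 - 12 * v ^ 2 * w) * X ^ 2 +
          C (8 * W.b₄ * w ^ 2 + 4 * W.b₆ * v * w - 12 * v * w ^ 2) * X +
          C (4 * W.b₆ * w ^ 2 - 4 * w ^ 3) := by
        rw [hg, hf, psiSq, hb₄, hb₆, veluCurve_b₄, veluCurve_b₆]
        simp only [A, B, map_sub, map_mul, map_add, map_pow, map_ofNat, v, w]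
        ring
      rw [hg_eq]
      compute_degree
    have hmul : ∀ {a b : L[X]} {m n : ℕ}, a.natDegree ≤ m → b.natDegree ≤ n →
        (a * b).natDegree ≤ m + n := fun ha hb =>
      natDegree_mul_le.trans (Nat.add_le_add ha hb)
    have hpw : ∀ {a : L[X]} {m : ℕ} (k : ℕ), a.natDegree ≤ m → (a ^ k).natDegree ≤ k * m :=
      fun k ha => natDegree_pow_le.trans (Nat.mul_le_mul_left k ha)
    have hC : ∀ c : L, (C c).natDegree ≤ 0 := fun c => (natDegree_C c).le
    have hk : ∀ k : ℕ, ((OfNat.ofNat (k + 2) : L[X])).natDegree ≤ 0 := fun k =>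
      (natDegree_ofNat _).le
    have t1 := hmul hg' (hpw 6 hD)
    have t2 := hmul (hmul (hmul (hmul (hk 0) hf') hB) hE₂) (hpw 3 hD)
    have t3 := hmul hf' (hpw 2 hE₂)
    have t4 := hmul (hk 2) (natDegree_add_le_of_degree_le
      (natDegree_add_le_of_degree_le
        ((hmul (hmul (hmul (hk 1) (hpw 2 hA)) hE₁) (hpw 4 hD)).trans
          (show _ ≤ 6 * rs.card + 5 by omega))
        ((hmul (hmul (hmul (hk 1) hA) (hpw 2 hE₁)) (hpw 2 hD)).trans (by omega)))
      ((hpw 3 hE₁).trans (by omega)))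
    have hX : ∀ k : ℕ, ((X : L[X]) ^ k).natDegree ≤ k := fun k => (natDegree_X_pow k).le
    have t5 := hmul (hmul (hC W.b₂) (hX 2)) (natDegree_add_le_of_degree_le
      ((hmul (hmul (hmul (hk 0) hA) hE₁) (hpw 4 hD)).trans
        (show _ ≤ 6 * rs.card + 3 by omega))
      ((hmul (hpw 2 hE₁) (hpw 2 hD)).trans (by omega)))
    have t6 := hmul (hmul (hmul (hmul (hk 0) (hC b₄')) (hX 4)) hE₁) (hpw 4 hD)
    have htot : (X ^ 6 * veluDefect W rs).natDegree ≤ 6 * rs.card + 5 := by
      rw [key]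
      refine (natDegree_sub_le _ _).trans (max_le ?_ ?_)
      · exact natDegree_add_le_of_degree_le (natDegree_add_le_of_degree_le
          (t1.trans (by omega)) (t2.trans (by omega))) (t3.trans (by omega))
      · exact natDegree_add_le_of_degree_le (natDegree_add_le_of_degree_le
          (t4.trans (by omega)) (t5.trans (by omega))) (t6.trans (by omega))
    rw [natDegree_mul (pow_ne_zero _ X_ne_zero) hz, natDegree_X_pow] at htot
    omega

/-- `X(x)`. -/
noncomputable def veluX {M : Type*} [Field M] [Algebra L M] (x : M) : M :=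
  aeval x (veluN W rs) / aeval x (veluD rs) ^ 2

/-- `dX/dx`. -/
noncomputable def veluX₁ {M : Type*} [Field M] [Algebra L M] (x : M) : M :=
  aeval x (veluOmega W rs) / aeval x (veluD rs) ^ 3

variable {M : Type*} [Field M] [Algebra L M]

omit [DecidableEq L] in
lemma aeval_veluD_ne_zero {x : M} (hx : ∀ r ∈ rs, x ≠ algebraMap L M r) :
    aeval x (veluD rs) ≠ 0 := by
  simp only [veluD, map_prod, map_sub, aeval_X, aeval_C]
  exact Finset.prod_ne_zero_iff.mpr fun r hr => sub_ne_zero.mpr (hx r hr)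

lemma veluX_eq_sum {x : M} (hx : ∀ r ∈ rs, x ≠ algebraMap L M r) :
    veluX W rs x = x + ∑ r ∈ rs, (algebraMap L M (vCoef W r) / (x - algebraMap L M r) +
      algebraMap L M (uCoef W r) / (x - algebraMap L M r) ^ 2) := by
  have hD := aeval_veluD_ne_zero rs hx
  rw [veluX, veluN]
  simp only [map_add, map_sum, map_mul, map_sub, map_pow, aeval_X, aeval_C]
  rw [add_div, mul_div_cancel_right₀ _ (pow_ne_zero 2 hD), Finset.sum_div]
  congr 1
  refine Finset.sum_congr rfl fun r hr => ?_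
  have hr' : x - algebraMap L M r ≠ 0 := sub_ne_zero.mpr (hx r hr)
  rw [veluD_eq_mul rs hr, map_mul, map_sub, aeval_X, aeval_C] at hD ⊢
  have := right_ne_zero_of_mul hD
  field_simp

lemma veluX₁_eq_sum {x : M} (hx : ∀ r ∈ rs, x ≠ algebraMap L M r) :
    veluX₁ W rs x = 1 + ∑ r ∈ rs, (-(algebraMap L M (vCoef W r)) / (x - algebraMap L M r) ^ 2 -
      2 * algebraMap L M (uCoef W r) / (x - algebraMap L M r) ^ 3) := by
  have hD := aeval_veluD_ne_zero rs hx
  rw [veluX₁, veluOmega_eq]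
  simp only [map_add, map_sum, map_mul, map_sub, map_pow, map_neg, map_ofNat, aeval_X, aeval_C]
  rw [add_div, div_self (pow_ne_zero 3 hD), Finset.sum_div]
  congr 1
  refine Finset.sum_congr rfl fun r hr => ?_
  have hr' : x - algebraMap L M r ≠ 0 := sub_ne_zero.mpr (hx r hr)
  rw [veluD_eq_mul rs hr, map_mul, map_sub, aeval_X, aeval_C] at hD ⊢
  have := right_ne_zero_of_mul hD
  field_simp

lemma map_veluX {M' : Type*} [Field M'] [Algebra L M'] (g : M →ₐ[L] M') (x : M) :
    veluX W rs (g x) = g (veluX W rs x) := by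
  simp only [veluX, map_div₀, map_pow, aeval_algHom_apply]

lemma map_veluX₁ {M' : Type*} [Field M'] [Algebra L M'] (g : M →ₐ[L] M') (x : M) :
    veluX₁ W rs (g x) = g (veluX₁ W rs x) := by
  simp only [veluX₁, map_div₀, map_pow, aeval_algHom_apply]

end

end FermatLib.EC.Velu
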