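import Fermat.Agent.EC.VeluPsi

/-!
# Vélu's functions as sums over the translations by the subgroup
-/

set_option autoImplicit false

open Polynomial WeierstrassCurve
open scoped WeierstrassCurve.Affine

namespace FermatLib.EC.Velu

variable {L : Type*} [Field L] [DecidableEq L] {W : WeierstrassCurve.Affine L}

section coords

variable {M : Type*} [Field M] [Algebra L M]

lemma vCoef_baseChange (r : L) :
    vCoef (W⁄M) (algebraMap L M r) = algebraMap L M (vCoef W r) := by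
  simp [vCoef, WeierstrassCurve.baseChange, map_ofNat]

lemma uCoef_baseChange (r : L) :
    uCoef (W⁄M) (algebraMap L M r) = algebraMap L M (uCoef W r) := by
  simp [uCoef, WeierstrassCurve.baseChange, map_ofNat]

omit [DecidableEq L] in
lemma uCoef_baseChange' (x : M) : uCoef (W⁄M) x = aeval x (psiSq W) := by
  simp [uCoef, psiSq, WeierstrassCurve.baseChange, map_ofNat]

variable [DecidableEq M]

/-- The map `E(L) → E(M)`. -/
noncomputable abbrev bc (M : Type*) [Field M] [Algebra L M] [DecidableEq M] :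
    (W⁄L).Point →+ (W⁄M).Point :=
  Affine.Point.baseChange L M

lemma bc_injective : Function.Injective (bc (W := W) M) := Affine.Point.map_injective _

@[simp] lemma xCo_bc (P : (W⁄L).Point) : xCo (bc M P) = algebraMap L M (xCo P) := by
  cases P with
  | zero => simp [← Affine.Point.zero_def]
  | some x y h => rfl

@[simp] lemma psiCo_bc (P : (W⁄L).Point) : psiCo (bc M P) = algebraMap L M (psiCo P) := by
  cases P with
  | zero => simp [← Affine.Point.zero_def]
  | some x y h =>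
    show psiOf (W⁄M) (algebraMap L M x) (algebraMap L M y) = algebraMap L M (psiOf (W⁄L) x y)
    simp [psiOf, WeierstrassCurve.baseChange, map_ofNat]

end coords

variable (G : AddSubgroup (W⁄L).Point) [Finite G]

/-- The subgroup as a finset. -/
noncomputable def kerFinset : Finset (W⁄L).Point := (G : Set _).toFinite.toFinset

@[simp] lemma mem_kerFinset {P : (W⁄L).Point} : P ∈ kerFinset G ↔ P ∈ G := by
  simp [kerFinset]

/-- The `x`-coordinates of the non-zero points of the subgroup. -/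
noncomputable def kerXs : Finset L := ((kerFinset G).erase 0).image xCo

/-- The subgroup has no point of order two. -/
def OddKernel : Prop := ∀ P ∈ G, (2 : ℕ) • P = 0 → P = 0

variable {G}

lemma mem_kerXs {r : L} : r ∈ kerXs G ↔ ∃ Q ∈ G, Q ≠ 0 ∧ xCo Q = r := by
  simp [kerXs, and_left_comm, and_assoc]

variable (hodd : OddKernel G)
include hodd

lemma ne_neg_of_mem {Q : (W⁄L).Point} (hQ : Q ∈ G) (hQ0 : Q ≠ 0) : Q ≠ -Q := fun h =>
  hQ0 (hodd Q hQ (by rw [two_nsmul]; nth_rw 2 [h]; exact add_neg_cancel Q))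

lemma sum_kerFinset_erase {A : Type*} [AddCommMonoid A] (g : L → A) :
    ∑ Q ∈ (kerFinset G).erase 0, g (xCo Q) = ∑ r ∈ kerXs G, 2 • g r := by
  rw [Finset.sum_comp g xCo]
  refine Finset.sum_congr rfl fun r hr => ?_
  congr 1
  obtain ⟨Q, hQ, hQ0, rfl⟩ := mem_kerXs.mp hr
  refine Finset.card_eq_two.mpr ⟨Q, -Q, ne_neg_of_mem hodd hQ hQ0, ?_⟩
  ext P
  simp only [Finset.mem_filter, Finset.mem_erase, mem_kerFinset, Finset.mem_insert,
    Finset.mem_singleton]
  constructor
  · rintro ⟨⟨hP0, -⟩, hP⟩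
    exact eq_or_eq_neg_of_xCo_eq hP0 hQ0 hP
  · rintro (rfl | rfl)
    · exact ⟨⟨hQ0, hQ⟩, rfl⟩
    · exact ⟨⟨neg_ne_zero.mpr hQ0, neg_mem hQ⟩, xCo_neg Q⟩

omit hodd

lemma sum_kerFinset_neg {A : Type*} [AddCommMonoid A] (g : (W⁄L).Point → A) :
    ∑ Q ∈ (kerFinset G).erase 0, g (-Q) = ∑ Q ∈ (kerFinset G).erase 0, g Q := by
  refine Finset.sum_nbij' (fun Q => -Q) (fun Q => -Q) ?_ ?_ ?_ ?_ ?_ <;> simp

variable {M : Type*} [Field M] [Algebra L M] [DecidableEq M]

variable (G M) in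
/-- The kernel inside `E(M)`. -/
noncomputable def kerM : AddSubgroup (W⁄M).Point := G.map (bc M)

lemma bc_mem_kerM {Q : (W⁄L).Point} : bc M Q ∈ kerM G M ↔ Q ∈ G :=
  AddSubgroup.mem_map_iff_mem bc_injective

lemma notMem_kerM_iff {P : (W⁄M).Point} :
    P ∉ kerM G M ↔ P ≠ 0 ∧ ∀ r ∈ kerXs G, xCo P ≠ algebraMap L M r := by
  constructor
  · intro h
    have h0 : P ≠ 0 := by rintro rfl; exact h (zero_mem _)
    refine ⟨h0, fun r hr hx => ?_⟩
    obtain ⟨Q, hQ, hQ0, rfl⟩ := mem_kerXs.mp hr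
    rcases eq_or_eq_neg_of_xCo_eq h0 ((map_ne_zero_iff _ bc_injective).mpr hQ0)
      (hx.trans (xCo_bc Q).symm) with rfl | rfl
    · exact h (bc_mem_kerM.mpr hQ)
    · exact h (neg_mem (bc_mem_kerM.mpr hQ))
  · rintro ⟨h0, hx⟩ ⟨Q, hQ, rfl⟩
    have hQ0 : Q ≠ 0 := by rintro rfl; exact h0 (map_zero _)
    exact hx _ (mem_kerXs.mpr ⟨Q, hQ, hQ0, rfl⟩) (xCo_bc Q)

variable (G) in
/-- `∑ x(P + Q)`, over the subgroup. -/
noncomputable def sumX (P : (W⁄M).Point) : M := ∑ Q ∈ kerFinset G, xCo (P + bc M Q)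

variable (G) in
/-- `∑ ψ(P + Q)`, over the subgroup. -/
noncomputable def sumPsi (P : (W⁄M).Point) : M := ∑ Q ∈ kerFinset G, psiCo (P + bc M Q)

lemma sum_translate {A : Type*} [AddCommMonoid A] (g : (W⁄M).Point → A) (P : (W⁄M).Point)
    {T : (W⁄L).Point} (hT : T ∈ G) :
    ∑ Q ∈ kerFinset G, g (P + bc M T + bc M Q) = ∑ Q ∈ kerFinset G, g (P + bc M Q) := by
  refine Finset.sum_nbij' (fun Q => T + Q) (fun Q => -T + Q) ?_ ?_ ?_ ?_ ?_
  · simpa using fun Q hQ => add_mem hT hQ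
  · simpa using fun Q hQ => add_mem (neg_mem hT) hQ
  · simp
  · simp
  · intro Q _
    simp [add_assoc]

variable [NeZero (2 : L)]

include hodd

lemma veluX_eq_sumX {P : (W⁄M).Point} (hP : P ∉ kerM G M) :
    veluX W (kerXs G) (xCo P) =
      sumX G P - ∑ Q ∈ kerFinset G, algebraMap L M (xCo Q) := by
  haveI : NeZero (2 : M) := ⟨by
    rw [← map_ofNat (algebraMap L M)]
    exact (_root_.map_ne_zero _).mpr two_ne_zero⟩
  obtain ⟨hP0, hx⟩ := notMem_kerM_iff.mp hP
  have h0 : (0 : (W⁄L).Point) ∈ kerFinset G := by simp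
  rw [veluX_eq_sum W _ hx, sumX, ← Finset.add_sum_erase _ _ h0, ← Finset.add_sum_erase _ _ h0,
    map_zero, add_zero, xCo_zero, map_zero, zero_add]
  refine mul_left_cancel₀ (two_ne_zero (α := M)) ?_
  have key : ∀ Q ∈ (kerFinset G).erase 0, xCo (P + bc M Q) + xCo (P + bc M (-Q)) =
      2 * algebraMap L M (xCo Q) +
      (algebraMap L M (vCoef W (xCo Q)) / (xCo P - algebraMap L M (xCo Q)) +
      algebraMap L M (uCoef W (xCo Q)) / (xCo P - algebraMap L M (xCo Q)) ^ 2) := by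
    intro Q hQ
    simp only [Finset.mem_erase, mem_kerFinset] at hQ
    have hQ' : bc M Q ≠ 0 := (map_ne_zero_iff _ bc_injective).mpr hQ.1
    have := xCo_add_add_xCo_sub hP0 hQ' (by
      rw [xCo_bc]; exact hx _ (mem_kerXs.mpr ⟨Q, hQ.2, hQ.1, rfl⟩))
    rwa [sub_eq_add_neg, ← map_neg, xCo_bc, vCoef_baseChange, uCoef_baseChange] at this
  have h2 := Finset.sum_congr (s₁ := (kerFinset G).erase 0) rfl key
  rw [Finset.sum_add_distrib, sum_kerFinset_neg (fun Q => xCo (P + bc M Q)),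
    Finset.sum_add_distrib, ← Finset.mul_sum,
    sum_kerFinset_erase hodd (fun r => algebraMap L M (vCoef W r) / (xCo P - algebraMap L M r) +
      algebraMap L M (uCoef W r) / (xCo P - algebraMap L M r) ^ 2),
    ← Finset.smul_sum, nsmul_eq_mul, Nat.cast_ofNat] at h2
  linear_combination -h2

lemma veluX₁_mul_psiCo {P : (W⁄M).Point} (hP : P ∉ kerM G M) :
    veluX₁ W (kerXs G) (xCo P) * psiCo P = sumPsi G P := by
  haveI : NeZero (2 : M) := ⟨by
    rw [← map_ofNat (algebraMap L M)]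
    exact (_root_.map_ne_zero _).mpr two_ne_zero⟩
  obtain ⟨hP0, hx⟩ := notMem_kerM_iff.mp hP
  have h0 : (0 : (W⁄L).Point) ∈ kerFinset G := by simp
  rw [veluX₁_eq_sum W _ hx, sumPsi, ← Finset.add_sum_erase _ _ h0, map_zero, add_zero]
  refine mul_left_cancel₀ (two_ne_zero (α := M)) ?_
  have key : ∀ Q ∈ (kerFinset G).erase 0, psiCo (P + bc M Q) + psiCo (P + bc M (-Q)) =
      psiCo P * (-algebraMap L M (vCoef W (xCo Q)) / (xCo P - algebraMap L M (xCo Q)) ^ 2 -
        2 * algebraMap L M (uCoef W (xCo Q)) / (xCo P - algebraMap L M (xCo Q)) ^ 3) := by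
    intro Q hQ
    simp only [Finset.mem_erase, mem_kerFinset] at hQ
    have hQ' : bc M Q ≠ 0 := (map_ne_zero_iff _ bc_injective).mpr hQ.1
    have := psiCo_add_add_psiCo_sub hP0 hQ' (by
      rw [xCo_bc]; exact hx _ (mem_kerXs.mpr ⟨Q, hQ.2, hQ.1, rfl⟩))
    rwa [sub_eq_add_neg, ← map_neg, xCo_bc, vCoef_baseChange, uCoef_baseChange] at this
  have h2 := Finset.sum_congr (s₁ := (kerFinset G).erase 0) rfl key
  rw [Finset.sum_add_distrib, sum_kerFinset_neg (fun Q => psiCo (P + bc M Q)),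
    ← Finset.mul_sum,
    sum_kerFinset_erase hodd (fun r =>
      -algebraMap L M (vCoef W r) / (xCo P - algebraMap L M r) ^ 2 -
        2 * algebraMap L M (uCoef W r) / (xCo P - algebraMap L M r) ^ 3),
    ← Finset.smul_sum, nsmul_eq_mul, Nat.cast_ofNat] at h2
  linear_combination -h2

omit hodd

lemma add_bc_notMem_kerM {P : (W⁄M).Point} (hP : P ∉ kerM G M) {T : (W⁄L).Point} (hT : T ∈ G) :
    P + bc M T ∉ kerM G M := fun h =>
  hP (by simpa using sub_mem h (bc_mem_kerM.mpr hT))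

include hodd

lemma veluX_add_bc {P : (W⁄M).Point} (hP : P ∉ kerM G M) {T : (W⁄L).Point} (hT : T ∈ G) :
    veluX W (kerXs G) (xCo (P + bc M T)) = veluX W (kerXs G) (xCo P) := by
  rw [veluX_eq_sumX hodd hP, veluX_eq_sumX hodd (add_bc_notMem_kerM hP hT), sumX, sumX,
    sum_translate xCo P hT]

lemma veluX₁_add_bc {P : (W⁄M).Point} (hP : P ∉ kerM G M) {T : (W⁄L).Point} (hT : T ∈ G) :
    veluX₁ W (kerXs G) (xCo (P + bc M T)) * psiCo (P + bc M T) =
      veluX₁ W (kerXs G) (xCo P) * psiCo P := by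
  rw [veluX₁_mul_psiCo hodd hP, veluX₁_mul_psiCo hodd (add_bc_notMem_kerM hP hT), sumPsi, sumPsi,
    sum_translate psiCo P hT]

/-- Translation invariance of the defect of the curve equation. -/
lemma veluDefect_translate {P : (W⁄M).Point} (hP : P ∉ kerM G M) {T : (W⁄L).Point}
    (hT : T ∈ G) :
    aeval (xCo (P + bc M T)) (veluDefect W (kerXs G)) *
        aeval (xCo P) (veluD (kerXs G)) ^ 6 =
      aeval (xCo P) (veluDefect W (kerXs G)) *
        aeval (xCo (P + bc M T)) (veluD (kerXs G)) ^ 6 := by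
  haveI : NeZero (2 : M) := ⟨by
    rw [← map_ofNat (algebraMap L M)]
    exact (_root_.map_ne_zero _).mpr two_ne_zero⟩
  have hP' := add_bc_notMem_kerM hP hT
  have key : ∀ R : (W⁄M).Point, R ∉ kerM G M →
      aeval (xCo R) (veluDefect W (kerXs G)) = aeval (xCo R) (veluD (kerXs G)) ^ 6 *
        ((veluX₁ W (kerXs G) (xCo R) * psiCo R) ^ 2 -
          (4 * veluX W (kerXs G) (xCo R) ^ 3 +
            algebraMap L M (veluCurve W (kerXs G)).b₂ * veluX W (kerXs G) (xCo R) ^ 2 +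
            2 * algebraMap L M (veluCurve W (kerXs G)).b₄ * veluX W (kerXs G) (xCo R) +
            algebraMap L M (veluCurve W (kerXs G)).b₆)) := by
    intro R hR
    obtain ⟨hR0, hx⟩ := notMem_kerM_iff.mp hR
    have hD := aeval_veluD_ne_zero _ hx
    rw [mul_pow, psiCo_sq hR0, uCoef_baseChange', veluX, veluX₁, veluDefect]
    simp only [map_sub, map_add, map_mul, map_pow, map_ofNat, aeval_C]
    field_simp
  rw [key P hP, key _ hP', veluX₁_add_bc hodd hP hT, veluX_add_bc hodd hP hT]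
  ring

end FermatLib.EC.Velu
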