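import Fermat.Agent.EC.VeluLift

/-!
# Vélu's map is a homomorphism
-/

set_option autoImplicit false

open Polynomial WeierstrassCurve
open scoped WeierstrassCurve.Affine

namespace FermatLib.EC.Velu

variable {L : Type*} [Field L] [CharZero L] [IsAlgClosed L] [DecidableEq L]
  {W : WeierstrassCurve.Affine L} [W.IsElliptic]

lemma infinite_point : Infinite (W⁄L).Point := by
  have := isElliptic_baseChange (W := W) L
  have h : ∀ x : L, ∃ P : (W⁄L).Point, xCo P = x := fun x => by
    obtain ⟨s, hs⟩ := IsAlgClosed.exists_pow_nat_eq (uCoef (W⁄L) x) two_pos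
    obtain ⟨P, -, hP, -⟩ := exists_point (W := W⁄L) hs
    exact ⟨P, hP⟩
  choose f hf using h
  exact Infinite.of_injective f fun x y e => by rw [← hf x, ← hf y, e]

lemma exists_avoid {s : Set (W⁄L).Point} (hs : s.Finite) : ∃ P, P ∉ s := by
  have := infinite_point (W := W)
  exact hs.exists_notMem

lemma psiSq_ne_zero : psiSq (W : WeierstrassCurve L) ≠ 0 := fun h => by
  have := congrArg (fun p : L[X] => p.coeff 3) h
  simp [psiSq] at this

lemma finite_psiCo_eq_zero : {P : (W⁄L).Point | psiCo P = 0}.Finite := by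
  refine Set.Finite.subset ((Set.finite_singleton 0).union
    (finite_eval_xCo_eq_zero (psiSq_ne_zero (W := W)))) fun P (hP : psiCo P = 0) => ?_
  by_cases h : P = 0
  · exact Or.inl h
  · refine Or.inr ?_
    have h2 := psiCo_sq h
    rw [hP, zero_pow two_ne_zero, uCoef_baseChange', coe_aeval_eq_eval] at h2
    exact h2.symm

lemma finite_xCo_eq' (c : L) : {P : (W⁄L).Point | xCo P = c}.Finite := by
  refine ((Set.finite_singleton 0).union (finite_xCo_eq (W := W) c)).subset fun P hP => ?_
  by_cases h : P = 0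
  · exact Or.inl h
  · exact Or.inr ⟨h, hP⟩

lemma finite_preimage_add {s : Set (W⁄L).Point} (hs : s.Finite) (T : (W⁄L).Point) :
    {S | S + T ∈ s}.Finite :=
  hs.preimage (add_left_injective T).injOn

variable {G : AddSubgroup (W⁄L).Point} [Finite G] (hodd : OddKernel G)
include hodd

lemma finite_psiCo_veluMap_eq_zero :
    {P : (W⁄L).Point | psiCo (veluMap hodd L P) = 0}.Finite := by
  have := veluCurve_isElliptic hodd
  exact (finite_psiCo_eq_zero (W := quotCurve G)).preimage' fun Z _ => finite_veluMap_fibre hodd Z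

omit hodd [Finite G] in
lemma exists_lift {S : (W⁄L).Point} (hψ : psiCo S ≠ 0) :
    ∃ (g : W.FunctionField →ₐ[L] SerField L) (P : (W⁄(SerField L)).Point) (δ : PowerSeries L),
      δ ≠ 0 ∧ Affine.Point.map g (genericPoint W) = P ∧ IsLift δ P S := by
  have hS : S ≠ 0 := by rintro rfl; exact hψ rfl
  obtain ⟨g, P, s, hg, hP, hs0, -, hx, hp⟩ := exists_specialization hS hψ
  have hs : PowerSeries.constantCoeff s ≠ 0 := hs0 ▸ hψ
  refine ⟨g, P, s⁻¹, ?_, hg, hP, hS, _, s, hx, hp, constantCoeff_serX _, hs0, ?_⟩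
  · intro e
    simpa [e] using PowerSeries.mul_inv_cancel s hs
  · rw [derivative_serX, PowerSeries.inv_mul_cancel s hs]

lemma map_veluMap_generic (g : W.FunctionField →ₐ[L] SerField L) {P : (W⁄(SerField L)).Point}
    (hg : Affine.Point.map g (genericPoint W) = P) (T : (W⁄L).Point) :
    Affine.Point.map g
      (veluMap hodd W.FunctionField (genericPoint W + bc W.FunctionField T)) =
      veluMap hodd (SerField L) (P + bc (SerField L) T) := by
  rw [map_veluMap, map_add, hg, map_bc]

lemma exists_const (T : (W⁄L).Point) : ∃ c : ((quotCurve G)⁄L).Point,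
    veluMap hodd W.FunctionField (genericPoint W + bc W.FunctionField T) =
      veluMap hodd W.FunctionField (genericPoint W) + bc W.FunctionField c := by
  set A := veluMap hodd W.FunctionField (genericPoint W + bc W.FunctionField T) with hA
  set B := veluMap hodd W.FunctionField (genericPoint W) with hB
  by_cases hT : T = 0
  · exact ⟨0, by rw [hA, hB, hT, map_zero, map_zero, add_zero, add_zero]⟩
  obtain ⟨S, hS⟩ := exists_avoid (W := W)
    ((((((Set.toFinite (G : Set _)).union finite_psiCo_eq_zero).union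
      (finite_xCo_eq' (xCo T))).union (finite_preimage_add (Set.toFinite (G : Set _)) T)).union
      (finite_psiCo_veluMap_eq_zero hodd)).union
      (finite_preimage_add (finite_psiCo_veluMap_eq_zero hodd) T))
  simp only [Set.mem_union, SetLike.mem_coe, Set.mem_ofPred_eq, not_or] at hS
  obtain ⟨⟨⟨⟨⟨hSG, hψ⟩, hx⟩, hSTG⟩, hφ⟩, hφT⟩ := hS
  obtain ⟨g, P, δ, hδ, hg, hlift⟩ := exists_lift hψ
  have hLB : IsLift δ (Affine.Point.map g B) (veluMap hodd L S) := by
    rw [hB, map_veluMap, hg]
    exact hlift.veluMap hodd hSG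
  have hLA : IsLift δ (Affine.Point.map g A) (veluMap hodd L (S + T)) := by
    rw [hA, map_veluMap_generic hodd g hg]
    exact (hlift.add_bc hψ hT hx).veluMap hodd hSTG
  have := neZero_two L (SerField L)
  have := veluCurve_isElliptic hodd
  by_cases hxAB : xCo (Affine.Point.map g A) = xCo (Affine.Point.map g B)
  · rcases eq_or_eq_neg_of_xCo_eq hLA.1 hLB.1 hxAB with h | h
    · refine ⟨0, ?_⟩
      rw [map_zero, add_zero]
      exact Affine.Point.map_injective g h
    · exfalso
      obtain ⟨-, -, a, b, ha, hb, -, hb0, hd⟩ := hLA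
      obtain ⟨-, -, a', b', ha', hb', -, hb0', hd'⟩ := hLB
      obtain rfl : a = a' := serField_algebraMap_injective (ha.symm.trans (hxAB.trans ha'))
      have hbb : b = b' := mul_left_cancel₀ hδ (hd.symm.trans hd')
      rw [h, psiCo_neg, hb', ← map_neg] at hb
      have hneg := serField_algebraMap_injective hb
      have h0 := congrArg PowerSeries.constantCoeff hneg
      rw [map_neg, hb0', hb0] at h0
      have h1 : psiCo (veluMap hodd L S) = psiCo (veluMap hodd L (S + T)) := by
        rw [← hb0', ← hbb, hb0]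
      apply hφ
      linear_combination (-(1 : L) / 2) * h0 + (1 / 2 : L) * h1
  · obtain ⟨hne, c, hc⟩ := exists_const_of_lifts hLA hLB hφT hφ hxAB
    rw [← map_sub] at hne hc
    rw [xCo_map, ← g.commutes c] at hc
    have hc' := RingHom.injective (g : W.FunctionField →+* SerField L) hc
    have hne' : A - B ≠ 0 := fun e => hne (by rw [e, map_zero])
    obtain ⟨s, hs⟩ := IsAlgClosed.exists_pow_nat_eq (uCoef ((quotCurve G)⁄L) c) two_pos
    have := isElliptic_baseChange (W := quotCurve G) L
    obtain ⟨Z, hZ, hZx, -⟩ := exists_point (W := (quotCurve G)⁄L) hs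
    rcases eq_or_eq_neg_of_xCo_eq hne' ((map_ne_zero_iff _ bc_injective).mpr hZ)
      (hc'.trans (by rw [xCo_bc, hZx])) with h | h
    · exact ⟨Z, by rw [← h]; abel⟩
    · exact ⟨-Z, by rw [map_neg, ← h]; abel⟩

/-- The translation constant `φ(η + T) - φ(η)`. -/
noncomputable def veluConst (T : (W⁄L).Point) : ((quotCurve G)⁄L).Point :=
  (exists_const hodd T).choose

lemma veluConst_spec (T : (W⁄L).Point) :
    veluMap hodd W.FunctionField (genericPoint W + bc W.FunctionField T) =
      veluMap hodd W.FunctionField (genericPoint W) + bc W.FunctionField (veluConst hodd T) :=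
  (exists_const hodd T).choose_spec

lemma veluConst_zero : veluConst hodd (0 : (W⁄L).Point) = 0 := by
  apply bc_injective (M := W.FunctionField)
  have h := veluConst_spec hodd (0 : (W⁄L).Point)
  rwa [map_zero, add_zero, left_eq_add, ← map_zero (bc W.FunctionField)] at h

lemma veluConst_of_mem {Q : (W⁄L).Point} (hQ : Q ∈ G) : veluConst hodd Q = 0 := by
  apply bc_injective (M := W.FunctionField)
  have h := veluConst_spec hodd Q
  rwa [veluMap_add_bc hodd _ hQ, left_eq_add, ← map_zero (bc W.FunctionField)] at h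

/-- Base points at which the translation by `T` can be evaluated. -/
def IsBase (T S : (W⁄L).Point) : Prop :=
  S ∉ G ∧ psiCo S ≠ 0 ∧ S + T ∉ G ∧ (T ≠ 0 → xCo S ≠ xCo T) ∧
    (veluConst hodd T ≠ 0 → xCo (veluMap hodd L S) ≠ xCo (veluConst hodd T))

lemma veluMap_add_of_isBase {T S : (W⁄L).Point} (h : IsBase hodd T S) :
    veluMap hodd L (S + T) = veluMap hodd L S + veluConst hodd T := by
  obtain ⟨hSG, hψ, hSTG, hx, hxC⟩ := h
  by_cases hT : T = 0
  · rw [hT, veluConst_zero, add_zero, add_zero]
  obtain ⟨g, P, δ, -, hg, hlift⟩ := exists_lift hψ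
  have hl := (hlift.reduces.add_bc hT (hx hT)).veluMap hodd hSTG
  have hr := hlift.reduces.veluMap hodd hSG
  have he := congrArg (Affine.Point.map g) (veluConst_spec hodd T)
  rw [map_veluMap_generic hodd g hg, map_add, map_veluMap, hg, map_bc] at he
  rw [he] at hl
  by_cases hC : veluConst hodd T = 0
  · rw [hC, map_zero, add_zero] at hl
    rw [hC, add_zero]
    exact hl.unique hr
  · exact hl.unique (hr.add_bc hC (hxC hC))

lemma finite_not_isBase (T : (W⁄L).Point) : {S | ¬ IsBase hodd T S}.Finite := by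
  have := veluCurve_isElliptic hodd
  refine ((((((Set.toFinite (G : Set _)).union finite_psiCo_eq_zero).union
    (finite_preimage_add (Set.toFinite (G : Set _)) T)).union
    (finite_xCo_eq' (xCo T))).union
    ((finite_xCo_eq' (W := quotCurve G) (xCo (veluConst hodd T))).preimage'
      fun Z _ => finite_veluMap_fibre hodd Z))).subset fun S hS => ?_
  simp only [Set.mem_union, SetLike.mem_coe, Set.mem_ofPred_eq, Set.mem_preimage]
  rw [Set.mem_ofPred_eq, IsBase] at hS
  tauto

lemma veluConst_add (T U : (W⁄L).Point) :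
    veluConst hodd (T + U) = veluConst hodd T + veluConst hodd U := by
  obtain ⟨S, hS⟩ := exists_avoid (((finite_not_isBase hodd (T + U)).union
    (finite_not_isBase hodd T)).union (finite_preimage_add (finite_not_isBase hodd U) T))
  simp only [Set.mem_union, Set.mem_ofPred_eq, not_or, not_not] at hS
  obtain ⟨⟨h1, h2⟩, h3⟩ := hS
  have h := veluMap_add_of_isBase hodd h1
  rw [← add_assoc, veluMap_add_of_isBase hodd h3, veluMap_add_of_isBase hodd h2, add_assoc] at h
  exact (add_left_cancel h).symm

/-- The translation constants as a homomorphism. -/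
noncomputable def veluHom : (W⁄L).Point →+ ((quotCurve G)⁄L).Point :=
  AddMonoidHom.mk' (veluConst hodd) (veluConst_add hodd)

lemma finite_veluHom_fibre (Z : ((quotCurve G)⁄L).Point) :
    {U : (W⁄L).Point | veluHom hodd U = Z}.Finite := by
  obtain ⟨S, hS⟩ := exists_avoid (((Set.toFinite (G : Set _)).union
    (finite_psiCo_eq_zero (W := W))))
  simp only [Set.mem_union, SetLike.mem_coe, Set.mem_ofPred_eq, not_or] at hS
  have hker : {U : (W⁄L).Point | veluHom hodd U = 0}.Finite := by
    refine ((finite_preimage_add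
      ((finite_veluMap_fibre hodd (veluMap hodd L S)).union (Set.toFinite (G : Set _))) S).union
      (finite_xCo_eq' (xCo S))).subset fun U (hU : veluConst hodd U = 0) => ?_
    simp only [Set.mem_union, SetLike.mem_coe, Set.mem_ofPred_eq]
    by_cases hG : U + S ∈ G
    · exact Or.inl (Or.inr hG)
    by_cases hx : xCo U = xCo S
    · exact Or.inr hx
    refine Or.inl (Or.inl ?_)
    rw [add_comm, veluMap_add_of_isBase hodd ⟨hS.1, hS.2, by rwa [add_comm],
      fun _ => Ne.symm hx, fun h => absurd hU h⟩, hU, add_zero]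
  by_cases h : ∃ U₀, veluHom hodd U₀ = Z
  · obtain ⟨U₀, hU₀⟩ := h
    refine (hker.preimage ((sub_left_injective (b := U₀)).injOn)).subset fun U hU => ?_
    simp only [Set.mem_preimage, Set.mem_ofPred_eq, map_sub] at hU ⊢
    rw [hU, hU₀, sub_self]
  · push Not at h
    exact Set.finite_empty.subset fun U hU => absurd hU (h U)

lemma finite_not_isBase_swap {S : (W⁄L).Point} (hS : S ∉ G) (hψ : psiCo S ≠ 0) :
    {U | ¬ IsBase hodd U S}.Finite := by
  have := veluCurve_isElliptic hodd
  refine (((finite_preimage_add (Set.toFinite (G : Set _)) S).union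
    (finite_xCo_eq' (xCo S))).union
    ((finite_xCo_eq' (W := quotCurve G) (xCo (veluMap hodd L S))).preimage'
      fun Z _ => finite_veluHom_fibre hodd Z)).subset fun U hU => ?_
  simp only [Set.mem_union, SetLike.mem_coe, Set.mem_ofPred_eq, Set.mem_preimage]
  rw [Set.mem_ofPred_eq, IsBase, add_comm S U] at hU
  by_contra hcon
  push Not at hcon
  exact hU ⟨hS, hψ, hcon.1.1, fun _ => Ne.symm hcon.1.2, fun _ => Ne.symm hcon.2⟩

/-- Vélu's map is a homomorphism (for a nontrivial kernel). -/
theorem veluMap_eq_veluHom (hne : ∃ Q ∈ G, Q ≠ 0) (P : (W⁄L).Point) :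
    veluMap hodd L P = veluHom hodd P := by
  obtain ⟨Q, hQG, hQ0⟩ := hne
  set D : (W⁄L).Point → ((quotCurve G)⁄L).Point := fun S => veluMap hodd L S - veluHom hodd S
    with hD
  have hconst : ∀ S S' : (W⁄L).Point, S ∉ G → psiCo S ≠ 0 → S' ∉ G → psiCo S' ≠ 0 →
      D S = D S' := by
    intro S S' h1 h2 h1' h2'
    obtain ⟨U, hU⟩ := exists_avoid ((((finite_not_isBase_swap hodd h1 h2).union
      (finite_not_isBase_swap hodd h1' h2')).union (finite_not_isBase hodd S)).union
      (finite_not_isBase hodd S'))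
    simp only [Set.mem_union, Set.mem_ofPred_eq, not_or, not_not] at hU
    obtain ⟨⟨⟨a, a'⟩, b⟩, b'⟩ := hU
    have key : ∀ R, IsBase hodd U R → IsBase hodd R U → D R = D U := by
      intro R hR hR'
      have e := veluMap_add_of_isBase hodd hR
      rw [add_comm, veluMap_add_of_isBase hodd hR'] at e
      show veluMap hodd L R - veluConst hodd R = veluMap hodd L U - veluConst hodd U
      rw [sub_eq_sub_iff_add_eq_add]
      exact e.symm.trans (by rfl)
    rw [key S a b, key S' a' b']
  -- translation invariance by `G`, and every point off `G` is equivalent to a good one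
  have hDQ : ∀ S, D (S + Q) = D S := fun S => by
    have h1 : veluMap hodd L (S + Q) = veluMap hodd L S := by
      have := veluMap_add_bc hodd (M := L) S hQG
      rwa [bc_self] at this
    show _ - veluHom hodd (S + Q) = _
    rw [h1, map_add, show veluHom hodd Q = 0 from veluConst_of_mem hodd hQG, add_zero]
  obtain ⟨S₀, hS₀⟩ := exists_avoid (((Set.toFinite (G : Set _)).union
    (finite_psiCo_eq_zero (W := W))))
  simp only [Set.mem_union, SetLike.mem_coe, Set.mem_ofPred_eq, not_or] at hS₀
  set c := D S₀ with hc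
  have hgood : ∀ S, S ∉ G → D S = c := by
    intro S hS
    by_cases hψ : psiCo S = 0
    · rw [← hDQ S]
      have hSQ : S + Q ∉ G := fun h => hS (by simpa using sub_mem h hQG)
      refine hconst _ _ hSQ (fun h => hQ0 (hodd Q hQG ?_)) hS₀.1 hS₀.2
      have hS0 : S ≠ 0 := fun e => hS (e ▸ zero_mem G)
      have two : ∀ R : (W⁄L).Point, R ≠ 0 → psiCo R = 0 → (2 : ℕ) • R = 0 := fun R hR hψ => by
        by_contra hh
        exact psiCo_ne_zero_of_two_nsmul hR hh hψ
      have hSQ0 : S + Q ≠ 0 := fun e => hSQ (e ▸ zero_mem G)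
      simpa [smul_add, two S hS0 hψ] using two _ hSQ0 h
    · exact hconst _ _ hS hψ hS₀.1 hS₀.2
  have hneg : -c = c := by
    have hDneg : D (-S₀) = -D S₀ := by
      simp only [hD, veluMap_neg, map_neg, neg_sub]
      abel
    exact hDneg.symm.trans (hgood (-S₀) (fun h => hS₀.1 (by simpa using neg_mem h)))
  have hc0 : c = 0 := by
    by_contra hc0
    have := veluCurve_isElliptic hodd
    have himg : ∀ Z, Z ≠ 0 → Z - c ∈ Set.range (veluHom hodd) := by
      intro Z hZ
      obtain ⟨S, rfl⟩ := veluMap_surjective hodd Z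
      have hS : S ∉ G := fun h => hZ (veluMap_of_mem hodd (mem_kerM_self.mpr h))
      exact ⟨S, by rw [← hgood S hS, hD]; exact (sub_sub_cancel _ _).symm⟩
    obtain ⟨Z, hZ⟩ := exists_avoid (W := quotCurve G)
      ((Set.finite_singleton 0).union (Set.finite_singleton (-c)))
    simp only [Set.mem_union, Set.mem_singleton_iff, not_or] at hZ
    obtain ⟨U₁, hU₁⟩ := himg Z hZ.1
    obtain ⟨U₂, hU₂⟩ := himg (Z + c) (fun h => hZ.2 (eq_neg_of_add_eq_zero_left h))
    have hU : veluHom hodd (U₂ - U₁) = c := by rw [map_sub, hU₁, hU₂]; abel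
    by_cases hG : U₂ - U₁ ∈ G
    · exact hc0 (hU.symm.trans (veluConst_of_mem hodd hG))
    · have h := hgood _ hG
      simp only [hD] at h
      rw [hU, sub_eq_iff_eq_add] at h
      refine veluMap_ne_zero hodd (mem_kerM_self.not.mpr hG) ?_
      rw [h]
      nth_rw 1 [← hneg]
      exact neg_add_cancel c
  by_cases hP : P ∈ G
  · rw [veluMap_of_mem hodd (mem_kerM_self.mpr hP)]
    exact (veluConst_of_mem hodd hP).symm
  · exact sub_eq_zero.mp ((hgood P hP).trans hc0)

lemma veluHom_surjective (hne : ∃ Q ∈ G, Q ≠ 0) : Function.Surjective (veluHom hodd) := fun Z => by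
  obtain ⟨P, hP⟩ := veluMap_surjective hodd Z
  exact ⟨P, by rw [← veluMap_eq_veluHom hodd hne, hP]⟩

lemma ker_veluHom (hne : ∃ Q ∈ G, Q ≠ 0) : (veluHom hodd).ker = G := by
  ext P
  rw [AddMonoidHom.mem_ker, ← veluMap_eq_veluHom hodd hne, veluMap_eq_zero_iff, mem_kerM_self]

end FermatLib.EC.Velu
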