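import Fermat.Agent.EC.VeluField

/-!
# Power series points with their invariant differential
-/

set_option autoImplicit false

open Polynomial WeierstrassCurve
open scoped WeierstrassCurve.Affine

namespace FermatLib.EC.Velu

variable {L : Type*} [Field L] [CharZero L] [DecidableEq L] {V : WeierstrassCurve.Affine L}

local notation "ιS" => algebraMap (PowerSeries L) (SerField L)
local notation "κ" => PowerSeries.constantCoeff
local notation "∂" => PowerSeries.derivative L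

omit [DecidableEq L] in
lemma serTwo_ne_zero : (2 : PowerSeries L) ≠ 0 := by
  rw [← map_ofNat PowerSeries.C, map_ne_zero_iff _ PowerSeries.C_injective]; norm_num

omit [DecidableEq L] in
lemma serFour_ne_zero : (4 : PowerSeries L) ≠ 0 := by
  rw [← map_ofNat PowerSeries.C, map_ne_zero_iff _ PowerSeries.C_injective]; norm_num

omit [DecidableEq L] in
lemma serFieldFour_ne_zero : (4 : SerField L) ≠ 0 := by
  rw [← map_ofNat ιS, map_ne_zero_iff _ serField_algebraMap_injective]; exact serFour_ne_zero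

omit [DecidableEq L] [CharZero L] in
lemma serDerivative_four : ∂ (4 : PowerSeries L) = 0 := by
  rw [← map_ofNat PowerSeries.C, PowerSeries.derivative_C]

/-- `P` is a power series point specialising to `S`. -/
def Reduces (P : (V⁄(SerField L)).Point) (S : (V⁄L).Point) : Prop :=
  P ≠ 0 ∧ S ≠ 0 ∧ ∃ a b : PowerSeries L, xCo P = ιS a ∧ psiCo P = ιS b ∧
    κ a = xCo S ∧ κ b = psiCo S

/-- `P` is a power series point specialising to `S`, with `dx/ψ = δ dt`. -/
def IsLift (δ : PowerSeries L) (P : (V⁄(SerField L)).Point) (S : (V⁄L).Point) : Prop :=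
  P ≠ 0 ∧ S ≠ 0 ∧ ∃ a b : PowerSeries L, xCo P = ιS a ∧ psiCo P = ιS b ∧
    κ a = xCo S ∧ κ b = psiCo S ∧ ∂ a = δ * b

omit [DecidableEq L] [CharZero L] in
lemma IsLift.reduces {δ : PowerSeries L} {P : (V⁄(SerField L)).Point} {S : (V⁄L).Point}
    (h : IsLift δ P S) : Reduces P S := by
  obtain ⟨hP, hS, a, b, ha, hb, ha0, hb0, -⟩ := h
  exact ⟨hP, hS, a, b, ha, hb, ha0, hb0⟩

omit [DecidableEq L] in
lemma Reduces.unique {P : (V⁄(SerField L)).Point}
    {S S' : (V⁄L).Point} (h : Reduces P S) (h' : Reduces P S') : S = S' := by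
  obtain ⟨-, hS, a, b, ha, hb, ha0, hb0⟩ := h
  obtain ⟨-, hS', a', b', ha', hb', ha0', hb0'⟩ := h'
  obtain rfl : a = a' := serField_algebraMap_injective (ha.symm.trans ha')
  obtain rfl : b = b' := serField_algebraMap_injective (hb.symm.trans hb')
  exact ext_xCo_psiCo hS hS' (ha0.symm.trans ha0') (hb0.symm.trans hb0')

omit [DecidableEq L] in
lemma psi_sq_series {P : (V⁄(SerField L)).Point} (hP : P ≠ 0) {a b : PowerSeries L}
    (ha : xCo P = ιS a) (hb : psiCo P = ιS b) : b ^ 2 = aeval a (psiSq V) := by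
  have := neZero_two L (SerField L)
  apply serField_algebraMap_injective
  rw [map_pow, ← hb, psiCo_sq hP, ha, uCoef_baseChange', aeval_algebraMap_apply]

omit [DecidableEq L] in
lemma derivative_psi {a b δ : PowerSeries L} (h : b ^ 2 = aeval a (psiSq V)) (hb : b ≠ 0)
    (hd : ∂ a = δ * b) :
    ∂ b = (6 * a ^ 2 + PowerSeries.C V.b₂ * a + PowerSeries.C V.b₄) * δ := by
  have h' := congrArg (∂) h
  rw [derivative_aeval_psiSq, sq, Derivation.leibniz, hd, smul_eq_mul] at h'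
  refine mul_left_cancel₀ (mul_ne_zero serTwo_ne_zero hb) ?_
  linear_combination h'

omit [DecidableEq L] in
lemma serFour_mul_quarter : (4 : PowerSeries L) * PowerSeries.C (1 / 4) = 1 := by
  rw [← map_ofNat PowerSeries.C, ← map_mul,
    show (OfNat.ofNat 4 : L) * (1 / 4) = 1 by norm_num, map_one]

lemma add_bc_aux {P : (V⁄(SerField L)).Point} {S T : (V⁄L).Point} (hP : P ≠ 0) (hS : S ≠ 0)
    {a b : PowerSeries L} (ha : xCo P = ιS a) (hb : psiCo P = ιS b) (ha0 : κ a = xCo S)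
    (hb0 : κ b = psiCo S) (hT : T ≠ 0) (hx : xCo S ≠ xCo T) :
    P + bc (SerField L) T ≠ 0 ∧ S + T ≠ 0 ∧ a - PowerSeries.C (xCo T) ≠ 0 ∧
      ∃ a₃ b₃ : PowerSeries L, xCo (P + bc (SerField L) T) = ιS a₃ ∧
      psiCo (P + bc (SerField L) T) = ιS b₃ ∧ κ a₃ = xCo (S + T) ∧ κ b₃ = psiCo (S + T) ∧
      4 * (a - PowerSeries.C (xCo T)) ^ 2 * a₃ = (b - PowerSeries.C (psiCo T)) ^ 2 -
        (PowerSeries.C V.b₂ + 4 * a + 4 * PowerSeries.C (xCo T)) *
          (a - PowerSeries.C (xCo T)) ^ 2 ∧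
      (a - PowerSeries.C (xCo T)) * b₃ = (b - PowerSeries.C (psiCo T)) * (a - a₃) -
        b * (a - PowerSeries.C (xCo T)) := by
  have := neZero_two L (SerField L)
  set d := a - PowerSeries.C (xCo T) with hdd
  have hd0 : κ d ≠ 0 := by simpa [hdd, ha0, sub_eq_zero] using hx
  have hdu : d * d⁻¹ = 1 := PowerSeries.mul_inv_cancel _ hd0
  have hdne : d ≠ 0 := fun e => hd0 (by rw [e, map_zero])
  set e := b - PowerSeries.C (psiCo T) with hee
  set K := PowerSeries.C V.b₂ + 4 * a + 4 * PowerSeries.C (xCo T) with hK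
  set a₃ := PowerSeries.C (1 / 4) * (e ^ 2 * (d⁻¹) ^ 2 - K) with ha₃
  set b₃ := (e * (a - a₃) - b * d) * d⁻¹ with hb₃
  have h4 := serFour_mul_quarter (L := L)
  have hA : 4 * d ^ 2 * a₃ = e ^ 2 - K * d ^ 2 := by
    linear_combination (4 * d ^ 2) * ha₃ + (d ^ 2 * e ^ 2 * (d⁻¹) ^ 2 - d ^ 2 * K) * h4 +
      (e ^ 2 * (d * d⁻¹ + 1)) * hdu
  have hB : d * b₃ = e * (a - a₃) - b * d := by
    linear_combination d * hb₃ + (e * (a - a₃) - b * d) * hdu
  have hT' : bc (SerField L) T ≠ 0 := (map_ne_zero_iff _ bc_injective).mpr hT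
  have hxP : xCo P - xCo (bc (SerField L) T) = ιS d := by
    rw [ha, xCo_bc, hdd, map_sub, serField_algebraMap_C]
  have hdι : ιS d ≠ 0 := (map_ne_zero_iff _ serField_algebraMap_injective).mpr hdne
  obtain ⟨hne, hX, hΨ⟩ := add_coords hP hT' (sub_ne_zero.mp (hxP ▸ hdι))
  have hb₂ : (V⁄(SerField L)).b₂ = ιS (PowerSeries.C V.b₂) := by
    rw [serField_algebraMap_C]; simp [WeierstrassCurve.baseChange]
  have he : psiCo P - psiCo (bc (SerField L) T) = ιS e := by
    rw [hb, psiCo_bc, hee, map_sub, serField_algebraMap_C]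
  have hKι : (V⁄(SerField L)).b₂ + 4 * xCo P + 4 * xCo (bc (SerField L) T) = ιS K := by
    rw [hb₂, ha, xCo_bc, ← serField_algebraMap_C, hK]; simp [map_ofNat]
  rw [hxP, he, hKι, ← map_pow, ← map_pow] at hX
  have hx3 : xCo (P + bc (SerField L) T) = ιS a₃ := by
    refine mul_left_cancel₀ (mul_ne_zero serFieldFour_ne_zero (pow_ne_zero 2 hdι)) ?_
    rw [← map_pow, hX, ← map_mul, ← map_sub, ← hA, ← map_ofNat ιS, ← map_mul, ← map_mul]
  rw [hxP, he, hx3, ha, hb, ← map_sub, ← map_mul, ← map_mul, ← map_sub] at hΨ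
  have hψ3 : psiCo (P + bc (SerField L) T) = ιS b₃ := by
    refine mul_left_cancel₀ hdι ?_
    rw [hΨ, ← map_mul, hB]
  -- the point downstairs
  obtain ⟨hne', hX', hΨ'⟩ := add_coords hS hT hx
  have hb₂' : (V⁄L).b₂ = V.b₂ := rfl
  rw [hb₂'] at hX'
  have hκd : κ d = xCo S - xCo T := by simp [hdd, ha0]
  have hκa : κ a₃ = xCo (S + T) := by
    have h1 := congrArg κ hA
    simp only [hee, hK, map_mul, map_pow, map_ofNat, map_sub, map_add, hκd, hb0, ha0,
      PowerSeries.constantCoeff_C] at h1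
    refine mul_left_cancel₀ (mul_ne_zero (show (4 : L) ≠ 0 by norm_num)
      (pow_ne_zero 2 (sub_ne_zero.mpr hx))) ?_
    linear_combination h1 - hX'
  have hκb : κ b₃ = psiCo (S + T) := by
    have h1 := congrArg κ hB
    simp only [hee, map_mul, map_sub, hκd, hb0, ha0, hκa, PowerSeries.constantCoeff_C] at h1
    refine mul_left_cancel₀ (sub_ne_zero.mpr hx) ?_
    linear_combination h1 - hΨ'
  exact ⟨hne, hne', hdne, a₃, b₃, hx3, hψ3, hκa, hκb, hA, hB⟩

lemma Reduces.add_bc {P : (V⁄(SerField L)).Point} {S T : (V⁄L).Point}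
    (h : Reduces P S) (hT : T ≠ 0) (hx : xCo S ≠ xCo T) :
    Reduces (P + bc (SerField L) T) (S + T) := by
  obtain ⟨hP, hS, a, b, ha, hb, ha0, hb0⟩ := h
  obtain ⟨hne, hne', -, a₃, b₃, hx3, hψ3, hκa, hκb, -, -⟩ :=
    add_bc_aux hP hS ha hb ha0 hb0 hT hx
  exact ⟨hne, hne', a₃, b₃, hx3, hψ3, hκa, hκb⟩

/-- Translation by a constant point preserves the differential. -/
lemma IsLift.add_bc {δ : PowerSeries L} {P : (V⁄(SerField L)).Point} {S T : (V⁄L).Point}
    (h : IsLift δ P S) (hψ : psiCo S ≠ 0) (hT : T ≠ 0) (hx : xCo S ≠ xCo T) :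
    IsLift δ (P + bc (SerField L) T) (S + T) := by
  obtain ⟨hP, hS, a, b, ha, hb, ha0, hb0, hd⟩ := h
  have := neZero_two L (SerField L)
  obtain ⟨hne, hne', hdne, a₃, b₃, hx3, hψ3, hκa, hκb, hA, hB⟩ :=
    add_bc_aux hP hS ha hb ha0 hb0 hT hx
  refine ⟨hne, hne', a₃, b₃, hx3, hψ3, hκa, hκb, ?_⟩
  have hbne : b ≠ 0 := fun h => hψ (by rw [← hb0, h, map_zero])
  have hbsq := psi_sq_series hP ha hb
  have hdb := derivative_psi hbsq hbne hd
  have hsqT : psiCo T ^ 2 = uCoef V (xCo T) := psiCo_sq hT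
  have hsqT' : PowerSeries.C (psiCo T) ^ 2 = 4 * PowerSeries.C (xCo T) ^ 3 +
      PowerSeries.C V.b₂ * PowerSeries.C (xCo T) ^ 2 +
      2 * PowerSeries.C V.b₄ * PowerSeries.C (xCo T) + PowerSeries.C V.b₆ := by
    rw [← map_pow, hsqT, uCoef]; simp [map_ofNat]
  simp only [psiSq, map_add, map_mul, map_pow, map_ofNat, aeval_X, aeval_C,
    PowerSeries.algebraMap_eq] at hbsq
  have hA' := congrArg (∂) hA
  simp only [map_sub, map_add, Derivation.leibniz, Derivation.leibniz_pow,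
    serDerivative_four, PowerSeries.derivative_C, smul_eq_mul, nsmul_eq_mul, mul_zero,
    zero_add, add_zero, sub_zero, hd, hdb, Nat.cast_ofNat, Nat.add_one_sub_one, pow_one] at hA'
  refine mul_left_cancel₀ (mul_ne_zero serFour_ne_zero (pow_ne_zero 3 hdne)) ?_
  linear_combination (a - PowerSeries.C (xCo T)) * hA' -
    4 * (a - PowerSeries.C (xCo T)) ^ 2 * δ * hB +
    δ * (b - PowerSeries.C (psiCo T) - 2 * b) * hA -
    δ * (b - PowerSeries.C (psiCo T)) * (hbsq - hsqT')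

/-- The difference of two power series points with the same differential is constant. -/
lemma exists_const_of_lifts {δ : PowerSeries L} {P Q : (V⁄(SerField L)).Point}
    {S S' : (V⁄L).Point} (hP : IsLift δ P S) (hQ : IsLift δ Q S') (hψ : psiCo S ≠ 0)
    (hψ' : psiCo S' ≠ 0) (hne : xCo P ≠ xCo Q) :
    P - Q ≠ 0 ∧ ∃ c : L, xCo (P - Q) = algebraMap L (SerField L) c := by
  obtain ⟨hP0, -, a, b, ha, hb, -, hb0, hd⟩ := hP
  obtain ⟨hQ0, -, a', b', ha', hb', -, hb0', hd'⟩ := hQ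
  have := neZero_two L (SerField L)
  have hbne : b ≠ 0 := fun h => hψ (by rw [← hb0, h, map_zero])
  have hbne' : b' ≠ 0 := fun h => hψ' (by rw [← hb0', h, map_zero])
  have hbsq := psi_sq_series hP0 ha hb
  have hbsq' := psi_sq_series hQ0 ha' hb'
  have hdb := derivative_psi hbsq hbne hd
  have hdb' := derivative_psi hbsq' hbne' hd'
  simp only [psiSq, map_add, map_mul, map_pow, map_ofNat, aeval_X, aeval_C,
    PowerSeries.algebraMap_eq] at hbsq hbsq'
  obtain ⟨hne0, hX, -⟩ := add_coords hP0 (neg_ne_zero.mpr hQ0) (by rwa [xCo_neg])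
  rw [← sub_eq_add_neg] at hne0 hX
  rw [xCo_neg, psiCo_neg, sub_neg_eq_add] at hX
  refine ⟨hne0, ?_⟩
  set d := a - a' with hdd
  have hdne : d ≠ 0 := fun e => hne (by rw [ha, ha', sub_eq_zero.mp e])
  set num := (b + b') ^ 2 - (PowerSeries.C V.b₂ + 4 * a + 4 * a') * d ^ 2 with hnum
  have hb₂ : (V⁄(SerField L)).b₂ = ιS (PowerSeries.C V.b₂) := by
    rw [serField_algebraMap_C]; simp [WeierstrassCurve.baseChange]
  have hX' : ιS (4 * d ^ 2) * xCo (P - Q) = ιS num := by
    simp only [hnum, hdd, map_sub, map_add, map_mul, map_pow, map_ofNat, ← ha, ← ha', ← hb,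
      ← hb', ← hb₂]
    exact hX
  have hW : ∂ num * (4 * d ^ 2) = num * ∂ (4 * d ^ 2) := by
    simp only [hnum, hdd, map_sub, map_add, Derivation.leibniz, Derivation.leibniz_pow,
      serDerivative_four, PowerSeries.derivative_C, smul_eq_mul, nsmul_eq_mul, mul_zero,
      zero_add, add_zero, hd, hd', hdb, hdb', Nat.cast_ofNat, Nat.add_one_sub_one,
      pow_one]
    linear_combination (-8 : PowerSeries L) * δ * (b + b') * (a - a') * (hbsq - hbsq')
  have hden : (4 : PowerSeries L) * d ^ 2 ≠ 0 :=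
    mul_ne_zero serFour_ne_zero (pow_ne_zero 2 hdne)
  obtain ⟨c, hc⟩ := exists_eq_C_mul_of_wronskian hden hW
  refine ⟨c, mul_left_cancel₀
    ((map_ne_zero_iff _ serField_algebraMap_injective).mpr hden) ?_⟩
  rw [hX', hc, map_mul, serField_algebraMap_C, mul_comm]

variable [IsAlgClosed L] {W : WeierstrassCurve.Affine L} [W.IsElliptic]
  {G : AddSubgroup (W⁄L).Point} [Finite G] (hodd : OddKernel G)
include hodd

omit hodd [CharZero L] [IsAlgClosed L] [W.IsElliptic] in
lemma notMem_kerM_of_reduces {P : (W⁄(SerField L)).Point}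
    {S : (W⁄L).Point} (h : Reduces P S) (hS : S ∉ G) : P ∉ kerM G (SerField L) := by
  obtain ⟨hP, hS0, a, b, ha, -, ha0, -⟩ := h
  refine notMem_kerM_iff.mpr ⟨hP, fun r hr e => ?_⟩
  rw [ha, ← serField_algebraMap_C] at e
  have e' := congrArg κ (serField_algebraMap_injective e)
  rw [ha0, PowerSeries.constantCoeff_C] at e'
  exact (notMem_kerM_iff.mp (mem_kerM_self.not.mpr hS)).2 r hr (by simpa using e')

lemma Reduces.veluMap {P : (W⁄(SerField L)).Point} {S : (W⁄L).Point} (h : Reduces P S)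
    (hS : S ∉ G) :
    Reduces (Velu.veluMap hodd (SerField L) P) (Velu.veluMap hodd L S) := by
  have hPK := notMem_kerM_of_reduces h hS
  have hSK : S ∉ kerM G L := mem_kerM_self.not.mpr hS
  obtain ⟨hP, hS0, a, b, ha, hb, ha0, hb0⟩ := h
  set D := aeval a (veluD (kerXs G)) with hD
  have hκD : κ D ≠ 0 := by
    rw [hD, constantCoeff_aeval, ha0, Ne, eval_veluD_eq_zero_iff]
    exact fun hr => (notMem_kerM_iff.mp hSK).2 _ hr rfl
  have hDu : D * D⁻¹ = 1 := PowerSeries.mul_inv_cancel _ hκD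
  have hDι : ιS D ≠ 0 :=
    (map_ne_zero_iff _ serField_algebraMap_injective).mpr fun e => hκD (by rw [e, map_zero])
  refine ⟨veluMap_ne_zero hodd hPK, veluMap_ne_zero hodd hSK,
    aeval a (veluN W (kerXs G)) * (D⁻¹) ^ 2,
    aeval a (veluOmega W (kerXs G)) * (D⁻¹) ^ 3 * b, ?_, ?_, ?_, ?_⟩
  · rw [xCo_veluMap hodd hPK, ha, veluX, aeval_algebraMap_apply, aeval_algebraMap_apply,
      ← hD, div_eq_iff (pow_ne_zero 2 hDι), ← map_pow, ← map_mul]
    congr 1
    linear_combination (-(aeval a (veluN W (kerXs G)))) * (D * D⁻¹ + 1) * hDu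
  · rw [psiCo_veluMap hodd hPK, ha, hb, veluX₁, aeval_algebraMap_apply, aeval_algebraMap_apply,
      ← hD, map_mul]
    congr 1
    rw [div_eq_iff (pow_ne_zero 3 hDι), ← map_pow, ← map_mul]
    congr 1
    linear_combination (-(aeval a (veluOmega W (kerXs G)))) *
      ((D * D⁻¹) ^ 2 + D * D⁻¹ + 1) * hDu
  · rw [xCo_veluMap hodd hSK, veluX, coe_aeval_eq_eval]
    simp [D, constantCoeff_aeval, ha0, div_eq_mul_inv]
  · rw [psiCo_veluMap hodd hSK, veluX₁, coe_aeval_eq_eval]
    simp [D, constantCoeff_aeval, ha0, hb0, div_eq_mul_inv]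

/-- Vélu's map preserves lifts and differentials. -/
lemma IsLift.veluMap {δ : PowerSeries L} {P : (W⁄(SerField L)).Point} {S : (W⁄L).Point}
    (h : IsLift δ P S) (hS : S ∉ G) :
    IsLift δ (Velu.veluMap hodd (SerField L) P) (Velu.veluMap hodd L S) := by
  have hPK := notMem_kerM_of_reduces h.reduces hS
  have hSK : S ∉ kerM G L := mem_kerM_self.not.mpr hS
  obtain ⟨hP, hS0, a, b, ha, hb, ha0, hb0, hd⟩ := h
  set rs := kerXs G
  set N := aeval a (veluN W rs)
  set D := aeval a (veluD rs) with hD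
  set Ω := aeval a (veluOmega W rs) with hΩ
  have hκD : κ D ≠ 0 := by
    rw [hD, constantCoeff_aeval, ha0, Ne, eval_veluD_eq_zero_iff]
    exact fun hr => (notMem_kerM_iff.mp hSK).2 _ hr rfl
  have hDu : D * D⁻¹ = 1 := PowerSeries.mul_inv_cancel _ hκD
  have hDne : D ≠ 0 := fun e => hκD (by rw [e, map_zero])
  have hDι : ιS D ≠ 0 := (map_ne_zero_iff _ serField_algebraMap_injective).mpr hDne
  refine ⟨veluMap_ne_zero hodd hPK, veluMap_ne_zero hodd hSK, N * (D⁻¹) ^ 2,
    Ω * (D⁻¹) ^ 3 * b, ?_, ?_, ?_, ?_, ?_⟩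
  · rw [xCo_veluMap hodd hPK, ha, veluX, aeval_algebraMap_apply, aeval_algebraMap_apply,
      ← hD, div_eq_iff (pow_ne_zero 2 hDι), ← map_pow, ← map_mul]
    congr 1
    linear_combination (-N) * (D * D⁻¹ + 1) * hDu
  · rw [psiCo_veluMap hodd hPK, ha, hb, veluX₁, aeval_algebraMap_apply, aeval_algebraMap_apply,
      ← hD, ← hΩ, map_mul]
    congr 1
    rw [div_eq_iff (pow_ne_zero 3 hDι), ← map_pow, ← map_mul]
    congr 1
    linear_combination (-Ω) * ((D * D⁻¹) ^ 2 + D * D⁻¹ + 1) * hDu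
  · rw [xCo_veluMap hodd hSK, veluX, coe_aeval_eq_eval]
    simp [N, D, constantCoeff_aeval, ha0, div_eq_mul_inv, rs]
  · rw [psiCo_veluMap hodd hSK, veluX₁, coe_aeval_eq_eval]
    simp [Ω, D, constantCoeff_aeval, ha0, hb0, div_eq_mul_inv, rs]
  · refine mul_left_cancel₀ (pow_ne_zero 3 hDne) ?_
    have h2 : N * (D⁻¹) ^ 2 * D ^ 2 = N := by
      linear_combination N * (D * D⁻¹ + 1) * hDu
    have h3 := congrArg (∂) h2
    simp only [N, Derivation.leibniz, Derivation.leibniz_pow, smul_eq_mul, nsmul_eq_mul,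
      derivative_aeval, hd, Nat.cast_ofNat, Nat.add_one_sub_one, pow_one, hD] at h3
    have hΩ' : Ω = aeval a (derivative (veluN W rs)) * aeval a (veluD rs) -
        2 * aeval a (veluN W rs) * aeval a (derivative (veluD rs)) := by
      simp [hΩ, veluOmega, map_ofNat]
    simp only [N, hD, hΩ', Derivation.leibniz, Derivation.leibniz_pow, smul_eq_mul, nsmul_eq_mul,
      derivative_aeval, hd, Nat.cast_ofNat, Nat.add_one_sub_one, pow_one] at hDu h2 ⊢
    linear_combination (aeval a (veluD rs)) * h3 -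
      2 * δ * b * aeval a (derivative (veluD rs)) * h2 -
      δ * b * (aeval a (derivative (veluN W rs)) * aeval a (veluD rs) -
        2 * aeval a (veluN W rs) * aeval a (derivative (veluD rs))) *
        ((aeval a (veluD rs) * (aeval a (veluD rs))⁻¹) ^ 2 +
          aeval a (veluD rs) * (aeval a (veluD rs))⁻¹ + 1) * hDu

end FermatLib.EC.Velu
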