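import Fermat.Agent.EC.VeluEquation

/-!
# Vélu's map on the points over any extension field
-/

set_option autoImplicit false

open Polynomial WeierstrassCurve
open scoped WeierstrassCurve.Affine

namespace FermatLib.EC.Velu

section coords

variable {L : Type*} [Field L] {W : WeierstrassCurve.Affine L} {M M' : Type*} [Field M]
  [Algebra L M] [Field M'] [Algebra L M'] [DecidableEq M] [DecidableEq M'] (g : M →ₐ[L] M')

lemma xCo_map (P : (W⁄M).Point) : xCo (Affine.Point.map g P) = g (xCo P) := by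
  cases P with
  | zero => simp [← Affine.Point.zero_def]
  | some x y h => rfl

lemma psiCo_map (P : (W⁄M).Point) : psiCo (Affine.Point.map g P) = g (psiCo P) := by
  cases P with
  | zero => simp [← Affine.Point.zero_def]
  | some x y h =>
    show psiOf (W⁄M') (g x) (g y) = g (psiOf (W⁄M) x y)
    simp [psiOf, WeierstrassCurve.baseChange, map_ofNat]

lemma map_bc [DecidableEq L] (P : (W⁄L).Point) :
    Affine.Point.map g (bc M P) = bc M' P :=
  Affine.Point.map_baseChange g P

end coords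

variable {L : Type*} [Field L] [CharZero L] [IsAlgClosed L] [DecidableEq L]
  {W : WeierstrassCurve.Affine L} [W.IsElliptic]

/-- The quotient curve. -/
noncomputable abbrev quotCurve (G : AddSubgroup (W⁄L).Point) [Finite G] :
    WeierstrassCurve.Affine L :=
  veluCurve W (kerXs G)

variable {G : AddSubgroup (W⁄L).Point} [Finite G] (hodd : OddKernel G)
  (M : Type*) [Field M] [Algebra L M] [DecidableEq M]
include hodd

lemma exists_image_point (P : (W⁄M).Point) : ∃ Q : ((quotCurve G)⁄M).Point,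
    (P ∈ kerM G M → Q = 0) ∧ (P ∉ kerM G M → Q ≠ 0 ∧
      xCo Q = veluX W (kerXs G) (xCo P) ∧
      psiCo Q = veluX₁ W (kerXs G) (xCo P) * psiCo P) := by
  classical
  by_cases hP : P ∈ kerM G M
  · exact ⟨0, fun _ => rfl, fun h => absurd hP h⟩
  obtain ⟨hP0, hx⟩ := notMem_kerM_iff.mp hP
  have := neZero_two L M
  have := veluCurve_isElliptic hodd
  have := isElliptic_baseChange (W := quotCurve G) M
  obtain ⟨Q, hQ, hQx, hQψ⟩ := exists_point (W := (quotCurve G)⁄M)
    (x := veluX W (kerXs G) (xCo P)) (s := veluX₁ W (kerXs G) (xCo P) * psiCo P) (by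
      rw [mul_pow, psiCo_sq hP0, uCoef_baseChange', uCoef_baseChange']
      have hD := aeval_veluD_ne_zero _ hx
      have h0 := congrArg (aeval (xCo P)) (veluDefect_eq_zero hodd)
      simp only [veluDefect, map_sub, map_add, map_mul, map_pow, map_ofNat, map_zero, aeval_C,
        sub_eq_zero] at h0
      simp only [veluX, veluX₁]
      rw [show psiSq (quotCurve G) = 4 * X ^ 3 + C (veluCurve W (kerXs G)).b₂ * X ^ 2 +
        2 * C (veluCurve W (kerXs G)).b₄ * X + C (veluCurve W (kerXs G)).b₆ from rfl]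
      simp only [map_add, map_mul, map_pow, map_ofNat, aeval_X, aeval_C]
      field_simp
      linear_combination h0)
  exact ⟨Q, fun h => absurd h hP, fun _ => ⟨hQ, hQx, hQψ⟩⟩

/-- Vélu's map `E(M) → E'(M)`. -/
noncomputable def veluMap (P : (W⁄M).Point) : ((quotCurve G)⁄M).Point :=
  (exists_image_point hodd M P).choose

variable {M}

lemma veluMap_of_mem {P : (W⁄M).Point} (hP : P ∈ kerM G M) : veluMap hodd M P = 0 :=
  (exists_image_point hodd M P).choose_spec.1 hP

lemma veluMap_ne_zero {P : (W⁄M).Point} (hP : P ∉ kerM G M) : veluMap hodd M P ≠ 0 :=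
  ((exists_image_point hodd M P).choose_spec.2 hP).1

lemma xCo_veluMap {P : (W⁄M).Point} (hP : P ∉ kerM G M) :
    xCo (veluMap hodd M P) = veluX W (kerXs G) (xCo P) :=
  ((exists_image_point hodd M P).choose_spec.2 hP).2.1

lemma psiCo_veluMap {P : (W⁄M).Point} (hP : P ∉ kerM G M) :
    psiCo (veluMap hodd M P) = veluX₁ W (kerXs G) (xCo P) * psiCo P :=
  ((exists_image_point hodd M P).choose_spec.2 hP).2.2

lemma veluMap_eq_zero_iff {P : (W⁄M).Point} : veluMap hodd M P = 0 ↔ P ∈ kerM G M :=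
  ⟨fun h => by_contra fun hP => veluMap_ne_zero hodd hP h, veluMap_of_mem hodd⟩

lemma veluMap_neg (P : (W⁄M).Point) : veluMap hodd M (-P) = -veluMap hodd M P := by
  by_cases hP : P ∈ kerM G M
  · rw [veluMap_of_mem hodd (neg_mem hP), veluMap_of_mem hodd hP, neg_zero]
  · have hP' : -P ∉ kerM G M := fun h => hP (by simpa using neg_mem h)
    have := neZero_two L M
    refine ext_xCo_psiCo (veluMap_ne_zero hodd hP') (neg_ne_zero.mpr (veluMap_ne_zero hodd hP))
      ?_ ?_
    · rw [xCo_neg, xCo_veluMap hodd hP', xCo_veluMap hodd hP, xCo_neg]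
    · rw [psiCo_neg, psiCo_veluMap hodd hP', psiCo_veluMap hodd hP, xCo_neg, psiCo_neg, mul_neg]

lemma veluMap_add_bc (P : (W⁄M).Point) {T : (W⁄L).Point} (hT : T ∈ G) :
    veluMap hodd M (P + bc M T) = veluMap hodd M P := by
  by_cases hP : P ∈ kerM G M
  · rw [veluMap_of_mem hodd (add_mem hP (bc_mem_kerM.mpr hT)), veluMap_of_mem hodd hP]
  · have hP' := add_bc_notMem_kerM hP hT
    have := neZero_two L M
    refine ext_xCo_psiCo (veluMap_ne_zero hodd hP') (veluMap_ne_zero hodd hP) ?_ ?_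
    · rw [xCo_veluMap hodd hP', xCo_veluMap hodd hP, veluX_add_bc hodd hP hT]
    · rw [psiCo_veluMap hodd hP', psiCo_veluMap hodd hP, veluX₁_add_bc hodd hP hT]

omit hodd [CharZero L] [IsAlgClosed L] [W.IsElliptic] in
lemma map_mem_kerM_iff {M' : Type*} [Field M'] [Algebra L M'] [DecidableEq M'] (g : M →ₐ[L] M')
    {P : (W⁄M).Point} : Affine.Point.map g P ∈ kerM G M' ↔ P ∈ kerM G M := by
  rw [← not_iff_not, notMem_kerM_iff, notMem_kerM_iff, xCo_map,
    map_ne_zero_iff _ (Affine.Point.map_injective g)]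
  refine and_congr_right fun _ => forall₂_congr fun r _ => ?_
  rw [← g.commutes]; exact not_congr ⟨fun h => RingHom.injective (g : M →+* M') h, congrArg g⟩

lemma map_veluMap {M' : Type*} [Field M'] [Algebra L M'] [DecidableEq M'] (g : M →ₐ[L] M')
    (P : (W⁄M).Point) :
    Affine.Point.map g (veluMap hodd M P) = veluMap hodd M' (Affine.Point.map g P) := by
  by_cases hP : P ∈ kerM G M
  · rw [veluMap_of_mem hodd hP, map_zero, veluMap_of_mem hodd ((map_mem_kerM_iff g).mpr hP)]
  · have hP' : Affine.Point.map g P ∉ kerM G M' := fun h => hP ((map_mem_kerM_iff g).mp h)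
    have := neZero_two L M'
    refine ext_xCo_psiCo ((map_ne_zero_iff _ (Affine.Point.map_injective g)).mpr
      (veluMap_ne_zero hodd hP)) (veluMap_ne_zero hodd hP') ?_ ?_
    · rw [xCo_map, xCo_veluMap hodd hP, xCo_veluMap hodd hP', xCo_map, map_veluX]
    · rw [psiCo_map, psiCo_veluMap hodd hP, psiCo_veluMap hodd hP', xCo_map, psiCo_map,
        map_veluX₁, map_mul]

omit hodd [CharZero L] [IsAlgClosed L] [W.IsElliptic] [Finite G] in
lemma bc_self (P : (W⁄L).Point) : bc L P = P := Affine.Point.map_id P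

omit hodd [CharZero L] [IsAlgClosed L] [W.IsElliptic] [Finite G] in
lemma mem_kerM_self {P : (W⁄L).Point} : P ∈ kerM G L ↔ P ∈ G := by
  simp only [kerM, AddSubgroup.mem_map, bc_self, exists_eq_right]

omit hodd [IsAlgClosed L] [Finite G] [CharZero L] [W.IsElliptic] in
lemma finite_xCo_eq (r : L) : {P : (W⁄L).Point | P ≠ 0 ∧ xCo P = r}.Finite := by
  by_cases h : ∃ P₀ : (W⁄L).Point, P₀ ≠ 0 ∧ xCo P₀ = r
  · obtain ⟨P₀, h0, hr⟩ := h
    refine Set.Finite.subset ((Set.finite_singleton P₀).union (Set.finite_singleton (-P₀))) ?_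
    rintro P ⟨hP, hx⟩
    exact eq_or_eq_neg_of_xCo_eq hP h0 (hx.trans hr.symm)
  · push Not at h
    exact Set.Finite.subset Set.finite_empty fun P hP => absurd hP.2 (h P hP.1)

omit hodd [IsAlgClosed L] [Finite G] in
lemma finite_eval_xCo_eq_zero {p : L[X]} (hp : p ≠ 0) :
    {P : (W⁄L).Point | p.eval (xCo P) = 0}.Finite := by
  refine Set.Finite.subset ((Set.finite_singleton 0).union
    ((finite_setOfPred_isRoot hp).biUnion (fun r _ => finite_xCo_eq (W := W) r))) fun P hP => ?_
  by_cases h0 : P = 0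
  · exact Or.inl h0
  · exact Or.inr (Set.mem_biUnion (x := xCo P) hP ⟨h0, rfl⟩)

lemma finite_veluMap_fibre (Z : ((quotCurve G)⁄L).Point) :
    {P : (W⁄L).Point | veluMap hodd L P = Z}.Finite := by
  by_cases hZ : Z = 0
  · refine Set.Finite.subset (Set.toFinite (G : Set _)) fun P hP => ?_
    exact mem_kerM_self.mp ((veluMap_eq_zero_iff hodd).mp (hP.trans hZ))
  obtain ⟨p, hp, -, hp0, -⟩ := exists_fibre_poly (W := W) hodd (xCo Z)
  refine (finite_eval_xCo_eq_zero hp0).subset fun P (hP : veluMap hodd L P = Z) => ?_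
  have hP' : P ∉ kerM G L := fun h => hZ (hP ▸ veluMap_of_mem hodd h)
  have h := xCo_veluMap hodd hP'
  obtain ⟨-, hx⟩ := notMem_kerM_iff.mp hP'
  rw [hP, veluX, eq_div_iff (pow_ne_zero 2 (aeval_veluD_ne_zero _ hx))] at h
  simp only [Set.mem_ofPred_eq, hp, eval_sub, eval_mul, eval_C, eval_pow]
  simp only [← coe_aeval_eq_eval] at h ⊢
  linear_combination -h

lemma veluMap_surjective (Z : ((quotCurve G)⁄L).Point) : ∃ P, veluMap hodd L P = Z := by
  by_cases hZ : Z = 0
  · exact ⟨0, hZ ▸ veluMap_of_mem hodd (zero_mem _)⟩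
  obtain ⟨p, hp, hdeg, hp0, hev⟩ := exists_fibre_poly (W := W) hodd (xCo Z)
  obtain ⟨x₀, hx₀⟩ := IsAlgClosed.exists_root p (by
    rw [degree_eq_natDegree hp0, hdeg]
    exact_mod_cast Nat.succ_ne_zero (2 * (kerXs G).card))
  obtain ⟨s, hs⟩ := IsAlgClosed.exists_pow_nat_eq (uCoef (W⁄L) x₀) two_pos
  have := isElliptic_baseChange (W := W) L
  obtain ⟨P, hP0, hPx, -⟩ := exists_point (W := W⁄L) hs
  have hP' : P ∉ kerM G L := notMem_kerM_iff.mpr ⟨hP0, fun r hr h => hev x₀ (by
    rw [← hPx, h]; exact hr) hx₀⟩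
  obtain ⟨-, hx⟩ := notMem_kerM_iff.mp hP'
  have hxZ : xCo (veluMap hodd L P) = xCo Z := by
    rw [xCo_veluMap hodd hP', veluX, div_eq_iff (pow_ne_zero 2 (aeval_veluD_ne_zero _ hx)), hPx]
    rw [IsRoot, hp, eval_sub, eval_mul, eval_C, eval_pow, sub_eq_zero] at hx₀
    simpa [coe_aeval_eq_eval] using hx₀
  rcases eq_or_eq_neg_of_xCo_eq (veluMap_ne_zero hodd hP') hZ hxZ with h | h
  · exact ⟨P, h⟩
  · exact ⟨-P, by rw [veluMap_neg, h, neg_neg]⟩

end FermatLib.EC.Velu
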