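import Fermat.Agent.EC.VeluFormula

/-!
# The group law in the coordinates `x`, `ψ = 2y + a₁x + a₃`
-/

set_option autoImplicit false

open Polynomial WeierstrassCurve

namespace FermatLib.EC.Velu

variable {F : Type*} [Field F] {W : WeierstrassCurve.Affine F}

/-- `ψ = 2y + a₁x + a₃`. -/
def psiOf (W : WeierstrassCurve.Affine F) (x y : F) : F := 2 * y + W.a₁ * x + W.a₃

lemma psiOf_negY (x y : F) : psiOf W x (W.negY x y) = -psiOf W x y := by
  simp only [psiOf, WeierstrassCurve.Affine.negY]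
  ring

lemma psiOf_sq_iff [NeZero (2 : F)] (x y : F) :
    W.Equation x y ↔ psiOf W x y ^ 2 = uCoef W x := by
  have h4 : (4 : F) ≠ 0 := by
    rw [show (4 : F) = 2 * 2 by norm_num]
    exact mul_ne_zero two_ne_zero two_ne_zero
  rw [WeierstrassCurve.Affine.equation_iff]
  constructor <;> intro h
  · simp only [psiOf, uCoef, WeierstrassCurve.b₂, WeierstrassCurve.b₄, WeierstrassCurve.b₆]
    linear_combination 4 * h
  · simp only [psiOf, uCoef, WeierstrassCurve.b₂, WeierstrassCurve.b₄, WeierstrassCurve.b₆] at h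
    refine mul_left_cancel₀ h4 ?_
    linear_combination h

/-- The `x`-coordinate, with value `0` at infinity. -/
def xCo : W.Point → F
  | .zero => 0
  | .some x _ _ => x

/-- `ψ`, with value `0` at infinity. -/
def psiCo : W.Point → F
  | .zero => 0
  | .some x y _ => psiOf W x y

@[simp] lemma xCo_zero : xCo (0 : W.Point) = 0 := rfl

@[simp] lemma psiCo_zero : psiCo (0 : W.Point) = 0 := rfl

@[simp] lemma xCo_neg (P : W.Point) : xCo (-P) = xCo P := by
  cases P <;> rfl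

@[simp] lemma psiCo_neg (P : W.Point) : psiCo (-P) = -psiCo P := by
  cases P with
  | zero => simp [← Affine.Point.zero_def]
  | some x y h => exact psiOf_negY x y

lemma psiCo_sq [NeZero (2 : F)] {P : W.Point} (hP : P ≠ 0) : psiCo P ^ 2 = uCoef W (xCo P) := by
  cases P with
  | zero => exact absurd rfl hP
  | some x y h => exact (psiOf_sq_iff x y).mp h.1

lemma eq_or_eq_neg_of_xCo_eq {P Q : W.Point} (hP : P ≠ 0) (hQ : Q ≠ 0) (h : xCo P = xCo Q) :
    P = Q ∨ P = -Q := by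
  cases P with
  | zero => exact absurd rfl hP
  | some x y hxy =>
    cases Q with
    | zero => exact absurd rfl hQ
    | some x' y' hxy' => exact Affine.Point.X_eq_iff.mp h

lemma ext_xCo_psiCo [NeZero (2 : F)] {P Q : W.Point} (hP : P ≠ 0) (hQ : Q ≠ 0)
    (hx : xCo P = xCo Q) (hψ : psiCo P = psiCo Q) : P = Q := by
  cases P with
  | zero => exact absurd rfl hP
  | some x y hxy =>
    cases Q with
    | zero => exact absurd rfl hQ
    | some x' y' hxy' =>
      obtain rfl : x = x' := hx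
      simp only [psiCo, psiOf, add_left_inj] at hψ
      obtain rfl : y = y' := mul_left_cancel₀ (two_ne_zero (α := F)) hψ
      rfl

lemma exists_point [NeZero (2 : F)] [W.IsElliptic] {x s : F} (h : s ^ 2 = uCoef W x) :
    ∃ P : W.Point, P ≠ 0 ∧ xCo P = x ∧ psiCo P = s := by
  have hψ : psiOf W x ((s - W.a₁ * x - W.a₃) / 2) = s := by
    rw [psiOf, mul_div_cancel₀ _ two_ne_zero]
    ring
  have he : W.Equation x ((s - W.a₁ * x - W.a₃) / 2) := (psiOf_sq_iff _ _).mpr (by rw [hψ, h])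
  exact ⟨.mk he, Affine.Point.some_ne_zero _, rfl, hψ⟩

variable [DecidableEq F]

/-- The addition law for two points with different `x`-coordinates. -/
lemma add_coords [NeZero (2 : F)] {P Q : W.Point} (hP : P ≠ 0) (hQ : Q ≠ 0)
    (hx : xCo P ≠ xCo Q) :
    P + Q ≠ 0 ∧
    4 * (xCo P - xCo Q) ^ 2 * xCo (P + Q) = (psiCo P - psiCo Q) ^ 2 -
      (W.b₂ + 4 * xCo P + 4 * xCo Q) * (xCo P - xCo Q) ^ 2 ∧
    (xCo P - xCo Q) * psiCo (P + Q) = (psiCo P - psiCo Q) * (xCo P - xCo (P + Q)) -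
      psiCo P * (xCo P - xCo Q) := by
  cases P with
  | zero => exact absurd rfl hP
  | some x₁ y₁ h₁ =>
    cases Q with
    | zero => exact absurd rfl hQ
    | some x₂ y₂ h₂ =>
      replace hx : x₁ ≠ x₂ := hx
      rw [Affine.Point.add_of_X_ne hx]
      have hd : x₁ - x₂ ≠ 0 := sub_ne_zero.mpr hx
      have hl : W.slope x₁ x₂ y₁ y₂ * (x₁ - x₂) = y₁ - y₂ := by
        rw [Affine.slope_of_X_ne hx, div_mul_cancel₀ _ hd]
      refine ⟨Affine.Point.some_ne_zero _, ?_, ?_⟩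
      · simp only [xCo, psiCo, psiOf, WeierstrassCurve.b₂, Affine.addX]
        generalize hs : W.slope x₁ x₂ y₁ y₂ = l at hl ⊢
        linear_combination (4 * (l * (x₁ - x₂)) + 4 * (y₁ - y₂) + 4 * W.a₁ * (x₁ - x₂)) * hl
      · simp only [xCo, psiCo, psiOf, Affine.addX, Affine.addY, Affine.negAddY, Affine.negY]
        generalize hs : W.slope x₁ x₂ y₁ y₂ = l at hl ⊢
        linear_combination -2 * (l ^ 2 + W.a₁ * l - W.a₂ - x₁ - x₂ - x₁) * hl

lemma xCo_add_add_xCo_sub [NeZero (2 : F)] {P Q : W.Point} (hP : P ≠ 0) (hQ : Q ≠ 0)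
    (hx : xCo P ≠ xCo Q) :
    xCo (P + Q) + xCo (P - Q) = 2 * xCo Q +
      (vCoef W (xCo Q) / (xCo P - xCo Q) + uCoef W (xCo Q) / (xCo P - xCo Q) ^ 2) := by
  obtain ⟨-, h₁, -⟩ := add_coords hP hQ hx
  obtain ⟨-, h₂, -⟩ := add_coords hP (neg_ne_zero.mpr hQ) (by rwa [xCo_neg])
  rw [← sub_eq_add_neg] at h₂
  simp only [xCo_neg, psiCo_neg] at h₂
  have hd : xCo P - xCo Q ≠ 0 := sub_ne_zero.mpr hx
  have e₁ := psiCo_sq hP
  have e₂ := psiCo_sq hQ
  have h4 : (4 : F) ≠ 0 := by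
    rw [show (4 : F) = 2 * 2 by norm_num]
    exact mul_ne_zero two_ne_zero two_ne_zero
  field_simp
  refine mul_left_cancel₀ h4 ?_
  simp only [uCoef, vCoef] at *
  linear_combination h₁ + h₂ + 2 * e₁ + 2 * e₂

lemma psiCo_add_add_psiCo_sub [NeZero (2 : F)] {P Q : W.Point} (hP : P ≠ 0) (hQ : Q ≠ 0)
    (hx : xCo P ≠ xCo Q) :
    psiCo (P + Q) + psiCo (P - Q) = psiCo P *
      (-vCoef W (xCo Q) / (xCo P - xCo Q) ^ 2 -
        2 * uCoef W (xCo Q) / (xCo P - xCo Q) ^ 3) := by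
  obtain ⟨-, h₁, k₁⟩ := add_coords hP hQ hx
  obtain ⟨-, h₂, k₂⟩ := add_coords hP (neg_ne_zero.mpr hQ) (by rwa [xCo_neg])
  rw [← sub_eq_add_neg] at h₂ k₂
  simp only [xCo_neg, psiCo_neg] at h₂ k₂
  have hd : xCo P - xCo Q ≠ 0 := sub_ne_zero.mpr hx
  have e₁ := psiCo_sq hP
  have e₂ := psiCo_sq hQ
  have h4 : (4 : F) ≠ 0 := by
    rw [show (4 : F) = 2 * 2 by norm_num]
    exact mul_ne_zero two_ne_zero two_ne_zero
  field_simp
  refine mul_left_cancel₀ h4 ?_
  simp only [uCoef, vCoef] at *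
  linear_combination 4 * (xCo P - xCo Q) ^ 2 * k₁ + 4 * (xCo P - xCo Q) ^ 2 * k₂ -
    (psiCo P - psiCo Q) * h₁ - (psiCo P + psiCo Q) * h₂ -
    2 * psiCo P * e₁ - 6 * psiCo P * e₂

end FermatLib.EC.Velu
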