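import Fermat.Agent.EC.VeluGroup

/-!
# Power series points near a point of `E(L)`
-/

set_option autoImplicit false

open Polynomial WeierstrassCurve
open scoped WeierstrassCurve.Affine

namespace FermatLib.EC.Velu

variable {L : Type*} [Field L]

/-- The field of fractions of `L⟦t⟧`. -/
abbrev SerField (L : Type*) [Field L] : Type _ := FractionRing (PowerSeries L)

noncomputable instance instDecidableEqSerField (L : Type*) [Field L] :
    DecidableEq (SerField L) :=
  Classical.decEq _

lemma serField_algebraMap_injective :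
    Function.Injective (algebraMap (PowerSeries L) (SerField L)) :=
  IsFractionRing.injective _ _

lemma serField_algebraMap_C (c : L) :
    algebraMap (PowerSeries L) (SerField L) (PowerSeries.C c) = algebraMap L (SerField L) c := by
  rw [IsScalarTower.algebraMap_apply L (PowerSeries L) (SerField L), PowerSeries.algebraMap_eq]

lemma constantCoeff_aeval (z : PowerSeries L) (p : L[X]) :
    PowerSeries.constantCoeff (aeval z p) = p.eval (PowerSeries.constantCoeff z) := by
  rw [aeval_def, hom_eval₂, PowerSeries.algebraMap_eq, PowerSeries.constantCoeff_comp_C]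
  exact eval₂_id

lemma derivative_aeval (z : PowerSeries L) (p : L[X]) :
    PowerSeries.derivative L (aeval z p) =
      aeval z (derivative p) * PowerSeries.derivative L z := by
  rw [Derivation.comp_aeval_eq, smul_eq_mul]

lemma eq_C_of_aeval_eq_zero [IsAlgClosed L] {z : PowerSeries L} {p : L[X]} (hp : p ≠ 0)
    (h : aeval z p = 0) : ∃ c, z = PowerSeries.C c := by
  rw [(IsAlgClosed.splits p).eq_prod_roots, map_mul, aeval_C, map_multiset_prod,
    Multiset.map_map, mul_eq_zero] at h
  rcases h with h | h
  · rw [PowerSeries.algebraMap_eq, map_eq_zero_iff _ PowerSeries.C_injective] at h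
    exact absurd (leadingCoeff_eq_zero.mp h) hp
  · obtain ⟨c, -, hc⟩ := Multiset.mem_map.mp (Multiset.prod_eq_zero_iff.mp h)
    refine ⟨c, ?_⟩
    simpa [sub_eq_zero, PowerSeries.algebraMap_eq] using hc

/-- `r + t`. -/
noncomputable def serX (r : L) : PowerSeries L := PowerSeries.C r + PowerSeries.X

@[simp] lemma constantCoeff_serX (r : L) : PowerSeries.constantCoeff (serX r) = r := by
  simp [serX]

@[simp] lemma derivative_serX (r : L) : PowerSeries.derivative L (serX r) = 1 := by
  simp [serX]

lemma aeval_serX_ne_zero [IsAlgClosed L] (r : L) {p : L[X]} (hp : p ≠ 0) :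
    aeval (serX r) p ≠ 0 := fun h => by
  obtain ⟨c, hc⟩ := eq_C_of_aeval_eq_zero hp h
  simpa using congrArg (PowerSeries.derivative L) hc

lemma aeval_serX (r : L) (p : L[X]) :
    aeval (serX r) p = ((taylor r p : L[X]) : PowerSeries L) := by
  rw [taylor_apply]
  have h : ((X + C r : L[X]) : PowerSeries L) = serX r := by
    rw [Polynomial.coe_add, Polynomial.coe_X, Polynomial.coe_C, serX, add_comm]
  rw [← h]
  induction p using Polynomial.induction_on with
  | C a => simp [PowerSeries.algebraMap_eq]
  | add p q hp hq => rw [map_add, hp, hq, add_comp, Polynomial.coe_add]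
  | monomial n a _ => simp [PowerSeries.algebraMap_eq, Polynomial.coe_mul, Polynomial.coe_pow]

/-- A series `q/q'` with zero Wronskian is constant. -/
lemma exists_eq_C_mul_of_wronskian [CharZero L] {p q : PowerSeries L} (hq : q ≠ 0)
    (h : PowerSeries.derivative L p * q = p * PowerSeries.derivative L q) :
    ∃ c : L, p = PowerSeries.C c * q := by
  classical
  obtain ⟨n, hn, hqn⟩ : ∃ n, PowerSeries.coeff n q ≠ 0 ∧
      ∀ m < n, PowerSeries.coeff m q = 0 := by
    have hex : ∃ n, PowerSeries.coeff n q ≠ 0 := by
      by_contra hcon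
      push Not at hcon
      exact hq (PowerSeries.ext fun n => by simpa using hcon n)
    exact ⟨Nat.find hex, Nat.find_spec hex, fun m hm => not_not.mp (Nat.find_min hex hm)⟩
  refine ⟨PowerSeries.coeff n p / PowerSeries.coeff n q, ?_⟩
  set c := PowerSeries.coeff n p / PowerSeries.coeff n q with hc
  set d := p - PowerSeries.C c * q with hd
  have hd' : PowerSeries.derivative L d * q = d * PowerSeries.derivative L q := by
    rw [hd, map_sub, Derivation.leibniz, PowerSeries.derivative_C, smul_zero, add_zero,
      smul_eq_mul]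
    linear_combination h
  have hdn : PowerSeries.coeff n d = 0 := by
    rw [hd, map_sub, PowerSeries.coeff_C_mul, hc, div_mul_cancel₀ _ hn, sub_self]
  by_contra hne
  have hd0 : d ≠ 0 := sub_ne_zero.mpr hne
  have hex : ∃ m, PowerSeries.coeff m d ≠ 0 := by
    by_contra hcon
    push Not at hcon
    exact hd0 (PowerSeries.ext fun m => by simpa using hcon m)
  obtain ⟨m, hm, hdm⟩ : ∃ m, PowerSeries.coeff m d ≠ 0 ∧
      ∀ k < m, PowerSeries.coeff k d = 0 :=
    ⟨Nat.find hex, Nat.find_spec hex, fun k hk => not_not.mp (Nat.find_min hex hk)⟩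
  have hmn : m ≠ n := fun e => hm (e ▸ hdn)
  -- compare the coefficients of `t ^ (m + n - 1)`
  obtain ⟨a, ha⟩ : PowerSeries.X ^ m ∣ d := PowerSeries.X_pow_dvd_iff.mpr hdm
  obtain ⟨b, hb⟩ : PowerSeries.X ^ n ∣ q := PowerSeries.X_pow_dvd_iff.mpr hqn
  have ha0 : PowerSeries.constantCoeff a ≠ 0 := by
    rw [ha] at hm
    simpa [PowerSeries.coeff_X_pow_mul'] using hm
  have hb0 : PowerSeries.constantCoeff b ≠ 0 := by
    rw [hb] at hn
    simpa [PowerSeries.coeff_X_pow_mul'] using hn
  have hD : ∀ (k : ℕ) (g : PowerSeries L),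
      PowerSeries.X * PowerSeries.derivative L (PowerSeries.X ^ k * g) =
        PowerSeries.X ^ k * ((k : PowerSeries L) * g +
          PowerSeries.X * PowerSeries.derivative L g) := by
    intro k g
    rw [Derivation.leibniz, Derivation.leibniz_pow, PowerSeries.derivative_X]
    rcases k with _ | k
    · simp
    · simp only [smul_eq_mul, nsmul_eq_mul, Nat.add_sub_cancel]
      push_cast
      ring
  have h1 := congrArg (fun s => PowerSeries.X * s) hd'
  simp only [ha, hb] at h1
  rw [← mul_assoc, mul_left_comm PowerSeries.X (PowerSeries.X ^ m * a), hD, hD] at h1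
  have h2 : ((m : PowerSeries L) * a + PowerSeries.X * PowerSeries.derivative L a) * b =
      a * ((n : PowerSeries L) * b + PowerSeries.X * PowerSeries.derivative L b) := by
    refine mul_left_cancel₀
      (pow_ne_zero (m + n) (PowerSeries.X_ne_zero (R := L))) ?_
    linear_combination h1
  have h3 := congrArg PowerSeries.constantCoeff h2
  simp only [map_mul, map_add, map_natCast, PowerSeries.constantCoeff_X, zero_mul, add_zero] at h3
  refine hmn (Nat.cast_injective (R := L) (mul_right_cancel₀ (mul_ne_zero ha0 hb0) ?_))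
  linear_combination h3

variable (W : WeierstrassCurve.Affine L)

lemma derivative_aeval_psiSq (z : PowerSeries L) :
    PowerSeries.derivative L (aeval z (psiSq W)) =
      2 * (6 * z ^ 2 + PowerSeries.C W.b₂ * z + PowerSeries.C W.b₄) *
        PowerSeries.derivative L z := by
  rw [derivative_aeval, psiSq]
  simp only [map_add, derivative_mul, derivative_C, derivative_X, derivative_X_pow,
    derivative_ofNat, zero_mul, mul_zero, add_zero, zero_add, mul_one, map_mul, map_pow,
    map_ofNat, aeval_X, aeval_C, PowerSeries.algebraMap_eq, Nat.cast_ofNat]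
  ring

lemma exists_sqrt_series [CharZero L] (r s₀ : L) (hs₀ : s₀ ≠ 0) (h : s₀ ^ 2 = uCoef W r) :
    ∃ s : PowerSeries L, PowerSeries.constantCoeff s = s₀ ∧
      s ^ 2 = aeval (serX r) (psiSq W) := by
  set g := aeval (serX r) (psiSq W) with hg
  have hgc : PowerSeries.constantCoeff g = s₀ ^ 2 := by
    rw [hg, constantCoeff_aeval, constantCoeff_serX, h]
    simp [psiSq, uCoef]
  set q := PowerSeries.C (s₀ ^ 2)⁻¹ * g - 1 with hq
  have hq0 : PowerSeries.constantCoeff q = 0 := by
    simp [hq, hgc, hs₀]
  have hs : PowerSeries.HasSubst q := PowerSeries.HasSubst.of_constantCoeff_zero' hq0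
  set B := PowerSeries.binomialSeries L (1 / 2 : ℚ) with hB
  refine ⟨PowerSeries.C s₀ * PowerSeries.substAlgHom hs B, ?_, ?_⟩
  · have h1 : PowerSeries.constantCoeff (PowerSeries.substAlgHom hs (B - 1)) = 0 := by
      rw [PowerSeries.coe_substAlgHom]
      exact PowerSeries.constantCoeff_subst_eq_zero hq0 _ (by simp [hB])
    rw [map_sub, map_one, map_sub, map_one, sub_eq_zero] at h1
    rw [map_mul, h1, PowerSeries.constantCoeff_C, mul_one]
  · have hB2 : B * B = 1 + PowerSeries.X := by
      rw [hB, ← PowerSeries.binomialSeries_add, show (1 / 2 : ℚ) + 1 / 2 = ((1 : ℕ) : ℚ) by norm_num,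
        PowerSeries.binomialSeries_nat, pow_one]
    rw [mul_pow, ← map_pow, ← map_pow, sq B, hB2, map_add, map_one, PowerSeries.substAlgHom_X, hq,
      add_sub_cancel, ← mul_assoc, ← map_mul, mul_inv_cancel₀ (pow_ne_zero 2 hs₀), map_one, one_mul]

end FermatLib.EC.Velu
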